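import Mathlib
import Fermat.Agent.J.Twist

/-!
# The field of meromorphic functions on the upper half plane

`Hol` is the `ℂ`-algebra of holomorphic functions on `ℍ`, an integral domain; `Mer` is its
fraction field.  `GL(2, ℝ)⁺` acts on `Mer` on the right by composition (`act`).  `HasQ h x φ`
says that the meromorphic function `x` has the Laurent expansion `φ` in `exp (2 π i τ / h)`.
The meromorphic functions with an expansion in `q` form a field, isomorphic with a subfield
`qField` of `LaurentSeries ℂ`, and `an : qField →ₐ[ℂ] Mer` is the inverse isomorphism.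
-/

set_option autoImplicit false

noncomputable section

open UpperHalfPlane Filter Topology
open scoped MatrixGroups Manifold

namespace Fermat.Agent.JAN.MerField

open FermatJ

/-! ### Holomorphic functions -/

theorem mdiff_finsum {ι : Type*} (s : Finset ι) {f : ι → ℍ → ℂ} (h : ∀ i ∈ s, MDiff (f i)) :
    MDiff (∑ i ∈ s, f i) := by
  classical
  induction s using Finset.induction_on with
  | empty =>
    simp only [Finset.sum_empty]
    exact mdifferentiable_const
  | insert a s ha ih =>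
    rw [Finset.sum_insert ha]
    exact (h a (Finset.mem_insert_self a s)).add (ih fun i hi => h i (Finset.mem_insert_of_mem hi))

/-- The algebra of holomorphic functions on `ℍ`. -/
def Hol : Subalgebra ℂ (ℍ → ℂ) where
  carrier := {f | MDiff f}
  mul_mem' := fun hf hg => hf.mul hg
  one_mem' := mdifferentiable_const
  add_mem' := fun hf hg => hf.add hg
  zero_mem' := mdifferentiable_const
  algebraMap_mem' := fun _ => mdifferentiable_const

theorem mem_Hol {f : ℍ → ℂ} : f ∈ Hol ↔ MDiff f := Iff.rfl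

theorem Hol.mdiff (f : Hol) : MDiff (f : ℍ → ℂ) := f.2

instance : IsDomain Hol := by
  have h1 : Nontrivial Hol := by
    refine ⟨0, 1, fun h => ?_⟩
    have := congrFun (congrArg Subtype.val h) UpperHalfPlane.I
    exact zero_ne_one (α := ℂ) this
  have h2 : NoZeroDivisors Hol := by
    refine ⟨fun {f g} hfg => ?_⟩
    have h3 : (f : ℍ → ℂ) * (g : ℍ → ℂ) = 0 := congrArg Subtype.val hfg
    rcases (UpperHalfPlane.mul_eq_zero_iff f.2 g.2).1 h3 with h | h
    · exact Or.inl (Subtype.ext h)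
    · exact Or.inr (Subtype.ext h)
  exact NoZeroDivisors.to_isDomain _

/-- The field of meromorphic functions on `ℍ`. -/
abbrev Mer : Type := FractionRing Hol

/-! ### The action of `GL(2, ℝ)⁺` -/

/-- composition with the action of `g ∈ GL(2, ℝ)⁺` on holomorphic functions. -/
def compHol (g : GL(2, ℝ)⁺) : Hol →ₐ[ℂ] Hol where
  toFun f := ⟨fun τ => (f : ℍ → ℂ) ((g : GL (Fin 2) ℝ) • τ),
    f.2.comp (mdifferentiable_smul (g := (g : GL (Fin 2) ℝ)) g.2)⟩
  map_one' := rfl
  map_mul' _ _ := rfl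
  map_zero' := rfl
  map_add' _ _ := rfl
  commutes' _ := rfl

@[simp]
theorem compHol_apply (g : GL(2, ℝ)⁺) (f : Hol) (τ : ℍ) :
    (compHol g f : ℍ → ℂ) τ = (f : ℍ → ℂ) ((g : GL (Fin 2) ℝ) • τ) := rfl

theorem compHol_injective (g : GL(2, ℝ)⁺) : Function.Injective (compHol g) := by
  intro f f' h
  ext τ
  have := congrFun (congrArg Subtype.val h) ((g : GL (Fin 2) ℝ)⁻¹ • τ)
  simpa using this

/-- the action of `g ∈ GL(2, ℝ)⁺` on meromorphic functions, `x ↦ x ∘ g`. -/
def act (g : GL(2, ℝ)⁺) : Mer →ₐ[ℂ] Mer :=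
  { IsFractionRing.map (A := Hol) (B := Hol) (K := Mer) (L := Mer) (j := (compHol g : Hol →+* Hol))
      (compHol_injective g) with
    commutes' := fun c => by
      show IsFractionRing.map (A := Hol) (B := Hol) (K := Mer) (L := Mer)
        (j := (compHol g : Hol →+* Hol)) (compHol_injective g) (algebraMap ℂ Mer c) = _
      rw [IsScalarTower.algebraMap_apply ℂ Hol Mer, IsFractionRing.map, IsLocalization.map_eq]
      congr 1 }

theorem act_algebraMap (g : GL(2, ℝ)⁺) (f : Hol) :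
    act g (algebraMap Hol Mer f) = algebraMap Hol Mer (compHol g f) := by
  show IsFractionRing.map (A := Hol) (B := Hol) (K := Mer) (L := Mer)
        (j := (compHol g : Hol →+* Hol)) (compHol_injective g) (algebraMap Hol Mer f) = _
  rw [IsFractionRing.map, IsLocalization.map_eq]
  rfl

theorem act_mul (g h : GL(2, ℝ)⁺) (x : Mer) : act (g * h) x = act h (act g x) := by
  obtain ⟨a, b, hb, rfl⟩ := IsFractionRing.div_surjective (A := Hol) x
  simp only [map_div₀, act_algebraMap]
  congr 2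
  · ext τ
    simp [mul_smul]
  · ext τ
    simp [mul_smul]

theorem act_one (x : Mer) : act 1 x = x := by
  obtain ⟨a, b, hb, rfl⟩ := IsFractionRing.div_surjective (A := Hol) x
  simp only [map_div₀, act_algebraMap]
  congr 2
  · ext τ
    simp
  · ext τ
    simp

/-! ### Expansions at infinity -/

/-- `HasQ h x φ`: the meromorphic function `x` has the Laurent expansion `φ` in
`exp (2 π i τ / h)`. -/
def HasQ (h : ℕ) (x : Mer) (φ : LaurentSeries ℂ) : Prop :=
  ∃ (a b : Hol) (α β : LaurentSeries ℂ), b ≠ 0 ∧ HasExp (qc h) a α ∧ HasExp (qc h) b β ∧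
    x = algebraMap Hol Mer a / algebraMap Hol Mer b ∧ φ * β = α

variable {h : ℕ} [NeZero h]

theorem algebraMap_ne_zero {b : Hol} (hb : b ≠ 0) : algebraMap Hol Mer b ≠ 0 := by
  rwa [Ne, FaithfulSMul.algebraMap_eq_zero_iff]

omit [NeZero h] in
theorem exp_ne_zero {b : Hol} {β : LaurentSeries ℂ} (hβ : HasExp (qc h) b β) (hb : b ≠ 0) :
    β ≠ 0 := by
  rintro rfl
  apply hb
  ext τ
  exact hβ.eq_zero_of_zero (qc_ne_zero h τ)

theorem exp_unique {f : ℍ → ℂ} {φ ψ : LaurentSeries ℂ} (h1 : HasExp (qc h) f φ)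
    (h2 : HasExp (qc h) f ψ) : φ = ψ :=
  h1.unique (eventually_mem_range_qc h) h2

omit [NeZero h] in
theorem eq_of_exp {f g : Hol} {φ : LaurentSeries ℂ} (h1 : HasExp (qc h) f φ)
    (h2 : HasExp (qc h) g φ) : f = g := by
  have h3 := h1.sub h2
  rw [sub_self] at h3
  ext τ
  exact sub_eq_zero.mp (h3.eq_zero_of_zero (qc_ne_zero h τ))

namespace HasQ

variable {x y : Mer} {φ ψ : LaurentSeries ℂ}

omit [NeZero h] in
theorem of_hol {f : Hol} (hf : HasExp (qc h) f φ) : HasQ h (algebraMap Hol Mer f) φ :=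
  ⟨f, 1, φ, 1, one_ne_zero, hf, HasExp.one _, by simp, by simp⟩

theorem unique (h1 : HasQ h x φ) (h2 : HasQ h x ψ) : φ = ψ := by
  obtain ⟨a, b, α, β, hb, ha', hb', hx, hφ⟩ := h1
  obtain ⟨c, d, γ, δ, hd, hc', hd', hx', hψ⟩ := h2
  rw [hx, div_eq_div_iff (algebraMap_ne_zero hb) (algebraMap_ne_zero hd), ← map_mul, ← map_mul]
    at hx'
  have h3 : a * d = c * b := IsFractionRing.injective Hol Mer hx'
  have h4 : α * δ = γ * β := by
    refine exp_unique (h := h) (ha'.mul hd') ?_
    refine (hc'.mul hb').congr fun τ => ?_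
    exact congrFun (congrArg Subtype.val h3.symm) τ
  have hβ := exp_ne_zero hb' hb
  have hδ := exp_ne_zero hd' hd
  have h5 : φ * (β * δ) = ψ * (β * δ) := by
    calc φ * (β * δ) = (φ * β) * δ := by ring
      _ = (ψ * δ) * β := by rw [hφ, h4, hψ]
      _ = ψ * (β * δ) := by ring
  exact mul_right_cancel₀ (mul_ne_zero hβ hδ) h5

omit [NeZero h] in
theorem unique' (h1 : HasQ h x φ) (h2 : HasQ h y φ) : x = y := by
  obtain ⟨a, b, α, β, hb, ha', hb', hx, hφ⟩ := h1
  obtain ⟨c, d, γ, δ, hd, hc', hd', hx', hψ⟩ := h2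
  rw [hx, hx', div_eq_div_iff (algebraMap_ne_zero hb) (algebraMap_ne_zero hd), ← map_mul,
    ← map_mul]
  congr 1
  apply eq_of_exp (φ := α * δ) (ha'.mul hd')
  have h3 : α * δ = γ * β := by rw [← hφ, ← hψ]; ring
  rw [h3]
  exact hc'.mul hb'

omit [NeZero h] in
theorem add (h1 : HasQ h x φ) (h2 : HasQ h y ψ) : HasQ h (x + y) (φ + ψ) := by
  obtain ⟨a, b, α, β, hb, ha', hb', hx, hφ⟩ := h1
  obtain ⟨c, d, γ, δ, hd, hc', hd', hx', hψ⟩ := h2
  refine ⟨a * d + b * c, b * d, α * δ + β * γ, β * δ, mul_ne_zero hb hd,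
    (ha'.mul hd').add (hb'.mul hc'), hb'.mul hd', ?_, ?_⟩
  · rw [hx, hx', div_add_div _ _ (algebraMap_ne_zero hb) (algebraMap_ne_zero hd)]
    simp only [map_add, map_mul]
  · rw [← hφ, ← hψ]
    ring

omit [NeZero h] in
theorem mul (h1 : HasQ h x φ) (h2 : HasQ h y ψ) : HasQ h (x * y) (φ * ψ) := by
  obtain ⟨a, b, α, β, hb, ha', hb', hx, hφ⟩ := h1
  obtain ⟨c, d, γ, δ, hd, hc', hd', hx', hψ⟩ := h2
  refine ⟨a * c, b * d, α * γ, β * δ, mul_ne_zero hb hd, ha'.mul hc', hb'.mul hd', ?_, ?_⟩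
  · rw [hx, hx', div_mul_div_comm, map_mul, map_mul]
  · rw [← hφ, ← hψ]
    ring

omit [NeZero h] in
theorem neg (h1 : HasQ h x φ) : HasQ h (-x) (-φ) := by
  obtain ⟨a, b, α, β, hb, ha', hb', hx, hφ⟩ := h1
  refine ⟨-a, b, -α, β, hb, ha'.neg, hb', ?_, ?_⟩
  · rw [hx, map_neg, neg_div]
  · rw [← hφ]
    ring

omit [NeZero h] in
theorem algebraMap_hasQ (c : ℂ) : HasQ h (algebraMap ℂ Mer c) (algebraMap ℂ (LaurentSeries ℂ) c) := by
  rw [IsScalarTower.algebraMap_apply ℂ Hol Mer, ModularCurve.algebraMap_laurentSeries_eq_single]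
  exact of_hol (HasExp.const _ c)

omit [NeZero h] in
theorem zero : HasQ h 0 0 := by
  simpa using algebraMap_hasQ (h := h) 0

omit [NeZero h] in
theorem one : HasQ h 1 1 := by
  simpa using algebraMap_hasQ (h := h) 1

theorem inv (h1 : HasQ h x φ) : HasQ h x⁻¹ φ⁻¹ := by
  by_cases hx0 : x = 0
  · subst hx0
    rw [h1.unique zero]
    simpa using zero (h := h)
  obtain ⟨a, b, α, β, hb, ha', hb', hx, hφ⟩ := h1
  have ha : a ≠ 0 := by
    rintro rfl
    apply hx0
    rw [hx, map_zero, zero_div]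
  refine ⟨b, a, β, α, ha, hb', ha', by rw [hx, inv_div], ?_⟩
  have hα := exp_ne_zero ha' ha
  have hφ0 : φ ≠ 0 := by
    rintro rfl
    rw [zero_mul] at hφ
    exact hα hφ.symm
  rw [← hφ, ← mul_assoc, inv_mul_cancel₀ hφ0, one_mul]

theorem div (h1 : HasQ h x φ) (h2 : HasQ h y ψ) : HasQ h (x / y) (φ / ψ) := by
  rw [div_eq_mul_inv, div_eq_mul_inv]
  exact h1.mul h2.inv

omit [NeZero h] in
theorem pow (h1 : HasQ h x φ) (n : ℕ) : HasQ h (x ^ n) (φ ^ n) := by
  induction n with
  | zero => simpa using one (h := h)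
  | succ n ih =>
    rw [pow_succ, pow_succ]
    exact ih.mul h1

end HasQ

/-! ### The field of Laurent series which are expansions of meromorphic functions -/

/-- The Laurent series which are expansions in `q` of meromorphic functions on `ℍ`. -/
def qField : IntermediateField ℂ (LaurentSeries ℂ) where
  carrier := {φ | ∃ x, HasQ 1 x φ}
  mul_mem' := fun ⟨_, hx⟩ ⟨_, hy⟩ => ⟨_, hx.mul hy⟩
  one_mem' := ⟨1, HasQ.one⟩
  add_mem' := fun ⟨_, hx⟩ ⟨_, hy⟩ => ⟨_, hx.add hy⟩
  zero_mem' := ⟨0, HasQ.zero⟩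
  algebraMap_mem' := fun c => ⟨_, HasQ.algebraMap_hasQ c⟩
  inv_mem' := fun _ ⟨_, hx⟩ => ⟨_, hx.inv⟩

theorem mem_qField {φ : LaurentSeries ℂ} : φ ∈ qField ↔ ∃ x, HasQ 1 x φ := Iff.rfl

/-- The meromorphic function with a given expansion. -/
def anFun (φ : qField) : Mer := Classical.choose φ.2

theorem hasQ_anFun (φ : qField) : HasQ 1 (anFun φ) φ := Classical.choose_spec φ.2

theorem anFun_eq {φ : qField} {x : Mer} (hx : HasQ 1 x φ) : anFun φ = x :=
  (hasQ_anFun φ).unique' hx

/-- The meromorphic function with a given expansion, as a homomorphism of fields. -/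
def an : qField →ₐ[ℂ] Mer where
  toFun := anFun
  map_one' := anFun_eq HasQ.one
  map_mul' x y := anFun_eq ((hasQ_anFun x).mul (hasQ_anFun y))
  map_zero' := anFun_eq HasQ.zero
  map_add' x y := anFun_eq ((hasQ_anFun x).add (hasQ_anFun y))
  commutes' c := anFun_eq (HasQ.algebraMap_hasQ c)

theorem hasQ_an (φ : qField) : HasQ 1 (an φ) φ := hasQ_anFun φ

theorem an_eq {φ : LaurentSeries ℂ} {x : Mer} (hx : HasQ 1 x φ) : an ⟨φ, x, hx⟩ = x :=
  anFun_eq hx

theorem an_injective : Function.Injective an := an.toRingHom.injective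

end Fermat.Agent.JAN.MerField
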