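import Mathlib
import Fermat.Agent.JAN.MerField
import Fermat.Agent.MFF.CoeffDescent
import Fermat.Prelude.Def_ModularCurve_HeckeOperator

/-!
# The analytic realisation of the function field of `X₀(N)`

For a field `K` with an embedding `ι : K →+* ℂ` we define a field homomorphism
`anN ι N : laurentBaseChange K (modularFunctionFieldFull N) →+* Mer` (the meromorphic function
with the given `q`-expansion) and prove: it is invariant under `Γ₀(N)`; it is compatible with the
two degeneracy maps; translates of `j(Mτ)` by different cosets of `Γ₀(M)` are different.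
-/

set_option autoImplicit false

noncomputable section

open UpperHalfPlane Filter Topology Matrix.SpecialLinearGroup
open scoped MatrixGroups Manifold

namespace Fermat.Agent.JAN.AnFun

open FermatJ MerField ModularCurve

/-! ### Group elements -/

/-- `(a b; 0 d)` as an element of `GL(2, ℝ)⁺`. -/
def upper (a d : ℕ) [NeZero a] [NeZero d] (b : ℤ) : GL(2, ℝ)⁺ :=
  ⟨Matrix.GeneralLinearGroup.mkOfDetNeZero !![(a : ℝ), (b : ℝ); 0, (d : ℝ)]
    (by simp [Matrix.det_fin_two_of, NeZero.ne a, NeZero.ne d]),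
    by
      have ha : (0 : ℝ) < a := by exact_mod_cast Nat.pos_of_ne_zero (NeZero.ne a)
      have hd : (0 : ℝ) < d := by exact_mod_cast Nat.pos_of_ne_zero (NeZero.ne d)
      rw [Matrix.mem_glpos]
      show 0 < Matrix.det !![(a : ℝ), (b : ℝ); 0, (d : ℝ)]
      rw [Matrix.det_fin_two_of]
      nlinarith [mul_pos ha hd]⟩

theorem upper_one_zero (a d : ℕ) [NeZero a] [NeZero d] (b : ℤ) :
    ((upper a d b : GL(2, ℝ)⁺) : GL (Fin 2) ℝ) 1 0 = 0 := by
  simp [upper, Matrix.GeneralLinearGroup.mkOfDetNeZero]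

theorem coe_upper_smul (a d : ℕ) [NeZero a] [NeZero d] (b : ℤ) (τ : ℍ) :
    (((upper a d b : GL (Fin 2) ℝ) • τ : ℍ) : ℂ) = (a * τ + b) / d := by
  rw [coe_smul_of_det_pos (upper a d b).2]
  simp [num, denom, upper, Matrix.GeneralLinearGroup.mkOfDetNeZero]

/-- the element of `GL(2, ℝ)⁺` defined by an element of `SL(2, ℤ)`. -/
def slp (γ : SL(2, ℤ)) : GL(2, ℝ)⁺ := ⟨mapGL ℝ γ, by simp⟩

@[simp] theorem coe_slp (γ : SL(2, ℤ)) : ((slp γ : GL(2, ℝ)⁺) : GL (Fin 2) ℝ) = mapGL ℝ γ := rfl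

theorem slp_smul (γ : SL(2, ℤ)) (τ : ℍ) : ((slp γ : GL(2, ℝ)⁺) : GL (Fin 2) ℝ) • τ = γ • τ := rfl

theorem slp_mul (γ δ : SL(2, ℤ)) : slp (γ * δ) = slp γ * slp δ := by
  apply Subtype.ext
  simp

theorem slp_one : slp 1 = 1 := by
  apply Subtype.ext
  simp

theorem slp_inv (γ : SL(2, ℤ)) : slp γ⁻¹ = (slp γ)⁻¹ := by
  apply Subtype.ext
  simp

/-- action of `SL(2, ℤ)` on meromorphic functions -/
abbrev sact (γ : SL(2, ℤ)) : Mer →ₐ[ℂ] Mer := act (slp γ)

theorem sact_mul (γ δ : SL(2, ℤ)) (x : Mer) : sact (γ * δ) x = sact δ (sact γ x) := by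
  rw [sact, slp_mul, act_mul]

theorem sact_one (x : Mer) : sact 1 x = x := by
  rw [sact, slp_one, act_one]

/-! ### Expansions of translates -/

/-- the root of unity `exp(2πi b/d)` -/
def zetaU (d : ℕ) (b : ℤ) : ℂˣ := Units.mk0 (Complex.exp (2 * Real.pi * Complex.I * b / d))
  (Complex.exp_ne_zero _)

theorem qc_upper (a d : ℕ) [NeZero a] [NeZero d] (b : ℤ) (τ : ℍ) :
    qc 1 ((upper a d b : GL (Fin 2) ℝ) • τ) = zetaU d b * (qc d τ) ^ a := by
  have hd : (d : ℂ) ≠ 0 := by exact_mod_cast NeZero.ne d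
  simp only [qc, Function.Periodic.qParam, zetaU, Units.val_mk0]
  rw [← Complex.exp_nat_mul, ← Complex.exp_add, coe_upper_smul]
  congr 1
  push_cast
  field_simp
  ring

theorem hasExp_upper {f : ℍ → ℂ} {φ : LaurentSeries ℂ} (hf : HasExp (qc 1) f φ) (a d : ℕ)
    [NeZero a] [NeZero d] (b : ℤ) :
    HasExp (qc d) (fun τ => f ((upper a d b : GL (Fin 2) ℝ) • τ))
      (qExpand ℂ a (twist (zetaU d b) φ)) := by
  have h1 : HasExp (fun τ => qc d τ ^ a) (fun τ => f ((upper a d b : GL (Fin 2) ℝ) • τ))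
      (twist (zetaU d b) φ) :=
    HasExp.twist (t := qc 1) (t' := fun τ => qc d τ ^ a)
      (σ := fun τ => (upper a d b : GL (Fin 2) ℝ) • τ) (zetaU d b)
      (fun τ => qc_upper a d b τ) hf
  exact HasExp.expand (t := fun τ => qc d τ ^ a) (t' := qc d) (σ := id) a (fun _ => rfl) h1

theorem hasQ_upper {x : Mer} {φ : LaurentSeries ℂ} (hx : HasQ 1 x φ) (a d : ℕ)
    [NeZero a] [NeZero d] (b : ℤ) :
    HasQ d (act (upper a d b) x) (qExpand ℂ a (twist (zetaU d b) φ)) := by
  obtain ⟨f, g, α, β, hg, hf', hg', rfl, hφ⟩ := hx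
  refine ⟨compHol (upper a d b) f, compHol (upper a d b) g, _, _, ?_, hasExp_upper hf' a d b,
    hasExp_upper hg' a d b, ?_, ?_⟩
  · exact (map_ne_zero_iff _ (compHol_injective _)).mpr hg
  · rw [map_div₀, act_algebraMap, act_algebraMap]
  · rw [← map_mul, ← map_mul, hφ]

theorem zetaU_one (b : ℤ) : zetaU 1 b = 1 := by
  ext
  simp only [zetaU, Units.val_mk0, Units.val_one]
  rw [Complex.exp_eq_one_iff]
  exact ⟨b, by push_cast; ring⟩

theorem twist_one (φ : LaurentSeries ℂ) : twist (1 : ℂˣ) φ = φ := by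
  ext k
  simp

/-- `τ ↦ d τ` -/
abbrev dil (d : ℕ) [NeZero d] : GL(2, ℝ)⁺ := upper d 1 0

theorem hasQ_dil {x : Mer} {φ : LaurentSeries ℂ} (hx : HasQ 1 x φ) (d : ℕ) [NeZero d] :
    HasQ 1 (act (dil d) x) (qExpand ℂ d φ) := by
  have := hasQ_upper hx d 1 0
  rwa [zetaU_one, twist_one] at this

/-! ### The functions `j(dτ)` -/

/-- `j` as a holomorphic function -/
def jHol : Hol := ⟨jf, mdifferentiable_jf⟩

/-- `j` as a meromorphic function -/
def jMer : Mer := algebraMap Hol Mer jHol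

theorem hasQ_jMer : HasQ 1 jMer jqC := HasQ.of_hol hasExp_jf

theorem sact_jMer (γ : SL(2, ℤ)) : sact γ jMer = jMer := by
  rw [sact, jMer, act_algebraMap]
  congr 1
  ext τ
  exact jf_smul γ τ

/-- `j(dτ)` -/
def jd (d : ℕ) [NeZero d] : Mer := act (dil d) jMer

theorem hasQ_jd (d : ℕ) [NeZero d] : HasQ 1 (jd d) (qExpand ℂ d jqC) := hasQ_dil hasQ_jMer d

theorem qExpand_jqC_mem (d : ℕ) [NeZero d] : qExpand ℂ d jqC ∈ qField := ⟨_, hasQ_jd d⟩

/-- `diag(d,1) γ = γ' diag(d,1)` for `γ ∈ Γ₀(d)`. -/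
theorem dil_mul_slp (d : ℕ) [NeZero d] (γ : SL(2, ℤ)) {c : ℤ} (hc : γ 1 0 = d * c) :
    ∃ γ' : SL(2, ℤ), dil d * slp γ = slp γ' * dil d ∧ γ' 0 0 = γ 0 0 ∧ γ' 0 1 = d * γ 0 1 ∧
      γ' 1 0 = c ∧ γ' 1 1 = γ 1 1 := by
  have hdet : γ 0 0 * γ 1 1 - γ 0 1 * γ 1 0 = 1 := by
    have h := γ.det_coe
    rwa [Matrix.det_fin_two] at h
  refine ⟨⟨!![γ 0 0, d * γ 0 1; c, γ 1 1], ?_⟩, ?_, rfl, rfl, rfl, rfl⟩
  · rw [Matrix.det_fin_two_of]
    rw [hc] at hdet
    linear_combination hdet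
  · apply Subtype.ext
    apply Matrix.GeneralLinearGroup.ext
    intro i j
    have hc' : ((γ 1 0 : ℤ) : ℝ) = d * c := by rw [hc]; push_cast; ring
    fin_cases i <;> fin_cases j <;>
      simp [upper, Matrix.GeneralLinearGroup.mkOfDetNeZero, Matrix.mul_apply, Fin.sum_univ_two,
        slp, hc'] <;> ring

theorem sact_jd {d : ℕ} [NeZero d] {γ : SL(2, ℤ)} (hγ : (d : ℤ) ∣ γ 1 0) :
    sact γ (jd d) = jd d := by
  obtain ⟨c, hc⟩ := hγ
  obtain ⟨γ', h, -⟩ := dil_mul_slp d γ hc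
  rw [sact, jd, ← act_mul, h, act_mul]
  congr 1
  exact sact_jMer γ'

/-! ### Translates of `j(Mτ)` -/

/-- Hermite normal form. -/
theorem exists_upper (P : Matrix (Fin 2) (Fin 2) ℤ) (hP : 0 < P.det) :
    ∃ (g : SL(2, ℤ)) (A D : ℕ) (B : ℤ), 0 < A ∧ 0 < D ∧ A = Int.gcd (P 0 0) (P 1 0) ∧
      (A : ℤ) * D = P.det ∧
      P = (g : Matrix (Fin 2) (Fin 2) ℤ) * !![(A : ℤ), B; 0, (D : ℤ)] := by
  set A : ℕ := Int.gcd (P 0 0) (P 1 0) with hA
  have hdet := P.det_fin_two
  have hA0 : A ≠ 0 := by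
    intro h
    rw [hA, Int.gcd_eq_zero_iff] at h
    rw [hdet, h.1, h.2] at hP
    simp at hP
  have hAz : (A : ℤ) ≠ 0 := by exact_mod_cast hA0
  obtain ⟨u, hu⟩ : (A : ℤ) ∣ P 0 0 := Int.gcd_dvd_left _ _
  obtain ⟨v, hv⟩ : (A : ℤ) ∣ P 1 0 := Int.gcd_dvd_right _ _
  obtain ⟨x, y, hxy⟩ : ∃ x y, u * x + v * y = 1 := by
    refine ⟨Int.gcdA (P 0 0) (P 1 0), Int.gcdB (P 0 0) (P 1 0), ?_⟩
    have h := Int.gcd_eq_gcd_ab (P 0 0) (P 1 0)
    rw [← hA] at h
    have h2 : (A : ℤ) * (u * Int.gcdA (P 0 0) (P 1 0) + v * Int.gcdB (P 0 0) (P 1 0)) = A * 1 := by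
      rw [mul_one]
      conv_rhs => rw [h]
      conv_rhs => rw [show P 0 0 * Int.gcdA (P 0 0) (P 1 0) = (A * u) * Int.gcdA (P 0 0) (P 1 0) by
        rw [← hu], show P 1 0 * Int.gcdB (P 0 0) (P 1 0) = (A * v) * Int.gcdB (P 0 0) (P 1 0) by
        rw [← hv]]
      ring
    exact mul_left_cancel₀ hAz h2
  set B : ℤ := x * P 0 1 + y * P 1 1 with hB
  set D : ℤ := u * P 1 1 - v * P 0 1 with hD
  have hAD : (A : ℤ) * D = P.det := by
    rw [hdet, hD]
    linear_combination (-P 1 1) * hu + P 0 1 * hv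
  have hDpos : 0 < D := by
    have : 0 < (A : ℤ) := by positivity
    rw [← hAD] at hP
    exact (mul_pos_iff_of_pos_left this).mp hP
  refine ⟨⟨!![u, -y; v, x], by rw [Matrix.det_fin_two_of]; linear_combination hxy⟩, A, D.toNat, B,
    Nat.pos_of_ne_zero hA0, by omega, rfl, ?_, ?_⟩
  · rw [Int.toNat_of_nonneg hDpos.le, hAD]
  · rw [Int.toNat_of_nonneg hDpos.le]
    ext i j
    fin_cases i <;> fin_cases j
    · simp [Matrix.mul_apply, Fin.sum_univ_two, hu]
      ring
    · simp [Matrix.mul_apply, Fin.sum_univ_two, hB, hD]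
      linear_combination (-P 0 1) * hxy
    · simp [Matrix.mul_apply, Fin.sum_univ_two, hv]
      ring
    · simp [Matrix.mul_apply, Fin.sum_univ_two, hB, hD]
      linear_combination (-P 1 1) * hxy

/-- `P ∈ M₂(ℤ)` of positive determinant as an element of `GL(2, ℝ)⁺`. -/
def intMat (P : Matrix (Fin 2) (Fin 2) ℤ) (hP : 0 < P.det) : GL(2, ℝ)⁺ :=
  ⟨Matrix.GeneralLinearGroup.mkOfDetNeZero (P.map (Int.cast : ℤ → ℝ)) (by
      rw [show (P.map (Int.cast : ℤ → ℝ)).det = (P.det : ℝ) from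
        (RingHom.map_det (Int.castRingHom ℝ) P).symm]
      exact_mod_cast hP.ne'), by
    rw [Matrix.mem_glpos]
    show 0 < (P.map (Int.cast : ℤ → ℝ)).det
    rw [show (P.map (Int.cast : ℤ → ℝ)).det = (P.det : ℝ) from
        (RingHom.map_det (Int.castRingHom ℝ) P).symm]
    exact_mod_cast hP⟩

theorem act_congr {g g' : GL(2, ℝ)⁺}
    (h : ∀ τ : ℍ, (g : GL (Fin 2) ℝ) • τ = (g' : GL (Fin 2) ℝ) • τ) (x : Mer) :
    act g x = act g' x := by
  obtain ⟨a, b, hb, rfl⟩ := IsFractionRing.div_surjective (A := Hol) x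
  simp only [map_div₀, act_algebraMap]
  congr 2
  · ext τ
    simp [h]
  · ext τ
    simp [h]

theorem act_dil_eq (M D : ℕ) [NeZero M] [NeZero D] [NeZero (M * D)] (x : Mer) :
    act (dil M) x = act (upper (M * D) D 0) x := by
  apply act_congr
  intro τ
  apply UpperHalfPlane.ext
  rw [coe_upper_smul, coe_upper_smul]
  have hD : (D : ℂ) ≠ 0 := by exact_mod_cast NeZero.ne D
  push_cast
  field_simp
  ring

theorem twist_jqC_coeff {u : ℂˣ} {k : ℤ} (hk : k < -1) : (twist u jqC).coeff k = 0 := by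
  rw [coeff_twist, jqC, coeffMap_coeff, coeff_jq_of_lt hk, map_zero, mul_zero]

theorem twist_jqC_coeff_neg_one {u : ℂˣ} : (twist u jqC).coeff (-1) ≠ 0 := by
  rw [coeff_twist, jqC, coeffMap_coeff, coeff_jq_neg_one, map_one, mul_one]
  exact Units.ne_zero _

theorem act_upper_jMer_ne {A D M : ℕ} [NeZero A] [NeZero D] [NeZero M] {B : ℤ}
    (hAD : A * D = M) (h : act (upper A D B) jMer = act (dil M) jMer) : D = 1 := by
  have hMD : NeZero (M * D) := ⟨mul_ne_zero (NeZero.ne M) (NeZero.ne D)⟩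
  have h1 := hasQ_upper hasQ_jMer A D B
  have h2 := hasQ_upper hasQ_jMer (M * D) D 0
  rw [h, act_dil_eq M D] at h1
  have h3 := h1.unique h2
  have h4 := congrArg (fun φ => HahnSeries.coeff φ (((M * D : ℕ) : ℤ) * (-1))) h3
  simp only [qExpand_coeff_mul] at h4
  have h5 : ((M * D : ℕ) : ℤ) * (-1) = (A : ℤ) * (-((D : ℤ) * D)) := by
    rw [← hAD]
    push_cast
    ring
  rw [h5, qExpand_coeff_mul] at h4
  by_contra hD
  have hD2 : 2 ≤ D := by
    have := NeZero.ne D
    omega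
  have h6 : -((D : ℤ) * D) < -1 := by
    have : (2 : ℤ) ≤ D := by exact_mod_cast hD2
    nlinarith
  rw [twist_jqC_coeff h6] at h4
  exact twist_jqC_coeff_neg_one h4.symm

/-- `diag(M,1) δ = g (A B; 0 D)`. -/
theorem exists_dil_mul_slp (M : ℕ) [NeZero M] (δ : SL(2, ℤ)) :
    ∃ (g : SL(2, ℤ)) (A D : ℕ) (_ : NeZero A) (_ : NeZero D) (B : ℤ), A * D = M ∧
      (A : ℤ) ∣ δ 1 0 ∧ dil M * slp δ = slp g * upper A D B := by
  set P : Matrix (Fin 2) (Fin 2) ℤ := !![(M : ℤ) * δ 0 0, M * δ 0 1; δ 1 0, δ 1 1] with hP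
  have hM : 0 < (M : ℤ) := by exact_mod_cast Nat.pos_of_ne_zero (NeZero.ne M)
  have hdet : P.det = M := by
    have h1 := δ.det_coe
    rw [Matrix.det_fin_two] at h1
    rw [hP, Matrix.det_fin_two_of]
    linear_combination (M : ℤ) * h1
  obtain ⟨g, A, D, B, hA, hD, hAgcd, hAD, hPg⟩ := exists_upper P (by rw [hdet]; exact hM)
  have hA' : NeZero A := ⟨hA.ne'⟩
  have hD' : NeZero D := ⟨hD.ne'⟩
  have hAD' : A * D = M := by
    rw [hdet] at hAD
    exact_mod_cast hAD
  refine ⟨g, A, D, hA', hD', B, hAD', ?_, ?_⟩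
  · have h2 : (A : ℤ) ∣ P 1 0 := by
      rw [hAgcd]
      exact Int.gcd_dvd_right _ _
    simpa [hP] using h2
  · apply Subtype.ext
    apply Matrix.GeneralLinearGroup.ext
    intro i j
    have e : ∀ i j, ((P i j : ℤ) : ℝ) =
        ((((g : Matrix (Fin 2) (Fin 2) ℤ) * !![(A : ℤ), B; 0, (D : ℤ)]) i j : ℤ) : ℝ) := by
      intro i j
      rw [← hPg]
    have e00 := e 0 0
    have e01 := e 0 1
    have e10 := e 1 0
    have e11 := e 1 1
    simp only [hP, Matrix.mul_apply, Fin.sum_univ_two, Matrix.of_apply, Matrix.cons_val',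
      Matrix.cons_val_zero, Matrix.cons_val_one, Matrix.cons_val_fin_one] at e00 e01 e10 e11
    push_cast at e00 e01 e10 e11
    fin_cases i <;> fin_cases j
    · simpa [upper, slp, Matrix.GeneralLinearGroup.mkOfDetNeZero, Matrix.mul_apply,
        Fin.sum_univ_two] using e00
    · simpa [upper, slp, Matrix.GeneralLinearGroup.mkOfDetNeZero, Matrix.mul_apply,
        Fin.sum_univ_two] using e01
    · simpa [upper, slp, Matrix.GeneralLinearGroup.mkOfDetNeZero, Matrix.mul_apply,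
        Fin.sum_univ_two] using e10
    · simpa [upper, slp, Matrix.GeneralLinearGroup.mkOfDetNeZero, Matrix.mul_apply,
        Fin.sum_univ_two] using e11

/-- The stabiliser of `j(Mτ)` in `SL(2, ℤ)` is `Γ₀(M)`. -/
theorem dvd_of_sact_jd {M : ℕ} [NeZero M] {δ : SL(2, ℤ)} (h : sact δ (jd M) = jd M) :
    (M : ℤ) ∣ δ 1 0 := by
  obtain ⟨g, A, D, _, _, B, hAD, hdvd, key⟩ := exists_dil_mul_slp M δ
  have h1 : act (upper A D B) jMer = act (dil M) jMer := by
    rw [sact, jd, ← act_mul, key, act_mul, sact_jMer] at h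
    exact h
  have hD1 := act_upper_jMer_ne hAD h1
  rw [hD1, mul_one] at hAD
  rw [← hAD]
  exact hdvd

/-! ### The realisation of `F_N(L)` -/

section Real

variable {L : Type*} [Field L] [Algebra ℚ L] [Algebra L ℂ]

omit [Algebra ℚ L] in
theorem toC_qExpand (d : ℕ) [NeZero d] (φ : LaurentSeries L) :
    toC (qExpand L d φ) = qExpand ℂ d (toC φ) := by
  ext k
  by_cases hk : (d : ℤ) ∣ k
  · obtain ⟨m, rfl⟩ := hk
    simp only [coeffMap_coeff, qExpand_coeff_mul]
  · simp only [coeffMap_coeff]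
    rw [qExpand_coeff_of_not_dvd d _ hk, qExpand_coeff_of_not_dvd d _ hk, map_zero]

omit [Algebra ℚ L] in
theorem toC_algebraMap (c : L) :
    toC (algebraMap L (LaurentSeries L) c) = algebraMap ℂ (LaurentSeries ℂ) (algebraMap L ℂ c) := by
  rw [algebraMap_laurentSeries_eq_single, algebraMap_laurentSeries_eq_single, toC,
    coeffMap_single]

theorem toC_coeffEmb_qExpand_jq (d : ℕ) [NeZero d] :
    toC (coeffEmb L (qExpand ℚ d jq)) = qExpand ℂ d jqC := by
  rw [toC_coeffEmb]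
  ext k
  by_cases hk : (d : ℤ) ∣ k
  · obtain ⟨m, rfl⟩ := hk
    simp only [coeffMap_coeff, qExpand_coeff_mul, jqC]
  · simp only [coeffMap_coeff]
    rw [qExpand_coeff_of_not_dvd d _ hk, qExpand_coeff_of_not_dvd d _ hk, map_zero]

omit [Algebra L ℂ] in
variable (L) in
theorem laurentBaseChange_eq (N : ℕ) :
    laurentBaseChange L (modularFunctionFieldFull N) =
      IntermediateField.adjoin L (coeffEmb L '' divisorExpansions N) :=
  MFF.laurentBaseChange_adjoin L _

variable (L) in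
/-- `j(dτ)` as an element of `F_N(L)`. -/
def jdL {N : ℕ} (d : ℕ) [NeZero d] (hd : d ∣ N) :
    laurentBaseChange L (modularFunctionFieldFull N) :=
  ⟨coeffEmb L (qExpand ℚ d jq), coeffEmb_mem_laurentBaseChange L (jqd_mem_full N hd)⟩

omit [Algebra L ℂ] in
/-- Induction principle: two ring homomorphisms from `F_N(L)` agree if they agree on constants and
on the `j(dτ)`. -/
theorem hom_ext_modular {N : ℕ} {R : Type*} [Field R]
    {σ τ : laurentBaseChange L (modularFunctionFieldFull N) →+* R}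
    (hc : ∀ c : L, σ (algebraMap L _ c) = τ (algebraMap L _ c))
    (hj : ∀ (d : ℕ) [NeZero d] (hd : d ∣ N), σ (jdL L d hd) = τ (jdL L d hd)) : σ = τ := by
  ext ⟨x, hx⟩
  have hx' := hx
  rw [laurentBaseChange_eq] at hx'
  induction hx' using IntermediateField.adjoin_induction with
  | mem x hx1 =>
    obtain ⟨y, ⟨d, hd0, hd, rfl⟩, rfl⟩ := hx1
    exact hj d hd
  | algebraMap c => exact hc c
  | add x y hx1 hy1 ihx ihy =>
    rw [← laurentBaseChange_eq] at hx1 hy1
    have := congrArg₂ (· + ·) (ihx hx1) (ihy hy1)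
    simp only [← map_add] at this
    exact this
  | inv x hx1 ihx =>
    rw [← laurentBaseChange_eq] at hx1
    have := congrArg (·⁻¹) (ihx hx1)
    simp only [← map_inv₀] at this
    exact this
  | mul x y hx1 hy1 ihx ihy =>
    rw [← laurentBaseChange_eq] at hx1 hy1
    have := congrArg₂ (· * ·) (ihx hx1) (ihy hy1)
    simp only [← map_mul] at this
    exact this

theorem toC_mem_qField {N : ℕ} {x : LaurentSeries L}
    (hx : x ∈ laurentBaseChange L (modularFunctionFieldFull N)) : toC x ∈ qField := by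
  rw [laurentBaseChange_eq] at hx
  induction hx using IntermediateField.adjoin_induction with
  | mem x hx1 =>
    obtain ⟨y, ⟨d, hd0, hd, rfl⟩, rfl⟩ := hx1
    rw [toC_coeffEmb_qExpand_jq]
    exact qExpand_jqC_mem d
  | algebraMap c =>
    rw [toC_algebraMap]
    exact qField.algebraMap_mem _
  | add x y hx1 hy1 ihx ihy =>
    rw [toC, map_add]
    exact qField.add_mem ihx ihy
  | inv x hx1 ihx =>
    rw [toC, map_inv₀]
    exact qField.inv_mem ihx
  | mul x y hx1 hy1 ihx ihy =>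
    rw [toC, map_mul]
    exact qField.mul_mem ihx ihy

/-- The meromorphic function attached to an element of `F_N(L)`, as a ring homomorphism. -/
def anN (N : ℕ) : laurentBaseChange L (modularFunctionFieldFull N) →+* Mer :=
  (an : qField →+* Mer).comp
    (((coeffMap (algebraMap L ℂ)).comp
      (algebraMap (laurentBaseChange L (modularFunctionFieldFull N))
      (LaurentSeries L))).codRestrict qField (fun x => toC_mem_qField x.2))

theorem hasQ_anN {N : ℕ} (x : laurentBaseChange L (modularFunctionFieldFull N)) :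
    HasQ 1 (anN N x) (toC (x : LaurentSeries L)) :=
  hasQ_an ⟨toC (x : LaurentSeries L), toC_mem_qField x.2⟩

theorem anN_eq {N : ℕ} {x : laurentBaseChange L (modularFunctionFieldFull N)} {y : Mer}
    (hy : HasQ 1 y (toC (x : LaurentSeries L))) : anN N x = y :=
  (hasQ_anN x).unique' hy

theorem anN_injective {N : ℕ} : Function.Injective (anN (L := L) N) := (anN N).injective

theorem anN_algebraMap {N : ℕ} (c : L) :
    anN N (algebraMap L (laurentBaseChange L (modularFunctionFieldFull N)) c) =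
      algebraMap ℂ Mer (algebraMap L ℂ c) := by
  apply anN_eq
  have h : ((algebraMap L (laurentBaseChange L (modularFunctionFieldFull N)) c :
      laurentBaseChange L (modularFunctionFieldFull N)) : LaurentSeries L) =
      algebraMap L (LaurentSeries L) c := rfl
  rw [h, toC_algebraMap]
  exact HasQ.algebraMap_hasQ _

theorem anN_jd {N : ℕ} (d : ℕ) [NeZero d] (hd : d ∣ N) :
    anN N (jdL L d hd) = jd d := by
  apply anN_eq
  rw [jdL, toC_coeffEmb_qExpand_jq]
  exact hasQ_jd d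

/-- invariance under `Γ₀(N)` -/
theorem sact_anN {N : ℕ} {γ : SL(2, ℤ)} (hγ : (N : ℤ) ∣ γ 1 0)
    (x : laurentBaseChange L (modularFunctionFieldFull N)) :
    sact γ (anN N x) = anN N x := by
  have h : ((sact γ : Mer →+* Mer).comp (anN (L := L) N)) = anN N := by
    apply hom_ext_modular
    · intro c
      rw [RingHom.comp_apply, anN_algebraMap]
      exact (sact γ).commutes _
    · intro d _ hd
      rw [RingHom.comp_apply, anN_jd]
      exact sact_jd (dvd_trans (by exact_mod_cast hd) hγ)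
  exact DFunLike.congr_fun h x

theorem anN_heckeAlphaBar {N ℓ : ℕ} [NeZero N] [NeZero ℓ]
    (x : laurentBaseChange L (modularFunctionFieldFull N)) :
    anN (N * ℓ) (heckeAlphaBar L N ℓ x) = anN N x := by
  apply anN_eq
  rw [coe_heckeAlphaBar]
  exact hasQ_anN x

theorem anN_heckeBetaBar {N ℓ : ℕ} [NeZero N] [NeZero ℓ]
    (x : laurentBaseChange L (modularFunctionFieldFull N)) :
    anN (N * ℓ) (heckeBetaBar L N ℓ x) = act (dil ℓ) (anN N x) := by
  apply anN_eq
  rw [coe_heckeBetaBar, toC_qExpand]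
  exact hasQ_dil (hasQ_anN x) ℓ

end Real

end Fermat.Agent.JAN.AnFun
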