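import Mathlib
import Fermat.Prelude.Def_ModularCurve_HeckeModule
import Fermat.Agent.J.LevelOne
import Fermat.Agent.MFF.CoeffDescent

/-!
# Team JAN: central definitions

* `IsCharForm N k χ E`: holomorphic form of weight `k` and character `χ` on `Γ₀(N)`.
* `Rel N n χ f`: the Laurent series `f` (coefficients in `L ⊆ ℂ`) is `(E / B) ^ n` on `ℍ`, with
  `E` a form of character `χ` and `B` of trivial character.
* `XN N n`: homomorphisms `Γ₀(N) → ℤ/n` which kill elements with `trace² ≤ 4`.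
* `chiOf ψ`: the character `γ ↦ exp (2 π i ψ(γ) / n)`.
* `heckeChar ℓ χ`: transfer of `χ ∘ (δ · δ⁻¹)` from `Γ₀(Nℓ)` to `Γ₀(N)`, `δ = diag(ℓ, 1)`.
-/

set_option autoImplicit false

noncomputable section

open UpperHalfPlane CongruenceSubgroup ModularCurve AlgebraicCurve FermatJ
open scoped MatrixGroups ModularForm Manifold

namespace Fermat.Agent.JAN

/-- Holomorphic forms of weight `k` and character `χ` on `Γ₀(N)`, bounded at all cusps. -/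
structure IsCharForm (N : ℕ) (k : ℤ) (χ : Gamma0 N →* ℂˣ) (E : ℍ → ℂ) : Prop where
  holo : MDiff E
  slash : ∀ γ : Gamma0 N, E ∣[k] (γ : SL(2, ℤ)) = (χ γ : ℂ) • E
  bdd : ∀ g : SL(2, ℤ), IsBoundedAtImInfty (E ∣[k] g)

/-- `f = (E / B) ^ n` on the upper half plane, `E` of character `χ`, `B` of trivial character. -/
def Rel (N n : ℕ) {L : Type*} [Field L] [Algebra L ℂ] (χ : Gamma0 N →* ℂˣ)
    (f : LaurentSeries L) : Prop :=
  ∃ (k : ℤ) (B E : ℍ → ℂ) (β : LaurentSeries ℂ),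
    IsCharForm N k 1 B ∧ IsCharForm N k χ E ∧ (∃ τ, B τ ≠ 0) ∧ (∃ τ, E τ ≠ 0) ∧
    HasExp (qc 1) B β ∧ HasExp (qc 1) (fun τ => E τ ^ n) (toC f * β ^ n)

/-- Homomorphisms `Γ₀(N) → ℤ/n` killing all elements with `trace² ≤ 4` (parabolic, elliptic,
`± 1`). -/
def XN (N n : ℕ) : AddSubgroup (Additive (Gamma0 N) →+ ZMod n) where
  carrier := {ψ | ∀ γ : Gamma0 N,
    ((γ : SL(2, ℤ)) : Matrix (Fin 2) (Fin 2) ℤ).trace ^ 2 ≤ 4 → ψ (Additive.ofMul γ) = 0}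
  zero_mem' := fun _ _ => rfl
  add_mem' := by
    intro φ ψ hφ hψ γ hγ
    rw [AddMonoidHom.add_apply, hφ γ hγ, hψ γ hγ, add_zero]
  neg_mem' := by
    intro φ hφ γ hγ
    rw [AddMonoidHom.neg_apply, hφ γ hγ, neg_zero]

theorem mem_XN {N n : ℕ} {ψ : Additive (Gamma0 N) →+ ZMod n} :
    ψ ∈ XN N n ↔ ∀ γ : Gamma0 N,
      ((γ : SL(2, ℤ)) : Matrix (Fin 2) (Fin 2) ℤ).trace ^ 2 ≤ 4 → ψ (Additive.ofMul γ) = 0 :=
  Iff.rfl

/-- The character `γ ↦ exp (2 π i ψ(γ) / n)`. -/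
def chiOf {N n : ℕ} [NeZero n] (ψ : Additive (Gamma0 N) →+ ZMod n) : Gamma0 N →* ℂˣ where
  toFun γ := Circle.toUnits (ZMod.toCircle (ψ (Additive.ofMul γ)))
  map_one' := by
    show Circle.toUnits (ZMod.toCircle (ψ 0)) = 1
    rw [map_zero, AddChar.map_zero_eq_one, map_one]
  map_mul' γ δ := by
    show Circle.toUnits (ZMod.toCircle (ψ (Additive.ofMul γ + Additive.ofMul δ))) = _
    rw [map_add, AddChar.map_add_eq_mul, map_mul]

theorem chiOf_apply {N n : ℕ} [NeZero n] (ψ : Additive (Gamma0 N) →+ ZMod n) (γ : Gamma0 N) :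
    chiOf ψ γ = Circle.toUnits (ZMod.toCircle (ψ (Additive.ofMul γ))) := rfl

/-- The matrix `δ γ δ⁻¹ = [a, ℓ b; c / ℓ, d]`, `δ = diag(ℓ, 1)`, for `γ ∈ Γ₀(N ℓ)`. -/
def conjMat (ℓ : ℕ) (A : Matrix (Fin 2) (Fin 2) ℤ) : Matrix (Fin 2) (Fin 2) ℤ :=
  !![A 0 0, ℓ * A 0 1; A 1 0 / ℓ, A 1 1]

theorem gamma0_mul_dvd {N ℓ : ℕ} (γ : Gamma0 (N * ℓ)) :
    ((N : ℤ) * ℓ) ∣ ((γ : SL(2, ℤ)) : Matrix (Fin 2) (Fin 2) ℤ) 1 0 := by
  have h := Gamma0_mem.mp γ.2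
  rw [ZMod.intCast_zmod_eq_zero_iff_dvd] at h
  exact_mod_cast h

/-- `γ ↦ δ γ δ⁻¹ : Γ₀(N ℓ) → Γ₀(N)`, `δ = diag(ℓ, 1)`. -/
def conjHom (N ℓ : ℕ) [NeZero ℓ] : Gamma0 (N * ℓ) →* Gamma0 N where
  toFun γ := ⟨⟨conjMat ℓ ((γ : SL(2, ℤ)) : Matrix (Fin 2) (Fin 2) ℤ), by
      obtain ⟨c, hc⟩ := gamma0_mul_dvd γ
      have hℓ : (ℓ : ℤ) ≠ 0 := by exact_mod_cast NeZero.ne ℓ
      have hdet := (γ : SL(2, ℤ)).2
      rw [Matrix.det_fin_two, hc] at hdet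
      rw [conjMat, Matrix.det_fin_two_of, hc,
        show (N : ℤ) * ℓ * c = (N * c) * ℓ by ring, Int.mul_ediv_cancel _ hℓ]
      linear_combination hdet⟩, by
      obtain ⟨c, hc⟩ := gamma0_mul_dvd γ
      have hℓ : (ℓ : ℤ) ≠ 0 := by exact_mod_cast NeZero.ne ℓ
      refine Gamma0_mem.mpr ?_
      show ((conjMat ℓ ((γ : SL(2, ℤ)) : Matrix (Fin 2) (Fin 2) ℤ) 1 0 : ℤ) : ZMod N) = 0
      simp only [conjMat, Matrix.of_apply, Matrix.cons_val', Matrix.cons_val_zero,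
        Matrix.cons_val_one, Matrix.cons_val_fin_one]
      rw [hc, show (N : ℤ) * ℓ * c = (N * c) * ℓ by ring, Int.mul_ediv_cancel _ hℓ]
      push_cast
      simp⟩
  map_one' := by
    apply Subtype.ext
    apply Subtype.ext
    ext i j
    fin_cases i <;> fin_cases j <;> simp [conjMat]
  map_mul' γ δ := by
    obtain ⟨c, hc⟩ := gamma0_mul_dvd γ
    obtain ⟨d, hd⟩ := gamma0_mul_dvd δ
    have hℓ : (ℓ : ℤ) ≠ 0 := by exact_mod_cast NeZero.ne ℓ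
    have e1 : (N : ℤ) * ℓ * c / ℓ = N * c := by
      rw [show (N : ℤ) * ℓ * c = (N * c) * ℓ by ring, Int.mul_ediv_cancel _ hℓ]
    have e2 : (N : ℤ) * ℓ * d / ℓ = N * d := by
      rw [show (N : ℤ) * ℓ * d = (N * d) * ℓ by ring, Int.mul_ediv_cancel _ hℓ]
    have e3 : ∀ x y : ℤ, ((N : ℤ) * ℓ * c * x + y * (N * ℓ * d)) / ℓ = N * c * x + y * (N * d) := by
      intro x y
      rw [show (N : ℤ) * ℓ * c * x + y * (N * ℓ * d) = (N * c * x + y * (N * d)) * ℓ by ring,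
        Int.mul_ediv_cancel _ hℓ]
    apply Subtype.ext
    apply Subtype.ext
    show conjMat ℓ (((γ : SL(2, ℤ)) * (δ : SL(2, ℤ)) : SL(2, ℤ)) : Matrix (Fin 2) (Fin 2) ℤ)
      = conjMat ℓ ((γ : SL(2, ℤ)) : Matrix (Fin 2) (Fin 2) ℤ)
        * conjMat ℓ ((δ : SL(2, ℤ)) : Matrix (Fin 2) (Fin 2) ℤ)
    rw [Matrix.SpecialLinearGroup.coe_mul]
    ext i j
    fin_cases i <;> fin_cases j <;>
      simp [conjMat, Matrix.mul_apply, Fin.sum_univ_two, hc, hd, e1, e2, e3] <;> ring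

/-- `Γ₀(N ℓ)` as a subgroup of `Γ₀(N)`. -/
abbrev subGamma0 (N ℓ : ℕ) : Subgroup (Gamma0 N) := (Gamma0 (N * ℓ)).subgroupOf (Gamma0 N)

/-- The restriction of `conjHom` to `subGamma0`. -/
def conjHom' (N ℓ : ℕ) [NeZero ℓ] : subGamma0 N ℓ →* Gamma0 N :=
  (conjHom N ℓ).comp
    { toFun := fun γ => (⟨((γ : Gamma0 N) : SL(2, ℤ)), γ.2⟩ : Gamma0 (N * ℓ))
      map_one' := rfl
      map_mul' := fun _ _ => rfl }

instance finiteIndex_subGamma0 (N ℓ : ℕ) [NeZero N] [NeZero ℓ] : (subGamma0 N ℓ).FiniteIndex := by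
  have : NeZero (N * ℓ) := ⟨Nat.mul_ne_zero (NeZero.ne N) (NeZero.ne ℓ)⟩
  have : (Gamma0 (N * ℓ)).FiniteIndex := inferInstance
  exact inferInstance

/-- The Hecke operator (for every `ℓ ≠ 0`) on characters with values in a commutative group:
the transfer of `χ ∘ (δ · δ⁻¹)` from `Γ₀(N ℓ)` to `Γ₀(N)`. This is the action induced by the
correspondence `α_* β^*` of the prelude on functions/torsion divisor classes. -/
def heckeChar (N ℓ : ℕ) [NeZero N] [NeZero ℓ] {A : Type*} [CommGroup A] (χ : Gamma0 N →* A) :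
    Gamma0 N →* A :=
  MonoidHom.transfer (χ.comp (conjHom' N ℓ))

/-- Additive version of `heckeChar`. -/
def heckeAdd (N ℓ : ℕ) [NeZero N] [NeZero ℓ] {A : Type*} [AddCommGroup A]
    (ψ : Additive (Gamma0 N) →+ A) : Additive (Gamma0 N) →+ A :=
  MonoidHom.toAdditiveLeft (heckeChar N ℓ (AddMonoidHom.toMultiplicativeRight ψ))

end Fermat.Agent.JAN
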