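import Mathlib
import Fermat.Agent.S28.Tower
import Fermat.Agent.S28.ModPolySpecProof
import Fermat.Agent.S28.JqpNotMem
import Fermat.Agent.Jan.DegreeWiring
import Fermat.Agent.FunField.Quot
import Fermat.Agent.MFF.CoeffDescent
import Fermat.Agent.Gamma0Count
import Fermat.Agent.JAN.Defs

/-!
# Degrees of the modular function fields over algebraically closed fields of characteristic zero

`psiDegree L : PsiDegree L`, `alphaDegree L : AlphaDegree L`, and
`HeckeOperatorsCommuteBar N` unconditionally.
-/

set_option autoImplicit false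
set_option linter.style.haveILetI false

noncomputable section

open AlgebraicCurve IntermediateField ModularCurve CongruenceSubgroup
open scoped MatrixGroups

namespace Fermat.Agent.JAN.Degree

open Fermat.Agent.Jan Fermat.Agent.Jan.HeckeCommute Fermat.Agent.S28

theorem modPolyAll : ModPolyAll := fun p _ => exists_modPolySpec p

theorem jpNotMem : JpNotMem := fun p _ K _ h => jqp_notMem p K h

theorem relfinrank_full (K : Type) [Field K] [IsAlgClosed K] (M : ℕ) (hM : (M : K) ≠ 0) :
    relfinrank (modularFunctionFieldFullC K 1) (modularFunctionFieldFullC K M) = dedekindPsi M :=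
  (tower modPolyAll jpNotMem M hM).2

theorem finrankAlong_inclusion {K E : Type*} [Field K] [Field E] [Algebra K E]
    {A B : IntermediateField K E} (h : A ≤ B) :
    finrankAlong K (IntermediateField.inclusion h) = relfinrank A B := by
  rw [relfinrank_eq_finrank_of_le h]
  let _ : Algebra A B := algebraAlong (IntermediateField.inclusion h)
  show Module.finrank A B = _
  refine Algebra.finrank_eq_of_equiv_equiv (RingEquiv.refl A)
    (show B ≃+* extendScalars h from RingEquiv.refl B) ?_
  ext x
  rfl

theorem psiDegree (L : Type) [Field L] [Algebra ℚ L] [IsAlgClosed L] : PsiDegree L := by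
  intro N _
  haveI : CharZero L := algebraRat.charZero L
  have hle : laurentBaseChange L (modularFunctionFieldFull 1) ≤
      laurentBaseChange L (modularFunctionFieldFull N) :=
    laurentBaseChange_mono L (full_degeneracy_le (one_dvd N))
  have h1 : degen L 1 N 1 (by rw [mul_one]; exact one_dvd N) = IntermediateField.inclusion hle := by
    refine AlgHom.ext fun x => Subtype.ext ?_
    rw [coe_degen, qExpand_one_apply]
    exact (IntermediateField.coe_inclusion hle x).symm
  rw [h1, finrankAlong_inclusion, MFF.laurentBaseChange_full, MFF.laurentBaseChange_full]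
  exact relfinrank_full L N (by exact_mod_cast NeZero.ne N)

theorem alphaDegree (L : Type) [Field L] [Algebra ℚ L] [IsAlgClosed L] : AlphaDegree L :=
  alphaDegree_of_psiDegree L (psiDegree L)

theorem heckeOperatorsCommuteBar (N : ℕ) [NeZero N] : HeckeOperatorsCommuteBar N :=
  Fermat.Agent.Jan.HeckeCommute.heckeOperatorsCommuteBar DegreeWiring.jAlg
    (fun N _ => FunField.functionFieldGeneration N) (alphaDegree _) N

theorem index_subGamma0_mul (N ℓ : ℕ) [NeZero N] [NeZero ℓ] :
    (subGamma0 N ℓ).index * dedekindPsi N = dedekindPsi (N * ℓ) := by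
  haveI : NeZero (N * ℓ) := ⟨Nat.mul_ne_zero (NeZero.ne N) (NeZero.ne ℓ)⟩
  have hle : Gamma0 (N * ℓ) ≤ Gamma0 N := by
    intro γ hγ
    rw [Gamma0_mem, ZMod.intCast_zmod_eq_zero_iff_dvd] at hγ ⊢
    exact (show ((N : ℕ) : ℤ) ∣ ((N * ℓ : ℕ) : ℤ) by push_cast; exact dvd_mul_right _ _).trans hγ
  have h := Subgroup.relIndex_mul_index hle
  rw [Gamma0Count.index_Gamma0, Gamma0Count.index_Gamma0] at h
  exact h

theorem finrankAlong_alpha (L : Type) [Field L] [Algebra ℚ L] [IsAlgClosed L] (N ℓ : ℕ) [NeZero N]
    [NeZero ℓ] (hℓ : ℓ.Prime) :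
    finrankAlong L (heckeAlphaBar L N ℓ) = (subGamma0 N ℓ).index := by
  rw [alphaDegree L N ℓ hℓ]
  have h1 := index_subGamma0_mul N ℓ
  rw [dedekindPsi_mul_prime N ℓ (NeZero.ne N) hℓ, mul_comm] at h1
  exact (Nat.eq_of_mul_eq_mul_left (dedekindPsi_pos N) h1).symm

end Fermat.Agent.JAN.Degree
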