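import Mathlib

/-!
# Transfer computed with arbitrary right coset representatives
-/

set_option autoImplicit false

namespace Fermat.Agent.JAN

open Subgroup Function

variable {G : Type*} [Group G] {H : Subgroup G} {A : Type*} [CommGroup A] (ϕ : H →* A)

/-- Transfer through a family of right coset representatives `r i` (`G = ⨆ H r i`). -/
theorem transfer_eq_prod [H.FiniteIndex] {ι : Type*} [Fintype ι] (r : ι → G)
    (hr : ∀ g : G, ∃! i, g * (r i)⁻¹ ∈ H) (γ : G) (σ : ι → ι) (c : ι → H)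
    (hc : ∀ i, r i * γ = c i * r (σ i)) :
    MonoidHom.transfer ϕ γ = ∏ i, ϕ (c i) := by
  classical
  -- the bijection `ι ≃ G ⧸ H`
  have hinj : Function.Injective (fun i : ι => (((r i)⁻¹ : G) : G ⧸ H)) := by
    intro i j hij
    have h1 : (r i) * (r j)⁻¹ ∈ H := by
      have := QuotientGroup.eq.mp hij
      simpa using this
    have h2 : (r i) * (r i)⁻¹ ∈ H := by rw [mul_inv_cancel]; exact H.one_mem
    exact (hr (r i)).unique h2 h1
  have hsurj : Function.Surjective (fun i : ι => (((r i)⁻¹ : G) : G ⧸ H)) := by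
    intro q
    induction q using QuotientGroup.induction_on with
    | H g =>
      obtain ⟨i, hi, -⟩ := hr g⁻¹
      refine ⟨i, QuotientGroup.eq.mpr ?_⟩
      have := H.inv_mem hi
      simpa using this
  let e : ι ≃ G ⧸ H := Equiv.ofBijective _ ⟨hinj, hsurj⟩
  have he : ∀ i, e i = (((r i)⁻¹ : G) : G ⧸ H) := fun _ => rfl
  let f : G ⧸ H → G := fun q => (r (e.symm q))⁻¹
  have hf : ∀ q, (f q : G ⧸ H) = q := fun q => by
    show (((r (e.symm q))⁻¹ : G) : G ⧸ H) = q
    rw [← he, Equiv.apply_symm_apply]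
  let T : H.LeftTransversal := ⟨Set.range f, isComplement_range_left hf⟩
  rw [MonoidHom.transfer_def ϕ T]
  let _ := H.fintypeQuotientOfFiniteIndex
  have key : ∀ i, (γ⁻¹ • (e i : G ⧸ H)) = e (σ i) := by
    intro i
    rw [he, he]
    show ((γ⁻¹ * (r i)⁻¹ : G) : G ⧸ H) = _
    refine QuotientGroup.eq.mpr ?_
    have h1 : (γ⁻¹ * (r i)⁻¹)⁻¹ * (r (σ i))⁻¹ = c i := by
      rw [mul_inv_rev, inv_inv, inv_inv, hc i]
      group
    rw [h1]
    exact (c i).2
  have hval : ∀ i, ((γ • T).2.leftQuotientEquiv (e i) : G) = (r i)⁻¹ * c i := by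
    intro i
    rw [smul_apply_eq_smul_apply_inv_smul, key i, IsComplement.leftQuotientEquiv_apply hf]
    show γ * (r (e.symm (e (σ i))))⁻¹ = _
    rw [Equiv.symm_apply_apply]
    have h3 : γ = (r i)⁻¹ * (c i * r (σ i)) := by rw [← hc i]; group
    rw [h3]
    group
  have hval' : ∀ i, (T.2.leftQuotientEquiv (e i) : G) = (r i)⁻¹ := by
    intro i
    rw [IsComplement.leftQuotientEquiv_apply hf]
    show (r (e.symm (e i)))⁻¹ = _
    rw [Equiv.symm_apply_apply]
  show (∏ q : G ⧸ H, ϕ _) = _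
  refine (Fintype.prod_equiv e _ _ fun i => ?_).symm
  congr 1
  apply Subtype.ext
  show (c i : G) = (T.2.leftQuotientEquiv (e i) : G)⁻¹ * ((γ • T).2.leftQuotientEquiv (e i) : G)
  rw [hval, hval']
  group

end Fermat.Agent.JAN
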