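import Mathlib
import Fermat.Agent.JAN.Defs
import Fermat.Agent.JAN.Transfer

/-!
# `heckeAdd` preserves the homomorphisms killing elements of `trace² ≤ 4`
-/

set_option autoImplicit false

noncomputable section

open UpperHalfPlane CongruenceSubgroup ModularCurve
open scoped MatrixGroups ModularForm

namespace Fermat.Agent.JAN

/-! ### Traces of powers -/

theorem mat_sq_of_det_one (A : Matrix (Fin 2) (Fin 2) ℤ) (h : A.det = 1) :
    A * A = A.trace • A - 1 := by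
  rw [Matrix.det_fin_two] at h
  have ht := Matrix.trace_fin_two A
  have h01 : (1 : Matrix (Fin 2) (Fin 2) ℤ) 0 1 = 0 := Matrix.one_apply_ne (by decide)
  have h10 : (1 : Matrix (Fin 2) (Fin 2) ℤ) 1 0 = 0 := Matrix.one_apply_ne (by decide)
  ext i j
  rw [Matrix.mul_apply, Fin.sum_univ_two, Matrix.sub_apply, Matrix.smul_apply, smul_eq_mul, ht]
  fin_cases i <;> fin_cases j
  · change A 0 0 * A 0 0 + A 0 1 * A 1 0 = (A 0 0 + A 1 1) * A 0 0 - (1 : Matrix _ _ ℤ) 0 0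
    rw [Matrix.one_apply_eq]
    linear_combination (-1 : ℤ) * h
  · change A 0 0 * A 0 1 + A 0 1 * A 1 1 = (A 0 0 + A 1 1) * A 0 1 - (1 : Matrix _ _ ℤ) 0 1
    rw [h01]
    ring
  · change A 1 0 * A 0 0 + A 1 1 * A 1 0 = (A 0 0 + A 1 1) * A 1 0 - (1 : Matrix _ _ ℤ) 1 0
    rw [h10]
    ring
  · change A 1 0 * A 0 1 + A 1 1 * A 1 1 = (A 0 0 + A 1 1) * A 1 1 - (1 : Matrix _ _ ℤ) 1 1
    rw [Matrix.one_apply_eq]
    linear_combination (-1 : ℤ) * h

theorem trace_pow_rec (A : Matrix (Fin 2) (Fin 2) ℤ) (h : A.det = 1) (k : ℕ) :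
    (A ^ (k + 2)).trace = A.trace * (A ^ (k + 1)).trace - (A ^ k).trace := by
  have h1 : A ^ (k + 2) = A.trace • A ^ (k + 1) - A ^ k := by
    rw [pow_add, pow_two, mat_sq_of_det_one A h, mul_sub, mul_one, mul_smul_comm, ← pow_succ]
  rw [h1, Matrix.trace_sub, Matrix.trace_smul, smul_eq_mul]

theorem trace_pow_sq_le (A : Matrix (Fin 2) (Fin 2) ℤ) (h : A.det = 1) (ht : A.trace ^ 2 ≤ 4)
    (k : ℕ) : (A ^ k).trace ^ 2 ≤ 4 := by
  have key : ∀ k : ℕ, (A ^ k).trace ^ 2 - A.trace * (A ^ k).trace * (A ^ (k + 1)).trace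
        + (A ^ (k + 1)).trace ^ 2 = 4 - A.trace ^ 2 ∧ (A ^ k).trace ^ 2 ≤ 4 ∧
        (A ^ (k + 1)).trace ^ 2 ≤ 4 := by
    intro k
    induction k with
    | zero =>
      refine ⟨?_, ?_, ?_⟩
      · simp only [pow_zero, zero_add, pow_one, Matrix.trace_one, Fintype.card_fin]
        push_cast
        ring
      · simp [Matrix.trace_one]
      · simpa using ht
    | succ k ih =>
      obtain ⟨h1, h2, h3⟩ := ih
      set x := (A ^ k).trace
      set y := (A ^ (k + 1)).trace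
      set t := A.trace
      have hz : (A ^ (k + 1 + 1)).trace = t * y - x := trace_pow_rec A h k
      rw [hz]
      refine ⟨by linear_combination h1, h3, ?_⟩
      rcases eq_or_lt_of_le ht with h4 | h4
      · -- `t ^ 2 = 4`
        have h5 : (2 * y - t * x) ^ 2 = 0 := by nlinarith
        have h6 : 2 * y = t * x := by
          have := pow_eq_zero_iff (two_ne_zero) |>.mp h5
          linarith
        have h7 : 2 * (t * y - x) = t * y := by
          have : t * (2 * y) = t ^ 2 * x := by rw [h6]; ring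
          rw [h4] at this
          linarith
        have h8 : 4 * (t * y - x) ^ 2 = 4 * y ^ 2 := by
          have : (2 * (t * y - x)) ^ 2 = t ^ 2 * y ^ 2 := by rw [h7]; ring
          rw [h4] at this
          linarith
        linarith
      · -- `t ^ 2 < 4`
        set z := t * y - x with hzdef
        have h5 : y ^ 2 - t * y * z + z ^ 2 = 4 - t ^ 2 := by rw [hzdef]; linear_combination h1
        have h6 : (4 - t ^ 2) * z ^ 2 ≤ 4 * (4 - t ^ 2) := by nlinarith [sq_nonneg (2 * y - t * z)]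
        have h7 : 0 < 4 - t ^ 2 := by linarith
        nlinarith
  exact (key k).2.1

theorem conjMat_trace (ℓ : ℕ) (A : Matrix (Fin 2) (Fin 2) ℤ) : (conjMat ℓ A).trace = A.trace := by
  rw [conjMat, Matrix.trace_fin_two_of, Matrix.trace_fin_two]

theorem conjHom'_trace {N ℓ : ℕ} [NeZero ℓ] (γ : subGamma0 N ℓ) :
    ((((conjHom' N ℓ γ : Gamma0 N) : SL(2, ℤ)) : Matrix (Fin 2) (Fin 2) ℤ)).trace
      = ((((γ : Gamma0 N) : SL(2, ℤ)) : Matrix (Fin 2) (Fin 2) ℤ)).trace :=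
  conjMat_trace ℓ _

theorem trace_conj_pow {N : ℕ} (γ x : Gamma0 N) (k : ℕ) :
    (((x⁻¹ * γ ^ k * x : Gamma0 N) : SL(2, ℤ)) : Matrix (Fin 2) (Fin 2) ℤ).trace
      = ((((γ : SL(2, ℤ)) : Matrix (Fin 2) (Fin 2) ℤ)) ^ k).trace := by
  have h1 : (((x⁻¹ * γ ^ k * x : Gamma0 N) : SL(2, ℤ)) : Matrix (Fin 2) (Fin 2) ℤ)
      = (((x : SL(2, ℤ))⁻¹ : SL(2, ℤ)) : Matrix (Fin 2) (Fin 2) ℤ)
        * (((γ : SL(2, ℤ)) : Matrix (Fin 2) (Fin 2) ℤ)) ^ k
        * ((x : SL(2, ℤ)) : Matrix (Fin 2) (Fin 2) ℤ) := by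
    rw [← Matrix.SpecialLinearGroup.coe_pow, ← Matrix.SpecialLinearGroup.coe_mul,
      ← Matrix.SpecialLinearGroup.coe_mul]
    rfl
  have h2 : ((x : SL(2, ℤ)) : Matrix (Fin 2) (Fin 2) ℤ)
      * (((x : SL(2, ℤ))⁻¹ : SL(2, ℤ)) : Matrix (Fin 2) (Fin 2) ℤ) = 1 := by
    rw [← Matrix.SpecialLinearGroup.coe_mul, mul_inv_cancel, Matrix.SpecialLinearGroup.coe_one]
  rw [h1, Matrix.trace_mul_comm, ← mul_assoc, h2, one_mul]

/-- If `χ` kills elements with `trace² ≤ 4`, so does `heckeChar ℓ χ`. -/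
theorem heckeChar_apply_of_trace {N ℓ : ℕ} [NeZero N] [NeZero ℓ] {A : Type*} [CommGroup A]
    {χ : Gamma0 N →* A}
    (hχ : ∀ γ : Gamma0 N, ((γ : SL(2, ℤ)) : Matrix (Fin 2) (Fin 2) ℤ).trace ^ 2 ≤ 4 → χ γ = 1)
    (γ : Gamma0 N) (hγ : ((γ : SL(2, ℤ)) : Matrix (Fin 2) (Fin 2) ℤ).trace ^ 2 ≤ 4) :
    heckeChar N ℓ χ γ = 1 := by
  classical
  have : Finite (Gamma0 N ⧸ subGamma0 N ℓ) := Subgroup.finite_quotient_of_finiteIndex
  have : Fintype (Quotient (MulAction.orbitRel (Subgroup.zpowers γ) (Gamma0 N ⧸ subGamma0 N ℓ))) :=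
    Fintype.ofFinite _
  rw [heckeChar, MonoidHom.transfer_eq_prod_quotient_orbitRel_zpowers_quot]
  refine Finset.prod_eq_one fun q _ => ?_
  rw [MonoidHom.comp_apply]
  refine hχ _ ?_
  rw [conjHom'_trace]
  refine le_of_eq_of_le (congrArg (· ^ 2) (trace_conj_pow γ _ _)) ?_
  exact trace_pow_sq_le _ (γ : SL(2, ℤ)).2 hγ _

theorem heckeAdd_apply {N ℓ : ℕ} [NeZero N] [NeZero ℓ] {A : Type*} [AddCommGroup A]
    (ψ : Additive (Gamma0 N) →+ A) (γ : Gamma0 N) :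
    heckeAdd N ℓ ψ (Additive.ofMul γ)
      = Multiplicative.toAdd (heckeChar N ℓ (AddMonoidHom.toMultiplicativeRight ψ) γ) := rfl

theorem heckeAdd_mem_XN {N ℓ n : ℕ} [NeZero N] [NeZero ℓ] {ψ : Additive (Gamma0 N) →+ ZMod n}
    (hψ : ψ ∈ XN N n) : heckeAdd N ℓ ψ ∈ XN N n := by
  intro γ hγ
  rw [heckeAdd_apply]
  have h := heckeChar_apply_of_trace (N := N) (ℓ := ℓ)
    (χ := AddMonoidHom.toMultiplicativeRight ψ) (fun γ hγ => ?_) γ hγ
  · rw [h]; rfl
  · have := hψ γ hγ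
    exact congrArg Multiplicative.ofAdd this

end Fermat.Agent.JAN
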