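import Mathlib
import Fermat.Agent.JAN.Defs
import Fermat.Agent.JAN.HeckeX

/-!
# Characters of order dividing `n` and homomorphisms to `ℤ/n`
-/

set_option autoImplicit false

noncomputable section

open UpperHalfPlane CongruenceSubgroup ModularCurve
open scoped MatrixGroups ModularForm

namespace Fermat.Agent.JAN

/-- `χ` kills all elements with `trace² ≤ 4` (parabolic and elliptic elements, `± 1`). -/
def Kills {N : ℕ} {A : Type*} [Monoid A] (χ : Gamma0 N →* A) : Prop :=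
  ∀ γ : Gamma0 N, ((γ : SL(2, ℤ)) : Matrix (Fin 2) (Fin 2) ℤ).trace ^ 2 ≤ 4 → χ γ = 1

section Functoriality

theorem transfer_comp {G : Type*} [Group G] {H : Subgroup G} [H.FiniteIndex] {A B : Type*}
    [CommGroup A] [CommGroup B] (g : A →* B) (ϕ : H →* A) :
    MonoidHom.transfer (g.comp ϕ) = g.comp (MonoidHom.transfer ϕ) := by
  let _ := H.fintypeQuotientOfFiniteIndex
  ext γ
  rw [MonoidHom.comp_apply, MonoidHom.transfer_def (g.comp ϕ) default,
    MonoidHom.transfer_def ϕ default]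
  show (∏ q : G ⧸ H, g (ϕ _)) = g (∏ q : G ⧸ H, ϕ _)
  rw [map_prod]

theorem heckeChar_comp {N ℓ : ℕ} [NeZero N] [NeZero ℓ] {A B : Type*} [CommGroup A] [CommGroup B]
    (g : A →* B) (χ : Gamma0 N →* A) :
    heckeChar N ℓ (g.comp χ) = g.comp (heckeChar N ℓ χ) := by
  rw [heckeChar, heckeChar, MonoidHom.comp_assoc, transfer_comp]

theorem heckeAdd_comp {N ℓ : ℕ} [NeZero N] [NeZero ℓ] {A B : Type*} [AddCommGroup A]
    [AddCommGroup B] (g : A →+ B) (ψ : Additive (Gamma0 N) →+ A) :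
    heckeAdd N ℓ (g.comp ψ) = g.comp (heckeAdd N ℓ ψ) := by
  refine AddMonoidHom.ext fun γ => ?_
  obtain ⟨γ, rfl⟩ := Additive.ofMul.surjective γ
  rw [AddMonoidHom.comp_apply, heckeAdd_apply, heckeAdd_apply]
  have h : AddMonoidHom.toMultiplicativeRight (g.comp ψ)
      = (AddMonoidHom.toMultiplicative g).comp (AddMonoidHom.toMultiplicativeRight ψ) := rfl
  rw [h, heckeChar_comp]
  rfl

theorem transfer_mul {G : Type*} [Group G] {H : Subgroup G} [H.FiniteIndex] {A : Type*}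
    [CommGroup A] (ϕ ϕ' : H →* A) :
    MonoidHom.transfer (ϕ * ϕ') = MonoidHom.transfer ϕ * MonoidHom.transfer ϕ' := by
  let _ := H.fintypeQuotientOfFiniteIndex
  ext γ
  rw [MonoidHom.mul_apply, MonoidHom.transfer_def (ϕ * ϕ') default,
    MonoidHom.transfer_def ϕ default, MonoidHom.transfer_def ϕ' default]
  show (∏ q : G ⧸ H, (ϕ _ * ϕ' _)) = (∏ q : G ⧸ H, ϕ _) * (∏ q : G ⧸ H, ϕ' _)
  rw [Finset.prod_mul_distrib]

theorem heckeChar_mul {N ℓ : ℕ} [NeZero N] [NeZero ℓ] {A : Type*} [CommGroup A]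
    (χ χ' : Gamma0 N →* A) :
    heckeChar N ℓ (χ * χ') = heckeChar N ℓ χ * heckeChar N ℓ χ' := by
  rw [heckeChar, heckeChar, heckeChar, ← transfer_mul]
  rfl

theorem heckeAdd_add {N ℓ : ℕ} [NeZero N] [NeZero ℓ] {A : Type*} [AddCommGroup A]
    (ψ ψ' : Additive (Gamma0 N) →+ A) :
    heckeAdd N ℓ (ψ + ψ') = heckeAdd N ℓ ψ + heckeAdd N ℓ ψ' := by
  refine AddMonoidHom.ext fun γ => ?_
  obtain ⟨γ, rfl⟩ := Additive.ofMul.surjective γ
  rw [AddMonoidHom.add_apply, heckeAdd_apply, heckeAdd_apply, heckeAdd_apply]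
  have h : AddMonoidHom.toMultiplicativeRight (ψ + ψ')
      = (AddMonoidHom.toMultiplicativeRight ψ) * (AddMonoidHom.toMultiplicativeRight ψ') := rfl
  rw [h, heckeChar_mul]
  rfl

/-- `heckeAdd` as an additive homomorphism. -/
def heckeAddHom (N ℓ : ℕ) [NeZero N] [NeZero ℓ] (A : Type*) [AddCommGroup A] :
    (Additive (Gamma0 N) →+ A) →+ (Additive (Gamma0 N) →+ A) :=
  AddMonoidHom.mk' (heckeAdd N ℓ) heckeAdd_add

@[simp]
theorem heckeAddHom_apply (N ℓ : ℕ) [NeZero N] [NeZero ℓ] {A : Type*} [AddCommGroup A]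
    (ψ : Additive (Gamma0 N) →+ A) : heckeAddHom N ℓ A ψ = heckeAdd N ℓ ψ := rfl

end Functoriality

section ChiOf

variable {N n : ℕ} [NeZero n]

/-- `ℤ/n → ℂˣ`, `x ↦ exp (2 π i x / n)`. -/
def zeta (n : ℕ) [NeZero n] : Multiplicative (ZMod n) →* ℂˣ where
  toFun x := Circle.toUnits (ZMod.toCircle (Multiplicative.toAdd x))
  map_one' := by
    show Circle.toUnits (ZMod.toCircle 0) = 1
    rw [AddChar.map_zero_eq_one, map_one]
  map_mul' x y := by
    show Circle.toUnits (ZMod.toCircle (Multiplicative.toAdd x + Multiplicative.toAdd y)) = _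
    rw [AddChar.map_add_eq_mul, map_mul]

theorem chiOf_eq (ψ : Additive (Gamma0 N) →+ ZMod n) :
    chiOf ψ = (zeta n).comp (AddMonoidHom.toMultiplicativeRight ψ) := rfl

theorem zeta_injective : Function.Injective (zeta n) := by
  intro x y h
  have h1 : (ZMod.toCircle (Multiplicative.toAdd x)) = ZMod.toCircle (Multiplicative.toAdd y) := by
    have := congrArg (fun u : ℂˣ => (u : ℂ)) h
    exact Circle.coe_injective this
  exact ZMod.injective_toCircle h1

theorem chiOf_injective : Function.Injective (chiOf : (Additive (Gamma0 N) →+ ZMod n) → _) := by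
  intro ψ ψ' h
  refine AddMonoidHom.ext fun γ => ?_
  obtain ⟨γ, rfl⟩ := Additive.ofMul.surjective γ
  exact zeta_injective (DFunLike.congr_fun h γ)

theorem chiOf_add (ψ ψ' : Additive (Gamma0 N) →+ ZMod n) :
    chiOf (ψ + ψ') = chiOf ψ * chiOf ψ' := by
  ext γ
  rw [MonoidHom.mul_apply, chiOf_apply, chiOf_apply, chiOf_apply, AddMonoidHom.add_apply,
    AddChar.map_add_eq_mul, map_mul]

theorem chiOf_zero : chiOf (0 : Additive (Gamma0 N) →+ ZMod n) = 1 := by
  ext γ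
  rw [chiOf_apply, AddMonoidHom.zero_apply, AddChar.map_zero_eq_one, map_one]
  rfl

theorem chiOf_pow (ψ : Additive (Gamma0 N) →+ ZMod n) : chiOf ψ ^ n = 1 := by
  ext γ
  rw [MonoidHom.pow_apply, chiOf_apply, ← map_pow, ← AddChar.map_nsmul_eq_pow,
    nsmul_eq_mul, CharP.cast_eq_zero, zero_mul, AddChar.map_zero_eq_one, map_one]
  rfl

theorem exists_chiOf {χ : Gamma0 N →* ℂˣ} (h : χ ^ n = 1) :
    ∃ ψ : Additive (Gamma0 N) →+ ZMod n, chiOf ψ = χ := by
  have h1 : ∀ γ : Gamma0 N, ∃ x : ZMod n, Circle.toUnits (ZMod.toCircle x) = χ γ := by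
    intro γ
    have h2 : χ γ ∈ rootsOfUnity n ℂ := by
      rw [mem_rootsOfUnity, ← MonoidHom.pow_apply, h, MonoidHom.one_apply]
    have h3 : ((χ γ : ℂˣ) : ℂ) ^ n = 1 := by
      rw [← Units.val_pow_eq_pow_val, (mem_rootsOfUnity n _).mp h2, Units.val_one]
    obtain ⟨i, hi, hi'⟩ := (Complex.isPrimitiveRoot_exp n (NeZero.ne n)).eq_pow_of_pow_eq_one h3
    refine ⟨(i : ZMod n), ?_⟩
    ext
    show ((ZMod.toCircle ((i : ℕ) : ZMod n) : Circle) : ℂ) = _
    rw [ZMod.toCircle_natCast, ← hi', ← Complex.exp_nat_mul]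
    congr 1
    ring
  choose f hf using h1
  refine ⟨AddMonoidHom.mk' (fun γ => f (Additive.toMul γ)) ?_, ?_⟩
  · intro a b
    apply zeta_injective (n := n)
    show Circle.toUnits (ZMod.toCircle (f (Additive.toMul (a + b)))) =
      Circle.toUnits (ZMod.toCircle (f (Additive.toMul a) + f (Additive.toMul b)))
    rw [hf, AddChar.map_add_eq_mul, map_mul, hf, hf, toMul_add, map_mul]
  · ext γ
    rw [chiOf_apply]
    exact congrArg (fun u : ℂˣ => (u : ℂ)) (hf γ)

theorem kills_chiOf_iff {ψ : Additive (Gamma0 N) →+ ZMod n} : Kills (chiOf ψ) ↔ ψ ∈ XN N n := by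
  constructor
  · intro h γ hγ
    have h1 := h γ hγ
    exact zeta_injective (n := n) (a₁ := Multiplicative.ofAdd (ψ (Additive.ofMul γ)))
      (a₂ := 1) (h1.trans (map_one _).symm)
  · intro h γ hγ
    rw [chiOf_apply, h γ hγ, AddChar.map_zero_eq_one, map_one]

theorem heckeChar_chiOf {ℓ : ℕ} [NeZero N] [NeZero ℓ] (ψ : Additive (Gamma0 N) →+ ZMod n) :
    heckeChar N ℓ (chiOf ψ) = chiOf (heckeAdd N ℓ ψ) := by
  rw [chiOf_eq, heckeChar_comp]
  rfl

theorem chiOf_castHom_pow {m : ℕ} [NeZero m] [NeZero (n * m)]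
    (ψ : Additive (Gamma0 N) →+ ZMod (n * m)) :
    chiOf ψ ^ m = chiOf
      (((ZMod.castHom (dvd_mul_right n m) (ZMod n)) : ZMod (n * m) →+ ZMod n).comp ψ) := by
  ext γ
  rw [MonoidHom.pow_apply, chiOf_apply, chiOf_apply, AddMonoidHom.comp_apply, ← map_pow]
  congr 2
  obtain ⟨j, hj⟩ := ZMod.intCast_surjective (ψ (Additive.ofMul γ))
  rw [← hj]
  have h2 : ((ZMod.castHom (dvd_mul_right n m) (ZMod n) : ZMod (n * m) →+ ZMod n)) (j : ZMod (n * m))
      = (j : ZMod n) := map_intCast (ZMod.castHom (dvd_mul_right n m) (ZMod n)) j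
  rw [h2]
  ext
  rw [Circle.coe_pow, ZMod.toCircle_intCast, ZMod.toCircle_intCast, ← Complex.exp_nat_mul]
  congr 1
  have hn : (n : ℂ) ≠ 0 := by exact_mod_cast NeZero.ne n
  have hm : (m : ℂ) ≠ 0 := by exact_mod_cast NeZero.ne m
  push_cast
  field_simp

end ChiOf

end Fermat.Agent.JAN
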