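import Mathlib

/-!
# Lifting homomorphisms to `ℤ/n` up to a bounded error
-/

set_option autoImplicit false

noncomputable section

namespace Fermat.Agent.JAN.Lift

/-- For a finitely generated abelian group `Q` there is `c > 0` such that for every `n` and every
`ψ : Q → ℤ/n`, `c ψ` lifts to `ℤ`. -/
theorem exists_lift_of_finite (Q : Type*) [AddCommGroup Q] [Module.Finite ℤ Q] :
    ∃ c : ℕ, 0 < c ∧ ∀ (n : ℕ) (ψ : Q →+ ZMod n), ∃ Ψ : Q →+ ℤ,
      c • ψ = (Int.castAddHom (ZMod n)).comp Ψ := by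
  classical
  have hT : Finite (Submodule.torsion ℤ Q) :=
    Module.finite_of_fg_torsion _ (Submodule.torsion_isTorsion)
  refine ⟨Nat.card (Submodule.torsion ℤ Q), Nat.card_pos, fun n ψ => ?_⟩
  set c := Nat.card (Submodule.torsion ℤ Q) with hc
  have hker : Submodule.torsion ℤ Q ≤ LinearMap.ker ((c • ψ).toIntLinearMap) := by
    intro x hx
    rw [LinearMap.mem_ker]
    show c • ψ x = 0
    rw [← map_nsmul]
    have h1 : c • (⟨x, hx⟩ : Submodule.torsion ℤ Q) = 0 := card_nsmul_eq_zero'
    have h2 : c • x = 0 := congrArg Subtype.val h1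
    rw [h2, map_zero]
  let φ : (Q ⧸ Submodule.torsion ℤ Q) →ₗ[ℤ] ZMod n :=
    (Submodule.torsion ℤ Q).liftQ ((c • ψ).toIntLinearMap) hker
  have hfree : Module.Free ℤ (Q ⧸ Submodule.torsion ℤ Q) := inferInstance
  have hsurj : Function.Surjective ((Int.castAddHom (ZMod n)).toIntLinearMap) :=
    ZMod.intCast_surjective
  obtain ⟨h, hh⟩ := Module.projective_lifting_property
    ((Int.castAddHom (ZMod n)).toIntLinearMap) φ hsurj
  refine ⟨(h.comp (Submodule.mkQ _)).toAddMonoidHom, ?_⟩
  ext x
  have h3 := LinearMap.congr_fun hh (Submodule.mkQ _ x)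
  exact h3.symm

/-- The same for homomorphisms from a finitely generated group killing a subset. -/
theorem exists_lift {G : Type*} [Group G] [Group.FG G] (S : Set G) :
    ∃ c : ℕ, 0 < c ∧ ∀ (n : ℕ) (ψ : Additive G →+ ZMod n), (∀ s ∈ S, ψ (Additive.ofMul s) = 0) →
      ∃ Ψ : Additive G →+ ℤ, (∀ s ∈ S, Ψ (Additive.ofMul s) = 0) ∧
        c • ψ = (Int.castAddHom (ZMod n)).comp Ψ := by
  let K : AddSubgroup (Additive (Abelianization G)) :=
    AddSubgroup.closure ((fun s => Additive.ofMul (Abelianization.of s)) '' S)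
  let Q := Additive (Abelianization G) ⧸ K
  have h1 : AddGroup.FG (Additive (Abelianization G)) := by
    have : Group.FG (Abelianization G) := Group.fg_of_surjective (f := Abelianization.of (G := G))
      QuotientGroup.mk_surjective
    infer_instance
  have h2 : AddGroup.FG Q := AddGroup.fg_of_surjective (f := QuotientAddGroup.mk' K)
    (QuotientAddGroup.mk'_surjective K)
  have h3 : Module.Finite ℤ Q := by
    rw [Module.Finite.iff_addGroup_fg]
    exact h2
  obtain ⟨c, hc, hlift⟩ := exists_lift_of_finite Q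
  refine ⟨c, hc, fun n ψ hψ => ?_⟩
  let ψ1 : Abelianization G →* Multiplicative (ZMod n) :=
    Abelianization.lift (AddMonoidHom.toMultiplicativeRight ψ)
  let ψ2 : Additive (Abelianization G) →+ ZMod n := MonoidHom.toAdditiveLeft ψ1
  have hψ2 : ∀ g : G, ψ2 (Additive.ofMul (Abelianization.of g)) = ψ (Additive.ofMul g) := by
    intro g
    show Multiplicative.toAdd (ψ1 (Abelianization.of g)) = _
    rw [Abelianization.lift_apply_of]
    rfl
  have hK : K ≤ ψ2.ker := by
    rw [AddSubgroup.closure_le]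
    rintro _ ⟨s, hs, rfl⟩
    show ψ2 _ = 0
    rw [hψ2, hψ s hs]
  obtain ⟨Ψ, hΨ⟩ := hlift n (QuotientAddGroup.lift K ψ2 hK)
  let q : Additive G →+ Q := (QuotientAddGroup.mk' K).comp
    (MonoidHom.toAdditive (Abelianization.of (G := G)))
  refine ⟨Ψ.comp q, fun s hs => ?_, ?_⟩
  · have : q (Additive.ofMul s) = 0 := by
      show (QuotientAddGroup.mk' K) (Additive.ofMul (Abelianization.of s)) = 0
      rw [QuotientAddGroup.mk'_apply, QuotientAddGroup.eq_zero_iff]
      exact AddSubgroup.subset_closure ⟨s, hs, rfl⟩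
    rw [AddMonoidHom.comp_apply, this, map_zero]
  · refine AddMonoidHom.ext fun g => ?_
    obtain ⟨g, rfl⟩ := Additive.ofMul.surjective g
    have h5 : c • (QuotientAddGroup.lift K ψ2 hK) (q (Additive.ofMul g)) =
      (Int.castAddHom (ZMod n)) (Ψ (q (Additive.ofMul g))) :=
      DFunLike.congr_fun hΨ (q (Additive.ofMul g))
    have h6 : (QuotientAddGroup.lift K ψ2 hK) (q (Additive.ofMul g)) = ψ (Additive.ofMul g) :=
      hψ2 g
    rw [h6] at h5
    exact h5

end Fermat.Agent.JAN.Lift
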