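import Mathlib
import Fermat.Agent.JAN.AnFun
import Fermat.Agent.JAN.Defs
import Fermat.Agent.Jan.HeckeNorm

/-!
# The analytic norm formula

The norm of `F_{Nℓ}(L) / F_N(L)` (along `heckeAlphaBar`), analytically: the product over the
cosets `Γ₀(Nℓ) \ Γ₀(N)` of translates.
-/

set_option autoImplicit false

noncomputable section

open UpperHalfPlane Filter Topology Matrix.SpecialLinearGroup CongruenceSubgroup
open scoped MatrixGroups Manifold

namespace Fermat.Agent.JAN.NormFormula

open FermatJ MerField ModularCurve AnFun AlgebraicCurve Fermat.Agent.JAN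
open Fermat.Agent.Jan.HeckeNorm

/-! ### Norms and embeddings -/

/-- If a finite extension `E / F` of characteristic zero has at least `[E : F]` embeddings over
`F` into a field `Ω`, then the norm is the product over these embeddings. -/
theorem norm_eq_prod {F E Ω I : Type*} [Field F] [Field E] [Field Ω] [Algebra F E]
    [FiniteDimensional F E] [CharZero F] (j : F →+* Ω) [Fintype I] (σ : I → E →+* Ω)
    (hσ : ∀ i, (σ i).comp (algebraMap F E) = j) (hinj : Function.Injective σ)
    (hcard : Module.finrank F E ≤ Fintype.card I) (x : E) :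
    j (Algebra.norm F x) = ∏ i, σ i x := by
  classical
  let Ω' := AlgebraicClosure Ω
  let k : Ω →+* Ω' := algebraMap Ω Ω'
  let _ : Algebra F Ω' := (k.comp j).toAlgebra
  have halg : ∀ a : F, algebraMap F Ω' a = k (j a) := fun _ => rfl
  let s : I → (E →ₐ[F] Ω') := fun i =>
    { k.comp (σ i) with
      commutes' := fun a => by
        show k (σ i (algebraMap F E a)) = k (j a)
        rw [← hσ i]
        rfl }
  have hs : Function.Injective s := by
    intro i i' h
    apply hinj
    ext y
    have := DFunLike.congr_fun h y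
    exact k.injective this
  have hcard' : Fintype.card (E →ₐ[F] Ω') = Module.finrank F E := AlgHom.card F E Ω'
  have hbij : Function.Bijective s := by
    rw [Fintype.bijective_iff_injective_and_card]
    refine ⟨hs, le_antisymm (Fintype.card_le_of_injective s hs) ?_⟩
    rw [hcard']
    exact hcard
  apply k.injective
  rw [← halg, Algebra.norm_eq_prod_embeddings F Ω' x, map_prod]
  exact (Fintype.prod_bijective s hbij _ _ fun i => rfl).symm

theorem normAlong_eq_prod {K F E Ω I : Type*} [Field K] [Field F] [Field E] [Field Ω]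
    [Algebra K F] [Algebra K E] [CharZero F] (ψ : F →ₐ[K] E) (hfin : FiniteAlong K ψ)
    (j : F →+* Ω) [Fintype I] (σ : I → E →+* Ω)
    (hσ : ∀ i, (σ i).comp ψ.toRingHom = j) (hinj : Function.Injective σ)
    (hcard : finrankAlong K ψ ≤ Fintype.card I) (x : E) :
    j (normAlong ψ x) = ∏ i, σ i x := by
  let _ := algebraAlong ψ
  have : FiniteDimensional F E := hfin
  exact norm_eq_prod j σ hσ hinj hcard x

/-- the transfer homomorphism in terms of a system of representatives. -/
theorem transfer_apply {G A : Type*} [Group G] [CommGroup A] {H : Subgroup G} [H.FiniteIndex]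
    [Fintype (G ⧸ H)] (φ : H →* A) (g : G) :
    MonoidHom.transfer φ g = ∏ q : G ⧸ H, φ ⟨q.out⁻¹ * (g * (g⁻¹ • q).out), by
      rw [← QuotientGroup.eq]
      rw [← smul_eq_mul, ← MulAction.Quotient.smul_coe, QuotientGroup.out_eq',
        QuotientGroup.out_eq', smul_inv_smul]⟩ := by
  have ht : ∀ q : G ⧸ H, ((Quotient.out q : G) : G ⧸ H) = q := fun q => QuotientGroup.out_eq' q
  let T : H.LeftTransversal :=
    ⟨Set.range (fun q : G ⧸ H => Quotient.out q), Subgroup.isComplement_range_left ht⟩
  rw [MonoidHom.transfer_def φ T g, Subgroup.leftTransversals.diff]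
  refine Finset.prod_congr (Finset.ext fun q => by simp) fun q _ => ?_
  congr 2
  rw [Subgroup.smul_apply_eq_smul_apply_inv_smul]
  rw [show (T.2.leftQuotientEquiv q : G) = q.out from
    Subgroup.IsComplement.leftQuotientEquiv_apply ht q,
    show (T.2.leftQuotientEquiv (g⁻¹ • q) : G) = (g⁻¹ • q).out from
    Subgroup.IsComplement.leftQuotientEquiv_apply ht _]
  rfl

/-! ### Cosets -/

variable {N ℓ : ℕ} [NeZero N] [NeZero ℓ]

/-- `Γ₀(N) / Γ₀(Nℓ)` (left cosets). -/
abbrev Cos (N ℓ : ℕ) : Type := Gamma0 N ⧸ subGamma0 N ℓ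

instance : Fintype (Cos N ℓ) := Subgroup.fintypeQuotientOfFiniteIndex

omit [NeZero N] [NeZero ℓ] in
theorem dvd_of_mem_Gamma0 {M : ℕ} {γ : SL(2, ℤ)} (h : γ ∈ Gamma0 M) : (M : ℤ) ∣ γ 1 0 := by
  rw [Gamma0_mem, ZMod.intCast_zmod_eq_zero_iff_dvd] at h
  exact h

omit [NeZero N] [NeZero ℓ] in
theorem mem_Gamma0_of_dvd {M : ℕ} {γ : SL(2, ℤ)} (h : (M : ℤ) ∣ γ 1 0) : γ ∈ Gamma0 M := by
  rw [Gamma0_mem, ZMod.intCast_zmod_eq_zero_iff_dvd]
  exact h

/-- the representative of `Γ₀(Nℓ) \ Γ₀(N)` attached to `q`: inverse of the one of the left coset -/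
def rep (q : Cos N ℓ) : SL(2, ℤ) := ((q.out : Gamma0 N) : SL(2, ℤ))⁻¹

omit [NeZero N] [NeZero ℓ] in
theorem rep_mem (q : Cos N ℓ) : rep q ∈ Gamma0 N := (Gamma0 N).inv_mem q.out.2

section Norm

variable {L : Type*} [Field L] [Algebra ℚ L] [Algebra L ℂ]

/-- The embedding of `F_{Nℓ}(L)` into `Mer` attached to a coset. -/
def emb (q : Cos N ℓ) : laurentBaseChange L (modularFunctionFieldFull (N * ℓ)) →+* Mer :=
  (sact (rep q) : Mer →+* Mer).comp (anN (N * ℓ))

theorem emb_apply (q : Cos N ℓ) (x : laurentBaseChange L (modularFunctionFieldFull (N * ℓ))) :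
    emb q x = sact (rep q) (anN (N * ℓ) x) := rfl

theorem emb_comp_alpha (q : Cos N ℓ) :
    (emb (L := L) q).comp (heckeAlphaBar L N ℓ).toRingHom = anN N := by
  ext x
  show sact (rep q) (anN (N * ℓ) (heckeAlphaBar L N ℓ x)) = _
  rw [anN_heckeAlphaBar]
  exact sact_anN (dvd_of_mem_Gamma0 (rep_mem q)) x

theorem emb_injective : Function.Injective (emb (L := L) (N := N) (ℓ := ℓ)) := by
  intro q q' h
  have hM : NeZero (N * ℓ) := ⟨mul_ne_zero (NeZero.ne N) (NeZero.ne ℓ)⟩
  have h1 := DFunLike.congr_fun h (jdL L (N * ℓ) dvd_rfl)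
  rw [emb_apply, emb_apply, anN_jd] at h1
  have h2 : sact (rep q * (rep q')⁻¹) (jd (N * ℓ)) = jd (N * ℓ) := by
    rw [sact_mul, h1, ← sact_mul, mul_inv_cancel, sact_one]
  have h3 := mem_Gamma0_of_dvd (dvd_of_sact_jd h2)
  rw [rep, rep, inv_inv] at h3
  rw [← QuotientGroup.out_eq' q, ← QuotientGroup.out_eq' q', QuotientGroup.eq]
  exact h3

/-- **The analytic norm formula.** -/
theorem anN_norm (hfin : FiniteAlong L (heckeAlphaBar L N ℓ))
    (hdeg : finrankAlong L (heckeAlphaBar L N ℓ) ≤ (subGamma0 N ℓ).index)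
    (x : laurentBaseChange L (modularFunctionFieldFull (N * ℓ))) :
    anN N (normAlong (heckeAlphaBar L N ℓ) x) = ∏ q : Cos N ℓ, sact (rep q) (anN (N * ℓ) x) := by
  have : CharZero L := charZero_of_injective_algebraMap (algebraMap ℚ L).injective
  have : CharZero (laurentBaseChange L (modularFunctionFieldFull N)) :=
    charZero_of_injective_algebraMap
      (algebraMap L (laurentBaseChange L (modularFunctionFieldFull N))).injective
  refine normAlong_eq_prod (heckeAlphaBar L N ℓ) hfin (anN N) (fun q => emb q)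
    (fun q => emb_comp_alpha q) emb_injective ?_ x
  rw [← Nat.card_eq_fintype_card]
  exact hdeg

/-- The analytic norm formula for `heckeBetaBar`. -/
theorem anN_norm_beta (hfin : FiniteAlong L (heckeAlphaBar L N ℓ))
    (hdeg : finrankAlong L (heckeAlphaBar L N ℓ) ≤ (subGamma0 N ℓ).index)
    (f : laurentBaseChange L (modularFunctionFieldFull N)) :
    anN N (normAlong (heckeAlphaBar L N ℓ) (heckeBetaBar L N ℓ f)) =
      ∏ q : Cos N ℓ, act (dil ℓ * slp (rep q)) (anN N f) := by
  rw [anN_norm hfin hdeg]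
  refine Finset.prod_congr rfl fun q _ => ?_
  rw [anN_heckeBetaBar, act_mul]

end Norm

end Fermat.Agent.JAN.NormFormula
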