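import Mathlib
import Fermat.Agent.JAN.Transfer
import Fermat.Agent.JAN.NormFormula
import Fermat.Prelude.Def_ModularCurve_PeriodHomPair

/-!
# Transfer and automorphisms; the Hecke operators commute with `charInvolution`
-/

set_option autoImplicit false

noncomputable section

open UpperHalfPlane CongruenceSubgroup ModularCurve ModularCurve.Period
open scoped MatrixGroups ModularForm

namespace Fermat.Agent.JAN.TransferAut

/-- Transfer commutes with automorphisms preserving the subgroup. -/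
theorem transfer_comp_equiv {G A : Type*} [Group G] [CommGroup A] {H : Subgroup G} [H.FiniteIndex]
    (j : G ≃* G) (hj : ∀ g, j g ∈ H ↔ g ∈ H) (ϕ : H →* A) (ϕ' : H →* A)
    (hϕ : ∀ (h : H) , ϕ' h = ϕ ⟨j h, (hj h).mpr h.2⟩) (γ : G) :
    MonoidHom.transfer ϕ' γ = MonoidHom.transfer ϕ (j γ) := by
  classical
  let _ := H.fintypeQuotientOfFiniteIndex
  rw [NormFormula.transfer_apply]
  symm
  rw [transfer_eq_prod ϕ (fun q : G ⧸ H => (j q.out)⁻¹) ?_ (j γ) (fun q => γ⁻¹ • q)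
    (fun q => ⟨j (q.out⁻¹ * (γ * (γ⁻¹ • q).out)), (hj _).mpr (by
      rw [← QuotientGroup.eq]
      rw [← smul_eq_mul, ← MulAction.Quotient.smul_coe, QuotientGroup.out_eq',
        QuotientGroup.out_eq', smul_inv_smul])⟩) ?_]
  · refine Finset.prod_congr rfl fun q _ => ?_
    rw [hϕ]
  · intro g
    obtain ⟨g', rfl⟩ := j.surjective g
    refine ⟨((g'⁻¹ : G) : G ⧸ H), ?_, ?_⟩
    · show j g' * (j _)⁻¹⁻¹ ∈ H
      rw [inv_inv, ← map_mul, hj]
      have := QuotientGroup.mk_out_eq_mul H (g'⁻¹)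
      obtain ⟨h, hh⟩ := this
      rw [hh, mul_inv_cancel_left]
      exact h.2
    · intro q hq
      have hq' : j g' * (j q.out)⁻¹⁻¹ ∈ H := hq
      rw [inv_inv, ← map_mul, hj] at hq'
      have h2 : ((g'⁻¹ : G) : G ⧸ H) = ((q.out : G) : G ⧸ H) := by
        rw [QuotientGroup.eq, inv_inv]
        exact hq'
      rw [h2, QuotientGroup.out_eq']
  · intro q
    show (j q.out)⁻¹ * j γ = j (q.out⁻¹ * (γ * (γ⁻¹ • q).out)) * (j (γ⁻¹ • q).out)⁻¹
    rw [map_mul, map_mul, map_inv]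
    group

variable (N : ℕ)

/-- `jConjGamma0` as an automorphism. -/
def jEquiv : Gamma0 N ≃* Gamma0 N where
  toFun := jConjGamma0 N
  invFun := jConjGamma0 N
  left_inv := jConjGamma0_jConjGamma0 N
  right_inv := jConjGamma0_jConjGamma0 N
  map_mul' := map_mul _

theorem jEquiv_apply (γ : Gamma0 N) : jEquiv N γ = jConjGamma0 N γ := rfl

theorem mem_sub_iff {N ℓ : ℕ} (γ : Gamma0 N) : jEquiv N γ ∈ subGamma0 N ℓ ↔ γ ∈ subGamma0 N ℓ := by
  rw [Subgroup.mem_subgroupOf, Subgroup.mem_subgroupOf]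
  constructor
  · intro h
    have h2 := jConjSL_mem_Gamma0 h
    rwa [jEquiv_apply, jConjGamma0_coe, jConjSL_jConjSL] at h2
  · intro h
    exact jConjSL_mem_Gamma0 h

theorem conjHom'_j {N ℓ : ℕ} [NeZero ℓ] (h : subGamma0 N ℓ) :
    conjHom' N ℓ ⟨jEquiv N h, (mem_sub_iff _).mpr h.2⟩ = jConjGamma0 N (conjHom' N ℓ h) := by
  obtain ⟨c, hc⟩ := gamma0_mul_dvd (⟨((h : Gamma0 N) : SL(2, ℤ)), h.2⟩ : Gamma0 (N * ℓ))
  have hc' : (((h : Gamma0 N) : SL(2, ℤ)) : Matrix (Fin 2) (Fin 2) ℤ) 1 0 = (N : ℤ) * ℓ * c := hc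
  have hℓ : (ℓ : ℤ) ≠ 0 := by exact_mod_cast NeZero.ne ℓ
  have e1 : (N : ℤ) * ℓ * c / ℓ = N * c := by
    rw [show (N : ℤ) * ℓ * c = (N * c) * ℓ by ring, Int.mul_ediv_cancel _ hℓ]
  have e2 : -((N : ℤ) * ℓ * c) / ℓ = -(N * c) := by
    rw [show -((N : ℤ) * ℓ * c) = (-(N * c)) * ℓ by ring, Int.mul_ediv_cancel _ hℓ]
  apply Subtype.ext
  apply Subtype.ext
  show conjMat ℓ (jConjMat (((h : Gamma0 N) : SL(2, ℤ)) : Matrix (Fin 2) (Fin 2) ℤ))
    = jConjMat (conjMat ℓ (((h : Gamma0 N) : SL(2, ℤ)) : Matrix (Fin 2) (Fin 2) ℤ))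
  ext i j
  fin_cases i <;> fin_cases j <;> simp [conjMat, jConjMat, hc', e1, e2]

theorem heckeChar_j {N ℓ : ℕ} [NeZero N] [NeZero ℓ] {A : Type*} [CommGroup A]
    (χ : Gamma0 N →* A) :
    heckeChar N ℓ (χ.comp (jConjGamma0 N)) = (heckeChar N ℓ χ).comp (jConjGamma0 N) := by
  ext γ
  rw [MonoidHom.comp_apply, heckeChar, heckeChar]
  refine transfer_comp_equiv (jEquiv N) (fun g => mem_sub_iff g) _ _ (fun h => ?_) γ
  rw [MonoidHom.comp_apply, MonoidHom.comp_apply, MonoidHom.comp_apply, conjHom'_j]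

theorem heckeAdd_charInvolution {N ℓ : ℕ} [NeZero N] [NeZero ℓ] {R A : Type*} [Semiring R]
    [AddCommGroup A] [Module R A] (ψ : Additive (Gamma0 N) →+ A) :
    heckeAdd N ℓ (charInvolution N R A ψ) = charInvolution N R A (heckeAdd N ℓ ψ) := by
  refine AddMonoidHom.ext fun γ => ?_
  obtain ⟨γ, rfl⟩ := Additive.ofMul.surjective γ
  have h : AddMonoidHom.toMultiplicativeRight (charInvolution N R A ψ) =
    (AddMonoidHom.toMultiplicativeRight ψ).comp (jConjGamma0 N) := rfl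
  exact congrArg Multiplicative.toAdd
    (DFunLike.congr_fun (heckeChar_j (ℓ := ℓ) (AddMonoidHom.toMultiplicativeRight ψ)) γ)

end Fermat.Agent.JAN.TransferAut
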