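import Mathlib
import Fermat.Agent.JAN.TransferAut
import Fermat.Agent.JAN.Lift
import Fermat.Agent.JAN.Chars
import Fermat.Agent.GAL.FiniteXN
import Fermat.Agent.S21

/-!
# Eigensystems not occurring in `S₂(Γ₀(N))` do not occur in `J₀(N)`

If a Hecke polynomial in the `T_ℓ`, `ℓ ∤ N`, kills `S₂(Γ₀(N))`, then a positive multiple of it kills
the torsion of `J₀(N)`.
-/

set_option autoImplicit false
set_option linter.style.haveILetI false

noncomputable section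

open UpperHalfPlane CongruenceSubgroup ModularCurve ModularCurve.Period
open scoped MatrixGroups ModularForm
open Fermat.Agent.GAL Fermat.Agent.GAL.HeckeHom Fermat.Agent.GAL.PeriodLattice
open Fermat.Agent.S30Wiring

namespace Fermat.Agent.JAN.Annihilate

variable {N : ℕ} [NeZero N]

/-- The period homomorphism of `f`. -/
def perC (f : CuspForm (Gamma0 N) 2) : Additive (Gamma0 N) →+ ℂ :=
  (LinearMap.applyₗ (R := ℂ) f).toAddMonoidHom.comp (perHom N)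

theorem perC_apply (f : CuspForm (Gamma0 N) 2) (γ : Gamma0 N) :
    perC f (Additive.ofMul γ) = perFun γ f := rfl

theorem heckeHom_perC {ℓ : ℕ} (hℓ : ℓ.Prime) (hℓN : ¬ ℓ ∣ N) (f : CuspForm (Gamma0 N) 2) :
    heckeHom hℓ hℓN (perC f) = perC (CuspForm.heckeTLin 2 hℓ hℓN f) := by
  rw [perC, heckeHom_comp]
  refine AddMonoidHom.ext fun γ => ?_
  rw [AddMonoidHom.comp_apply, ← perHom_comp_heckeTLin hℓ hℓN γ]
  rfl

theorem perC_eq_periodMap (f : CuspForm (Gamma0 N) 2) : perC f = ES.periodLin N f := by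
  refine AddMonoidHom.ext fun γ => ?_
  obtain ⟨γ, rfl⟩ := Additive.ofMul.surjective γ
  rw [perC_apply, ES.periodLin_apply]
  exact (sub_eq_perFun (F := ES.prim N f) (ES.prim_isPrim f) γ UpperHalfPlane.I).symm

/-- Eichler–Shimura: parabolic homomorphisms to `ℂ`. -/
theorem exists_of_mem_parabolicHoms {ψ : Additive (Gamma0 N) →+ ℂ}
    (hψ : ψ ∈ parabolicHoms ℂ (Gamma0 N) ℂ) : ∃ f g : CuspForm (Gamma0 N) 2,
      ψ = perC f + charInvolution N ℂ ℂ (perC g) := by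
  rw [← (S21.result N).2] at hψ
  obtain ⟨⟨f, g⟩, rfl⟩ := hψ
  refine ⟨f + g, f - g, ?_⟩
  rw [ES.periodHomPair_apply, perC_eq_periodMap, perC_eq_periodMap, map_add, map_sub, map_sub]
  abel

/-- A natural operator on `Hom(Γ₀(N), ·)`. -/
structure NatOp (N : ℕ) where
  /-- the operator -/
  op : ∀ (A : Type) [AddCommGroup A], (Additive (Gamma0 N) →+ A) →+ (Additive (Gamma0 N) →+ A)
  /-- naturality -/
  nat : ∀ (A B : Type) [AddCommGroup A] [AddCommGroup B] (g : A →+ B)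
    (ψ : Additive (Gamma0 N) →+ A), op B (g.comp ψ) = g.comp (op A ψ)

/-- The properties of the operator attached to `t`. -/
structure IsOpOf {S : Finset ℕ} (hNS : ∀ q : ℕ, q.Prime → q ∣ N → q ∈ S)
    (Φ : ∀ n : ℕ, XN N n →+ JZero N) (t : AnemicAlg S) (U : NatOp N) : Prop where
  stab : ∀ (A : Type) [AddCommGroup A] (ψ : Additive (Gamma0 N) →+ A), ψ ∈ parEll N A →
    U.op A ψ ∈ parEll N A
  per : ∀ f : CuspForm (Gamma0 N) 2, U.op ℂ (perC f) =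
    perC ((anemicEval hNS t : Module.End ℂ (CuspForm (Gamma0 N) 2)) f)
  inv : ∀ ψ : Additive (Gamma0 N) →+ ℂ, U.op ℂ (charInvolution N ℂ ℂ ψ) =
    charInvolution N ℂ ℂ (U.op ℂ ψ)
  phi : ∀ n : ℕ, 0 < n → ∀ ψ ψ' : XN N n,
    (ψ' : Additive (Gamma0 N) →+ ZMod n) = U.op (ZMod n) ψ →
      letI := heckeModuleBar N
      Φ n ψ' = anemicIncl S t • Φ n ψ

/-- The compatibility of a family `Φ` with the Hecke operators `T_ℓ`, `ℓ ∤ N`. -/
def PhiHecke (Φ : ∀ n : ℕ, XN N n →+ JZero N) : Prop :=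
  ∀ n : ℕ, 0 < n → ∀ (ℓ : Nat.Primes), ¬ (ℓ : ℕ) ∣ N → ∀ ψ ψ' : XN N n,
    (ψ' : Additive (Gamma0 N) →+ ZMod n) =
      (haveI : NeZero (ℓ : ℕ) := ⟨ℓ.2.ne_zero⟩; heckeAdd N ℓ (ψ : Additive (Gamma0 N) →+ ZMod n)) →
        Φ n ψ' = heckeOperatorBar N ℓ (Φ n ψ)

theorem heckeHom_mem_parEll {ℓ : ℕ} (hℓ : ℓ.Prime) (hℓN : ¬ ℓ ∣ N) {A : Type*} [AddCommGroup A]
    {ψ : Additive (Gamma0 N) →+ A} (hψ : ψ ∈ parEll N A) : heckeHom hℓ hℓN ψ ∈ parEll N A := by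
  haveI : NeZero ℓ := ⟨hℓ.ne_zero⟩
  rw [← HeckeCompare.heckeAdd_eq_heckeHom hℓ hℓN]
  intro γ hγ
  rw [heckeAdd_apply]
  have h := heckeChar_apply_of_trace (N := N) (ℓ := ℓ)
    (χ := AddMonoidHom.toMultiplicativeRight ψ) (fun γ hγ => congrArg Multiplicative.ofAdd (hψ γ hγ))
    γ hγ
  rw [h]; rfl

theorem heckeHom_charInvolution {ℓ : ℕ} (hℓ : ℓ.Prime) (hℓN : ¬ ℓ ∣ N) {R A : Type*} [Semiring R]
    [AddCommGroup A] [Module R A] (ψ : Additive (Gamma0 N) →+ A) :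
    heckeHom hℓ hℓN (charInvolution N R A ψ) = charInvolution N R A (heckeHom hℓ hℓN ψ) := by
  haveI : NeZero ℓ := ⟨hℓ.ne_zero⟩
  rw [← HeckeCompare.heckeAdd_eq_heckeHom hℓ hℓN, ← HeckeCompare.heckeAdd_eq_heckeHom hℓ hℓN]
  exact TransferAut.heckeAdd_charInvolution ψ

variable {S : Finset ℕ} (hNS : ∀ q : ℕ, q.Prime → q ∣ N → q ∈ S)
  {Φ : ∀ n : ℕ, XN N n →+ JZero N}

theorem anemicIncl_X (ℓ : {ℓ : Nat.Primes // (ℓ : ℕ) ∉ S}) :
    anemicIncl S (MvPolynomial.X ℓ) = heckeGen ℓ.1 := by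
  rw [anemicIncl, MvPolynomial.rename_X]
  rfl

theorem exists_op (hcomm : HeckeOperatorsCommuteBar N) (hΦ : PhiHecke Φ) (t : AnemicAlg S) :
    ∃ U : NatOp N, IsOpOf hNS Φ t U := by
  letI := heckeModuleBar N
  induction t using MvPolynomial.induction_on with
  | C a =>
    refine ⟨⟨fun A _ => zsmulAddGroupHom a, fun A B _ _ g ψ => ?_⟩, ?_, ?_, ?_, ?_⟩
    · ext x
      show a • g (ψ x) = g (a • ψ x)
      rw [map_zsmul]
    · intro A _ ψ hψ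
      exact (parEll N A).zsmul_mem hψ a
    · intro f
      rw [MvPolynomial.algHom_C]
      refine AddMonoidHom.ext fun γ => ?_
      obtain ⟨γ, rfl⟩ := Additive.ofMul.surjective γ
      show a • perFun γ f = perFun γ _
      rw [← LinearMap.map_smul_of_tower]
      congr 1
    · intro ψ
      refine AddMonoidHom.ext fun γ => ?_
      rfl
    · intro n hn ψ ψ' h
      have h1 : ψ' = a • ψ := Subtype.ext h
      rw [h1, map_zsmul, MvPolynomial.algHom_C, eq_intCast, Int.cast_smul_eq_zsmul]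
  | add p q hp hq =>
    obtain ⟨U, hU⟩ := hp
    obtain ⟨V, hV⟩ := hq
    refine ⟨⟨fun A _ => U.op A + V.op A, fun A B _ _ g ψ => ?_⟩, ?_, ?_, ?_, ?_⟩
    · rw [AddMonoidHom.add_apply, AddMonoidHom.add_apply, U.nat, V.nat, AddMonoidHom.comp_add]
    · intro A _ ψ hψ
      exact (parEll N A).add_mem (hU.stab A ψ hψ) (hV.stab A ψ hψ)
    · intro f
      rw [AddMonoidHom.add_apply, hU.per, hV.per, map_add]
      refine AddMonoidHom.ext fun γ => ?_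
      obtain ⟨γ, rfl⟩ := Additive.ofMul.surjective γ
      show perFun γ _ + perFun γ _ = perFun γ _
      rw [← map_add]
      rfl
    · intro ψ
      rw [AddMonoidHom.add_apply, AddMonoidHom.add_apply, hU.inv, hV.inv, map_add]
    · intro n hn ψ ψ' h
      have h1 : ψ' = (⟨_, hU.stab _ _ ψ.2⟩ : XN N n) + ⟨_, hV.stab _ _ ψ.2⟩ := Subtype.ext h
      rw [h1, map_add, map_add, add_smul, hU.phi n hn ψ ⟨_, hU.stab _ _ ψ.2⟩ rfl,
        hV.phi n hn ψ ⟨_, hV.stab _ _ ψ.2⟩ rfl]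
  | mul_X p ℓ hp =>
    obtain ⟨U, hU⟩ := hp
    have hℓN : ¬ ((ℓ.1 : Nat.Primes) : ℕ) ∣ N := fun h => ℓ.2 (hNS _ ℓ.1.2 h)
    refine ⟨⟨fun A _ => (U.op A).comp (heckeHom ℓ.1.2 hℓN), fun A B _ _ g ψ => ?_⟩, ?_, ?_, ?_, ?_⟩
    · rw [AddMonoidHom.comp_apply, AddMonoidHom.comp_apply, heckeHom_comp, U.nat]
    · intro A _ ψ hψ
      exact hU.stab A _ (heckeHom_mem_parEll ℓ.1.2 hℓN hψ)
    · intro f
      rw [AddMonoidHom.comp_apply, heckeHom_perC, hU.per, map_mul]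
      have h1 : ((anemicEval hNS (MvPolynomial.X ℓ) : CuspForm.heckeAlgebra N 2 (↑S : Set ℕ)) :
          Module.End ℂ (CuspForm (Gamma0 N) 2)) = CuspForm.heckeTLin 2 ℓ.1.2 hℓN := by
        rw [anemicEval, MvPolynomial.aeval_X]
        rfl
      rw [← h1]
      rfl
    · intro ψ
      rw [AddMonoidHom.comp_apply, AddMonoidHom.comp_apply, heckeHom_charInvolution, hU.inv]
    · intro n hn ψ ψ' h
      have h1 := hU.phi n hn ⟨_, heckeHom_mem_parEll ℓ.1.2 hℓN ψ.2⟩ ψ' h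
      rw [h1, map_mul, mul_smul]
      congr 1
      rw [anemicIncl_X, heckeModuleBar_heckeGen_smul hcomm]
      refine hΦ n hn ℓ.1 hℓN ψ _ ?_
      haveI : NeZero ((ℓ.1 : Nat.Primes) : ℕ) := ⟨ℓ.1.2.ne_zero⟩
      exact (HeckeCompare.heckeAdd_eq_heckeHom ℓ.1.2 hℓN _).symm

/-- Parabolic homomorphisms to `ℂ` are killed by the operators killing all period homomorphisms. -/
theorem op_eq_zero_of_eval {t : AnemicAlg S} {U : NatOp N} (hU : IsOpOf hNS Φ t U)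
    (ht : anemicEval hNS t = 0) {ψ : Additive (Gamma0 N) →+ ℂ} (hψ : ψ ∈ parEll N ℂ) :
    U.op ℂ ψ = 0 := by
  have h0 : ∀ f, U.op ℂ (perC f) = 0 := by
    intro f
    rw [hU.per, ht]
    refine AddMonoidHom.ext fun γ => ?_
    obtain ⟨γ, rfl⟩ := Additive.ofMul.surjective γ
    show perFun γ 0 = 0
    rw [map_zero]
  have hψ' : ψ ∈ parabolicHoms ℂ (Gamma0 N) ℂ := by
    rw [mem_parabolicHoms_iff]
    intro γ hγ
    exact hψ γ hγ.le
  obtain ⟨f, g, rfl⟩ := exists_of_mem_parabolicHoms hψ'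
  rw [map_add, hU.inv, h0, h0, map_zero, add_zero]

/-- The same over `ℤ`. -/
theorem op_int_eq_zero {t : AnemicAlg S} {U : NatOp N} (hU : IsOpOf hNS Φ t U)
    (ht : anemicEval hNS t = 0) {ψ : Additive (Gamma0 N) →+ ℤ} (hψ : ψ ∈ parEll N ℤ) :
    U.op ℤ ψ = 0 := by
  have h1 : (Int.castAddHom ℂ).comp ψ ∈ parEll N ℂ := by
    intro γ hγ
    rw [AddMonoidHom.comp_apply, hψ γ hγ, map_zero]
  have h2 := op_eq_zero_of_eval hNS hU ht h1
  rw [U.nat] at h2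
  refine AddMonoidHom.ext fun γ => ?_
  have h3 := DFunLike.congr_fun h2 γ
  rw [AddMonoidHom.comp_apply] at h3
  exact Int.cast_injective (α := ℂ) (h3.trans Int.cast_zero.symm)

/-- Up to a constant `c`, `t` kills `X_n`. -/
theorem exists_mul_eq_zero : ∃ c : ℕ, 0 < c ∧ ∀ {S : Finset ℕ}
    (hNS : ∀ q : ℕ, q.Prime → q ∣ N → q ∈ S) {Φ : ∀ n : ℕ, XN N n →+ JZero N} {t : AnemicAlg S}
    {U : NatOp N}, IsOpOf hNS Φ t U → anemicEval hNS t = 0 →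
      ∀ (n : ℕ) (ψ : XN N n), c • U.op (ZMod n) (ψ : Additive (Gamma0 N) →+ ZMod n) = 0 := by
  obtain ⟨c, hc, hlift⟩ := Lift.exists_lift (G := Gamma0 N)
    {γ : Gamma0 N | ((γ : SL(2, ℤ)) : Matrix (Fin 2) (Fin 2) ℤ).trace ^ 2 ≤ 4}
  refine ⟨c, hc, fun {S} hNS {Φ} {t} {U} hU ht n ψ => ?_⟩
  obtain ⟨Ψ, hΨ, h⟩ := hlift n ψ (fun γ hγ => ψ.2 γ hγ)
  rw [← map_nsmul, h, U.nat, op_int_eq_zero hNS hU ht (ψ := Ψ) hΨ, AddMonoidHom.comp_zero]

/-- **Annihilation, up to a constant depending only on `N`.** -/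
theorem exists_mul_smul_eq_zero (hcomm : HeckeOperatorsCommuteBar N) (hJ : JanMain N) :
    ∃ c : ℕ, 0 < c ∧ ∀ {S : Finset ℕ} (hNS : ∀ q : ℕ, q.Prime → q ∣ N → q ∈ S) (t : AnemicAlg S),
      anemicEval (N := N) hNS t = 0 → ∀ (n : ℕ), 0 < n → ∀ x : JZero N, n • x = 0 →
        letI := heckeModuleBar N
        c • (anemicIncl S t • x) = 0 := by
  letI := heckeModuleBar N
  obtain ⟨c, hc, hmul⟩ := exists_mul_eq_zero (N := N)
  refine ⟨c, hc, fun {S} hNS t ht n hn x hx => ?_⟩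
  have h0 : ∀ n : ℕ, ∃ Φ : XN N n →+ JZero N, 0 < n → Function.Injective Φ ∧
      (∀ x : JZero N, n • x = 0 → ∃ ψ, Φ ψ = x) ∧
      ∀ (ℓ : Nat.Primes), ¬ (ℓ : ℕ) ∣ N → ∀ ψ : XN N n,
        Φ ⟨(haveI : NeZero (ℓ : ℕ) := ⟨ℓ.2.ne_zero⟩;
            heckeAdd N ℓ (ψ : Additive (Gamma0 N) →+ ZMod n)),
          haveI : NeZero (ℓ : ℕ) := ⟨ℓ.2.ne_zero⟩; heckeAdd_mem_XN ψ.2⟩ =
          heckeOperatorBar N ℓ (Φ ψ) := by
    intro n
    rcases Nat.eq_zero_or_pos n with rfl | hn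
    · exact ⟨0, fun h => absurd h (lt_irrefl 0)⟩
    · obtain ⟨Φ, hΦ⟩ := hJ n hn
      exact ⟨Φ, fun _ => hΦ⟩
  choose Φ hΦ using h0
  have hPhi : PhiHecke Φ := by
    intro n hn ℓ hℓ ψ ψ' h
    rw [← (hΦ n hn).2.2 ℓ hℓ ψ]
    exact congrArg (Φ n) (Subtype.ext h)
  obtain ⟨U, hU⟩ := exists_op hNS hcomm hPhi t
  obtain ⟨ψ, rfl⟩ := (hΦ n hn).2.1 x hx
  rw [← hU.phi n hn ψ ⟨_, hU.stab _ _ ψ.2⟩ rfl, ← map_nsmul]
  have h1 : c • (⟨_, hU.stab _ _ ψ.2⟩ : XN N n) = 0 := Subtype.ext (hmul hNS hU ht n ψ)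
  rw [h1, map_zero]

/-- **Annihilation**: if the torsion of `J₀(N)` is divisible, a Hecke polynomial in the `T_ℓ`,
`ℓ ∤ N`, killing `S₂(Γ₀(N))` kills the torsion of `J₀(N)`. -/
theorem smul_eq_zero_of_divisible (hcomm : HeckeOperatorsCommuteBar N) (hJ : JanMain N)
    (hdiv : ∀ (c n : ℕ), 0 < c → 0 < n → ∀ x : JZero N, n • x = 0 → ∃ y : JZero N, c • y = x)
    {S : Finset ℕ} (hNS : ∀ q : ℕ, q.Prime → q ∣ N → q ∈ S) (t : AnemicAlg S)
    (ht : anemicEval (N := N) hNS t = 0) (n : ℕ) (hn : 0 < n) (x : JZero N) (hx : n • x = 0) :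
    letI := heckeModuleBar N
    anemicIncl S t • x = 0 := by
  letI := heckeModuleBar N
  obtain ⟨c, hc, h⟩ := exists_mul_smul_eq_zero hcomm hJ
  obtain ⟨y, rfl⟩ := hdiv c n hc hn x hx
  have h1 : (n * c) • y = 0 := by rw [mul_smul]; exact hx
  have h2 := h hNS t ht (n * c) (Nat.mul_pos hn hc) y h1
  rw [smul_comm]
  exact h2

end Fermat.Agent.JAN.Annihilate
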