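import Mathlib
import Fermat.Agent.JAN.NormFormula

/-!
# Hecke equivariance of the Kummer relation

If `Rel N n χ f` then `Rel N n (heckeChar N ℓ χ) (N_α (β f))`.
-/

set_option autoImplicit false

noncomputable section

open UpperHalfPlane Filter Topology Matrix.SpecialLinearGroup CongruenceSubgroup
open scoped MatrixGroups Manifold ModularForm

namespace Fermat.Agent.JAN.KummerHecke

open FermatJ MerField ModularCurve AnFun AlgebraicCurve Fermat.Agent.JAN NormFormula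
open Fermat.Agent.Jan.HeckeNorm

variable {N ℓ : ℕ} [NeZero N] [NeZero ℓ]

/-- `δ_q = diag(ℓ,1) · rep q`. -/
def del (q : Cos N ℓ) : GL(2, ℝ)⁺ := dil ℓ * slp (rep q)

omit [NeZero N] in
theorem dil_mul_sub (h : subGamma0 N ℓ) :
    dil ℓ * slp ((h : Gamma0 N) : SL(2, ℤ)) =
      slp ((conjHom' N ℓ h : Gamma0 N) : SL(2, ℤ)) * dil ℓ := by
  obtain ⟨c, hc⟩ := gamma0_mul_dvd (⟨((h : Gamma0 N) : SL(2, ℤ)), h.2⟩ : Gamma0 (N * ℓ))
  have hℓ : (ℓ : ℤ) ≠ 0 := by exact_mod_cast NeZero.ne ℓ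
  have hc' : (((h : Gamma0 N) : SL(2, ℤ)) : Matrix (Fin 2) (Fin 2) ℤ) 1 0 = ℓ * (N * c) := by
    rw [show (ℓ : ℤ) * (N * c) = N * ℓ * c by ring]
    exact hc
  obtain ⟨γ', h1, h00, h01, h10, h11⟩ := dil_mul_slp ℓ ((h : Gamma0 N) : SL(2, ℤ)) hc'
  rw [h1]
  congr 2
  ext i j
  fin_cases i <;> fin_cases j
  · exact h00
  · exact h01
  · show γ' 1 0 = (((h : Gamma0 N) : SL(2, ℤ)) : Matrix (Fin 2) (Fin 2) ℤ) 1 0 / ℓ
    rw [hc', Int.mul_ediv_cancel_left _ hℓ]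
    exact h10
  · exact h11

/-- the element `h_q ∈ Γ₀(Nℓ)` with `rep q · γ = h_q · rep (γ⁻¹ q)`. -/
def hel (q : Cos N ℓ) (γ : Gamma0 N) : subGamma0 N ℓ := ⟨q.out⁻¹ * (γ * (γ⁻¹ • q).out), by
  rw [← QuotientGroup.eq]
  rw [← smul_eq_mul, ← MulAction.Quotient.smul_coe, QuotientGroup.out_eq',
    QuotientGroup.out_eq', smul_inv_smul]⟩

omit [NeZero N] [NeZero ℓ] in
theorem rep_mul (q : Cos N ℓ) (γ : Gamma0 N) :
    rep q * (γ : SL(2, ℤ)) = ((hel q γ : Gamma0 N) : SL(2, ℤ)) * rep (γ⁻¹ • q) := by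
  simp only [rep, hel, Subgroup.coe_mul, Subgroup.coe_inv, mul_assoc, mul_inv_cancel, mul_one]

omit [NeZero N] in
theorem del_mul (q : Cos N ℓ) (γ : Gamma0 N) :
    del q * slp (γ : SL(2, ℤ)) =
      slp ((conjHom' N ℓ (hel q γ) : Gamma0 N) : SL(2, ℤ)) * del (γ⁻¹ • q) := by
  rw [del, mul_assoc, ← slp_mul, rep_mul, slp_mul, ← mul_assoc, dil_mul_sub, mul_assoc, del]

theorem heckeChar_apply {A : Type*} [CommGroup A] (χ : Gamma0 N →* A) (γ : Gamma0 N) :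
    heckeChar N ℓ χ γ = ∏ q : Cos N ℓ, χ (conjHom' N ℓ (hel q γ)) := by
  rw [heckeChar, transfer_apply]
  rfl

/-- `∏_q F ∣[k] δ_q` -/
def heckeProd (N ℓ : ℕ) [NeZero N] [NeZero ℓ] (k : ℤ) (F : ℍ → ℂ) : ℍ → ℂ :=
  ∏ q : Cos N ℓ, F ∣[k] (del q : GL (Fin 2) ℝ)

theorem SL_slash_eq (k : ℤ) (F : ℍ → ℂ) (γ : SL(2, ℤ)) :
    F ∣[k] γ = F ∣[k] ((slp γ : GL(2, ℝ)⁺) : GL (Fin 2) ℝ) := rfl

variable {k : ℤ} {χ : Gamma0 N →* ℂˣ} {F : ℍ → ℂ}

theorem smul_slash_pos (k : ℤ) (g : GL(2, ℝ)⁺) (F : ℍ → ℂ) (c : ℂ) :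
    (c • F) ∣[k] (g : GL (Fin 2) ℝ) = c • (F ∣[k] (g : GL (Fin 2) ℝ)) := by
  rw [ModularForm.smul_slash]
  congr 1
  rw [σ, if_pos (by exact g.2)]
  rfl

theorem slash_del (hF : IsCharForm N k χ F) (q : Cos N ℓ) (γ : Gamma0 N) :
    (F ∣[k] (del q : GL (Fin 2) ℝ)) ∣[k] (γ : SL(2, ℤ)) =
      ((χ (conjHom' N ℓ (hel q γ)) : ℂˣ) : ℂ) • (F ∣[k] (del (γ⁻¹ • q) : GL (Fin 2) ℝ)) := by
  rw [SL_slash_eq, ← SlashAction.slash_mul]
  have h := congrArg (fun g : GL(2, ℝ)⁺ => (g : GL (Fin 2) ℝ)) (del_mul q γ)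
  simp only [Subgroup.coe_mul] at h
  rw [h, SlashAction.slash_mul, ← SL_slash_eq, hF.slash, smul_slash_pos]

theorem prod_slash_SL (k : ℤ) {ι : Type*} (s : Finset ι) (f : ι → ℍ → ℂ) (γ : SL(2, ℤ)) :
    (∏ i ∈ s, f i) ∣[k * (s.card : ℤ)] γ = ∏ i ∈ s, f i ∣[k] γ := by
  rw [ModularForm.SL_slash, ModularForm.prod_slash]
  simp [ModularForm.SL_slash]

theorem mdiff_prod {ι : Type*} (s : Finset ι) {f : ι → ℍ → ℂ} (h : ∀ i ∈ s, MDiff (f i)) :
    MDiff (∏ i ∈ s, f i) := by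
  classical
  induction s using Finset.induction_on with
  | empty =>
    simp only [Finset.prod_empty]
    exact mdifferentiable_const
  | insert a s ha ih =>
    rw [Finset.prod_insert ha]
    exact (h a (Finset.mem_insert_self a s)).mul (ih fun i hi => h i (Finset.mem_insert_of_mem hi))

theorem isBounded_prod {ι : Type*} (s : Finset ι) {f : ι → ℍ → ℂ}
    (h : ∀ i ∈ s, IsBoundedAtImInfty (f i)) : IsBoundedAtImInfty (∏ i ∈ s, f i) := by
  classical
  induction s using Finset.induction_on with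
  | empty =>
    simp only [Finset.prod_empty]
    exact Filter.const_boundedAtFilter _ _
  | insert a s ha ih =>
    rw [Finset.prod_insert ha]
    exact (h a (Finset.mem_insert_self a s)).mul (ih fun i hi => h i (Finset.mem_insert_of_mem hi))

/-- the number of cosets, `[Γ₀(N) : Γ₀(Nℓ)]` -/
abbrev nCos (N ℓ : ℕ) [NeZero N] [NeZero ℓ] : ℕ := (Finset.univ : Finset (Cos N ℓ)).card

theorem isCharForm_heckeProd (hF : IsCharForm N k χ F) :
    IsCharForm N (k * (nCos N ℓ : ℤ)) (heckeChar N ℓ χ) (heckeProd N ℓ k F) := by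
  refine ⟨mdiff_prod _ fun q _ => hF.holo.slash k _, fun γ => ?_, fun g => ?_⟩
  · rw [heckeProd, prod_slash_SL]
    simp only [slash_del hF]
    rw [Finset.prod_smul, heckeChar_apply]
    congr 1
    · simp
    · exact Fintype.prod_equiv (MulAction.toPerm (γ⁻¹)) _ _ fun q => rfl
  · rw [heckeProd, prod_slash_SL]
    refine isBounded_prod _ fun q _ => ?_
    obtain ⟨g', A, D, _, _, B, hAD, -, h⟩ := exists_dil_mul_slp ℓ (rep q * g)
    rw [SL_slash_eq, ← SlashAction.slash_mul]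
    have h' : ((del q : GL(2, ℝ)⁺) : GL (Fin 2) ℝ) * ((slp g : GL(2, ℝ)⁺) : GL (Fin 2) ℝ) =
        ((slp g' : GL(2, ℝ)⁺) : GL (Fin 2) ℝ) *
          ((AnFun.upper A D B : GL(2, ℝ)⁺) : GL (Fin 2) ℝ) := by
      rw [← Subgroup.coe_mul, ← Subgroup.coe_mul, ← h, del, mul_assoc, slp_mul]
    rw [h', SlashAction.slash_mul]
    exact UpperHalfPlane.IsBoundedAtImInfty.slash k (upper_one_zero A D B) (hF.bdd g')

theorem heckeChar_one {A : Type*} [CommGroup A] :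
    heckeChar N ℓ (1 : Gamma0 N →* A) = 1 := by
  ext γ
  rw [heckeChar_apply]
  simp

/-! ### Nonvanishing -/

theorem slash_ne_zero (k : ℤ) (g : GL (Fin 2) ℝ) (hF : ∃ τ, F τ ≠ 0) : F ∣[k] g ≠ 0 := by
  obtain ⟨τ, hτ⟩ := hF
  intro h
  have h1 := congrArg (fun f => f ∣[k] g⁻¹) h
  simp only [← SlashAction.slash_mul, mul_inv_cancel, SlashAction.slash_one,
    SlashAction.zero_slash] at h1
  exact hτ (congrFun h1 τ)

theorem heckeProd_ne_zero (hF : MDiff F) (h0 : ∃ τ, F τ ≠ 0) :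
    ∃ τ, heckeProd N ℓ k F τ ≠ 0 := by
  by_contra hcon
  push Not at hcon
  have h1 : heckeProd N ℓ k F = 0 := funext hcon
  rw [heckeProd, UpperHalfPlane.prod_eq_zero_iff (fun q _ => hF.slash k _)] at h1
  obtain ⟨q, -, hq⟩ := h1
  exact slash_ne_zero k _ h0 hq

/-! ### From `HasQ` to `HasExp` -/

theorem hasExp_periodic {f : ℍ → ℂ} {φ : LaurentSeries ℂ} (hf : HasExp (qc 1) f φ) (τ : ℍ) :
    f (((1 : ℕ) : ℝ) +ᵥ τ) = f τ := by
  obtain ⟨m, P, hP, hf⟩ := hf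
  have h1 := hf (((1 : ℕ) : ℝ) +ᵥ τ)
  have h2 := hf τ
  simp only [qc_vadd 1 τ] at h1
  have h3 : qc 1 τ ^ m * f (((1 : ℕ) : ℝ) +ᵥ τ) = qc 1 τ ^ m * f τ := h1.unique h2
  exact mul_left_cancel₀ (pow_ne_zero m (qc_ne_zero 1 τ)) h3

/-- translation by one -/
def Tp : GL(2, ℝ)⁺ := AnFun.upper 1 1 1

theorem Tp_smul (τ : ℍ) : ((Tp : GL(2, ℝ)⁺) : GL (Fin 2) ℝ) • τ = ((1 : ℕ) : ℝ) +ᵥ τ := by
  apply UpperHalfPlane.ext
  rw [Tp, coe_upper_smul, UpperHalfPlane.coe_vadd]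
  push_cast
  ring

theorem act_Tp {x : Mer} {φ : LaurentSeries ℂ} (hx : HasQ 1 x φ) : act Tp x = x := by
  obtain ⟨a, b, α, β, hb, ha', hb', rfl, hφ⟩ := hx
  rw [map_div₀, act_algebraMap, act_algebraMap]
  congr 2
  · ext τ
    rw [compHol_apply, Tp_smul]
    exact hasExp_periodic ha' τ
  · ext τ
    rw [compHol_apply, Tp_smul]
    exact hasExp_periodic hb' τ

theorem hasExp_of_hasQ {f : Hol} {φ : LaurentSeries ℂ} (hQ : HasQ 1 (algebraMap Hol Mer f) φ)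
    (hb : IsBoundedAtImInfty (f : ℍ → ℂ)) : HasExp (qc 1) f φ := by
  have hper : ∀ τ : ℍ, (f : ℍ → ℂ) (((1 : ℕ) : ℝ) +ᵥ τ) = (f : ℍ → ℂ) τ := by
    intro τ
    have h1 := act_Tp hQ
    rw [act_algebraMap] at h1
    have h2 := IsFractionRing.injective Hol Mer h1
    have h3 := congrFun (congrArg Subtype.val h2) τ
    rwa [compHol_apply, Tp_smul] at h3
  have h1 : HasExp (qc 1) f _ := HasExp.of_hasPS (hasPS_of_bounded hper f.2 hb)
  rw [hQ.unique (HasQ.of_hol h1)]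
  exact h1

/-! ### The slash action in `Mer` -/

/-- the automorphy factor `|det g|^(k-1) (cτ+d)^(-k)` as a holomorphic function. -/
def jfac (k : ℤ) (g : GL(2, ℝ)⁺) : Hol :=
  ⟨fun τ => ((|((g : GL (Fin 2) ℝ).det.val)| : ℝ) : ℂ) ^ (k - 1) *
    denom (g : GL (Fin 2) ℝ) τ ^ (-k),
    mdifferentiable_const.mul (mdifferentiable_denom_zpow _ _)⟩

theorem slash_eq_jfac (k : ℤ) (g : GL(2, ℝ)⁺) (f : Hol) (τ : ℍ) :
    ((f : ℍ → ℂ) ∣[k] (g : GL (Fin 2) ℝ)) τ = (jfac k g * compHol g f : Hol).1 τ := by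
  rw [ModularForm.slash_apply, σ, if_pos (by exact g.2)]
  show _ = (jfac k g).1 τ * (f : ℍ → ℂ) ((g : GL (Fin 2) ℝ) • τ)
  simp only [jfac, ContinuousAlgEquiv.refl_apply]
  ring

/-- a slash translate of a holomorphic function as a holomorphic function -/
def slashHol (k : ℤ) (g : GL(2, ℝ)⁺) (f : Hol) : Hol :=
  ⟨(f : ℍ → ℂ) ∣[k] (g : GL (Fin 2) ℝ), f.2.slash k _⟩

theorem algebraMap_slashHol (k : ℤ) (g : GL(2, ℝ)⁺) (f : Hol) :
    algebraMap Hol Mer (slashHol k g f) =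
      algebraMap Hol Mer (jfac k g) * act g (algebraMap Hol Mer f) := by
  rw [act_algebraMap, ← map_mul]
  congr 1
  ext τ
  exact slash_eq_jfac k g f τ

/-- `heckeProd` as a holomorphic function -/
def heckeHol (N ℓ : ℕ) [NeZero N] [NeZero ℓ] (k : ℤ) (f : Hol) : Hol :=
  ∏ q : Cos N ℓ, slashHol k (del q) f

theorem coe_heckeHol (k : ℤ) (f : Hol) : (heckeHol N ℓ k f : ℍ → ℂ) = heckeProd N ℓ k f := by
  rw [heckeHol, heckeProd]
  exact map_prod Hol.val _ _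

theorem algebraMap_heckeHol (k : ℤ) (f : Hol) :
    algebraMap Hol Mer (heckeHol N ℓ k f) =
      (∏ q : Cos N ℓ, algebraMap Hol Mer (jfac k (del q))) *
        ∏ q : Cos N ℓ, act (del q) (algebraMap Hol Mer f) := by
  rw [heckeHol, map_prod, ← Finset.prod_mul_distrib]
  exact Finset.prod_congr rfl fun q _ => algebraMap_slashHol k _ f

section Main

variable {L : Type*} [Field L] [Algebra ℚ L] [Algebra L ℂ]

/-- a form of trivial character has an expansion at infinity. -/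
theorem exists_hasExp (hF : IsCharForm N k 1 F) : ∃ β, HasExp (qc 1) F β := by
  have hper : ∀ τ : ℍ, F (((1 : ℕ) : ℝ) +ᵥ τ) = F τ := by
    intro τ
    have hT : ModularGroup.T ∈ Gamma0 N := by
      rw [Gamma0_mem]
      simp [ModularGroup.coe_T]
    have h := congrFun (hF.slash ⟨_, hT⟩) τ
    rw [ModularForm.SL_slash_apply] at h
    have h2 : ModularGroup.T • τ = ((1 : ℕ) : ℝ) +ᵥ τ := by
      rw [UpperHalfPlane.modular_T_smul]
      simp
    simp only [MonoidHom.one_apply, Units.val_one, one_smul] at h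
    rw [h2] at h
    simpa [denom, ModularGroup.coe_T] using h
  refine ⟨_, HasExp.of_hasPS (hasPS_of_bounded (h := 1) hper hF.holo ?_)⟩
  have := hF.bdd 1
  rwa [SlashAction.slash_one] at this

/-- **Hecke equivariance of the Kummer relation.** -/
theorem rel_hecke (hfin : FiniteAlong L (heckeAlphaBar L N ℓ))
    (hdeg : finrankAlong L (heckeAlphaBar L N ℓ) ≤ (subGamma0 N ℓ).index)
    {n : ℕ} {χ : Gamma0 N →* ℂˣ} {f : laurentBaseChange L (modularFunctionFieldFull N)}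
    (h : Rel N n χ (f : LaurentSeries L)) :
    Rel N n (heckeChar N ℓ χ)
      (normAlong (heckeAlphaBar L N ℓ) (heckeBetaBar L N ℓ f) : LaurentSeries L) := by
  obtain ⟨k, B, E, β, hB, hE, hB0, hE0, hβ, hEn⟩ := h
  let b : Hol := ⟨B, hB.holo⟩
  let e : Hol := ⟨E, hE.holo⟩
  have key : algebraMap Hol Mer e ^ n = anN N f * algebraMap Hol Mer b ^ n := by
    have h1 : HasQ 1 (algebraMap Hol Mer (e ^ n)) (toC (f : LaurentSeries L) * β ^ n) :=
      HasQ.of_hol hEn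
    have h2 : HasQ 1 (anN N f * algebraMap Hol Mer b ^ n) (toC (f : LaurentSeries L) * β ^ n) :=
      (hasQ_anN f).mul ((HasQ.of_hol (f := b) hβ).pow n)
    rw [map_pow] at h1
    exact h1.unique' h2
  set g := normAlong (heckeAlphaBar L N ℓ) (heckeBetaBar L N ℓ f) with hg
  have hnorm : anN N g = ∏ q : Cos N ℓ, act (del q) (anN N f) := anN_norm_beta hfin hdeg f
  have key2 : algebraMap Hol Mer (heckeHol N ℓ k e) ^ n =
      anN N g * algebraMap Hol Mer (heckeHol N ℓ k b) ^ n := by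
    rw [algebraMap_heckeHol, algebraMap_heckeHol, mul_pow, mul_pow, ← Finset.prod_pow (n := n)
      (f := fun q => act (del q) (algebraMap Hol Mer e))]
    have h3 : ∀ q : Cos N ℓ, act (del q) (algebraMap Hol Mer e) ^ n =
        act (del q) (anN N f) * act (del q) (algebraMap Hol Mer b) ^ n := by
      intro q
      rw [← map_pow, key, map_mul, map_pow]
    rw [Finset.prod_congr rfl fun q _ => h3 q, Finset.prod_mul_distrib, Finset.prod_pow, hnorm]
    ring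
  have hB' : IsCharForm N (k * (nCos N ℓ : ℤ)) 1 (heckeHol N ℓ k b : Hol).1 := by
    rw [coe_heckeHol, ← heckeChar_one (N := N) (ℓ := ℓ)]
    exact isCharForm_heckeProd hB
  have hE' : IsCharForm N (k * (nCos N ℓ : ℤ)) (heckeChar N ℓ χ) (heckeHol N ℓ k e : Hol).1 := by
    rw [coe_heckeHol]
    exact isCharForm_heckeProd hE
  obtain ⟨β', hβ'⟩ := exists_hasExp hB'
  refine ⟨_, _, _, β', hB', hE', ?_, ?_, hβ', ?_⟩
  · rw [coe_heckeHol]
    exact heckeProd_ne_zero hB.holo hB0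
  · rw [coe_heckeHol]
    exact heckeProd_ne_zero hE.holo hE0
  · have h4 : HasQ 1 (algebraMap Hol Mer (heckeHol N ℓ k e ^ n))
        (toC (g : LaurentSeries L) * β' ^ n) := by
      rw [map_pow, key2]
      exact (hasQ_anN g).mul ((HasQ.of_hol hβ').pow n)
    refine hasExp_of_hasQ h4 ?_
    have h5 : IsBoundedAtImInfty (heckeHol N ℓ k e : Hol).1 := by
      have := hE'.bdd 1
      rwa [SlashAction.slash_one] at this
    have h6 : ((heckeHol N ℓ k e ^ n : Hol) : ℍ → ℂ) =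
        ∏ _i ∈ Finset.range n, (heckeHol N ℓ k e : Hol).1 := by
      rw [Finset.prod_const, Finset.card_range]
      rfl
    rw [h6]
    exact isBounded_prod _ fun _ _ => h5

end Main

end Fermat.Agent.JAN.KummerHecke
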