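import Fermat.Agent.JAN.Defs
import Fermat.Agent.MFF.Ratio

/-!
# API for forms with character on `Γ₀(N)` (`IsCharForm`)
-/

set_option autoImplicit false

noncomputable section

open UpperHalfPlane CongruenceSubgroup ModularCurve FermatJ
open scoped MatrixGroups ModularForm Manifold Topology

namespace Fermat.Agent.JAN

/-! ### nonzero functions -/

theorem ne_zero_iff_exists {f : ℍ → ℂ} : f ≠ 0 ↔ ∃ τ, f τ ≠ 0 := Function.ne_iff

theorem mdiff_mul_ne_zero {f g : ℍ → ℂ} (hf : MDiff f) (hg : MDiff g) (hf0 : f ≠ 0) (hg0 : g ≠ 0) :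
    f * g ≠ 0 := by
  rw [Ne, UpperHalfPlane.mul_eq_zero_iff hf hg]
  tauto

theorem mdiff_pow {f : ℍ → ℂ} (hf : MDiff f) (n : ℕ) : MDiff (f ^ n) := by
  induction n with
  | zero => rw [pow_zero]; exact mdifferentiable_const
  | succ n ih => rw [pow_succ]; exact ih.mul hf

theorem mdiff_mul_left_cancel {f g h : ℍ → ℂ} (hf : MDiff f) (hg : MDiff g) (hh : MDiff h)
    (hf0 : f ≠ 0) (h1 : f * g = f * h) : g = h := by
  have h2 : f * (g - h) = 0 := by rw [mul_sub, h1, sub_self]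
  rw [UpperHalfPlane.mul_eq_zero_iff hf (hg.sub hh)] at h2
  exact sub_eq_zero.mp (h2.resolve_left hf0)

/-- Two holomorphic functions on `ℍ` with the same `n`-th power differ by a root of unity. -/
theorem eq_const_mul_of_pow_eq {n : ℕ} (hn : n ≠ 0) {f g : ℍ → ℂ} (hf : MDiff f) (hg : MDiff g)
    (h : f ^ n = g ^ n) : ∃ ζ : ℂ, ζ ^ n = 1 ∧ f = ζ • g := by
  classical
  have hprod : ∏ ζ ∈ Polynomial.nthRootsFinset n (1 : ℂ), (f - ζ • g) = 0 := by
    have hprim : IsPrimitiveRoot (Complex.exp (2 * Real.pi * Complex.I / n)) n :=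
      Complex.isPrimitiveRoot_exp n hn
    funext τ
    have h1 := hprim.pow_sub_pow_eq_prod_sub_mul (f τ) (g τ) (Nat.pos_of_ne_zero hn)
    have h2 : f τ ^ n = g τ ^ n := congrFun h τ
    rw [h2, sub_self] at h1
    simp only [Finset.prod_apply, Pi.sub_apply, Pi.smul_apply, smul_eq_mul, Pi.zero_apply]
    exact h1.symm
  rw [UpperHalfPlane.prod_eq_zero_iff (fun ζ _ => hf.sub (hg.const_smul ζ))] at hprod
  obtain ⟨ζ, hζ, h3⟩ := hprod
  rw [Polynomial.mem_nthRootsFinset (Nat.pos_of_ne_zero hn)] at hζ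
  exact ⟨ζ, hζ, sub_eq_zero.mp h3⟩

/-! ### slash action -/

theorem slash_apply_eq {k : ℤ} {f : ℍ → ℂ} (g : SL(2, ℤ)) (τ : ℍ) :
    (f ∣[k] g) τ = f (g • τ) * denom g τ ^ (-k) := ModularForm.SL_slash_apply f g τ

theorem smul_apply_of_slash {k : ℤ} {f : ℍ → ℂ} {g : SL(2, ℤ)} {c : ℂ} (h : f ∣[k] g = c • f)
    (τ : ℍ) : f (g • τ) = c * denom g τ ^ k * f τ := by
  have h1 := congrFun h τ
  rw [slash_apply_eq, Pi.smul_apply, smul_eq_mul] at h1
  have h2 := denom_ne_zero g τ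
  have h3 : f (g • τ) = f (g • τ) * denom g τ ^ (-k) * denom g τ ^ k := by
    rw [mul_assoc, ← zpow_add₀ h2]
    simp
  rw [h3, h1]
  ring

theorem slash_of_smul_apply {k : ℤ} {f : ℍ → ℂ} {g : SL(2, ℤ)} {c : ℂ}
    (h : ∀ τ, f (g • τ) = c * denom g τ ^ k * f τ) : f ∣[k] g = c • f := by
  funext τ
  rw [slash_apply_eq, Pi.smul_apply, smul_eq_mul, h τ]
  have h2 := denom_ne_zero g τ
  rw [mul_right_comm, mul_assoc c, ← zpow_add₀ h2]
  simp

theorem pow_slash (k : ℤ) (n : ℕ) (g : SL(2, ℤ)) (f : ℍ → ℂ) :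
    (f ^ n) ∣[n * k] g = (f ∣[k] g) ^ n := by
  induction n with
  | zero =>
    funext τ
    rw [slash_apply_eq]
    simp
  | succ n ih =>
    rw [pow_succ, pow_succ, ← ih, ← ModularForm.mul_slash_SL2]
    congr 1
    push_cast
    ring

theorem mdiff_slash {k : ℤ} {f : ℍ → ℂ} (hf : MDiff f) (g : SL(2, ℤ)) : MDiff (f ∣[k] g) :=
  hf.slash _ _

theorem slash_ne_zero {k : ℤ} {f : ℍ → ℂ} (hf : f ≠ 0) (g : SL(2, ℤ)) : f ∣[k] g ≠ 0 := by
  rwa [Ne, SlashAction.slash_eq_zero_iff]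

theorem bdd_of_pow_bdd {n : ℕ} (hn : n ≠ 0) {f : ℍ → ℂ} (h : IsBoundedAtImInfty (f ^ n)) :
    IsBoundedAtImInfty f := by
  rw [isBoundedAtImInfty_iff] at h ⊢
  obtain ⟨M, A, hM⟩ := h
  refine ⟨max M 1, A, fun z hz => ?_⟩
  have h1 := hM z hz
  rw [Pi.pow_apply, norm_pow] at h1
  by_contra hcon
  rw [not_le, max_lt_iff] at hcon
  have h2 : ‖f z‖ ≤ ‖f z‖ ^ n := le_self_pow₀ hcon.2.le hn
  linarith [hcon.1]

namespace IsCharForm

variable {N : ℕ} {k l : ℤ} {χ ψ : Gamma0 N →* ℂˣ} {E F : ℍ → ℂ}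

theorem cast (hE : IsCharForm N k χ E) (h : k = l) : IsCharForm N l χ E := h ▸ hE

theorem congr_char (hE : IsCharForm N k χ E) (h : χ = ψ) : IsCharForm N k ψ E := h ▸ hE

theorem one (N : ℕ) : IsCharForm N 0 1 (1 : ℍ → ℂ) where
  holo := mdifferentiable_const
  slash γ := by
    funext τ
    rw [slash_apply_eq]
    simp
  bdd g := by
    have : (1 : ℍ → ℂ) ∣[(0 : ℤ)] g = 1 := by
      funext τ
      rw [slash_apply_eq]
      simp
    rw [this]
    exact Filter.const_boundedAtFilter _ _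

theorem mul (hE : IsCharForm N k χ E) (hF : IsCharForm N l ψ F) :
    IsCharForm N (k + l) (χ * ψ) (E * F) where
  holo := hE.holo.mul hF.holo
  slash γ := by
    rw [ModularForm.mul_slash_SL2, hE.slash, hF.slash]
    funext τ
    simp only [Pi.mul_apply, Pi.smul_apply, smul_eq_mul, MonoidHom.mul_apply, Units.val_mul]
    ring
  bdd g := by
    rw [ModularForm.mul_slash_SL2]
    exact (hE.bdd g).mul (hF.bdd g)

theorem pow (hE : IsCharForm N k χ E) (n : ℕ) : IsCharForm N (n * k) (χ ^ n) (E ^ n) where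
  holo := mdiff_pow hE.holo n
  slash γ := by
    rw [pow_slash, hE.slash]
    funext τ
    simp [mul_pow]
  bdd g := by
    rw [pow_slash]
    induction n with
    | zero => rw [pow_zero]; exact Filter.const_boundedAtFilter _ _
    | succ n ih => rw [pow_succ]; exact ih.mul (hE.bdd g)

theorem smul (hE : IsCharForm N k χ E) (c : ℂ) : IsCharForm N k χ (c • E) where
  holo := hE.holo.const_smul c
  slash γ := by
    rw [ModularForm.SL_smul_slash, hE.slash, smul_comm]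
  bdd g := by
    rw [ModularForm.SL_smul_slash]
    exact (hE.bdd g).smul c

theorem add (hE : IsCharForm N k χ E) (hF : IsCharForm N k χ F) : IsCharForm N k χ (E + F) where
  holo := hE.holo.add hF.holo
  slash γ := by
    rw [SlashAction.add_slash, hE.slash, hF.slash, smul_add]
  bdd g := by
    rw [SlashAction.add_slash]
    exact (hE.bdd g).add (hF.bdd g)

theorem apply_smul (hE : IsCharForm N k χ E) (γ : Gamma0 N) (τ : ℍ) :
    E ((γ : SL(2, ℤ)) • τ) = (χ γ : ℂ) * denom (γ : SL(2, ℤ)) τ ^ k * E τ :=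
  smul_apply_of_slash (hE.slash γ) τ

/-- The weight of a nonzero form of trivial character is even; more generally
`χ(-1) = (-1)^k`. -/
theorem char_neg_one (hE : IsCharForm N k χ E) (hE0 : E ≠ 0) {γ : Gamma0 N}
    (hγ : (γ : SL(2, ℤ)) = -1) : (χ γ : ℂ) = (-1) ^ k := by
  obtain ⟨τ, hτ⟩ := ne_zero_iff_exists.mp hE0
  have h1 := hE.apply_smul γ τ
  have h2 : (γ : SL(2, ℤ)) • τ = τ := by
    rw [hγ, ModularGroup.SL_neg_smul, one_smul]
  have h3 : denom (γ : SL(2, ℤ)) τ = -1 := by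
    rw [hγ]
    simp [denom]
  rw [h2, h3] at h1
  have h4 : (χ γ : ℂ) * (-1) ^ k = 1 := by
    apply mul_right_cancel₀ hτ
    rw [one_mul]
    exact h1.symm
  have h5 : ((-1 : ℂ) ^ k) * (-1) ^ k = 1 := by
    rw [← mul_zpow]
    simp
  calc (χ γ : ℂ) = (χ γ : ℂ) * (((-1 : ℂ) ^ k) * (-1) ^ k) := by rw [h5, mul_one]
    _ = (χ γ : ℂ) * (-1) ^ k * (-1) ^ k := by ring
    _ = (-1) ^ k := by rw [h4, one_mul]

/-! ### relation with `ModularForm` -/

theorem of_modularForm [NeZero N] (f : ModularForm (Gamma0 N : Subgroup (GL (Fin 2) ℝ)) k) :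
    IsCharForm N k 1 f where
  holo := f.holo'
  slash γ := by
    rw [MonoidHom.one_apply, Units.val_one, one_smul]
    exact f.slash_action_eq' _ ⟨γ, γ.2, rfl⟩
  bdd g := ModularFormClass.bdd_at_infty_slash f g

/-- A form of trivial character as a `ModularForm`. -/
def toModularForm [NeZero N] (hE : IsCharForm N k 1 E) :
    ModularForm (Gamma0 N : Subgroup (GL (Fin 2) ℝ)) k where
  toFun := E
  slash_action_eq' := by
    rintro _ ⟨γ, hγ, rfl⟩
    have := hE.slash ⟨γ, hγ⟩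
    rwa [MonoidHom.one_apply, Units.val_one, one_smul] at this
  holo' := hE.holo
  bdd_at_cusps' := by
    intro c hc
    rw [Subgroup.IsArithmetic.isCusp_iff_isCusp_SL2Z] at hc
    rw [OnePoint.isBoundedAt_iff_forall_SL2Z hc]
    intro γ _
    exact hE.bdd γ

@[simp] theorem coe_toModularForm [NeZero N] (hE : IsCharForm N k 1 E) :
    ⇑hE.toModularForm = E := rfl

end IsCharForm

/-! ### translations -/

theorem denom_T_zpow (m : ℤ) (τ : ℍ) : denom ((ModularGroup.T ^ m : SL(2, ℤ))) τ = 1 := by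
  rw [ModularGroup.denom_apply, ModularGroup.coe_T_zpow]
  simp

theorem slash_T_zpow {k : ℤ} (f : ℍ → ℂ) (m : ℤ) (τ : ℍ) :
    (f ∣[k] (ModularGroup.T ^ m : SL(2, ℤ))) τ = f ((m : ℝ) +ᵥ τ) := by
  rw [slash_apply_eq, denom_T_zpow, one_zpow, mul_one, modular_T_zpow_smul]

/-- Expansion of a function invariant under `T ^ h`. -/
theorem hasPS_of_slash_T {k : ℤ} {f : ℍ → ℂ} {h : ℕ} [NeZero h]
    (hf : f ∣[k] (ModularGroup.T ^ (h : ℤ) : SL(2, ℤ)) = f) (hd : MDiff f)
    (hb : IsBoundedAtImInfty f) : HasPS (qc h) f (qExpansion h f) := by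
  refine hasPS_of_bounded (fun τ => ?_) hd hb
  have := congrFun hf τ
  rw [slash_T_zpow] at this
  exact_mod_cast this

/-- Functions with a power series expansion in `qc h` vanish iff the series does. -/
theorem hasPS_qc_eq_zero_iff {f : ℍ → ℂ} {h : ℕ} [NeZero h] {P : PowerSeries ℂ}
    (hf : HasPS (qc h) f P) : P = 0 ↔ f = 0 := by
  constructor
  · rintro rfl
    funext τ
    have := hf τ
    simp only [map_zero, zero_mul] at this
    exact this.unique hasSum_zero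
  · rintro rfl
    exact hf.unique (eventually_mem_range_qc h) (HasPS.zero _)

theorem hasExp_qc_eq_zero_iff {f : ℍ → ℂ} {h : ℕ} [NeZero h] {φ : LaurentSeries ℂ}
    (hf : HasExp (qc h) f φ) : φ = 0 ↔ f = 0 := by
  constructor
  · rintro rfl
    funext τ
    exact hf.eq_zero_of_zero (qc_ne_zero h τ)
  · rintro rfl
    exact hf.unique (eventually_mem_range_qc h) (HasExp.zero _)

theorem eq_of_hasExp {f g : ℍ → ℂ} {h : ℕ} [NeZero h] {φ : LaurentSeries ℂ}
    (hf : HasExp (qc h) f φ) (hg : HasExp (qc h) g φ) : f = g := by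
  have h1 := hf.sub hg
  rw [sub_self] at h1
  have h2 := (hasExp_qc_eq_zero_iff h1).mp rfl
  funext τ
  exact sub_eq_zero.mp (congrFun h2 τ)

namespace IsCharForm

variable {N : ℕ} {k l : ℤ} {χ ψ : Gamma0 N →* ℂˣ} {E F : ℍ → ℂ}

theorem T_mem (N : ℕ) : ModularGroup.T ∈ Gamma0 N := by
  rw [Gamma0_mem]
  simp [ModularGroup.coe_T]

theorem slash_T (hE : IsCharForm N k 1 E) :
    E ∣[k] (ModularGroup.T ^ ((1 : ℕ) : ℤ) : SL(2, ℤ)) = E := by
  have := hE.slash ⟨ModularGroup.T, T_mem N⟩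
  rw [MonoidHom.one_apply, Units.val_one, one_smul] at this
  simpa using this

theorem hasPS (hE : IsCharForm N k 1 E) : HasPS (qc 1) E (qExpansion 1 E) := by
  have h1 : IsBoundedAtImInfty E := by
    have := hE.bdd 1
    rwa [SlashAction.slash_one] at this
  have := hasPS_of_slash_T hE.slash_T hE.holo h1
  simpa using this

theorem hasExp (hE : IsCharForm N k 1 E) : HasExp (qc 1) E (MFF.LQ E) :=
  HasExp.of_hasPS hE.hasPS

theorem exp_eq (hE : IsCharForm N k 1 E) {φ : LaurentSeries ℂ} (h : HasExp (qc 1) E φ) :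
    φ = MFF.LQ E :=
  h.unique (eventually_mem_range_qc 1) hE.hasExp

end IsCharForm

/-! ### local orders: the interface between `Orders.lean` (P4) and `KummerMap.lean` (P5) -/

/-- order of vanishing at a point of the upper half plane -/
def ordH (A : ℍ → ℂ) (τ : ℍ) : ℕ := analyticOrderNatAt (A ∘ ofComplex) (τ : ℂ)

/-- `f` is the quotient of the two forms `A`, `B` of trivial character. -/
structure IsQuot (N : ℕ) {L : Type*} [Field L] [Algebra L ℂ] (f : LaurentSeries L) (k : ℤ)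
    (A B : ℍ → ℂ) : Prop where
  num : IsCharForm N k 1 A
  den : IsCharForm N k 1 B
  den_ne : B ≠ 0
  exp : ∃ β, HasExp (qc 1) B β ∧ HasExp (qc 1) A (toC f * β)

/-- Divisibility of all local orders of `A / B` by `n` (`n e` at elliptic points of order `e`). -/
structure LocalDvd (N n : ℕ) (k : ℤ) (A B : ℍ → ℂ) : Prop where
  ell : ∀ (τ : ℍ) (γ : Gamma0 N), (γ : SL(2, ℤ)) • τ = τ →
    ∃ m : ℤ, (ordH A τ : ℤ) - ordH B τ = n * m ∧ denom (γ : SL(2, ℤ)) τ ^ (2 * m) = 1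
  cusp : ∀ (g : SL(2, ℤ)) (h : ℕ) [NeZero h], g * ModularGroup.T ^ h * g⁻¹ ∈ Gamma0 N →
    ∀ P Q : PowerSeries ℂ, HasPS (qc h) (A ∣[k] g) P → HasPS (qc h) (B ∣[k] g) Q →
      (n : ℤ) ∣ (P.order.toNat : ℤ) - Q.order.toNat

end Fermat.Agent.JAN
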