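import Mathlib
import Fermat.Agent.Jan.RelFundamental
import Fermat.Agent.Jan.HeckeInputs
import Fermat.Agent.Jan.PushPull
import Fermat.Prelude.Def_ModularCurve_HeckeModule

/-!
# Kummer theory of the degree zero divisor class group

For a function field of one variable `F / K` with `K` algebraically closed of characteristic zero,
and `f : F` all of whose orders are divisible by `n`, the class `cls n f` of `div f / n` in
`Pic0 K F`.  It is multiplicative in `f`, is killed by `n`, every `n`-torsion class is of this form,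
and it vanishes exactly when `f` is an `n`-th power.  Pull back, push forward, correspondences
and semilinear automorphisms act on it through the function `f`.
-/

set_option autoImplicit false
set_option linter.unusedSectionVars false
set_option linter.style.haveILetI false

noncomputable section

open AlgebraicCurve

namespace Fermat.Agent.JAN.KumPic

open Fermat.Agent.Jan Fermat.Agent.Jan.PushPull

section DvdOrd

variable {K F : Type*} [Field K] [Field F] [Algebra K F]

variable (K) in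
/-- Every order of `f` is divisible by `n`. -/
def DvdOrd (n : ℕ) (f : F) : Prop := ∀ v : Place K F, (n : ℤ) ∣ v.ord f

theorem DvdOrd.one (n : ℕ) : DvdOrd K n (1 : F) := fun v => by simp

theorem DvdOrd.zero (n : ℕ) : DvdOrd K n (0 : F) := fun v => by simp

theorem DvdOrd.mul {n : ℕ} {f g : F} (hf : DvdOrd K n f) (hg : DvdOrd K n g) :
    DvdOrd K n (f * g) := fun v => by
  rcases eq_or_ne f 0 with rfl | hf0
  · simp
  rcases eq_or_ne g 0 with rfl | hg0
  · simp
  rw [v.ord_mul hf0 hg0]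
  exact dvd_add (hf v) (hg v)

theorem DvdOrd.inv {n : ℕ} {f : F} (hf : DvdOrd K n f) : DvdOrd K n f⁻¹ := fun v => by
  rw [v.ord_inv]
  exact (dvd_neg).mpr (hf v)

theorem DvdOrd.div {n : ℕ} {f g : F} (hf : DvdOrd K n f) (hg : DvdOrd K n g) :
    DvdOrd K n (f / g) := by
  rw [div_eq_mul_inv]
  exact hf.mul hg.inv

theorem DvdOrd.pow {n : ℕ} {f : F} (hf : DvdOrd K n f) (m : ℕ) : DvdOrd K n (f ^ m) := fun v => by
  rw [Fermat.FF.ord_pow]
  exact (hf v).mul_left _

theorem DvdOrd.zpow {n : ℕ} {f : F} (hf : DvdOrd K n f) (m : ℤ) : DvdOrd K n (f ^ m) := fun v => by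
  rw [v.ord_zpow]
  exact (hf v).mul_left _

theorem DvdOrd.mul_pow {n : ℕ} {f : F} (hf : DvdOrd K n f) (m : ℕ) :
    DvdOrd K (n * m) (f ^ m) := fun v => by
  rw [Fermat.FF.ord_pow, Nat.cast_mul, mul_comm (n : ℤ)]
  exact mul_dvd_mul_left _ (hf v)

theorem DvdOrd.pow_self (n : ℕ) (f : F) : DvdOrd K n (f ^ n) := fun v => by
  rw [Fermat.FF.ord_pow]
  exact dvd_mul_right _ _

theorem DvdOrd.of_dvd {n m : ℕ} (h : m ∣ n) {f : F} (hf : DvdOrd K n f) : DvdOrd K m f :=
  fun v => (Int.natCast_dvd_natCast.mpr h).trans (hf v)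

theorem DvdOrd.algebraMap (n : ℕ) (c : K) : DvdOrd K n (algebraMap K F c) := fun v => by
  rw [Fermat.FF.ord_algebraMap]
  exact dvd_zero _

theorem DvdOrd.prod {ι : Type*} {n : ℕ} (s : Finset ι) (f : ι → F)
    (hf : ∀ i ∈ s, DvdOrd K n (f i)) : DvdOrd K n (∏ i ∈ s, f i) := by
  classical
  induction s using Finset.induction_on with
  | empty => simpa using DvdOrd.one (K := K) (F := F) n
  | insert a s ha ih =>
    rw [Finset.prod_insert ha]
    exact (hf a (Finset.mem_insert_self a s)).mul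
      (ih fun i hi => hf i (Finset.mem_insert_of_mem hi))

theorem DvdOrd.smul {n : ℕ} {f : F} (hf : DvdOrd K n f) (g : SemilinearAut K F) :
    DvdOrd K n (g • f) := fun v => by
  have h := SemilinearAut.ord_smul g (g⁻¹ • v) f
  rw [smul_inv_smul] at h
  rw [h]
  exact hf _

end DvdOrd

section Cls

variable {K F : Type*} [Field K] [Field F] [Algebra K F] [HasPrincipalDivisors K F]

/-- The principal divisor of `f` (zero when `f = 0`). -/
def divOf (f : F) : Divisor K F :=
  open Classical in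
  if hf : f ≠ 0 then Classical.choose (HasPrincipalDivisors.exists_divisor (K := K) f hf) else 0

theorem divOf_apply (f : F) (v : Place K F) : divOf f v = v.ord f := by
  unfold divOf
  split_ifs with h
  · exact (Classical.choose_spec (HasPrincipalDivisors.exists_divisor (K := K) f h)).1 v
  · rw [not_ne_iff] at h
    simp [h]

theorem degree_divOf (f : F) : Divisor.degree (divOf (K := K) f) = 0 := by
  unfold divOf
  split_ifs with h
  · exact (Classical.choose_spec (HasPrincipalDivisors.exists_divisor (K := K) f h)).2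
  · exact map_zero _

/-- A divisor `D` with `n D = div f` has degree zero. -/
theorem degree_eq_zero_of_mul {n : ℕ} (hn : n ≠ 0) {f : F} {D : Divisor K F}
    (hD : ∀ v, (n : ℤ) * D v = v.ord f) : Divisor.degree D = 0 := by
  have h1 : n • D = divOf f := by
    ext v
    rw [divOf_apply, ← hD v]
    simp
  have h2 := degree_divOf (K := K) f
  rw [← h1, map_nsmul, smul_eq_zero] at h2
  exact h2.resolve_left hn

/-- The divisor `div f / n`. -/
def rootDiv (n : ℕ) (f : F) : Divisor K F :=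
  (divOf f).mapRange (fun z : ℤ => z / n) (Int.zero_ediv _)

theorem rootDiv_apply (n : ℕ) (f : F) (v : Place K F) : rootDiv n f v = v.ord f / n := by
  unfold rootDiv
  rw [Finsupp.mapRange_apply, divOf_apply]

theorem mul_rootDiv_apply {n : ℕ} {f : F} (hf : DvdOrd K n f) (v : Place K F) :
    (n : ℤ) * rootDiv n f v = v.ord f := by
  rw [rootDiv_apply]
  exact Int.mul_ediv_cancel' (hf v)

theorem rootDiv_mem_degZero {n : ℕ} (hn : n ≠ 0) {f : F} (hf : DvdOrd K n f) :
    rootDiv n f ∈ Divisor.degZero (K := K) (F := F) :=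
  Divisor.mem_degZero.mpr (degree_eq_zero_of_mul hn (mul_rootDiv_apply hf))

/-- The class of `div f / n` in `Pic0 K F` (zero when it does not make sense). -/
def cls (n : ℕ) (f : F) : Pic0 K F :=
  open Classical in
  if h : n ≠ 0 ∧ DvdOrd K n f then Pic0.mk ⟨rootDiv n f, rootDiv_mem_degZero h.1 h.2⟩ else 0

theorem cls_eq_mk {n : ℕ} (hn : n ≠ 0) {f : F} {D : Divisor.degZero (K := K) (F := F)}
    (hD : ∀ v, (n : ℤ) * (D : Divisor K F) v = v.ord f) : cls n f = Pic0.mk D := by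
  have hf : DvdOrd K n f := fun v => by
    rw [← hD v]
    exact dvd_mul_right _ _
  unfold cls
  rw [dif_pos ⟨hn, hf⟩]
  congr 1
  apply Subtype.ext
  ext v
  have h1 := mul_rootDiv_apply hf v
  rw [← hD v] at h1
  exact mul_left_cancel₀ (by exact_mod_cast hn) h1

theorem exists_degZero {n : ℕ} (hn : n ≠ 0) {f : F} (hf : DvdOrd K n f) :
    ∃ D : Divisor.degZero (K := K) (F := F), ∀ v, (n : ℤ) * (D : Divisor K F) v = v.ord f :=
  ⟨⟨rootDiv n f, rootDiv_mem_degZero hn hf⟩, mul_rootDiv_apply hf⟩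

theorem cls_of_not {n : ℕ} {f : F} (h : ¬ (n ≠ 0 ∧ DvdOrd K n f)) :
    cls (K := K) n f = 0 := by
  unfold cls
  rw [dif_neg h]

@[simp]
theorem cls_one (n : ℕ) : cls (K := K) n (1 : F) = 0 := by
  rcases eq_or_ne n 0 with rfl | hn
  · exact cls_of_not (by simp)
  rw [cls_eq_mk hn (D := 0) fun v => by simp, Pic0.mk_zero]

theorem cls_mul {n : ℕ} {f g : F} (hf0 : f ≠ 0) (hg0 : g ≠ 0) (hf : DvdOrd K n f)
    (hg : DvdOrd K n g) : cls (K := K) n (f * g) = cls n f + cls n g := by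
  rcases eq_or_ne n 0 with rfl | hn
  · rw [cls_of_not (by simp), cls_of_not (by simp), cls_of_not (by simp), add_zero]
  obtain ⟨D, hD⟩ := exists_degZero hn hf
  obtain ⟨E, hE⟩ := exists_degZero hn hg
  rw [cls_eq_mk hn hD, cls_eq_mk hn hE, ← Pic0.mk_add]
  refine cls_eq_mk hn fun v => ?_
  rw [v.ord_mul hf0 hg0, ← hD v, ← hE v, AddSubgroup.coe_add, Finsupp.add_apply, mul_add]

theorem cls_algebraMap (n : ℕ) (c : K) : cls (K := K) n (algebraMap K F c) = 0 := by
  rcases eq_or_ne n 0 with rfl | hn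
  · exact cls_of_not (by simp)
  rw [cls_eq_mk hn (D := 0) fun v => by simp [Fermat.FF.ord_algebraMap], Pic0.mk_zero]

theorem cls_inv {n : ℕ} {f : F} (hf : DvdOrd K n f) :
    cls (K := K) n f⁻¹ = - cls n f := by
  rcases eq_or_ne n 0 with rfl | hn
  · rw [cls_of_not (by simp), cls_of_not (by simp), neg_zero]
  rcases eq_or_ne f 0 with rfl | hf0
  · rw [inv_zero]
    have : cls (K := K) n (0 : F) = 0 := by
      have := cls_algebraMap (K := K) (F := F) n 0
      rwa [map_zero] at this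
    rw [this, neg_zero]
  rw [eq_neg_iff_add_eq_zero, ← cls_mul (inv_ne_zero hf0) hf0 hf.inv hf, inv_mul_cancel₀ hf0,
    cls_one]

theorem cls_div {n : ℕ} {f g : F} (hf0 : f ≠ 0) (hg0 : g ≠ 0) (hf : DvdOrd K n f)
    (hg : DvdOrd K n g) : cls (K := K) n (f / g) = cls n f - cls n g := by
  rw [div_eq_mul_inv, cls_mul hf0 (inv_ne_zero hg0) hf hg.inv, cls_inv hg, sub_eq_add_neg]

theorem cls_pow {n : ℕ} {f : F} (hf0 : f ≠ 0) (hf : DvdOrd K n f) (m : ℕ) :
    cls (K := K) n (f ^ m) = m • cls n f := by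
  induction m with
  | zero => simp
  | succ m ih => rw [pow_succ, cls_mul (pow_ne_zero m hf0) hf0 (hf.pow m) hf, ih, succ_nsmul]

theorem cls_zpow {n : ℕ} {f : F} (hf0 : f ≠ 0) (hf : DvdOrd K n f) (m : ℤ) :
    cls (K := K) n (f ^ m) = m • cls n f := by
  obtain ⟨k, rfl | rfl⟩ := m.eq_nat_or_neg
  · rw [zpow_natCast, cls_pow hf0 hf, natCast_zsmul]
  · rw [_root_.zpow_neg, zpow_natCast, cls_inv (hf.pow k), cls_pow hf0 hf, neg_smul, natCast_zsmul]

theorem cls_prod {ι : Type*} {n : ℕ} (s : Finset ι) (f : ι → F) (hf0 : ∀ i ∈ s, f i ≠ 0)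
    (hf : ∀ i ∈ s, DvdOrd K n (f i)) :
    cls (K := K) n (∏ i ∈ s, f i) = ∑ i ∈ s, cls n (f i) := by
  classical
  induction s using Finset.induction_on with
  | empty => simp
  | insert a s ha ih =>
    have h1 : ∀ i ∈ s, f i ≠ 0 := fun i hi => hf0 i (Finset.mem_insert_of_mem hi)
    have h2 : ∀ i ∈ s, DvdOrd K n (f i) := fun i hi => hf i (Finset.mem_insert_of_mem hi)
    rw [Finset.prod_insert ha, Finset.sum_insert ha, cls_mul (hf0 a (Finset.mem_insert_self a s))
      (Finset.prod_ne_zero_iff.mpr h1) (hf a (Finset.mem_insert_self a s)) (DvdOrd.prod s f h2),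
      ih h1 h2]

/-- The class of an `n`-th power vanishes. -/
theorem cls_pow_self (n : ℕ) {h : F} (h0 : h ≠ 0) : cls (K := K) n (h ^ n) = 0 := by
  rcases eq_or_ne n 0 with rfl | hn
  · exact cls_of_not (by simp)
  have hdeg : divOf (K := K) h ∈ Divisor.degZero (K := K) (F := F) :=
    Divisor.mem_degZero.mpr (degree_divOf h)
  rw [cls_eq_mk hn (D := ⟨divOf h, hdeg⟩) fun v => by
    rw [Fermat.FF.ord_pow]
    simp only [divOf_apply]]
  refine (QuotientAddGroup.eq_zero_iff _).mpr ?_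
  rw [AddSubgroup.mem_addSubgroupOf]
  exact ⟨h, h0, fun v => divOf_apply h v⟩

/-- `m • cls (n m) f = cls n f`. -/
theorem nsmul_cls_mul {n m : ℕ} (hm : m ≠ 0) {f : F} (hf : DvdOrd K (n * m) f) :
    m • cls (K := K) (n * m) f = cls n f := by
  rcases eq_or_ne n 0 with rfl | hn
  · rw [cls_of_not (by simp), cls_of_not (by simp), smul_zero]
  obtain ⟨D, hD⟩ := exists_degZero (mul_ne_zero hn hm) hf
  rw [cls_eq_mk (mul_ne_zero hn hm) hD]
  have h1 : cls n f = Pic0.mk (m • D) := by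
    refine cls_eq_mk hn fun v => ?_
    rw [← hD v, AddSubgroup.coe_nsmul, Finsupp.coe_smul, Pi.smul_apply, nsmul_eq_mul]
    push_cast
    ring
  rw [h1]
  rfl

/-- `cls (n m) (f ^ m) = cls n f`. -/
theorem cls_mul_pow {n m : ℕ} (hm : m ≠ 0) {f : F} (hf : DvdOrd K n f) :
    cls (K := K) (n * m) (f ^ m) = cls n f := by
  rcases eq_or_ne n 0 with rfl | hn
  · rw [cls_of_not (by simp), cls_of_not (by simp)]
  obtain ⟨D, hD⟩ := exists_degZero hn hf
  rw [cls_eq_mk hn hD]
  refine cls_eq_mk (mul_ne_zero hn hm) fun v => ?_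
  rw [Fermat.FF.ord_pow, ← hD v]
  push_cast
  ring

/-- The class is killed by `n`. -/
theorem nsmul_cls (n : ℕ) {f : F} (hf0 : f ≠ 0) : n • cls (K := K) n f = 0 := by
  by_cases h : n ≠ 0 ∧ DvdOrd K n f
  · rw [← cls_pow hf0 h.2, cls_pow_self n hf0]
  · rw [cls_of_not h, smul_zero]

theorem cls_mem_torsion (n : ℕ) {f : F} (hf0 : f ≠ 0) :
    cls (K := K) n f ∈ Pic0.torsion K F n := by
  rw [Pic0.mem_torsion, natCast_zsmul]
  exact nsmul_cls n hf0

/-- Every `n`-torsion class is the class of some function. -/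
theorem exists_cls_eq {n : ℕ} (hn : n ≠ 0) {x : Pic0 K F} (hx : x ∈ Pic0.torsion K F n) :
    ∃ f : F, f ≠ 0 ∧ DvdOrd K n f ∧ cls n f = x := by
  obtain ⟨D, rfl⟩ := Pic0.mk_surjective x
  rw [Pic0.mem_torsion, natCast_zsmul] at hx
  have h1 : Pic0.mk (n • D) = 0 := hx
  have h2 := (QuotientAddGroup.eq_zero_iff _).mp h1
  rw [AddSubgroup.mem_addSubgroupOf] at h2
  obtain ⟨f, hf0, hf⟩ := h2
  have h3 : ∀ v : Place K F, (n : ℤ) * (D : Divisor K F) v = v.ord f := fun v => by
    rw [← hf v, AddSubgroup.coe_nsmul, Finsupp.coe_smul, Pi.smul_apply, nsmul_eq_mul]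
  refine ⟨f, hf0, fun v => ?_, cls_eq_mk hn h3⟩
  rw [← h3 v]
  exact dvd_mul_right _ _

/-- `cls n f = 0` iff `f` has the same divisor as an `n`-th power. -/
theorem cls_eq_zero_iff' {n : ℕ} (hn : n ≠ 0) {f : F} (hf : DvdOrd K n f) :
    cls (K := K) n f = 0 ↔ ∃ h : F, h ≠ 0 ∧ ∀ v : Place K F, v.ord f = v.ord (h ^ n) := by
  obtain ⟨D, hD⟩ := exists_degZero hn hf
  rw [cls_eq_mk hn hD]
  constructor
  · intro h1
    have h2 := (QuotientAddGroup.eq_zero_iff _).mp h1
    rw [AddSubgroup.mem_addSubgroupOf] at h2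
    obtain ⟨h, h0, hh⟩ := h2
    refine ⟨h, h0, fun v => ?_⟩
    rw [← hD v, Fermat.FF.ord_pow]
    exact congrArg _ (hh v)
  · rintro ⟨h, h0, hh⟩
    refine (QuotientAddGroup.eq_zero_iff _).mpr ?_
    rw [AddSubgroup.mem_addSubgroupOf]
    refine ⟨h, h0, fun v => ?_⟩
    have h3 := hD v
    rw [hh v, Fermat.FF.ord_pow] at h3
    exact mul_left_cancel₀ (by exact_mod_cast hn) h3

theorem cls_eq_cls_iff' {n : ℕ} (hn : n ≠ 0) {f g : F} (hf0 : f ≠ 0) (hg0 : g ≠ 0)
    (hf : DvdOrd K n f) (hg : DvdOrd K n g) :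
    cls (K := K) n f = cls n g ↔
      ∃ h : F, h ≠ 0 ∧ ∀ v : Place K F, v.ord (f / g) = v.ord (h ^ n) := by
  rw [← sub_eq_zero, ← cls_div hf0 hg0 hf hg, cls_eq_zero_iff' hn (hf.div hg)]

/-- Semilinear automorphisms act through the function. -/
theorem smul_cls (g : SemilinearAut K F) (n : ℕ) (f : F) :
    g • cls (K := K) n f = cls n (g • f) := by
  by_cases h : n ≠ 0 ∧ DvdOrd K n f
  · obtain ⟨D, hD⟩ := exists_degZero h.1 h.2
    rw [cls_eq_mk h.1 hD, SemilinearAut.pic0_smul_mk]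
    refine (cls_eq_mk h.1 fun v => ?_).symm
    rw [SemilinearAut.coe_degZeroSMulHom, SemilinearAut.divisor_smul_apply, hD]
    have h1 := SemilinearAut.ord_smul g (g⁻¹ • v) f
    rw [smul_inv_smul] at h1
    exact h1.symm
  · have h' : ¬ (n ≠ 0 ∧ DvdOrd K n (g • f)) := fun hc => h ⟨hc.1, by
      have := hc.2.smul g⁻¹
      rwa [inv_smul_smul] at this⟩
    rw [cls_of_not h, cls_of_not h']
    exact smul_zero (A := Pic0 K F) g

end Cls

section AlgClosed

variable {K F : Type*} [Field K] [Field F] [Algebra K F] [IsAlgClosed K] [CharZero K]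
  [Fermat.FF.IsFF1 K F]

/-- A nonzero function without zeros or poles is constant. -/
theorem exists_const_of_ord_eq_zero {f : F} (hf : ∀ v : Place K F, v.ord f = 0) :
    ∃ c : K, f = algebraMap K F c := by
  by_contra hcon
  have htr : Transcendental K f := Fermat.FF.transcendental_of_not_mem_range fun ⟨c, hc⟩ =>
    hcon ⟨c, hc.symm⟩
  have h1 := Fermat.FF.sum_pos_ord htr
  have h2 : (Fermat.FF.posSet_finite htr).toFinset = ∅ := by
    ext v
    simp [hf v]
  rw [h2, Finset.sum_empty] at h1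
  haveI := Fermat.FF.IsFF1.finiteDimensional_adjoin htr
  have h3 : 0 < Module.finrank (IntermediateField.adjoin K {f}) F := Module.finrank_pos
  omega

variable [HasPrincipalDivisors K F]

/-- `cls n f = 0` iff `f` is an `n`-th power. -/
theorem cls_eq_zero_iff {n : ℕ} (hn : n ≠ 0) {f : F} (hf0 : f ≠ 0) (hf : DvdOrd K n f) :
    cls (K := K) n f = 0 ↔ ∃ h : F, f = h ^ n := by
  rw [cls_eq_zero_iff' hn hf]
  constructor
  · rintro ⟨h, h0, hh⟩
    have h1 : ∀ v : Place K F, v.ord (f / h ^ n) = 0 := fun v => by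
      rw [div_eq_mul_inv, v.ord_mul hf0 (inv_ne_zero (pow_ne_zero n h0)), v.ord_inv, hh v]
      ring
    obtain ⟨c, hc⟩ := exists_const_of_ord_eq_zero h1
    obtain ⟨d, hd⟩ := IsAlgClosed.exists_pow_nat_eq c (Nat.pos_of_ne_zero hn)
    refine ⟨algebraMap K F d * h, ?_⟩
    rw [mul_pow, ← map_pow, hd, ← hc, div_mul_cancel₀ _ (pow_ne_zero n h0)]
  · rintro ⟨h, rfl⟩
    have h0 : h ≠ 0 := by
      rintro rfl
      exact hf0 (zero_pow hn)
    exact ⟨h, h0, fun v => rfl⟩

/-- `cls n f = cls n g` iff `f = g h ^ n`. -/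
theorem cls_eq_cls_iff {n : ℕ} (hn : n ≠ 0) {f g : F} (hf0 : f ≠ 0) (hg0 : g ≠ 0)
    (hf : DvdOrd K n f) (hg : DvdOrd K n g) :
    cls (K := K) n f = cls n g ↔ ∃ h : F, f = g * h ^ n := by
  rw [← sub_eq_zero, ← cls_div hf0 hg0 hf hg, cls_eq_zero_iff hn (div_ne_zero hf0 hg0) (hf.div hg)]
  exact exists_congr fun h => by rw [div_eq_iff hg0, mul_comm]

end AlgClosed

section Hom

variable (K F : Type*) [Field K] [Field F] [Algebra K F]

/-- The group of nonzero functions all of whose orders are divisible by `n`. -/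
def kumGroup (n : ℕ) : Subgroup Fˣ where
  carrier := {f | DvdOrd K n (f : F)}
  one_mem' := by
    simpa using DvdOrd.one (K := K) (F := F) n
  mul_mem' := fun {f g} hf hg => by
    show DvdOrd K n ((f * g : Fˣ) : F)
    rw [Units.val_mul]
    exact DvdOrd.mul hf hg
  inv_mem' := fun {f} hf => by
    show DvdOrd K n ((f⁻¹ : Fˣ) : F)
    rw [Units.val_inv_eq_inv_val]
    exact DvdOrd.inv hf

variable {K F}

theorem mem_kumGroup {n : ℕ} {f : Fˣ} : f ∈ kumGroup K F n ↔ DvdOrd K n (f : F) := Iff.rfl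

variable [HasPrincipalDivisors K F]

variable (K F) in
/-- The Kummer homomorphism `f ↦ [div f / n]`. -/
def clsHom (n : ℕ) : Additive (kumGroup K F n) →+ Pic0.torsion K F n where
  toFun f := ⟨cls n ((Additive.toMul f : kumGroup K F n) : Fˣ), cls_mem_torsion n (Units.ne_zero _)⟩
  map_zero' := Subtype.ext (cls_one n)
  map_add' f g := Subtype.ext (cls_mul (Units.ne_zero _) (Units.ne_zero _)
    (Additive.toMul f).2 (Additive.toMul g).2)

theorem coe_clsHom (n : ℕ) (f : kumGroup K F n) :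
    (clsHom K F n (Additive.ofMul f) : Pic0 K F) = cls n ((f : Fˣ) : F) := rfl

theorem clsHom_surjective {n : ℕ} (hn : n ≠ 0) : Function.Surjective (clsHom K F n) := by
  rintro ⟨x, hx⟩
  obtain ⟨f, hf0, hf, rfl⟩ := exists_cls_eq hn hx
  exact ⟨Additive.ofMul ⟨Units.mk0 f hf0, hf⟩, rfl⟩

end Hom

section Functoriality

variable {K F F' : Type*} [Field K] [Field F] [Field F'] [Algebra K F] [Algebra K F']

theorem DvdOrd.map (φ : F →ₐ[K] F') (hφ : φ.toRingHom.IsIntegral) {n : ℕ} {f : F}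
    (hf : DvdOrd K n f) : DvdOrd K n (φ f) := fun w => by
  rw [Place.ord_restrictAlong φ hφ]
  exact (hf _).mul_left _

variable [HasPrincipalDivisors K F']

/-- A divisor `D` with `n D = div f` is mapped by `ψ_*` to one with `n D' = div (N f)`. -/
theorem mul_pushforwardAlong_apply (ψ : F →ₐ[K] F') (hψ : ψ.toRingHom.IsIntegral)
    (hfin : FiniteAlong K ψ) (hN : NormFormulaAlong K ψ hfin) {n : ℕ} {f : F'} (hf0 : f ≠ 0)
    {D : Divisor K F'} (hD : ∀ w, (n : ℤ) * D w = w.ord f) (v : Place K F) :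
    (n : ℤ) * Divisor.pushforwardAlong ψ hψ D v = v.ord (normAlong ψ f) := by
  have h1 : ∀ w, (n • D) w = w.ord f := fun w => by
    rw [Finsupp.coe_smul, Pi.smul_apply, nsmul_eq_mul, hD]
  rw [← pushforwardAlong_apply_eq_ord ψ hψ hfin hN hf0 h1 v, map_nsmul, Finsupp.coe_smul,
    Pi.smul_apply, nsmul_eq_mul]

/-- The norm along `ψ` of a function with orders divisible by `n`. -/
theorem DvdOrd.normAlong (ψ : F →ₐ[K] F') (hψ : ψ.toRingHom.IsIntegral) (hfin : FiniteAlong K ψ)
    (hN : NormFormulaAlong K ψ hfin) {n : ℕ} {f : F'} (hf : DvdOrd K n f) :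
    DvdOrd K n (normAlong ψ f) := by
  rcases eq_or_ne f 0 with rfl | hf0
  · have h0 : PushPull.normAlong ψ (0 : F') = 0 := by
      letI := algebraAlong ψ
      haveI : Module.Finite F F' := hfin
      exact Algebra.norm_zero
    rw [h0]
    exact DvdOrd.zero n
  intro v
  have h1 : ∀ w, (n : ℤ) * rootDiv n f w = w.ord f := mul_rootDiv_apply hf
  rw [← mul_pushforwardAlong_apply ψ hψ hfin hN hf0 h1 v]
  exact dvd_mul_right _ _

theorem normAlong_ne_zero (ψ : F →ₐ[K] F') (hfin : FiniteAlong K ψ) {f : F'} (hf0 : f ≠ 0) :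
    normAlong ψ f ≠ 0 := by
  letI := algebraAlong ψ
  haveI : Module.Finite F F' := hfin
  exact Algebra.norm_ne_zero_iff.mpr hf0

variable [HasPrincipalDivisors K F]

/-- A correspondence acts on the classes through `f ↦ N_ψ (φ f)`. -/
theorem correspondence_cls (φ ψ : F →ₐ[K] F') (hφ : φ.toRingHom.IsIntegral)
    (hψ : ψ.toRingHom.IsIntegral) (hFI : FundamentalIdentityAlong K φ hφ)
    (hfin : FiniteAlong K ψ) (hN : NormFormulaAlong K ψ hfin) {n : ℕ} {f : F} (hf0 : f ≠ 0)
    (hf : DvdOrd K n f) :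
    Pic0.correspondence φ ψ hφ hψ hFI hfin hN (cls n f) = cls n (normAlong ψ (φ f)) := by
  rcases eq_or_ne n 0 with rfl | hn
  · rw [cls_of_not (by simp), cls_of_not (by simp), map_zero]
  obtain ⟨D, hD⟩ := exists_degZero hn hf
  rw [cls_eq_mk hn hD, Pic0.correspondence_mk]
  refine (cls_eq_mk hn fun v => ?_).symm
  rw [Pic0.coe_degZeroCorrespondence, Divisor.correspondence_apply]
  have h0 : φ f ≠ 0 := by
    rwa [Ne, map_eq_zero]
  refine mul_pushforwardAlong_apply ψ hψ hfin hN h0 (fun w => ?_) v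
  rw [Divisor.pullbackAlong_apply, Place.ord_restrictAlong φ hφ, ← hD]
  ring

end Functoriality

section Hecke

open ModularCurve

variable {L : Type*} [Field L] [Algebra ℚ L] {N ℓ : ℕ} [NeZero N] [NeZero ℓ]

theorem dvdOrd_normAlong_hecke (h : HeckeInputsAlong L N ℓ) {n : ℕ}
    {f : laurentBaseChange L (modularFunctionFieldFull N)} (hf : DvdOrd L n f) :
    DvdOrd L n (normAlong (heckeAlphaBar L N ℓ) (heckeBetaBar L N ℓ f)) := by
  obtain ⟨hα, hβ, hP, hfin, hFI, hN⟩ := h
  exact (hf.map (heckeBetaBar L N ℓ) hβ).normAlong (heckeAlphaBar L N ℓ) hα hfin hN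

/-- The Hecke operator acts on the classes through `f ↦ N_α (β f)`. -/
theorem heckeOperatorAlong_cls
    [HasPrincipalDivisors L (laurentBaseChange L (modularFunctionFieldFull N))]
    (h : HeckeInputsAlong L N ℓ) {n : ℕ}
    {f : laurentBaseChange L (modularFunctionFieldFull N)} (hf0 : f ≠ 0) (hf : DvdOrd L n f) :
    heckeOperatorAlong L N ℓ (cls n f) =
      cls n (normAlong (heckeAlphaBar L N ℓ) (heckeBetaBar L N ℓ f)) := by
  obtain ⟨hα, hβ, hP, hfin, hFI, hN⟩ := h
  rw [heckeOperatorAlong_eq hα hβ hFI hfin hN]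
  exact correspondence_cls (heckeBetaBar L N ℓ) (heckeAlphaBar L N ℓ) hβ hα hFI hfin hN hf0 hf

end Hecke

section HeckeBar

open ModularCurve

variable (N : ℕ) [NeZero N] (hJ : Fermat.Agent.Jan.HeckeInputs.JAlg)

include hJ

/-- Divisibility of the orders of `N_α (β f)`. -/
theorem dvdOrd_normAlong_heckeBar {n : ℕ} (ℓ : Nat.Primes)
    {f : modularFunctionFieldBar N} (hf : DvdOrd (AlgebraicClosure ℚ) n f) :
    haveI : NeZero (ℓ : ℕ) := ⟨ℓ.2.ne_zero⟩
    DvdOrd (AlgebraicClosure ℚ) n (normAlong (heckeAlphaBar (AlgebraicClosure ℚ) N ℓ)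
      (heckeBetaBar (AlgebraicClosure ℚ) N ℓ f)) :=
  haveI : NeZero (ℓ : ℕ) := ⟨ℓ.2.ne_zero⟩
  dvdOrd_normAlong_hecke (Fermat.Agent.Jan.HeckeInputs.heckeInputsAlong _ N ℓ hJ) hf

/-- `T_ℓ` acts on the `n`-torsion of `J_0(N)` through `f ↦ N_α (β f)`. -/
theorem heckeOperatorBar_cls {n : ℕ} (ℓ : Nat.Primes)
    {f : modularFunctionFieldBar N} (hf0 : f ≠ 0) (hf : DvdOrd (AlgebraicClosure ℚ) n f) :
    haveI : NeZero (ℓ : ℕ) := ⟨ℓ.2.ne_zero⟩
    haveI := Fermat.Agent.Jan.HeckeInputs.hasPrincipalDivisors_modular (AlgebraicClosure ℚ) hJ N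
    heckeOperatorBar N ℓ (cls n f) =
      cls n (normAlong (heckeAlphaBar (AlgebraicClosure ℚ) N ℓ)
        (heckeBetaBar (AlgebraicClosure ℚ) N ℓ f)) := by
  haveI : NeZero (ℓ : ℕ) := ⟨ℓ.2.ne_zero⟩
  haveI := Fermat.Agent.Jan.HeckeInputs.hasPrincipalDivisors_modular (AlgebraicClosure ℚ) hJ N
  rw [heckeOperatorBar_apply]
  exact heckeOperatorAlong_cls (Fermat.Agent.Jan.HeckeInputs.heckeInputsAlong _ N ℓ hJ) hf0 hf

/-- Over `ℚ̄`: the class of `f` vanishes iff `f` is an `n`-th power. -/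
theorem cls_eq_zero_iff_bar {n : ℕ} (hn : n ≠ 0)
    {f : modularFunctionFieldBar N} (hf0 : f ≠ 0) (hf : DvdOrd (AlgebraicClosure ℚ) n f) :
    haveI := Fermat.Agent.Jan.HeckeInputs.hasPrincipalDivisors_modular (AlgebraicClosure ℚ) hJ N
    cls (K := AlgebraicClosure ℚ) n f = 0 ↔ ∃ h : modularFunctionFieldBar N, f = h ^ n := by
  haveI := Fermat.Agent.Jan.HeckeInputs.isFF1_modular (AlgebraicClosure ℚ) hJ N
  haveI := Fermat.Agent.Jan.HeckeInputs.hasPrincipalDivisors_modular (AlgebraicClosure ℚ) hJ N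
  exact cls_eq_zero_iff hn hf0 hf

/-- Over `ℚ̄`: every `n`-torsion point of `J_0(N)` is the class of a function. -/
theorem exists_cls_eq_bar {n : ℕ} (hn : n ≠ 0) {x : JZero N}
    (hx : x ∈ Pic0.torsion (AlgebraicClosure ℚ) (modularFunctionFieldBar N) n) :
    haveI := Fermat.Agent.Jan.HeckeInputs.hasPrincipalDivisors_modular (AlgebraicClosure ℚ) hJ N
    ∃ f : modularFunctionFieldBar N, f ≠ 0 ∧ DvdOrd (AlgebraicClosure ℚ) n f ∧ cls n f = x := by
  haveI := Fermat.Agent.Jan.HeckeInputs.hasPrincipalDivisors_modular (AlgebraicClosure ℚ) hJ N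
  exact exists_cls_eq hn hx

end HeckeBar

section Galois

open ModularCurve

variable {L : Type*} [Field L] [Algebra ℚ L] (F₀ : IntermediateField ℚ (LaurentSeries ℚ))
  [HasPrincipalDivisors L (laurentBaseChange L F₀)]

/-- The arithmetic Galois action on classes: through the coefficients of the function. -/
theorem galois_smul_cls (σ : L ≃ₐ[ℚ] L) (n : ℕ) (f : laurentBaseChange L F₀) :
    σ • cls (K := L) n f = cls n (arithmeticGalois F₀ σ • f) :=
  smul_cls (arithmeticGalois F₀ σ) n f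

end Galois

end Fermat.Agent.JAN.KumPic
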