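import Mathlib
import Fermat.Agent.JAN.Chars
import Fermat.Agent.JAN.CharForm
import Fermat.Agent.JAN.KumPic

/-!
# The isomorphism `Hom_{par,ell}(Γ₀(N), ℤ/n) ≃ J₀(N)[n]`

Assembly from the Kummer inputs (structure `KummerInputs`) and the Hecke input (`HeckeInput`).
-/

set_option autoImplicit false
set_option linter.style.haveILetI false

noncomputable section

open UpperHalfPlane CongruenceSubgroup ModularCurve AlgebraicCurve
open scoped MatrixGroups ModularForm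

namespace Fermat.Agent.JAN

open KumPic Fermat.Agent.Jan Fermat.Agent.Jan.PushPull

local notation "Qbar" => AlgebraicClosure ℚ

variable [Algebra Qbar ℂ]

/-- The inputs from Kummer theory on the modular curve. -/
structure KummerInputs (N n : ℕ) [NeZero n] : Prop where
  mul : ∀ (χ χ' : Gamma0 N →* ℂˣ) (f f' : modularFunctionFieldBar N),
    Rel N n χ (f : LaurentSeries Qbar) → Rel N n χ' (f' : LaurentSeries Qbar) →
      Rel N n (χ * χ') ((f * f' : modularFunctionFieldBar N) : LaurentSeries Qbar)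
  unique : ∀ (χ χ' : Gamma0 N →* ℂˣ) (f : modularFunctionFieldBar N), f ≠ 0 →
    Rel N n χ (f : LaurentSeries Qbar) → Rel N n χ' (f : LaurentSeries Qbar) → χ = χ'
  root : ∀ (χ : Gamma0 N →* ℂˣ) (f f' : modularFunctionFieldBar N), f ≠ 0 → f' ≠ 0 →
    Rel N n χ (f : LaurentSeries Qbar) → Rel N n χ (f' : LaurentSeries Qbar) →
      ∃ h : modularFunctionFieldBar N, f = f' * h ^ n
  pow_self : ∀ h : modularFunctionFieldBar N, h ≠ 0 →
    Rel N n 1 ((h ^ n : modularFunctionFieldBar N) : LaurentSeries Qbar)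
  of_dvd : ∀ f : modularFunctionFieldBar N, f ≠ 0 → DvdOrd Qbar n f →
    ∃ χ : Gamma0 N →* ℂˣ, χ ^ n = 1 ∧ Kills χ ∧ Rel N n χ (f : LaurentSeries Qbar)
  dvd_of : ∀ (χ : Gamma0 N →* ℂˣ) (f : modularFunctionFieldBar N), f ≠ 0 → χ ^ n = 1 → Kills χ →
    Rel N n χ (f : LaurentSeries Qbar) → DvdOrd Qbar n f
  exists_rel : ∀ ψ ∈ XN N n, ∃ f : modularFunctionFieldBar N, f ≠ 0 ∧
    Rel N n (chiOf ψ) (f : LaurentSeries Qbar)

/-- The Hecke input. -/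
def HeckeInput (N n : ℕ) [NeZero N] : Prop :=
  ∀ (ℓ : ℕ) [Fact ℓ.Prime] (χ : Gamma0 N →* ℂˣ) (f : modularFunctionFieldBar N), f ≠ 0 →
    haveI : NeZero ℓ := ⟨(Fact.out : ℓ.Prime).ne_zero⟩
    Rel N n χ (f : LaurentSeries Qbar) → Rel N n (heckeChar N ℓ χ)
      ((normAlong (heckeAlphaBar Qbar N ℓ) (heckeBetaBar Qbar N ℓ f) :
        modularFunctionFieldBar N) : LaurentSeries Qbar)

section

variable {N n : ℕ} [NeZero N] [NeZero n] (hJ : HeckeInputs.JAlg) (hK : KummerInputs N n)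

include hJ

/-- The relation between homomorphisms and divisor classes. -/
def ClsRel (N n : ℕ) [NeZero N] [NeZero n]
    [HasPrincipalDivisors Qbar (modularFunctionFieldBar N)]
    (ψ : Additive (Gamma0 N) →+ ZMod n) (x : JZero N) : Prop :=
  ∃ f : modularFunctionFieldBar N, f ≠ 0 ∧ Rel N n (chiOf ψ) (f : LaurentSeries Qbar) ∧
    DvdOrd Qbar n f ∧ cls n f = x

include hK

theorem exists_clsRel (ψ : XN N n) :
    haveI := HeckeInputs.hasPrincipalDivisors_modular Qbar hJ N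
    ∃ x : JZero N, ClsRel N n (ψ : Additive (Gamma0 N) →+ ZMod n) x := by
  haveI := HeckeInputs.hasPrincipalDivisors_modular Qbar hJ N
  obtain ⟨f, hf0, hf⟩ := hK.exists_rel ψ ψ.2
  exact ⟨_, f, hf0, hf, hK.dvd_of _ f hf0 (chiOf_pow _) (kills_chiOf_iff.mpr ψ.2) hf, rfl⟩

theorem clsRel_unique {ψ : Additive (Gamma0 N) →+ ZMod n} {x y : JZero N}
    (hx : haveI := HeckeInputs.hasPrincipalDivisors_modular Qbar hJ N
      ClsRel N n ψ x)
    (hy : haveI := HeckeInputs.hasPrincipalDivisors_modular Qbar hJ N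
      ClsRel N n ψ y) : x = y := by
  haveI := HeckeInputs.isFF1_modular Qbar hJ N
  haveI := HeckeInputs.hasPrincipalDivisors_modular Qbar hJ N
  obtain ⟨f, hf0, hf, hfd, rfl⟩ := hx
  obtain ⟨g, hg0, hg, hgd, rfl⟩ := hy
  exact (cls_eq_cls_iff (NeZero.ne n) hf0 hg0 hfd hgd).mpr (hK.root _ f g hf0 hg0 hf hg)

theorem clsRel_add {ψ ψ' : Additive (Gamma0 N) →+ ZMod n} {x y : JZero N}
    (hx : haveI := HeckeInputs.hasPrincipalDivisors_modular Qbar hJ N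
      ClsRel N n ψ x)
    (hy : haveI := HeckeInputs.hasPrincipalDivisors_modular Qbar hJ N
      ClsRel N n ψ' y) :
    haveI := HeckeInputs.hasPrincipalDivisors_modular Qbar hJ N
    ClsRel N n (ψ + ψ') (x + y) := by
  haveI := HeckeInputs.hasPrincipalDivisors_modular Qbar hJ N
  obtain ⟨f, hf0, hf, hfd, rfl⟩ := hx
  obtain ⟨g, hg0, hg, hgd, rfl⟩ := hy
  refine ⟨f * g, mul_ne_zero hf0 hg0, ?_, hfd.mul hgd, cls_mul hf0 hg0 hfd hgd⟩
  rw [chiOf_add]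
  exact hK.mul _ _ f g hf hg

/-- The homomorphism `Φ_n : X_n → J₀(N)`. -/
def Phi : XN N n →+ JZero N :=
  haveI := HeckeInputs.hasPrincipalDivisors_modular Qbar hJ N
  AddMonoidHom.mk' (fun ψ => (exists_clsRel hJ hK ψ).choose) fun ψ ψ' =>
    clsRel_unique hJ hK (exists_clsRel hJ hK (ψ + ψ')).choose_spec
      (clsRel_add hJ hK (exists_clsRel hJ hK ψ).choose_spec (exists_clsRel hJ hK ψ').choose_spec)

theorem Phi_spec (ψ : XN N n) :
    haveI := HeckeInputs.hasPrincipalDivisors_modular Qbar hJ N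
    ClsRel N n (ψ : Additive (Gamma0 N) →+ ZMod n) (Phi hJ hK ψ) :=
  (exists_clsRel hJ hK ψ).choose_spec

theorem Phi_eq {ψ : XN N n} {x : JZero N}
    (hx : haveI := HeckeInputs.hasPrincipalDivisors_modular Qbar hJ N
      ClsRel N n (ψ : Additive (Gamma0 N) →+ ZMod n) x) : Phi hJ hK ψ = x :=
  clsRel_unique hJ hK (Phi_spec hJ hK ψ) hx

theorem Phi_injective : Function.Injective (Phi hJ hK) := by
  haveI := HeckeInputs.isFF1_modular Qbar hJ N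
  haveI := HeckeInputs.hasPrincipalDivisors_modular Qbar hJ N
  rw [injective_iff_map_eq_zero]
  intro ψ hψ
  obtain ⟨f, hf0, hf, hfd, hfx⟩ := Phi_spec hJ hK ψ
  rw [hψ, cls_eq_zero_iff (NeZero.ne n) hf0 hfd] at hfx
  obtain ⟨h, rfl⟩ := hfx
  have h0 : h ≠ 0 := by
    rintro rfl
    exact hf0 (zero_pow (NeZero.ne n))
  have h1 : chiOf (ψ : Additive (Gamma0 N) →+ ZMod n) = 1 :=
    hK.unique _ _ _ hf0 hf (hK.pow_self h h0)
  rw [← chiOf_zero (N := N) (n := n)] at h1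
  exact Subtype.ext (chiOf_injective h1)

theorem Phi_mem_torsion (ψ : XN N n) : n • Phi hJ hK ψ = 0 := by
  haveI := HeckeInputs.hasPrincipalDivisors_modular Qbar hJ N
  obtain ⟨f, hf0, hf, hfd, hfx⟩ := Phi_spec hJ hK ψ
  rw [← hfx]
  exact nsmul_cls n hf0

theorem exists_Phi_eq {x : JZero N} (hx : n • x = 0) : ∃ ψ : XN N n, Phi hJ hK ψ = x := by
  haveI := HeckeInputs.hasPrincipalDivisors_modular Qbar hJ N
  have hx' : x ∈ Pic0.torsion Qbar (modularFunctionFieldBar N) n := by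
    rw [Pic0.mem_torsion, natCast_zsmul]
    exact hx
  obtain ⟨f, hf0, hfd, hfx⟩ := exists_cls_eq (NeZero.ne n) hx'
  obtain ⟨χ, hχ, hχk, hf⟩ := hK.of_dvd f hf0 hfd
  obtain ⟨ψ, rfl⟩ := exists_chiOf hχ
  exact ⟨⟨ψ, kills_chiOf_iff.mp hχk⟩, Phi_eq hJ hK ⟨f, hf0, hf, hfd, hfx⟩⟩

theorem Phi_mem_torsion' (ψ : XN N n) :
    Phi hJ hK ψ ∈ Pic0.torsion Qbar (modularFunctionFieldBar N) n := by
  rw [Pic0.mem_torsion, natCast_zsmul]
  exact Phi_mem_torsion hJ hK ψ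

/-- `Φ_n` as an isomorphism onto the `n`-torsion. -/
def PhiEquiv : XN N n ≃+ Pic0.torsion Qbar (modularFunctionFieldBar N) n :=
  AddEquiv.ofBijective
    ((Phi hJ hK).codRestrict _ fun ψ => Phi_mem_torsion' hJ hK ψ)
    ⟨fun ψ ψ' h => Phi_injective hJ hK (congrArg Subtype.val h),
      fun x => by
        have hx : n • (x : JZero N) = 0 := by
          have := Pic0.mem_torsion.mp x.2
          rwa [natCast_zsmul] at this
        obtain ⟨ψ, hψ⟩ := exists_Phi_eq hJ hK hx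
        exact ⟨ψ, Subtype.ext hψ⟩⟩

@[simp]
theorem coe_PhiEquiv (ψ : XN N n) : (PhiEquiv hJ hK ψ : JZero N) = Phi hJ hK ψ := rfl

/-- The operator `heckeAdd` on `X_n`. -/
def heckeXN (N n ℓ : ℕ) [NeZero N] [NeZero ℓ] : XN N n →+ XN N n :=
  ((heckeAddHom N ℓ (ZMod n)).comp (XN N n).subtype).codRestrict _ fun ψ => heckeAdd_mem_XN ψ.2

omit [Algebra Qbar ℂ] [NeZero n] hJ hK in
@[simp]
theorem coe_heckeXN (ℓ : ℕ) [NeZero ℓ] (ψ : XN N n) :
    (heckeXN N n ℓ ψ : Additive (Gamma0 N) →+ ZMod n) = heckeAdd N ℓ ψ := rfl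

/-- Hecke equivariance of `Φ_n`, for all primes `ℓ`. -/
theorem Phi_hecke (hH : HeckeInput N n) (ℓ : Nat.Primes) (ψ : XN N n) :
    haveI : NeZero (ℓ : ℕ) := ⟨ℓ.2.ne_zero⟩
    Phi hJ hK (heckeXN N n ℓ ψ) = heckeOperatorBar N ℓ (Phi hJ hK ψ) := by
  haveI : NeZero (ℓ : ℕ) := ⟨ℓ.2.ne_zero⟩
  haveI : Fact (ℓ : ℕ).Prime := ⟨ℓ.2⟩
  haveI := HeckeInputs.hasPrincipalDivisors_modular Qbar hJ N
  haveI := HeckeInputs.hasPrincipalDivisors_modular Qbar hJ (N * ℓ)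
  obtain ⟨f, hf0, hf, hfd, hfx⟩ := Phi_spec hJ hK ψ
  rw [← hfx, heckeOperatorBar_cls N hJ ℓ hf0 hfd]
  refine Phi_eq hJ hK ⟨_, ?_, ?_, dvdOrd_normAlong_heckeBar N hJ ℓ hfd, rfl⟩
  · exact normAlong_ne_zero _ (HeckeInputs.finiteAlong_heckeAlphaBar Qbar N ℓ hJ)
      ((map_ne_zero (heckeBetaBar Qbar N ℓ)).mpr hf0)
  · rw [coe_heckeXN, ← heckeChar_chiOf]
    exact hH ℓ (chiOf (ψ : Additive (Gamma0 N) →+ ZMod n)) f hf0 hf

end

section Compat

variable {N : ℕ} {L : Type*} [Field L] [Algebra L ℂ]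

omit [Algebra Qbar ℂ] in
/-- If `f = (E / B) ^ (n m)` then `f = (E ^ m / B ^ m) ^ n`. -/
theorem Rel.pow_char {n m : ℕ} {χ : Gamma0 N →* ℂˣ} {f : LaurentSeries L}
    (h : Rel N (n * m) χ f) : Rel N n (χ ^ m) f := by
  obtain ⟨k, B, E, β, hB, hE, ⟨τ, hτ⟩, ⟨τ', hτ'⟩, hβ, hfβ⟩ := h
  have e0 : (1 : Gamma0 N →* ℂˣ) ^ m = 1 := one_pow (M := Gamma0 N →* ℂˣ) m
  refine ⟨m * k, B ^ m, E ^ m, β ^ m, (hB.pow m).congr_char e0, hE.pow m,
    ⟨τ, pow_ne_zero m hτ⟩, ⟨τ', pow_ne_zero m hτ'⟩, hβ.pow m, ?_⟩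
  have e1 : (β ^ m) ^ n = β ^ (n * m) := by rw [← pow_mul, mul_comm]
  rw [e1]
  refine hfβ.congr fun τ => ?_
  rw [Pi.pow_apply, ← pow_mul, mul_comm m n]

end Compat

section

variable {N n m : ℕ} [NeZero N] [NeZero n] [NeZero m] [NeZero (n * m)] (hJ : HeckeInputs.JAlg)
  (hK : KummerInputs N n) (hK' : KummerInputs N (n * m))

omit [Algebra Qbar ℂ] [NeZero m] [NeZero N] [NeZero n] [NeZero (n * m)] in
theorem comp_castHom_mem_XN {ψ : Additive (Gamma0 N) →+ ZMod (n * m)} (hψ : ψ ∈ XN N (n * m)) :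
    (((ZMod.castHom (dvd_mul_right n m) (ZMod n)) : ZMod (n * m) →+ ZMod n).comp ψ) ∈ XN N n := by
  intro γ hγ
  rw [AddMonoidHom.comp_apply, hψ γ hγ, map_zero]

/-- Compatibility in `n`: `m Φ_{nm}(ψ) = Φ_n(ψ mod n)`. -/
theorem nsmul_Phi (ψ : XN N (n * m)) :
    m • Phi hJ hK' ψ = Phi hJ hK ⟨_, comp_castHom_mem_XN ψ.2⟩ := by
  haveI := HeckeInputs.hasPrincipalDivisors_modular Qbar hJ N
  obtain ⟨f, hf0, hf, hfd, hfx⟩ := Phi_spec hJ hK' ψ
  rw [← hfx, nsmul_cls_mul (NeZero.ne m) hfd]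
  refine (Phi_eq hJ hK ⟨f, hf0, ?_, hfd.of_dvd (dvd_mul_right n m), rfl⟩).symm
  rw [← chiOf_castHom_pow]
  exact hf.pow_char

end

end Fermat.Agent.JAN
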