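import Mathlib
import Fermat.Agent.J.Gamma0Field
import Fermat.Agent.Jan.DegreeWiring
import Fermat.Agent.FunField.Quot
import Fermat.Agent.Gamma0Count
import Fermat.Agent.QbarInst

/-!
# The degree `[F_N(L) : L(j)] = ψ(N)`

For `L` algebraically closed with an embedding into `ℂ`, from the description of `F_N(L)` as the
fixed field of `Γ₀(N)`.  Consequences: `PsiDegree`, `AlphaDegree`, commutation of the Hecke
operators on `Pic⁰`.
-/

set_option autoImplicit false

noncomputable section

open ModularCurve AlgebraicCurve FermatJ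
open scoped MatrixGroups IntermediateField

namespace Fermat.Agent.JAN.PsiDegree

open Fermat.Agent.Jan.HeckeInputs Fermat.Agent.Jan.HeckeCommute Fermat.Agent.Jan.DegreeWiring

variable (L : Type*) [Field L] [IsAlgClosed L] [Algebra ℚ L] [Algebra L ℂ] (N : ℕ) [NeZero N]

/-- `F_N(L)` is the fixed field of `Γ₀(N)`. -/
def equivF0 : laurentBaseChange L (modularFunctionFieldFull N) ≃ₐ[L] F0 L N :=
  (IntermediateField.equivOfEq (MFF.laurentBaseChange_full L N)).trans (F0Equiv L N).symm

/-- `F_N(L)` inside the field of level `N` functions. -/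
def toFun : laurentBaseChange L (modularFunctionFieldFull N) →ₐ[L] FunN L N :=
  (F0 L N).val.comp (equivF0 L N).toAlgHom

theorem fieldRange_toFun : (toFun L N).fieldRange = F0 L N := by
  apply le_antisymm
  · rintro _ ⟨x, rfl⟩
    exact (equivF0 L N x).2
  · intro y hy
    refine ⟨(equivF0 L N).symm ⟨y, hy⟩, ?_⟩
    show ((equivF0 L N ((equivF0 L N).symm ⟨y, hy⟩) : F0 L N) : FunN L N) = y
    rw [AlgEquiv.apply_symm_apply]

theorem toFun_jEl : toFun L N (jEl L N) = xj L N := by
  show ((equivF0 L N (jEl L N) : F0 L N) : FunN L N) = xj L N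
  have h : IntermediateField.equivOfEq (MFF.laurentBaseChange_full L N) (jEl L N) =
      F0Equiv L N ⟨xj L N, xj_mem_F0⟩ := by
    apply Subtype.ext
    apply qExpand_injective (R := L) N
    rw [qExpand_F0Equiv, lamInf_xj]
    rfl
  rw [equivF0, AlgEquiv.trans_apply, h, AlgEquiv.symm_apply_apply]

theorem fixedField_range : IntermediateField.fixedField (actN L N).range = L⟮xj L N⟯ := by
  ext y
  rw [mem_fixedField_range_iff, fixed_iff]

theorem fieldRange_comp :
    ((toFun L N).comp (degen L 1 N 1 (by rw [mul_one]; exact one_dvd N))).fieldRange =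
      L⟮xj L N⟯ := by
  have h : ((toFun L N).comp (degen L 1 N 1 (by rw [mul_one]; exact one_dvd N))).fieldRange =
      ((degen L 1 N 1 (by rw [mul_one]; exact one_dvd N)).fieldRange).map (toFun L N) := by
    ext y
    simp only [AlgHom.mem_fieldRange, IntermediateField.mem_map, AlgHom.comp_apply]
    constructor
    · rintro ⟨x, rfl⟩
      exact ⟨_, ⟨x, rfl⟩, rfl⟩
    · rintro ⟨_, ⟨x, rfl⟩, rfl⟩
      exact ⟨x, rfl⟩
  rw [h, fieldRange_degen_one, IntermediateField.adjoin_map, Set.image_singleton, toFun_jEl]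

theorem ker_le : (actN L N).ker ≤ CongruenceSubgroup.Gamma0 N := by
  intro γ hγ
  rw [MonoidHom.mem_ker] at hγ
  exact mem_Gamma0_of_fix (K := L) fun l _ => by rw [hγ]; rfl

theorem psiDegree : PsiDegree L := by
  intro N _
  have hfin := finite_range_actN (K := L) (N := N)
  set G := (actN L N).range with hG
  set H := (CongruenceSubgroup.Gamma0 N).map (actN L N) with hH
  have hHG : H ≤ G := by
    rw [hG, MonoidHom.range_eq_map]
    exact Subgroup.map_mono le_top
  have hfinH : Finite H := Finite.of_injective (Subgroup.inclusion hHG)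
    (Subgroup.inclusion_injective hHG)
  -- group theory
  have h1 : Nat.card G = Nat.card H * dedekindPsi N := by
    have h2 : H.relIndex G = dedekindPsi N := by
      rw [hG, hH, MonoidHom.range_eq_map, Subgroup.relIndex_map_map, top_sup_eq,
        sup_eq_left.mpr (ker_le L N), Subgroup.relIndex_top_right,
        Fermat.Agent.Gamma0Count.index_Gamma0]
    rw [← h2, ← Subgroup.relIndex_bot_left, ← Subgroup.relIndex_bot_left,
      Subgroup.relIndex_mul_relIndex _ _ _ bot_le hHG]
  -- degrees
  have h3 : finrankAlong L (toFun L N) = Nat.card H := by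
    rw [finrankAlong_eq_finrank_fieldRange, fieldRange_toFun]
    exact (IsGaloisGroup.card_eq_finrank H (IntermediateField.fixedField H) (FunN L N)).symm
  have h4 : finrankAlong L ((toFun L N).comp
      (degen L 1 N 1 (by rw [mul_one]; exact one_dvd N))) = Nat.card G := by
    rw [finrankAlong_eq_finrank_fieldRange, fieldRange_comp, ← fixedField_range]
    exact (IsGaloisGroup.card_eq_finrank G (IntermediateField.fixedField G) (FunN L N)).symm
  rw [finrankAlong_comp, h3, h1, mul_comm] at h4
  have h5 : 0 < Nat.card H := Nat.card_pos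
  exact Nat.eq_of_mul_eq_mul_left h5 h4

theorem alphaDegree : AlphaDegree L := alphaDegree_of_psiDegree L (psiDegree L)

theorem generation : Generation := fun N _ => Fermat.Agent.FunField.functionFieldGeneration N

/-- `[F_{Nℓ}(L) : F_N(L)] = [Γ₀(N) : Γ₀(Nℓ)]` for every `ℓ ≠ 0`. -/
theorem finrankAlong_alpha_mul (ℓ : ℕ) [NeZero ℓ] :
    dedekindPsi N * finrankAlong L (heckeAlphaBar L N ℓ) = dedekindPsi (N * ℓ) := by
  have h1 := psiDegree L N
  have h2 := psiDegree L (N * ℓ)
  have h3 : (heckeAlphaBar L N ℓ).comp (degen L 1 N 1 (by rw [mul_one]; exact one_dvd N)) =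
      degen L 1 (N * ℓ) 1 (by rw [mul_one]; exact one_dvd _) := by
    rw [heckeAlphaBar_eq_degen]
    exact degen_comp L 1 N (N * ℓ) 1 1 _ _ _
  rw [← h3, finrankAlong_comp, h1] at h2
  exact h2

theorem index_subGamma0_mul (ℓ : ℕ) [NeZero ℓ] :
    dedekindPsi N * ((CongruenceSubgroup.Gamma0 (N * ℓ)).subgroupOf
      (CongruenceSubgroup.Gamma0 N)).index = dedekindPsi (N * ℓ) := by
  have hle : CongruenceSubgroup.Gamma0 (N * ℓ) ≤ CongruenceSubgroup.Gamma0 N := by
    intro γ hγ
    rw [CongruenceSubgroup.Gamma0_mem, ZMod.intCast_zmod_eq_zero_iff_dvd] at hγ ⊢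
    exact (Dvd.intro (ℓ : ℤ) (by push_cast; ring)).trans hγ
  rw [← Fermat.Agent.Gamma0Count.index_Gamma0 N, ← Fermat.Agent.Gamma0Count.index_Gamma0 (N * ℓ),
    mul_comm]
  exact Subgroup.relIndex_mul_index hle

theorem finrankAlong_alpha (ℓ : ℕ) [NeZero ℓ] :
    finrankAlong L (heckeAlphaBar L N ℓ) = ((CongruenceSubgroup.Gamma0 (N * ℓ)).subgroupOf
      (CongruenceSubgroup.Gamma0 N)).index := by
  have h1 := finrankAlong_alpha_mul L N ℓ
  rw [← index_subGamma0_mul N ℓ] at h1
  refine Nat.eq_of_mul_eq_mul_left ?_ h1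
  exact dedekindPsi_pos N

/-- **The Hecke operators on `J₀(N)` commute.** -/
theorem heckeOperatorsCommuteBar (N : ℕ) [NeZero N] : HeckeOperatorsCommuteBar N := by
  let _ : Algebra (AlgebraicClosure ℚ) ℂ :=
    (IsAlgClosed.lift (M := ℂ) (S := AlgebraicClosure ℚ) (R := ℚ)).toRingHom.toAlgebra
  exact Fermat.Agent.Jan.HeckeCommute.heckeOperatorsCommuteBar jAlg generation
    (alphaDegree (AlgebraicClosure ℚ)) N

end Fermat.Agent.JAN.PsiDegree
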