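import Mathlib
import Fermat.Agent.JAN.PsiDegree
import Fermat.Agent.JAN.KummerHecke
import Fermat.Agent.JAN.Main

/-!
# The Hecke input of team JAN
-/

set_option autoImplicit false

noncomputable section

open ModularCurve AlgebraicCurve CongruenceSubgroup
open scoped MatrixGroups

namespace Fermat.Agent.JAN.HeckeInputDone

open Fermat.Agent.JAN Fermat.Agent.Jan.DegreeWiring

/-- Hecke equivariance of the Kummer relation, unconditional. -/
theorem rel_hecke {L : Type*} [Field L] [IsAlgClosed L] [Algebra ℚ L] [Algebra L ℂ]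
    {N ℓ n : ℕ} [NeZero N] [NeZero ℓ] {χ : Gamma0 N →* ℂˣ}
    {f : laurentBaseChange L (modularFunctionFieldFull N)} (h : Rel N n χ (f : LaurentSeries L)) :
    Rel N n (heckeChar N ℓ χ)
      ((Fermat.Agent.Jan.PushPull.normAlong (heckeAlphaBar L N ℓ) (heckeBetaBar L N ℓ f) :
        laurentBaseChange L (modularFunctionFieldFull N)) : LaurentSeries L) :=
  KummerHecke.rel_hecke (finiteAlong_heckeAlphaBar' L N ℓ)
    (PsiDegree.finrankAlong_alpha L N ℓ).le h

/-- The Hecke input, unconditional. -/
theorem heckeInput [Algebra (AlgebraicClosure ℚ) ℂ] (N n : ℕ) [NeZero N] : HeckeInput N n := by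
  intro ℓ _ χ f _ h
  have : NeZero ℓ := ⟨(Fact.out : ℓ.Prime).ne_zero⟩
  exact rel_hecke h

end Fermat.Agent.JAN.HeckeInputDone
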