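import Mathlib
import Fermat.Agent.IntStr.AutC

/-!
# Finite orbits of `Aut(ℂ)` and finitely many characters of `Γ₀(N)`
-/

set_option autoImplicit false

noncomputable section

open scoped MatrixGroups

namespace Fermat.Agent.JAN.AutOrbit

/-- A transcendental number can be moved to its translates. -/
theorem exists_aut_add_of_transcendental (x : ℂ) (hx : Transcendental ℚ x) (m : ℕ) :
    ∃ σ : ℂ ≃ₐ[ℚ] ℂ, σ x = x + m := by
  classical
  have hind : AlgebraicIndepOn ℚ id ({x} : Set ℂ) := by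
    have := (algebraicIndependent_unique_type_iff (R := ℚ) (ι := ({x} : Set ℂ))
      (x := fun i => (i : ℂ))).2 hx
    exact this
  obtain ⟨t, hst, ht⟩ := exists_isTranscendenceBasis_superset hind
  let e : MvPolynomial t ℚ ≃+* MvPolynomial t ℚ :=
    (AlgEquiv.ofAlgHom (MvPolynomial.aeval (fun i => MvPolynomial.X i + MvPolynomial.C (m : ℚ)))
      (MvPolynomial.aeval (fun i => MvPolynomial.X i - MvPolynomial.C (m : ℚ)))
      (by ext; simp) (by ext; simp)).toRingEquiv
  obtain ⟨σ, hσ⟩ := IntStr.exists_ringEquiv_of_basis _ ht e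
  have hxt : x ∈ t := hst (by simp)
  have h := hσ (MvPolynomial.X ⟨x, hxt⟩)
  simp only [MvPolynomial.aeval_X, e] at h
  refine ⟨σ.toRatAlgEquiv, ?_⟩
  show σ x = x + m
  rw [h]
  simp

/-- A complex number with a finite orbit under `Aut(ℂ)` is algebraic. -/
theorem isAlgebraic_of_finite_orbit (x : ℂ) (h : (Set.range fun σ : ℂ ≃ₐ[ℚ] ℂ => σ x).Finite) :
    IsAlgebraic ℚ x := by
  by_contra hx
  have h1 : Set.range (fun m : ℕ => x + m) ⊆ Set.range fun σ : ℂ ≃ₐ[ℚ] ℂ => σ x := by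
    rintro _ ⟨m, rfl⟩
    obtain ⟨σ, hσ⟩ := exists_aut_add_of_transcendental x hx m
    exact ⟨σ, hσ⟩
  have h2 : Function.Injective (fun m : ℕ => x + (m : ℂ)) := by
    intro a b hab
    exact_mod_cast add_left_cancel hab
  exact Set.infinite_range_of_injective h2 (h.subset h1)

theorem isAlgebraic_mem_range [Algebra (AlgebraicClosure ℚ) ℂ] {x : ℂ} (hx : IsAlgebraic ℚ x) :
    ∃ y : AlgebraicClosure ℚ, algebraMap (AlgebraicClosure ℚ) ℂ y = x := by
  have h1 : IsIntegral (AlgebraicClosure ℚ) x := by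
    obtain ⟨p, hp, hpx⟩ := hx
    refine IsAlgebraic.isIntegral ⟨p.map (algebraMap ℚ (AlgebraicClosure ℚ)), ?_, ?_⟩
    · rwa [Ne, Polynomial.map_eq_zero]
    · rw [Polynomial.aeval_def, Polynomial.eval₂_map]
      rw [Polynomial.aeval_def] at hpx
      rwa [show (algebraMap (AlgebraicClosure ℚ) ℂ).comp (algebraMap ℚ (AlgebraicClosure ℚ)) =
        algebraMap ℚ ℂ from Subsingleton.elim _ _]
  exact minpoly.mem_range_of_degree_eq_one (AlgebraicClosure ℚ) x
    (IsAlgClosed.degree_eq_one_of_irreducible _ (minpoly.irreducible h1))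

/-! ### Characters -/

theorem fg_SL2Z : Group.FG SL(2, ℤ) := by
  rw [Group.fg_iff]
  exact ⟨{ModularGroup.S, ModularGroup.T}, SpecialLinearGroup.SL2Z_generators, Set.toFinite _⟩

theorem finite_char (Γ : Subgroup SL(2, ℤ)) [Γ.FiniteIndex] {n : ℕ} (hn : n ≠ 0) :
    {χ : Γ →* ℂˣ | χ ^ n = 1}.Finite := by
  have : NeZero n := ⟨hn⟩
  have := fg_SL2Z
  have h0 : Group.FG Γ := inferInstance
  obtain ⟨m, S, _, hS⟩ := Group.fg_iff'.mp h0
  let F : {χ : Γ →* ℂˣ | χ ^ n = 1} → (S → rootsOfUnity n ℂ) := fun χ s =>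
    ⟨χ.1 s, by
      have := DFunLike.congr_fun χ.2 (s : Γ)
      rw [mem_rootsOfUnity]
      exact this⟩
  have hF : Function.Injective F := by
    intro χ χ' h
    apply Subtype.ext
    apply MonoidHom.eq_of_eqOn_dense hS
    intro s hs
    have := congrFun h ⟨s, hs⟩
    exact congrArg (fun x : rootsOfUnity n ℂ => (x : ℂˣ)) this
  exact Set.finite_coe_iff.mp (Finite.of_injective F hF)

end Fermat.Agent.JAN.AutOrbit
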