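/-
Eisenstein series with a unitary character on a subgroup of `SL(2, ℤ)`.
-/
import Mathlib.NumberTheory.ModularForms.EisensteinSeries.Basic
import Mathlib.NumberTheory.ModularForms.CongruenceSubgroups
import Mathlib.NumberTheory.ModularForms.ArithmeticSubgroups
import Mathlib.NumberTheory.ModularForms.Discriminant
import Mathlib.Analysis.Normed.Group.Tannery

set_option autoImplicit false

noncomputable section

open UpperHalfPlane Complex EisensteinSeries ModularForm Filter Matrix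
open scoped MatrixGroups Topology Manifold

namespace Fermat.Agent.JAN.EisCharB

/-! ### Weighted Eisenstein series -/

/-- The Eisenstein series with weights `w`. -/
def eisW (k : ℤ) (w : (Fin 2 → ℤ) → ℂ) (z : ℍ) : ℂ := ∑' v : Fin 2 → ℤ, w v * eisSummand k v z

variable {k : ℤ} {w : (Fin 2 → ℤ) → ℂ}

lemma summable_norm_weighted (hk : 3 ≤ k) (hw : ∀ v, ‖w v‖ ≤ 1) (z : ℍ) :
    Summable fun v : Fin 2 → ℤ ↦ ‖w v * eisSummand k v z‖ := by
  refine (summable_norm_eisSummand hk z).of_nonneg_of_le (fun _ ↦ norm_nonneg _) fun v ↦ ?_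
  rw [norm_mul]
  exact mul_le_of_le_one_left (norm_nonneg _) (hw v)

lemma summable_weighted (hk : 3 ≤ k) (hw : ∀ v, ‖w v‖ ≤ 1) (z : ℍ) :
    Summable fun v : Fin 2 → ℤ ↦ w v * eisSummand k v z :=
  (summable_norm_weighted hk hw z).of_norm

lemma vecMul_mul (A B : SL(2, ℤ)) (v : Fin 2 → ℤ) :
    (v ᵥ* A.1) ᵥ* B.1 = v ᵥ* (A * B).1 := by
  rw [vecMul_vecMul]; rfl

@[simp] lemma vecMul_one' (v : Fin 2 → ℤ) : v ᵥ* (1 : SL(2, ℤ)).1 = v := by
  rw [show (1 : SL(2, ℤ)).1 = (1 : Matrix (Fin 2) (Fin 2) ℤ) from rfl, vecMul_one]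

/-- Right multiplication by `A ∈ SL(2, ℤ)` as a permutation of `ℤ²`. -/
def vecMulEquiv (A : SL(2, ℤ)) : (Fin 2 → ℤ) ≃ (Fin 2 → ℤ) where
  toFun v := v ᵥ* A.1
  invFun v := v ᵥ* (A⁻¹).1
  left_inv v := (vecMul_mul A A⁻¹ v).trans (by rw [mul_inv_cancel, vecMul_one'])
  right_inv v := (vecMul_mul A⁻¹ A v).trans (by rw [inv_mul_cancel, vecMul_one'])

lemma vecMulEquiv_apply (A : SL(2, ℤ)) (v : Fin 2 → ℤ) :
    vecMulEquiv A v = v ᵥ* A.1 := rfl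

lemma vecMulEquiv_symm_apply (A : SL(2, ℤ)) (v : Fin 2 → ℤ) :
    (vecMulEquiv A).symm v = v ᵥ* (A⁻¹).1 := rfl

/-- The slash action permutes the weights. -/
lemma eisW_slash (A : SL(2, ℤ)) :
    (eisW k w) ∣[k] A = eisW k (fun v ↦ w (v ᵥ* (A⁻¹).1)) := by
  ext1 z
  simp_rw [SL_slash_apply, _root_.zpow_neg,
    mul_inv_eq_iff_eq_mul₀ (zpow_ne_zero _ <| denom_ne_zero _ z)]
  unfold eisW
  rw [mul_comm _ (denom (A : GL (Fin 2) ℝ) z ^ k), ← tsum_mul_left,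
    ← (vecMulEquiv A).tsum_eq (fun v ↦ denom (A : GL (Fin 2) ℝ) z ^ k *
      (w (v ᵥ* (A⁻¹).1) * eisSummand k v z))]
  refine tsum_congr fun v ↦ ?_
  rw [eisSummand_SL2_apply, vecMulEquiv_apply, vecMul_mul, mul_inv_cancel, vecMul_one']
  ring

lemma eisW_tendstoLocallyUniformly (hk : 3 ≤ k) (hw : ∀ v, ‖w v‖ ≤ 1) :
    TendstoLocallyUniformly (fun (s : Finset (Fin 2 → ℤ)) ↦ (∑ v ∈ s, w v * eisSummand k v ·))
      (eisW k w ·) Filter.atTop := by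
  have hk' : (2 : ℝ) < k := by norm_cast
  have p_sum : Summable fun x : (Fin 2 → ℤ) ↦ ‖x‖ ^ (-k) :=
    mod_cast (summable_one_div_norm_rpow hk')
  simp only [tendstoLocallyUniformly_iff_forall_isCompact, eisW]
  intro K hK
  obtain ⟨A, B, hB, HABK⟩ := subset_verticalStrip_of_isCompact hK
  refine (tendstoUniformlyOn_tsum (hu := p_sum.mul_left <| r ⟨⟨A, B⟩, hB⟩ ^ (-k : ℝ))
    (fun p z hz ↦ ?_)).mono HABK
  rw [norm_mul]
  refine (mul_le_of_le_one_left (norm_nonneg _) (hw p)).trans ?_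
  simpa only [eisSummand, one_div, ← _root_.zpow_neg, norm_zpow, ← Real.rpow_intCast,
    Int.cast_neg] using summand_bound_of_mem_verticalStrip (by positivity) p hB hz

lemma eisW_tendstoLocallyUniformlyOn (hk : 3 ≤ k) (hw : ∀ v, ‖w v‖ ≤ 1) :
    TendstoLocallyUniformlyOn (fun (s : Finset (Fin 2 → ℤ)) ↦
      ↑ₕ(fun (z : ℍ) ↦ ∑ v ∈ s, w v * eisSummand k v z)) (↑ₕ(eisW k w))
          Filter.atTop {z : ℂ | 0 < z.im} := by
  rw [← upperHalfPlaneSet, ← range_coe, ← Set.image_univ]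
  apply TendstoLocallyUniformlyOn.comp (s := ⊤) _ _ _ (OpenPartialHomeomorph.continuousOn_symm _)
  · simp only [Set.top_eq_univ, tendstoLocallyUniformlyOn_univ]
    apply eisW_tendstoLocallyUniformly hk hw
  · simp only [Topology.IsOpenEmbedding.toOpenPartialHomeomorph_target, Set.top_eq_univ,
      Set.mapsTo_range_iff, Set.mem_univ, forall_const]

/-- Weighted Eisenstein series are holomorphic. -/
theorem eisW_mdifferentiable (hk : 3 ≤ k) (hw : ∀ v, ‖w v‖ ≤ 1) :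
    MDifferentiable 𝓘(ℂ) 𝓘(ℂ) (eisW k w) := by
  intro τ
  suffices DifferentiableAt ℂ (↑ₕ(eisW k w)) τ.1 by
    convert!
      MDifferentiableAt.comp τ (DifferentiableAt.mdifferentiableAt this) τ.mdifferentiable_coe
    exact funext fun z ↦ (comp_ofComplex (eisW k w) z).symm
  refine DifferentiableOn.differentiableAt ?_ (isOpen_upperHalfPlaneSet.mem_nhds τ.2)
  refine (eisW_tendstoLocallyUniformlyOn hk hw).differentiableOn
    (Eventually.of_forall fun s ↦ ?_) isOpen_upperHalfPlaneSet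
  have : (↑ₕ(fun (z : ℍ) ↦ ∑ v ∈ s, w v * eisSummand k v z)) =
      fun z : ℂ ↦ ∑ v ∈ s, w v * (↑ₕeisSummand k v) z := by
    ext z; simp
  rw [this]
  exact DifferentiableOn.fun_sum fun v _ ↦
    (eisSummand_extension_differentiableOn _ _).const_mul _

/-- The total absolute sum is invariant under `SL(2, ℤ)` up to the automorphy factor; in
particular it is `1`-periodic. -/
lemma tsum_norm_eisSummand_T_zpow (n : ℤ) (z : ℍ) :
    ∑' v : Fin 2 → ℤ, ‖eisSummand k v (ModularGroup.T ^ n • z)‖ =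
      ∑' v : Fin 2 → ℤ, ‖eisSummand k v z‖ := by
  rw [← (vecMulEquiv (ModularGroup.T ^ n)).tsum_eq (fun v ↦ ‖eisSummand k v z‖)]
  refine tsum_congr fun v ↦ ?_
  rw [eisSummand_SL2_apply, vecMulEquiv_apply]
  have : denom (ModularGroup.T ^ n : SL(2, ℤ)) z = 1 := by
    rw [ModularGroup.denom_apply, ModularGroup.coe_T_zpow]
    simp
  rw [this, _root_.one_zpow, one_mul]

lemma norm_eisW_le (hk : 3 ≤ k) (hw : ∀ v, ‖w v‖ ≤ 1) (z : ℍ) :
    ‖eisW k w z‖ ≤ ∑' v : Fin 2 → ℤ, ‖eisSummand k v z‖ := by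
  refine (norm_tsum_le_tsum_norm (summable_norm_weighted hk hw z)).trans ?_
  refine (summable_norm_weighted hk hw z).tsum_le_tsum (fun v ↦ ?_)
    (summable_norm_eisSummand hk z)
  rw [norm_mul]
  exact mul_le_of_le_one_left (norm_nonneg _) (hw v)

/-- Weighted Eisenstein series are bounded at infinity. -/
theorem eisW_isBoundedAtImInfty (hk : 3 ≤ k) (hw : ∀ v, ‖w v‖ ≤ 1) :
    IsBoundedAtImInfty (eisW k w) := by
  simp_rw [UpperHalfPlane.isBoundedAtImInfty_iff]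
  refine ⟨∑'(x : Fin 2 → ℤ), r ⟨⟨(1 : ℕ), 2⟩, Nat.ofNat_pos⟩ ^ (-k) * ‖x‖ ^ (-k), 2, ?_⟩
  intro z hz
  obtain ⟨n, hn⟩ := (ModularGroup_T_zpow_mem_verticalStrip z (N := 1) one_pos)
  refine (norm_eisW_le hk hw z).trans ?_
  rw [← tsum_norm_eisSummand_T_zpow ((1 : ℕ) * n) z]
  have hk' : (2 : ℝ) < k := by norm_cast
  apply (summable_norm_eisSummand hk _).tsum_le_tsum _
  · exact_mod_cast (summable_one_div_norm_rpow hk').mul_left <| r ⟨⟨(1 : ℕ), 2⟩, Nat.ofNat_pos⟩ ^ (-k)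
  · intro x
    simp_rw [eisSummand, norm_zpow]
    exact_mod_cast
      summand_bound_of_mem_verticalStrip (lt_trans two_pos hk').le x two_pos
      (verticalStrip_anti_right _ hz hn)

/-! ### Constant terms -/

/-- The part of the absolute sum with `v 0 ≠ 0`. -/
def tailSum (k : ℤ) (z : ℍ) : ℝ :=
  ∑' v : Fin 2 → ℤ, if v 0 = 0 then 0 else ‖eisSummand k v z‖

lemma vecMul_T_zpow_zero (n : ℤ) (v : Fin 2 → ℤ) :
    (v ᵥ* (ModularGroup.T ^ n : SL(2, ℤ)).1) 0 = v 0 := by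
  rw [ModularGroup.coe_T_zpow]
  simp [vecMul, vecHead]

lemma tailSum_T_zpow (n : ℤ) (z : ℍ) : tailSum k (ModularGroup.T ^ n • z) = tailSum k z := by
  unfold tailSum
  rw [← (vecMulEquiv (ModularGroup.T ^ n)).tsum_eq
    (fun v ↦ if v 0 = 0 then 0 else ‖eisSummand k v z‖)]
  refine tsum_congr fun v ↦ ?_
  rw [eisSummand_SL2_apply, vecMulEquiv_apply, vecMul_T_zpow_zero]
  have : denom (ModularGroup.T ^ n : SL(2, ℤ)) z = 1 := by
    rw [ModularGroup.denom_apply, ModularGroup.coe_T_zpow]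
    simp
  rw [this, _root_.one_zpow, one_mul]

lemma tailSum_tendsto_strip (hk : 3 ≤ k) :
    Tendsto (tailSum k) (atImInfty ⊓ 𝓟 (verticalStrip (1 : ℕ) 2)) (𝓝 0) := by
  have hk' : (2 : ℝ) < k := by norm_cast
  have h0 : (0 : ℝ) = ∑' v : Fin 2 → ℤ, (0 : ℝ) := by simp
  rw [h0]
  refine tendsto_tsum_of_dominated_convergence
    (bound := fun v : Fin 2 → ℤ ↦ r ⟨⟨(1 : ℕ), 2⟩, Nat.ofNat_pos⟩ ^ (-k) * ‖v‖ ^ (-k))
    (by exact_mod_cast ((summable_one_div_norm_rpow hk').mul_left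
      (r ⟨⟨(1 : ℕ), 2⟩, Nat.ofNat_pos⟩ ^ (-k)))) (fun v ↦ ?_) ?_
  · by_cases hv : v 0 = 0
    · simp only [hv, if_true]
      exact tendsto_const_nhds
    · simp only [hv, if_false]
      refine Tendsto.mono_left ?_ inf_le_left
      have h1 : Tendsto (fun z : ℍ ↦ ‖(v 0 : ℂ) * z + v 1‖) atImInfty atTop := by
        refine tendsto_atTop_mono (f := fun z : ℍ ↦ |(v 0 : ℝ)| * z.im) (fun z ↦ ?_) ?_
        · have : |((v 0 : ℂ) * z + v 1).im| ≤ ‖(v 0 : ℂ) * z + v 1‖ := abs_im_le_norm _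
          refine le_trans (le_of_eq ?_) this
          simp [abs_mul, abs_of_pos z.im_pos]
        · refine Tendsto.const_mul_atTop (by positivity) ?_
          exact tendsto_comap
      have h2 : (fun z : ℍ ↦ ‖eisSummand k v z‖) =
          fun z : ℍ ↦ (‖(v 0 : ℂ) * z + v 1‖ ^ k)⁻¹ := by
        ext z; simp [eisSummand, norm_zpow]
      rw [h2]
      refine tendsto_inv_atTop_zero.comp ?_
      lift k to ℕ using by omega
      simp only [zpow_natCast]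
      exact (tendsto_pow_atTop (by omega)).comp h1
  · rw [eventually_inf_principal]
    refine Eventually.of_forall fun z hz v ↦ ?_
    by_cases hv : v 0 = 0
    · simp only [hv, if_true, norm_zero]
      have := r_pos ⟨⟨(1 : ℕ), 2⟩, Nat.ofNat_pos⟩
      positivity
    · simp only [hv, if_false, norm_norm]
      simp_rw [eisSummand, norm_zpow]
      exact_mod_cast
        summand_bound_of_mem_verticalStrip (lt_trans two_pos hk').le v two_pos hz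

lemma tailSum_tendsto (hk : 3 ≤ k) : Tendsto (tailSum k) atImInfty (𝓝 0) := by
  have h := tailSum_tendsto_strip hk
  rw [Metric.tendsto_nhds] at h ⊢
  intro ε hε
  have h' := h ε hε
  rw [eventually_inf_principal] at h'
  rw [Filter.Eventually, atImInfty_mem] at h' ⊢
  obtain ⟨A, hA⟩ := h'
  refine ⟨max A 2, fun z hz ↦ ?_⟩
  obtain ⟨n, hn⟩ := (ModularGroup_T_zpow_mem_verticalStrip z (N := 1) one_pos)
  have him : (ModularGroup.T ^ (((1 : ℕ) : ℤ) * n) • z).im = z.im := by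
    rw [modular_T_zpow_smul]; simp
  have h3 := hA (ModularGroup.T ^ (((1 : ℕ) : ℤ) * n) • z)
    (by rw [him]; exact (le_max_left _ _).trans hz)
    (verticalStrip_anti_right _ ((le_max_right _ _).trans hz) hn)
  show dist (tailSum k z) 0 < ε
  rwa [tailSum_T_zpow] at h3

/-- The constant term of a weighted Eisenstein series. -/
def constTerm (k : ℤ) (w : (Fin 2 → ℤ) → ℂ) : ℂ :=
  ∑' v : Fin 2 → ℤ, if v 0 = 0 then w v * (v 1 : ℂ) ^ (-k) else 0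

lemma eisW_sub_constTerm_le (hk : 3 ≤ k) (hw : ∀ v, ‖w v‖ ≤ 1) (z : ℍ) :
    ‖eisW k w z - constTerm k w‖ ≤ tailSum k z := by
  have hs := summable_weighted hk hw z
  have hsn := summable_norm_eisSummand hk z
  have hc : ∀ v : Fin 2 → ℤ, (if v 0 = 0 then w v * (v 1 : ℂ) ^ (-k) else 0) =
      Set.indicator {v : Fin 2 → ℤ | v 0 = 0} (fun v ↦ w v * eisSummand k v z) v := by
    intro v
    by_cases hv : v 0 = 0
    · simp [hv, eisSummand, Set.indicator]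
    · simp [hv, Set.indicator]
  have hc' : Summable fun v : Fin 2 → ℤ ↦ (if v 0 = 0 then w v * (v 1 : ℂ) ^ (-k) else 0) := by
    simp_rw [hc]; exact hs.indicator _
  rw [eisW, constTerm, ← hs.tsum_sub hc']
  have ht : ∀ v : Fin 2 → ℤ, (if v 0 = 0 then 0 else ‖eisSummand k v z‖) =
      Set.indicator {v : Fin 2 → ℤ | v 0 ≠ 0} (fun v ↦ ‖eisSummand k v z‖) v := by
    intro v
    by_cases hv : v 0 = 0 <;> simp [hv, Set.indicator]
  have ht' : Summable fun v : Fin 2 → ℤ ↦ (if v 0 = 0 then 0 else ‖eisSummand k v z‖) := by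
    simp_rw [ht]; exact hsn.indicator _
  refine tsum_of_norm_bounded ht'.hasSum fun v ↦ ?_
  by_cases hv : v 0 = 0
  · simp [hv, eisSummand]
  · simp only [hv, if_false, sub_zero, norm_mul]
    exact mul_le_of_le_one_left (norm_nonneg _) (hw v)

/-- The limit at `i∞` of a weighted Eisenstein series is its constant term. -/
theorem eisW_tendsto (hk : 3 ≤ k) (hw : ∀ v, ‖w v‖ ≤ 1) :
    Tendsto (eisW k w) atImInfty (𝓝 (constTerm k w)) := by
  rw [tendsto_iff_norm_sub_tendsto_zero]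
  exact squeeze_zero (fun _ ↦ norm_nonneg _) (fun z ↦ eisW_sub_constTerm_le hk hw z)
    (tailSum_tendsto hk)

/-- Constant term for weights supported on coprime vectors. -/
lemma constTerm_of_coprime (hw0 : ∀ v : Fin 2 → ℤ, ¬ IsCoprime (v 0) (v 1) → w v = 0) :
    constTerm k w = w ![0, 1] + w ![0, -1] * (-1 : ℂ) ^ (-k) := by
  rw [constTerm, tsum_eq_sum (s := {![0, 1], ![0, -1]})]
  · rw [Finset.sum_pair]
    · simp
    · intro h
      have := congrFun h 1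
      simp at this
  · intro v hv
    by_cases hv0 : v 0 = 0
    · rw [if_pos hv0]
      by_cases hc : IsCoprime (v 0) (v 1)
      · exfalso
        apply hv
        rw [hv0, isCoprime_zero_left, Int.isUnit_iff] at hc
        rcases hc with h1 | h1
        · have : v = ![0, 1] := by ext i; fin_cases i <;> simp [hv0, h1]
          simp [this]
        · have : v = ![0, -1] := by ext i; fin_cases i <;> simp [hv0, h1]
          simp [this]
      · rw [hw0 v hc, zero_mul]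
    · rw [if_neg hv0]

/-! ### Eisenstein series with character -/

/-- The bottom row of a matrix. -/
def row (g : SL(2, ℤ)) : Fin 2 → ℤ := g.1 1

lemma row_apply (g : SL(2, ℤ)) (i : Fin 2) : row g i = g.1 1 i := rfl

lemma row_mul (g A : SL(2, ℤ)) : row (g * A) = row g ᵥ* A.1 := by
  ext j
  simp only [row, vecMul, dotProduct]
  rfl

lemma row_one : row 1 = ![0, 1] := by
  ext i; fin_cases i <;> simp [row]

lemma row_isCoprime (g : SL(2, ℤ)) : IsCoprime (row g 0) (row g 1) := by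
  refine ⟨-(g.1 0 1), g.1 0 0, ?_⟩
  have h := g.det_coe
  rw [det_fin_two] at h
  simp only [row_apply]
  linarith

lemma mul_inv_row_of_row_eq {g g' : SL(2, ℤ)} (h : row g = row g') :
    row (g' * g⁻¹) = ![0, 1] := by
  rw [row_mul, ← h, ← row_mul, mul_inv_cancel, row_one]

section

variable (Γ : Subgroup SL(2, ℤ)) (χ : Γ →* ℂˣ)

open Classical in
/-- The weight function attached to a character. -/
def wt (v : Fin 2 → ℤ) : ℂ :=
  if h : ∃ γ : Γ, row γ = v then (((χ h.choose)⁻¹ : ℂˣ) : ℂ) else 0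

/-- The Eisenstein series of weight `k` with character `χ` on `Γ`. -/
def eis (k : ℤ) : ℍ → ℂ := eisW k (wt Γ χ)

variable {Γ χ}

lemma wt_row (hT : ∀ γ : Γ, (γ : SL(2, ℤ)).1 1 0 = 0 → χ γ = 1) (γ : Γ) :
    wt Γ χ (row γ) = (((χ γ)⁻¹ : ℂˣ) : ℂ) := by
  have h : ∃ γ' : Γ, row γ' = row (γ : SL(2, ℤ)) := ⟨γ, rfl⟩
  rw [wt, dif_pos h]
  have h2 := h.choose_spec
  have h3 : χ (γ * (h.choose)⁻¹) = 1 := by
    apply hT
    have := mul_inv_row_of_row_eq h2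
    have h4 := congrFun this 0
    simpa [row] using h4
  rw [map_mul, map_inv, mul_inv_eq_one] at h3
  rw [h3]

lemma wt_of_not_exists {v : Fin 2 → ℤ} (h : ¬ ∃ γ : Γ, row γ = v) : wt Γ χ v = 0 := by
  rw [wt, dif_neg h]

lemma norm_wt_le (hχ : ∀ γ : Γ, ‖(χ γ : ℂ)‖ = 1) (v : Fin 2 → ℤ) : ‖wt Γ χ v‖ ≤ 1 := by
  by_cases h : ∃ γ : Γ, row γ = v
  · rw [wt, dif_pos h, Units.val_inv_eq_inv_val, norm_inv, hχ, inv_one]
  · rw [wt_of_not_exists h, norm_zero]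
    exact zero_le_one

lemma wt_of_not_isCoprime {v : Fin 2 → ℤ} (hv : ¬ IsCoprime (v 0) (v 1)) : wt Γ χ v = 0 := by
  refine wt_of_not_exists ?_
  rintro ⟨γ, rfl⟩
  exact hv (row_isCoprime _)

lemma wt_vecMul_inv (hT : ∀ γ : Γ, (γ : SL(2, ℤ)).1 1 0 = 0 → χ γ = 1) (A : Γ)
    (v : Fin 2 → ℤ) :
    wt Γ χ (v ᵥ* ((A : SL(2, ℤ))⁻¹).1) = (χ A : ℂ) * wt Γ χ v := by
  by_cases h : ∃ γ : Γ, row γ = v
  · obtain ⟨γ, rfl⟩ := h
    rw [← row_mul, wt_row hT]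
    have := wt_row hT (γ * A⁻¹)
    rw [show ((γ * A⁻¹ : Γ) : SL(2, ℤ)) = (γ : SL(2, ℤ)) * (A : SL(2, ℤ))⁻¹ from rfl] at this
    rw [this, map_mul, map_inv, mul_inv, inv_inv, Units.val_mul, mul_comm]
  · rw [wt_of_not_exists h, mul_zero]
    refine wt_of_not_exists ?_
    rintro ⟨γ, hγ⟩
    refine h ⟨γ * A, ?_⟩
    rw [show ((γ * A : Γ) : SL(2, ℤ)) = (γ : SL(2, ℤ)) * (A : SL(2, ℤ)) from rfl, row_mul, hγ,
      vecMul_mul, inv_mul_cancel, vecMul_one']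

/-- The transformation law. -/
theorem eis_slash (hT : ∀ γ : Γ, (γ : SL(2, ℤ)).1 1 0 = 0 → χ γ = 1) (k : ℤ) (γ : Γ) :
    (eis Γ χ k) ∣[k] (γ : SL(2, ℤ)) = (χ γ : ℂ) • eis Γ χ k := by
  rw [eis, eisW_slash]
  ext z
  simp only [eisW, Pi.smul_apply, smul_eq_mul, wt_vecMul_inv hT, mul_assoc]
  rw [tsum_mul_left]

theorem eis_mdifferentiable (hχ : ∀ γ : Γ, ‖(χ γ : ℂ)‖ = 1) {k : ℤ} (hk : 3 ≤ k) :
    MDifferentiable 𝓘(ℂ) 𝓘(ℂ) (eis Γ χ k) :=
  eisW_mdifferentiable hk (norm_wt_le hχ)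

theorem eis_slash_isBoundedAtImInfty (hχ : ∀ γ : Γ, ‖(χ γ : ℂ)‖ = 1) {k : ℤ} (hk : 3 ≤ k)
    (g : SL(2, ℤ)) : IsBoundedAtImInfty ((eis Γ χ k) ∣[k] g) := by
  rw [eis, eisW_slash]
  exact eisW_isBoundedAtImInfty hk fun v ↦ norm_wt_le hχ _

/-- The limit at each cusp. -/
theorem eis_slash_tendsto (hχ : ∀ γ : Γ, ‖(χ γ : ℂ)‖ = 1) {k : ℤ} (hk : 3 ≤ k)
    (g : SL(2, ℤ)) : Tendsto ((eis Γ χ k) ∣[k] g) atImInfty
      (𝓝 (constTerm k fun v ↦ wt Γ χ (v ᵥ* (g⁻¹).1))) := by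
  rw [eis, eisW_slash]
  exact eisW_tendsto hk fun v ↦ norm_wt_le hχ _

theorem constTerm_wt (hT : ∀ γ : Γ, (γ : SL(2, ℤ)).1 1 0 = 0 → χ γ = 1) {k : ℤ} (hk : Even k)
    (hΓ : (-1 : SL(2, ℤ)) ∈ Γ) : constTerm k (wt Γ χ) = 2 := by
  rw [constTerm_of_coprime fun v hv ↦ wt_of_not_isCoprime hv]
  have h1 : wt Γ χ ![0, 1] = 1 := by
    have := wt_row hT 1
    rw [map_one, inv_one, Units.val_one] at this
    rwa [show ((1 : Γ) : SL(2, ℤ)) = 1 from rfl, row_one] at this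
  have h2 : wt Γ χ ![0, -1] = 1 := by
    have := wt_row hT ⟨-1, hΓ⟩
    rw [hT ⟨-1, hΓ⟩ (by simp), inv_one, Units.val_one] at this
    have h3 : row (-1 : SL(2, ℤ)) = ![0, -1] := by
      ext i; fin_cases i <;> simp [row]
    rwa [show ((⟨-1, hΓ⟩ : Γ) : SL(2, ℤ)) = -1 from rfl, h3] at this
  rw [h1, h2, hk.neg.neg_one_zpow]
  norm_num

/-- The Eisenstein series tends to `2` at `i∞`. -/
theorem eis_tendsto (hT : ∀ γ : Γ, (γ : SL(2, ℤ)).1 1 0 = 0 → χ γ = 1)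
    (hχ : ∀ γ : Γ, ‖(χ γ : ℂ)‖ = 1) {k : ℤ} (hk3 : 3 ≤ k) (hk : Even k)
    (hΓ : (-1 : SL(2, ℤ)) ∈ Γ) : Tendsto (eis Γ χ k) atImInfty (𝓝 2) := by
  have := eisW_tendsto hk3 (norm_wt_le hχ)
  rwa [constTerm_wt hT hk hΓ] at this

theorem eis_ne_zero (hT : ∀ γ : Γ, (γ : SL(2, ℤ)).1 1 0 = 0 → χ γ = 1)
    (hχ : ∀ γ : Γ, ‖(χ γ : ℂ)‖ = 1) {k : ℤ} (hk3 : 3 ≤ k) (hk : Even k)
    (hΓ : (-1 : SL(2, ℤ)) ∈ Γ) : eis Γ χ k ≠ 0 := by
  intro h
  have h1 := eis_tendsto hT hχ hk3 hk hΓ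
  rw [h] at h1
  have h2 := tendsto_nhds_unique h1 (tendsto_const_nhds (x := (0 : ℂ)))
  norm_num at h2

end

/-! ### Constructors of modular forms -/

lemma pow_slash_SL2 (k : ℤ) (A : SL(2, ℤ)) (f : ℍ → ℂ) (n : ℕ) :
    (f ^ n) ∣[(n : ℤ) * k] A = (f ∣[k] A) ^ n := by
  induction n with
  | zero =>
    ext z
    simp [SL_slash_apply]
  | succ n ih =>
    rw [pow_succ, pow_succ, ← ih, ← mul_slash_SL2]
    congr 1
    push_cast
    ring

lemma isBoundedAtImInfty_pow {f : ℍ → ℂ} (hf : IsBoundedAtImInfty f) (n : ℕ) :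
    IsBoundedAtImInfty (f ^ n) := by
  induction n with
  | zero => rw [pow_zero]; exact Filter.const_boundedAtFilter atImInfty (1 : ℂ)
  | succ n ih => rw [pow_succ]; exact ih.mul hf

lemma isZeroAtImInfty_mul_bounded {f g : ℍ → ℂ} (hf : IsZeroAtImInfty f)
    (hg : IsBoundedAtImInfty g) : IsZeroAtImInfty (f * g) := by
  rw [isZeroAtImInfty_iff] at *
  rw [isBoundedAtImInfty_iff] at hg
  obtain ⟨M, A, hM⟩ := hg
  intro ε hε
  obtain ⟨B, hB⟩ := hf (ε / (|M| + 1)) (by positivity)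
  refine ⟨max A B, fun z hz ↦ ?_⟩
  have h1 := hM z ((le_max_left _ _).trans hz)
  have h2 := hB z ((le_max_right _ _).trans hz)
  rw [Pi.mul_apply, norm_mul]
  calc ‖f z‖ * ‖g z‖ ≤ (ε / (|M| + 1)) * (|M| + 1) := by
        refine mul_le_mul h2 (h1.trans ((le_abs_self M).trans (by linarith))) (norm_nonneg _)
          (by positivity)
    _ = ε := by field_simp

/-- Constructor of modular forms for a finite index subgroup of `SL(2, ℤ)`. -/
def mkModularForm (Γ : Subgroup SL(2, ℤ)) [Γ.FiniteIndex] (k : ℤ) (f : ℍ → ℂ)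
    (h1 : ∀ γ ∈ Γ, f ∣[k] γ = f) (h2 : MDifferentiable 𝓘(ℂ) 𝓘(ℂ) f)
    (h3 : ∀ g : SL(2, ℤ), IsBoundedAtImInfty (f ∣[k] g)) :
    ModularForm (Γ : Subgroup (GL (Fin 2) ℝ)) k where
  toFun := f
  slash_action_eq' A hA := by
    obtain ⟨A, hA, rfl⟩ := hA
    exact h1 A hA
  holo' := h2
  bdd_at_cusps' {c} hc := by
    rw [Subgroup.IsArithmetic.isCusp_iff_isCusp_SL2Z] at hc
    rw [OnePoint.isBoundedAt_iff_forall_SL2Z hc]
    exact fun γ _ ↦ h3 γ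

@[simp] lemma coe_mkModularForm (Γ : Subgroup SL(2, ℤ)) [Γ.FiniteIndex] (k : ℤ) (f : ℍ → ℂ)
    (h1 : ∀ γ ∈ Γ, f ∣[k] γ = f) (h2 : MDifferentiable 𝓘(ℂ) 𝓘(ℂ) f)
    (h3 : ∀ g : SL(2, ℤ), IsBoundedAtImInfty (f ∣[k] g)) :
    ⇑(mkModularForm Γ k f h1 h2 h3) = f := rfl

/-- Constructor of cusp forms for a finite index subgroup of `SL(2, ℤ)`. -/
def mkCuspForm (Γ : Subgroup SL(2, ℤ)) [Γ.FiniteIndex] (k : ℤ) (f : ℍ → ℂ)
    (h1 : ∀ γ ∈ Γ, f ∣[k] γ = f) (h2 : MDifferentiable 𝓘(ℂ) 𝓘(ℂ) f)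
    (h3 : ∀ g : SL(2, ℤ), IsZeroAtImInfty (f ∣[k] g)) :
    CuspForm (Γ : Subgroup (GL (Fin 2) ℝ)) k where
  toFun := f
  slash_action_eq' A hA := by
    obtain ⟨A, hA, rfl⟩ := hA
    exact h1 A hA
  holo' := h2
  zero_at_cusps' {c} hc := by
    rw [Subgroup.IsArithmetic.isCusp_iff_isCusp_SL2Z] at hc
    rw [OnePoint.isZeroAt_iff_forall_SL2Z hc]
    exact fun γ _ ↦ h3 γ

@[simp] lemma coe_mkCuspForm (Γ : Subgroup SL(2, ℤ)) [Γ.FiniteIndex] (k : ℤ) (f : ℍ → ℂ)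
    (h1 : ∀ γ ∈ Γ, f ∣[k] γ = f) (h2 : MDifferentiable 𝓘(ℂ) 𝓘(ℂ) f)
    (h3 : ∀ g : SL(2, ℤ), IsZeroAtImInfty (f ∣[k] g)) :
    ⇑(mkCuspForm Γ k f h1 h2 h3) = f := rfl

lemma discriminant_slash (g : SL(2, ℤ)) : discriminant ∣[(12 : ℤ)] g = discriminant := by
  have := CuspForm.discriminant.slash_action_eq' (SpecialLinearGroup.mapGL ℝ g) ⟨g, rfl⟩
  exact this

section

variable {Γ : Subgroup SL(2, ℤ)} {χ : Γ →* ℂˣ}

/-- If `χ ^ n = 1`, the `n`-th power of `E_{k,χ}` is a modular form on `Γ`. -/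
def eisPow [Γ.FiniteIndex] (hT : ∀ γ : Γ, (γ : SL(2, ℤ)).1 1 0 = 0 → χ γ = 1)
    (hχ : ∀ γ : Γ, ‖(χ γ : ℂ)‖ = 1) {k : ℤ} (hk : 3 ≤ k) (n : ℕ) (hn : χ ^ n = 1) :
    ModularForm (Γ : Subgroup (GL (Fin 2) ℝ)) (n * k) :=
  mkModularForm Γ (n * k) ((eis Γ χ k) ^ n)
    (fun γ hγ ↦ by
      rw [pow_slash_SL2, eis_slash hT k ⟨γ, hγ⟩, smul_pow]
      have h : (χ ⟨γ, hγ⟩) ^ n = 1 := by
        simpa using DFunLike.congr_fun hn ⟨γ, hγ⟩
      rw [← Units.val_pow_eq_pow_val, h, Units.val_one, one_smul])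
    ((eis_mdifferentiable hχ hk).pow n)
    (fun g ↦ by
      rw [pow_slash_SL2]
      exact isBoundedAtImInfty_pow (eis_slash_isBoundedAtImInfty hχ hk g) n)

@[simp] lemma coe_eisPow [Γ.FiniteIndex] (hT : ∀ γ : Γ, (γ : SL(2, ℤ)).1 1 0 = 0 → χ γ = 1)
    (hχ : ∀ γ : Γ, ‖(χ γ : ℂ)‖ = 1) {k : ℤ} (hk : 3 ≤ k) (n : ℕ) (hn : χ ^ n = 1) :
    ⇑(eisPow hT hχ hk n hn) = (eis Γ χ k) ^ n := rfl

variable (Γ χ) in
/-- `Δ E_{k,χ}`, a cusp form of weight `12 + k` with character `χ`. -/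
def deltaEis (k : ℤ) : ℍ → ℂ := discriminant * eis Γ χ k

lemma deltaEis_slash_SL2 (k : ℤ) (g : SL(2, ℤ)) :
    (deltaEis Γ χ k) ∣[12 + k] g = discriminant * ((eis Γ χ k) ∣[k] g) := by
  rw [deltaEis, mul_slash_SL2, discriminant_slash]

theorem deltaEis_slash (hT : ∀ γ : Γ, (γ : SL(2, ℤ)).1 1 0 = 0 → χ γ = 1) (k : ℤ) (γ : Γ) :
    (deltaEis Γ χ k) ∣[12 + k] (γ : SL(2, ℤ)) = (χ γ : ℂ) • deltaEis Γ χ k := by
  rw [deltaEis_slash_SL2, eis_slash hT, deltaEis, mul_smul_comm]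

theorem deltaEis_mdifferentiable (hχ : ∀ γ : Γ, ‖(χ γ : ℂ)‖ = 1) {k : ℤ} (hk : 3 ≤ k) :
    MDifferentiable 𝓘(ℂ) 𝓘(ℂ) (deltaEis Γ χ k) :=
  (CuspForm.discriminant.holo').mul (eis_mdifferentiable hχ hk)

theorem deltaEis_slash_isZeroAtImInfty (hχ : ∀ γ : Γ, ‖(χ γ : ℂ)‖ = 1) {k : ℤ} (hk : 3 ≤ k)
    (g : SL(2, ℤ)) : IsZeroAtImInfty ((deltaEis Γ χ k) ∣[12 + k] g) := by
  rw [deltaEis_slash_SL2]
  exact isZeroAtImInfty_mul_bounded discriminant_isZeroAtImInfty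
    (eis_slash_isBoundedAtImInfty hχ hk g)

theorem deltaEis_ne_zero (hT : ∀ γ : Γ, (γ : SL(2, ℤ)).1 1 0 = 0 → χ γ = 1)
    (hχ : ∀ γ : Γ, ‖(χ γ : ℂ)‖ = 1) {k : ℤ} (hk3 : 3 ≤ k) (hk : Even k)
    (hΓ : (-1 : SL(2, ℤ)) ∈ Γ) : deltaEis Γ χ k ≠ 0 := by
  intro h
  refine eis_ne_zero hT hχ hk3 hk hΓ ?_
  ext z
  have := congrFun h z
  simpa [deltaEis, discriminant_ne_zero z] using this

/-- If `χ ^ n = 1`, `n ≥ 1`, the `n`-th power of `Δ E_{k,χ}` is a cusp form on `Γ`. -/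
def deltaEisPow [Γ.FiniteIndex] (hT : ∀ γ : Γ, (γ : SL(2, ℤ)).1 1 0 = 0 → χ γ = 1)
    (hχ : ∀ γ : Γ, ‖(χ γ : ℂ)‖ = 1) {k : ℤ} (hk : 3 ≤ k) (n : ℕ) (hn0 : n ≠ 0)
    (hn : χ ^ n = 1) :
    CuspForm (Γ : Subgroup (GL (Fin 2) ℝ)) (n * (12 + k)) :=
  mkCuspForm Γ (n * (12 + k)) ((deltaEis Γ χ k) ^ n)
    (fun γ hγ ↦ by
      rw [pow_slash_SL2, deltaEis_slash hT k ⟨γ, hγ⟩, smul_pow]
      have h : (χ ⟨γ, hγ⟩) ^ n = 1 := by
        simpa using DFunLike.congr_fun hn ⟨γ, hγ⟩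
      rw [← Units.val_pow_eq_pow_val, h, Units.val_one, one_smul])
    ((deltaEis_mdifferentiable hχ hk).pow n)
    (fun g ↦ by
      rw [pow_slash_SL2]
      obtain ⟨m, rfl⟩ := Nat.exists_eq_succ_of_ne_zero hn0
      rw [pow_succ']
      exact isZeroAtImInfty_mul_bounded (deltaEis_slash_isZeroAtImInfty hχ hk g)
        (isBoundedAtImInfty_pow (deltaEis_slash_isZeroAtImInfty hχ hk g).isBoundedAtImInfty m))

@[simp] lemma coe_deltaEisPow [Γ.FiniteIndex]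
    (hT : ∀ γ : Γ, (γ : SL(2, ℤ)).1 1 0 = 0 → χ γ = 1)
    (hχ : ∀ γ : Γ, ‖(χ γ : ℂ)‖ = 1) {k : ℤ} (hk : 3 ≤ k) (n : ℕ) (hn0 : n ≠ 0)
    (hn : χ ^ n = 1) : ⇑(deltaEisPow hT hχ hk n hn0 hn) = (deltaEis Γ χ k) ^ n := rfl

/-- A finite order character is unitary. -/
lemma norm_eq_one_of_pow_eq_one {n : ℕ} (hn0 : n ≠ 0) (hn : χ ^ n = 1) (γ : Γ) :
    ‖(χ γ : ℂ)‖ = 1 := by
  have h : (χ γ) ^ n = 1 := by simpa using DFunLike.congr_fun hn γ
  have h' : ((χ γ : ℂˣ) : ℂ) ^ n = 1 := by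
    rw [← Units.val_pow_eq_pow_val, h, Units.val_one]
  exact Complex.norm_eq_one_of_pow_eq_one h' hn0

/-- The trivial character. -/
lemma eis_one_slash (k : ℤ) (γ : Γ) :
    (eis Γ (1 : Γ →* ℂˣ) k) ∣[k] (γ : SL(2, ℤ)) = eis Γ 1 k := by
  rw [eis_slash (by simp) k γ]; simp

end

section Gamma0

open CongruenceSubgroup

lemma neg_one_mem_Gamma0 (N : ℕ) : (-1 : SL(2, ℤ)) ∈ Gamma0 N := by
  rw [Gamma0_mem]; simp

end Gamma0

end Fermat.Agent.JAN.EisCharB
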