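import Mathlib

/-!
# Holomorphic `n`-th roots on the upper half plane

If `g` is holomorphic on the upper half plane, not identically zero, and all its orders of
vanishing are divisible by `n`, then `g` has a holomorphic `n`-th root.
-/

set_option autoImplicit false

open Complex Metric Set Filter Topology

namespace Fermat.Agent.JAN.HolRoot

/-- a nonvanishing analytic function on a ball has a holomorphic logarithm -/
theorem exists_log_ball {c : ℂ} {r : ℝ} {v : ℂ → ℂ} (hr : 0 < r)
    (hv : DifferentiableOn ℂ v (ball c r)) (h0 : ∀ z ∈ ball c r, v z ≠ 0) :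
    ∃ h : ℂ → ℂ, DifferentiableOn ℂ h (ball c r) ∧ ∀ z ∈ ball c r, v z = exp (h z) := by
  have hd : DifferentiableOn ℂ (fun z => deriv v z / v z) (ball c r) :=
    (hv.deriv isOpen_ball).div hv h0
  obtain ⟨h, hh⟩ := hd.isExactOn_ball
  obtain ⟨y, hy⟩ : ∃ y, exp y = v c := ⟨log (v c), exp_log (h0 c (mem_ball_self hr))⟩
  have hdiff : DifferentiableOn ℂ h (ball c r) := fun z hz =>
    (hh z hz).differentiableAt.differentiableWithinAt
  refine ⟨fun z => h z - h c + y, (hdiff.sub_const _).add_const _, ?_⟩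
  -- the function v * exp(-(h - h c + y)) is constant
  have key : ∀ z ∈ ball c r, v z * exp (-(h z - h c + y)) = v c * exp (-(h c - h c + y)) := by
    intro z hz
    have hder : ∀ w ∈ ball c r,
        HasDerivAt (fun w => v w * exp (-(h w - h c + y))) 0 w := by
      intro w hw
      have h1 : HasDerivAt v (deriv v w) w :=
        ((hv w hw).differentiableAt (isOpen_ball.mem_nhds hw)).hasDerivAt
      have h2 : HasDerivAt (fun w => exp (-(h w - h c + y)))
          (exp (-(h w - h c + y)) * (-(deriv v w / v w))) w := by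
        have := (((hh w hw).sub_const (h c)).add_const y).neg.cexp
        exact this
      have h3 := h1.mul h2
      have h4 : deriv v w * exp (-(h w - h c + y)) +
          v w * (exp (-(h w - h c + y)) * (-(deriv v w / v w))) = 0 := by
        have hw0 := h0 w hw
        field_simp
        ring
      rw [h4] at h3
      exact h3
    exact (convex_ball c r).is_const_of_fderivWithin_eq_zero
      (fun w hw => (hder w hw).differentiableAt.differentiableWithinAt)
      (fun w hw => by
        rw [fderivWithin_of_isOpen isOpen_ball hw]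
        have := (hder w hw).hasFDerivAt.fderiv
        rw [this]; ext; simp) hz (mem_ball_self hr)
  intro z hz
  have h1 := key z hz
  have h2 : v c * exp (-(h c - h c + y)) = 1 := by
    rw [← hy, ← exp_add]; simp
  rw [h2, exp_neg] at h1
  field_simp at h1
  exact h1

/-- `n`-th root on a ball for a function analytic near the closed ball -/
theorem exists_root_ball {n : ℕ} (hn : n ≠ 0) {c : ℂ} {r : ℝ} (hr : 0 < r) {g : ℂ → ℂ}
    (hg : AnalyticOnNhd ℂ g (closedBall c r))
    (hord : ∀ z ∈ closedBall c r, ∃ m : ℕ, analyticOrderAt g z = ((n * m : ℕ) : ℕ∞)) :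
    ∃ E : ℂ → ℂ, DifferentiableOn ℂ E (ball c r) ∧ ∀ z ∈ ball c r, E z ^ n = g z := by
  classical
  choose! m hm using hord
  have hmero : MeromorphicOn g (closedBall c r) := hg.meromorphicOn
  have hord' : ∀ z ∈ closedBall c r, meromorphicOrderAt g z = ((n * m z : ℕ) : ℤ) := by
    intro z hz
    rw [(hg z hz).meromorphicOrderAt_eq, hm z hz]
    rfl
  have hfin : (MeromorphicOn.divisor g (closedBall c r)).support.Finite :=
    (MeromorphicOn.divisor g (closedBall c r)).finiteSupport (isCompact_closedBall c r)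
  obtain ⟨v, hv, hv0, hgv⟩ := hmero.extract_zeros_poles
    (fun u => by rw [hord' u u.2]; exact WithTop.coe_ne_top) hfin
  have hdiv : ∀ z ∈ closedBall c r,
      MeromorphicOn.divisor g (closedBall c r) z = ((n * m z : ℕ) : ℤ) := by
    intro z hz
    rw [hmero.divisor_apply hz, hord' z hz]
    rfl
  -- the exponents of the root
  let d : ℂ → ℤ := fun z => MeromorphicOn.divisor g (closedBall c r) z / n
  have hd : ∀ z, MeromorphicOn.divisor g (closedBall c r) z = n * d z := by
    intro z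
    by_cases hz : z ∈ closedBall c r
    · simp only [d]
      rw [hdiv z hz]
      push_cast
      rw [Int.mul_ediv_cancel_left _ (by exact_mod_cast hn)]
    · have : MeromorphicOn.divisor g (closedBall c r) z = 0 :=
        Function.locallyFinsuppWithin.apply_eq_zero_of_notMem _ hz
      simp [d, this]
  have hd0 : ∀ z, 0 ≤ d z := by
    intro z
    by_cases hz : z ∈ closedBall c r
    · simp only [d]
      rw [hdiv z hz]
      positivity
    · have : MeromorphicOn.divisor g (closedBall c r) z = 0 :=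
        Function.locallyFinsuppWithin.apply_eq_zero_of_notMem _ hz
      simp [d, this]
  have hdfin : d.HasFiniteSupport := by
    refine hfin.subset ?_
    intro z hz
    simp only [Function.mem_support] at hz ⊢
    intro h0
    apply hz
    simp only [d, h0, Int.zero_ediv]
  obtain ⟨h, hh, hvh⟩ := exists_log_ball hr
    (hv.differentiableOn.mono ball_subset_closedBall)
    (fun z hz => hv0 ⟨z, ball_subset_closedBall hz⟩)
  let P : ℂ → ℂ := ∏ᶠ u, (· - u) ^ d u
  have hP : ∀ z, AnalyticAt ℂ P z := fun z => Function.FactorizedRational.analyticAt (hd0 z)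
  have hPn : (∏ᶠ u, (· - u) ^ MeromorphicOn.divisor g (closedBall c r) u : ℂ → ℂ) = P ^ n := by
    have h1 : (∏ᶠ u, (· - u) ^ MeromorphicOn.divisor g (closedBall c r) u : ℂ → ℂ) =
        ∏ᶠ u, ((· - u) ^ d u : ℂ → ℂ) ^ n := by
      apply finprod_congr
      intro u
      rw [hd u, mul_comm, zpow_mul, zpow_natCast]
    rw [h1]
    have hf : (fun u : ℂ => ((· - u) ^ d u : ℂ → ℂ)).mulSupport.Finite := by
      rw [Function.FactorizedRational.mulSupport]
      exact hdfin
    exact (finprod_pow hf n).symm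
  refine ⟨fun z => P z * exp (h z / n), ?_, ?_⟩
  · intro z hz
    exact ((hP z).differentiableAt.differentiableWithinAt).mul
      ((hh z hz).div_const _).cexp
  · intro z hz
    have hzc : z ∈ closedBall c r := ball_subset_closedBall hz
    have hnpos : (n : ℂ) ≠ 0 := by exact_mod_cast hn
    have h1 : (P z * exp (h z / n)) ^ n = P z ^ n * v z := by
      rw [mul_pow, hvh z hz, ← exp_nat_mul, mul_div_cancel₀ _ hnpos]
    rw [h1]
    have h2 : g =ᶠ[𝓝[≠] z] (P ^ n) • v := by
      rw [hPn] at hgv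
      refine (hg z hzc).meromorphicAt.eventuallyEq_nhdsNE_of_eventuallyEq_codiscreteWithin
        (((hP z).pow n).smul (hv z hzc)).meromorphicAt hzc ?_ hgv
      have h3 : closedBall c r ∈ 𝓝 z := Filter.mem_of_superset (isOpen_ball.mem_nhds hz)
        ball_subset_closedBall
      rw [accPt_iff_frequently_nhdsNE]
      exact (Filter.Eventually.frequently (mem_nhdsWithin_of_mem_nhds h3))
    have h4 : g =ᶠ[𝓝 z] (P ^ n) • v :=
      (ContinuousAt.eventuallyEq_nhds_iff_eventuallyEq_nhdsNE
        (hg z hzc).continuousAt (((hP z).pow n).smul (hv z hzc)).continuousAt).mp h2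
    have h5 := h4.eq_of_nhds
    simp only [Pi.smul_apply', Pi.pow_apply, smul_eq_mul] at h5
    exact h5.symm

/-- uniqueness of `n`-th roots up to a constant, on an open preconnected set -/
theorem eqOn_of_pow_eq {n : ℕ} (hn : n ≠ 0) {U : Set ℂ} (hU : IsOpen U) (hUc : IsPreconnected U)
    {E F : ℂ → ℂ} (hE : DifferentiableOn ℂ E U) (hF : DifferentiableOn ℂ F U)
    (h : ∀ z ∈ U, E z ^ n = F z ^ n) {z₀ : ℂ} (hz₀ : z₀ ∈ U) (h0 : E z₀ = F z₀)
    (hne : E z₀ ≠ 0) : EqOn E F U := by
  have hEa : AnalyticOnNhd ℂ E U := hE.analyticOnNhd hU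
  have hFa : AnalyticOnNhd ℂ F U := hF.analyticOnNhd hU
  refine hEa.eqOn_of_preconnected_of_eventuallyEq hFa hUc hz₀ ?_
  -- near z₀, the quotient F / E is continuous with values in n-th roots of unity
  have hcE : ContinuousAt E z₀ := (hEa z₀ hz₀).continuousAt
  have hcF : ContinuousAt F z₀ := (hFa z₀ hz₀).continuousAt
  have hq : ContinuousAt (fun z => F z / E z) z₀ := hcF.div hcE hne
  have hq0 : F z₀ / E z₀ = 1 := by rw [← h0, div_self hne]
  -- finite set of n-th roots of unity other than 1 is closed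
  have hfin : {x : ℂ | x ^ n = 1 ∧ x ≠ 1}.Finite := by
    have h1 : {x : ℂ | x ^ n = 1}.Finite := by
      have : {x : ℂ | x ^ n = 1} ⊆ (Polynomial.nthRoots n (1 : ℂ)).toFinset := by
        intro x hx
        simp only [Finset.mem_coe, Multiset.mem_toFinset]
        rw [Polynomial.mem_nthRoots (Nat.pos_of_ne_zero hn)]
        exact hx
      exact (Finset.finite_toSet _).subset this
    exact h1.subset fun x hx => hx.1
  have hopen : IsOpen ({x : ℂ | x ^ n = 1 ∧ x ≠ 1}ᶜ) := hfin.isClosed.isOpen_compl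
  have hmem : (F z₀ / E z₀) ∈ ({x : ℂ | x ^ n = 1 ∧ x ≠ 1}ᶜ) := by
    rw [hq0]; simp
  have ev1 : ∀ᶠ z in 𝓝 z₀, (F z / E z) ∈ ({x : ℂ | x ^ n = 1 ∧ x ≠ 1}ᶜ) :=
    hq.eventually (hopen.mem_nhds hmem)
  have ev2 : ∀ᶠ z in 𝓝 z₀, E z ≠ 0 := hcE.eventually_ne hne
  have ev3 : ∀ᶠ z in 𝓝 z₀, z ∈ U := hU.mem_nhds hz₀
  filter_upwards [ev1, ev2, ev3] with z h1 h2 h3
  have h4 : (F z / E z) ^ n = 1 := by
    rw [div_pow, ← h z h3, div_self (pow_ne_zero n h2)]
  have h5 : F z / E z = 1 := by
    by_contra hcon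
    exact h1 ⟨h4, hcon⟩
  rw [div_eq_one_iff_eq h2] at h5
  exact h5.symm

/-- The exhausting balls of the upper half plane. -/
noncomputable def rad (m : ℕ) : ℝ := (m + 2 : ℝ) - 1 / (m + 2 : ℝ)

noncomputable def cen (m : ℕ) : ℂ := ((m + 2 : ℝ) : ℂ) * I

theorem rad_pos (m : ℕ) : 0 < rad m := by
  have h1 : (0 : ℝ) ≤ m := Nat.cast_nonneg m
  unfold rad
  have h2 : 1 / ((m : ℝ) + 2) < 1 := by
    rw [div_lt_one (by linarith)]; linarith
  linarith

theorem cen_im (m : ℕ) : (cen m).im = m + 2 := by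
  simp [cen]

theorem cen_re (m : ℕ) : (cen m).re = 0 := by
  simp [cen]

theorem closedBall_subset (m : ℕ) : closedBall (cen m) (rad m) ⊆ {z : ℂ | 0 < z.im} := by
  intro z hz
  have h1 : |(z - cen m).im| ≤ rad m := by
    have := mem_closedBall_iff_norm.mp hz
    exact (abs_im_le_norm _).trans this
  rw [sub_im, cen_im] at h1
  have h2 := (abs_le.mp h1).1
  unfold rad at h2
  have h3 : (0 : ℝ) < 1 / ((m : ℝ) + 2) := by positivity
  have : 0 < z.im := by linarith
  exact this

theorem ball_mono (m : ℕ) : ball (cen m) (rad m) ⊆ ball (cen (m + 1)) (rad (m + 1)) := by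
  intro z hz
  rw [mem_ball, dist_eq_norm] at hz ⊢
  have h1 : ‖z - cen (m + 1)‖ ≤ ‖z - cen m‖ + 1 := by
    have : z - cen (m + 1) = (z - cen m) + (-I) := by
      simp only [cen]; push_cast; ring
    rw [this]
    refine (norm_add_le _ _).trans ?_
    simp
  have h2 : rad m + 1 ≤ rad (m + 1) := by
    unfold rad
    push_cast
    have h3 : (1 : ℝ) / ((m : ℝ) + 1 + 2) ≤ 1 / ((m : ℝ) + 2) := by
      apply one_div_le_one_div_of_le <;> linarith [(Nat.cast_nonneg m : (0 : ℝ) ≤ m)]
    linarith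
  linarith

theorem ball_mono' {m m' : ℕ} (h : m ≤ m') :
    ball (cen m) (rad m) ⊆ ball (cen m') (rad m') := by
  induction m', h using Nat.le_induction with
  | base => exact subset_rfl
  | succ k _ ih => exact ih.trans (ball_mono k)

theorem mem_ball_of_large {z : ℂ} (hz : 0 < z.im) : ∃ m, z ∈ ball (cen m) (rad m) := by
  obtain ⟨m, hm⟩ := exists_nat_gt ((‖z‖ ^ 2 + 2) / (2 * z.im))
  refine ⟨m, ?_⟩
  rw [mem_ball, dist_eq_norm]
  have h0 : (0 : ℝ) ≤ m := Nat.cast_nonneg m
  have h1 : ‖z - cen m‖ ^ 2 = ‖z‖ ^ 2 - 2 * (m + 2) * z.im + (m + 2) ^ 2 := by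
    rw [← normSq_eq_norm_sq, ← normSq_eq_norm_sq, normSq_apply, normSq_apply, sub_re, sub_im,
      cen_re, cen_im]
    ring
  have h2 : rad m ^ 2 = (m + 2) ^ 2 - 2 + (1 / (m + 2)) ^ 2 := by
    unfold rad
    have : (m : ℝ) + 2 ≠ 0 := by linarith
    field_simp
    ring
  have h3 : ‖z‖ ^ 2 + 2 < 2 * (m + 2) * z.im := by
    rw [div_lt_iff₀ (by linarith)] at hm
    nlinarith
  have h4 : ‖z - cen m‖ ^ 2 < rad m ^ 2 := by
    rw [h1, h2]
    have : 0 < (1 / ((m : ℝ) + 2)) ^ 2 := by positivity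
    linarith
  exact lt_of_pow_lt_pow_left₀ 2 (rad_pos m).le h4

theorem isPreconnected_ball (m : ℕ) : IsPreconnected (ball (cen m) (rad m)) :=
  (convex_ball _ _).isPreconnected

/-- **Holomorphic `n`-th roots on the upper half plane.** -/
theorem exists_root {n : ℕ} (hn : n ≠ 0) {g : ℂ → ℂ}
    (hg : DifferentiableOn ℂ g {z : ℂ | 0 < z.im})
    (hord : ∀ z : ℂ, 0 < z.im → ∃ m : ℕ, analyticOrderAt g z = ((n * m : ℕ) : ℕ∞)) :
    ∃ E : ℂ → ℂ, DifferentiableOn ℂ E {z : ℂ | 0 < z.im} ∧
      ∀ z : ℂ, 0 < z.im → E z ^ n = g z := by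
  classical
  have hopenH : IsOpen {z : ℂ | 0 < z.im} := isOpen_lt continuous_const continuous_im
  have hga : AnalyticOnNhd ℂ g {z : ℂ | 0 < z.im} := hg.analyticOnNhd hopenH
  -- a base point where g ≠ 0 in the smallest ball
  obtain ⟨z₀, hz₀, hgz₀⟩ : ∃ z₀ ∈ ball (cen 0) (rad 0), g z₀ ≠ 0 := by
    by_contra hcon
    push Not at hcon
    have hc : cen 0 ∈ ball (cen 0) (rad 0) := mem_ball_self (rad_pos 0)
    have h1 : analyticOrderAt g (cen 0) = ⊤ := by
      rw [analyticOrderAt_eq_top]
      filter_upwards [isOpen_ball.mem_nhds hc] with z hz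
      exact hcon z hz
    obtain ⟨m, hm⟩ := hord (cen 0) (closedBall_subset 0 (ball_subset_closedBall hc))
    rw [h1] at hm
    exact (ENat.natCast_ne_top _ hm.symm)
  obtain ⟨w₀, hw₀⟩ : ∃ w : ℂ, w ^ n = g z₀ := IsAlgClosed.exists_pow_nat_eq _
    (Nat.pos_of_ne_zero hn)
  have hw₀ne : w₀ ≠ 0 := by
    rintro rfl
    rw [zero_pow hn] at hw₀
    exact hgz₀ hw₀.symm
  have key : ∀ m : ℕ, ∃ E : ℂ → ℂ, DifferentiableOn ℂ E (ball (cen m) (rad m)) ∧
      (∀ z ∈ ball (cen m) (rad m), E z ^ n = g z) ∧ E z₀ = w₀ := by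
    intro m
    obtain ⟨E, hE, hEn⟩ := exists_root_ball hn (rad_pos m)
      (hga.mono (closedBall_subset m)) (fun z hz => hord z (closedBall_subset m hz))
    have hz₀m : z₀ ∈ ball (cen m) (rad m) := ball_mono' (Nat.zero_le m) hz₀
    have hEz₀ : E z₀ ≠ 0 := by
      intro h0
      have := hEn z₀ hz₀m
      rw [h0, zero_pow hn] at this
      exact hgz₀ this.symm
    refine ⟨fun z => (w₀ / E z₀) * E z, hE.const_mul _, ?_, ?_⟩
    · intro z hz
      have h1 : (w₀ / E z₀) ^ n = 1 := by
        rw [div_pow, hw₀, hEn z₀ hz₀m, div_self hgz₀]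
      rw [mul_pow, h1, one_mul, hEn z hz]
    · show w₀ / E z₀ * E z₀ = w₀
      rw [div_mul_cancel₀ _ hEz₀]
  choose E hE hEn hEz using key
  have hcompat : ∀ m m' : ℕ, m ≤ m' → ∀ z ∈ ball (cen m) (rad m), E m z = E m' z := by
    intro m m' hmm' z hz
    refine eqOn_of_pow_eq hn isOpen_ball (isPreconnected_ball m) (hE m)
      ((hE m').mono (ball_mono' hmm')) ?_ (ball_mono' (Nat.zero_le m) hz₀) ?_ ?_ hz
    · intro w hw
      rw [hEn m w hw, hEn m' w (ball_mono' hmm' hw)]
    · rw [hEz, hEz]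
    · rw [hEz]; exact hw₀ne
  let M : ℂ → ℕ := fun z => if h : 0 < z.im then (mem_ball_of_large h).choose else 0
  have hM : ∀ z : ℂ, 0 < z.im → z ∈ ball (cen (M z)) (rad (M z)) := by
    intro z hz
    simp only [M, dif_pos hz]
    exact (mem_ball_of_large hz).choose_spec
  have hval : ∀ z : ℂ, ∀ m : ℕ, z ∈ ball (cen m) (rad m) → E (M z) z = E m z := by
    intro z m hz
    have hz' : 0 < z.im := closedBall_subset m (ball_subset_closedBall hz)
    rcases le_total (M z) m with h | h
    · exact hcompat _ _ h z (hM z hz')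
    · exact (hcompat _ _ h z hz).symm
  refine ⟨fun z => E (M z) z, ?_, ?_⟩
  · intro z hz
    have h1 : (fun z => E (M z) z) =ᶠ[𝓝 z] E (M z) := by
      filter_upwards [isOpen_ball.mem_nhds (hM z hz)] with w hw
      exact hval w (M z) hw
    have h2 : DifferentiableAt ℂ (E (M z)) z :=
      (hE (M z) z (hM z hz)).differentiableAt (isOpen_ball.mem_nhds (hM z hz))
    exact (h2.congr_of_eventuallyEq h1).differentiableWithinAt
  · intro z hz
    exact hEn (M z) z (hM z hz)

end Fermat.Agent.JAN.HolRoot
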