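import Mathlib
import Fermat.Agent.JAN.Defs
import Fermat.Agent.JAN.HolRoot
import Fermat.Agent.JAN.EisCharB
import Fermat.Agent.JAN.CharForm

/-!
# Forms with character on `Γ₀(N)`: basic algebra and `q`-expansions
-/

set_option autoImplicit false

noncomputable section

open UpperHalfPlane CongruenceSubgroup ModularCurve AlgebraicCurve FermatJ ModularForm
open scoped MatrixGroups ModularForm Manifold Topology

namespace Fermat.Agent.JAN.CharForms

open Fermat.Agent.JAN Fermat.Agent.JAN.EisCharB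

/-- Cusp forms of weight `k` and character `χ` on `Γ₀(N)`. -/
structure IsCharCusp (N : ℕ) (k : ℤ) (χ : Gamma0 N →* ℂˣ) (E : ℍ → ℂ) : Prop where
  holo : MDiff E
  slash : ∀ γ : Gamma0 N, E ∣[k] (γ : SL(2, ℤ)) = (χ γ : ℂ) • E
  zero : ∀ g : SL(2, ℤ), IsZeroAtImInfty (E ∣[k] g)

variable {N : ℕ} {k k' : ℤ} {χ χ' : Gamma0 N →* ℂˣ} {E F : ℍ → ℂ}

theorem IsCharCusp.isCharForm (h : IsCharCusp N k χ E) : IsCharForm N k χ E :=
  ⟨h.holo, h.slash, fun g => (h.zero g).isBoundedAtImInfty⟩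

theorem IsCharCusp.mul (h : IsCharCusp N k χ E)
    (h' : IsCharForm N k' χ' F) : IsCharCusp N (k + k') (χ * χ') (E * F) := by
  have h0 := h.isCharForm.mul h'
  refine ⟨h0.holo, h0.slash, fun g => ?_⟩
  rw [mul_slash_SL2]
  exact isZeroAtImInfty_mul_bounded (h.zero g) (h'.bdd g)

theorem IsCharCusp.pow (h : IsCharCusp N k χ E) {n : ℕ} (hn : n ≠ 0) :
    IsCharCusp N (n * k) (χ ^ n) (E ^ n) := by
  have h0 := h.isCharForm.pow n
  refine ⟨h0.holo, h0.slash, fun g => ?_⟩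
  rw [pow_slash_SL2]
  obtain ⟨m, rfl⟩ := Nat.exists_eq_succ_of_ne_zero hn
  rw [pow_succ']
  exact isZeroAtImInfty_mul_bounded (h.zero g)
    (isBoundedAtImInfty_pow (h.zero g).isBoundedAtImInfty m)

theorem IsCharCusp.add (h : IsCharCusp N k χ E) (h' : IsCharCusp N k χ F) :
    IsCharCusp N k χ (E + F) := by
  refine ⟨h.holo.add h'.holo, fun γ => ?_, fun g => ?_⟩
  · rw [SlashAction.add_slash, h.slash, h'.slash, smul_add]
  · rw [SlashAction.add_slash]
    exact (h.zero g).add (h'.zero g)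

theorem IsCharCusp.smul (h : IsCharCusp N k χ E) (c : ℂ) : IsCharCusp N k χ (c • E) := by
  refine ⟨h.holo.const_smul c, fun γ => ?_, fun g => ?_⟩
  · rw [SL_smul_slash, h.slash, smul_comm]
  · rw [SL_smul_slash]
    exact (h.zero g).smul c

theorem isCharCusp_cuspForm [NeZero N] (f : CuspForm (Gamma0 N : Subgroup (GL (Fin 2) ℝ)) k) :
    IsCharCusp N k 1 f := by
  refine ⟨f.holo', fun γ => ?_, fun g => ?_⟩
  · have h := f.slash_action_eq' _ (Subgroup.mem_map_of_mem (Matrix.SpecialLinearGroup.mapGL ℝ) γ.2)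
    simp only [MonoidHom.one_apply, Units.val_one, one_smul]
    exact h
  · exact CuspFormClass.zero_at_infty_slash f g

/-- A cusp form of trivial character is a cusp form of Mathlib. -/
def IsCharCusp.toCusp [NeZero N] (h : IsCharCusp N k 1 E) :
    CuspForm (Gamma0 N : Subgroup (GL (Fin 2) ℝ)) k :=
  mkCuspForm (Gamma0 N) k E (fun γ hγ => by simpa using h.slash ⟨γ, hγ⟩) h.holo h.zero

@[simp] theorem IsCharCusp.coe_toCusp [NeZero N] (h : IsCharCusp N k 1 E) : ⇑h.toCusp = E := rfl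

/-! ### `q`-expansions -/

theorem T_mem_Gamma0 (N : ℕ) : ModularGroup.T ∈ Gamma0 N := by
  rw [Gamma0_mem]
  simp [ModularGroup.T]

/-- translation as an element of `Γ₀(N)`. -/
def T0 (N : ℕ) : Gamma0 N := ⟨ModularGroup.T, T_mem_Gamma0 N⟩

theorem trace_T0 (N : ℕ) : (((T0 N : Gamma0 N) : SL(2, ℤ)) : Matrix (Fin 2) (Fin 2) ℤ).trace ^ 2 ≤ 4 := by
  rw [Matrix.trace_fin_two]
  simp [T0, ModularGroup.T]

/-- parabolic, elliptic and central elements are killed -/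
def KillsSmall (χ : Gamma0 N →* ℂˣ) : Prop :=
  ∀ γ : Gamma0 N, ((γ : SL(2, ℤ)) : Matrix (Fin 2) (Fin 2) ℤ).trace ^ 2 ≤ 4 → χ γ = 1

theorem KillsSmall.one : KillsSmall (1 : Gamma0 N →* ℂˣ) := fun _ _ => rfl

theorem KillsSmall.mul (h : KillsSmall χ) (h' : KillsSmall χ') : KillsSmall (χ * χ') :=
  fun γ hγ => by rw [MonoidHom.mul_apply, h γ hγ, h' γ hγ, one_mul]

theorem KillsSmall.map_T0 (h : KillsSmall χ) : χ (T0 N) = 1 := h _ (trace_T0 N)

theorem vadd_of_slash (h : E ∣[k] (T0 N : SL(2, ℤ)) = (χ (T0 N) : ℂ) • E) (hT : χ (T0 N) = 1)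
    (τ : ℍ) : E (((1 : ℕ) : ℝ) +ᵥ τ) = E τ := by
  have h1 : (((1 : ℕ) : ℝ) +ᵥ τ : ℍ) = ModularGroup.T • τ := by
    rw [UpperHalfPlane.modular_T_smul, Nat.cast_one]
  have h2 := congrFun h τ
  rw [hT, Units.val_one, one_smul, SL_slash_apply] at h2
  have h6 : denom (ModularGroup.T : SL(2, ℤ)) τ = 1 := by
    rw [ModularGroup.denom_apply]
    simp [ModularGroup.T]
  rw [h1, ← h2]
  show _ = E (ModularGroup.T • τ) * denom (ModularGroup.T : SL(2, ℤ)) τ ^ (-k)
  rw [h6, one_zpow, mul_one]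

theorem hasPS_of_isCharForm (h : IsCharForm N k χ E) (hT : χ (T0 N) = 1) :
    HasPS (qc 1) E (qExpansion ((1 : ℕ) : ℝ) E) := by
  refine hasPS_of_bounded (vadd_of_slash (h.slash _) hT) h.holo ?_
  have := h.bdd 1
  rwa [SlashAction.slash_one] at this

theorem HasPS.eq_zero {ι : Type*} {t f : ι → ℂ} (h : HasPS t f 0) : ∀ x, f x = 0 := by
  intro x
  have := h x
  simp only [map_zero, zero_mul] at this
  exact this.unique hasSum_zero

theorem HasPS.sub' {ι : Type*} {t f g : ι → ℂ} {P Q : PowerSeries ℂ} (hf : HasPS t f P)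
    (hg : HasPS t g Q) : HasPS t (fun x => f x - g x) (P - Q) := by
  rw [sub_eq_add_neg]
  exact (hf.add hg.neg).congr fun x => by ring

theorem HasPS.funext {ι : Type*} {t f g : ι → ℂ} {P : PowerSeries ℂ} (hf : HasPS t f P)
    (hg : HasPS t g P) (x : ι) : f x = g x := (hf x).unique (hg x)

theorem HasPS.ne_zero_iff {f : ℍ → ℂ} {P : PowerSeries ℂ} (hf : HasPS (qc 1) f P) :
    P ≠ 0 ↔ ∃ τ, f τ ≠ 0 := by
  constructor
  · intro h
    by_contra hcon
    push Not at hcon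
    refine h (HasPS.unique (eventually_mem_range_qc 1) hf ?_)
    exact (HasPS.zero (qc 1)).congr fun x => (hcon x).symm
  · rintro ⟨τ, hτ⟩ rfl
    exact hτ (HasPS.eq_zero hf τ)

/-! ### Existence of a nonzero form of weight `24` -/

theorem small_of_lower_left {γ : Gamma0 N} (h : (γ : SL(2, ℤ)).1 1 0 = 0) :
    ((γ : SL(2, ℤ)) : Matrix (Fin 2) (Fin 2) ℤ).trace ^ 2 ≤ 4 := by
  have hdet := (γ : SL(2, ℤ)).2
  rw [Matrix.det_fin_two, h, mul_zero, sub_zero] at hdet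
  rw [Matrix.trace_fin_two]
  rcases Int.eq_one_or_neg_one_of_mul_eq_one hdet with h1 | h1
  · rw [h1, one_mul] at hdet
    rw [h1, hdet]; norm_num
  · rw [h1] at hdet
    rw [h1, show (γ : SL(2, ℤ)).1 1 1 = -1 by linarith]; norm_num

theorem exists_charCusp {n : ℕ} (hn : n ≠ 0) (hχ : χ ^ n = 1) (hs : KillsSmall χ) :
    ∃ E, IsCharCusp N 24 χ E ∧ ∃ τ, E τ ≠ 0 := by
  have hT : ∀ γ : Gamma0 N, (γ : SL(2, ℤ)).1 1 0 = 0 → χ γ = 1 :=
    fun γ h => hs γ (small_of_lower_left h)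
  have hu := norm_eq_one_of_pow_eq_one (χ := χ) hn hχ
  refine ⟨deltaEis (Gamma0 N) χ 12, ⟨deltaEis_mdifferentiable hu (by norm_num),
    deltaEis_slash hT 12, deltaEis_slash_isZeroAtImInfty hu (by norm_num)⟩, ?_⟩
  by_contra hcon
  push Not at hcon
  exact deltaEis_ne_zero hT hu (by norm_num) ⟨6, rfl⟩ (neg_one_mem_Gamma0 N) (funext hcon)

end Fermat.Agent.JAN.CharForms
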