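import Mathlib
import Fermat.Agent.JAN.CharForms
import Fermat.Agent.IntStr.Main

/-!
# Automorphisms of `ℂ` act on cusp forms with character

Modulo three facts about the function field `F_N(ℂ)` (stated as `H5a`, `H5d`, `HD2`), the
coefficientwise conjugate of a cusp form of weight `24` with a character of finite order
(trivial on small elements) is a cusp form with another such character.
-/

set_option autoImplicit false

noncomputable section

open UpperHalfPlane CongruenceSubgroup ModularCurve AlgebraicCurve FermatJ ModularForm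
open scoped MatrixGroups ModularForm Manifold Topology

namespace Fermat.Agent.JAN.CharConj

open Fermat.Agent.JAN Fermat.Agent.JAN.EisCharB Fermat.Agent.JAN.CharForms Fermat.Agent.JAN.HolRoot

/-! ### Holomorphic functions on the upper half plane -/

theorem analyticOnNhd_of_mdiff {f : ℍ → ℂ} (hf : MDiff f) :
    AnalyticOnNhd ℂ (f ∘ ofComplex) {z : ℂ | 0 < z.im} := by
  rw [UpperHalfPlane.mdifferentiable_iff] at hf
  exact DifferentiableOn.analyticOnNhd hf isOpen_upperHalfPlaneSet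

theorem isPreconnected_uhp : IsPreconnected {z : ℂ | 0 < z.im} :=
  (convex_halfSpace_im_gt 0).isPreconnected

theorem eq_zero_or_eq_zero {f g : ℍ → ℂ} (hf : MDiff f) (hg : MDiff g)
    (h : ∀ τ, f τ * g τ = 0) : (∀ τ, f τ = 0) ∨ (∀ τ, g τ = 0) := by
  have h1 := AnalyticOnNhd.eq_zero_or_eq_zero_of_mul_eq_zero (analyticOnNhd_of_mdiff hf)
    (analyticOnNhd_of_mdiff hg) (fun z hz => h (ofComplex z)) isPreconnected_uhp
  rcases h1 with h1 | h1
  · left
    intro τ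
    have := h1 τ τ.im_pos
    simpa using this
  · right
    intro τ
    have := h1 τ τ.im_pos
    simpa using this

theorem exists_ne_zero_mul {f g : ℍ → ℂ} (hf : MDiff f) (hg : MDiff g)
    (h1 : ∃ τ, f τ ≠ 0) (h2 : ∃ τ, g τ ≠ 0) : ∃ τ, (f * g) τ ≠ 0 := by
  by_contra hcon
  push Not at hcon
  rcases eq_zero_or_eq_zero hf hg hcon with h | h
  · obtain ⟨τ, hτ⟩ := h1
    exact hτ (h τ)
  · obtain ⟨τ, hτ⟩ := h2
    exact hτ (h τ)

theorem exists_ne_zero_pow {f : ℍ → ℂ} (h1 : ∃ τ, f τ ≠ 0) (n : ℕ) : ∃ τ, (f ^ n) τ ≠ 0 := by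
  obtain ⟨τ, hτ⟩ := h1
  exact ⟨τ, pow_ne_zero n hτ⟩

theorem order_ne_top {f : ℍ → ℂ} (hf : MDiff f) (h1 : ∃ τ, f τ ≠ 0) {z : ℂ} (hz : 0 < z.im) :
    analyticOrderAt (f ∘ ofComplex) z ≠ ⊤ := by
  intro htop
  rw [analyticOrderAt_eq_top] at htop
  have := (analyticOnNhd_of_mdiff hf).eqOn_zero_of_preconnected_of_eventuallyEq_zero
    isPreconnected_uhp hz htop
  obtain ⟨τ, hτ⟩ := h1
  apply hτ
  have h2 := this τ.im_pos
  simpa using h2

theorem exists_root_of_unity {n : ℕ} (hn : n ≠ 0) {f g : ℍ → ℂ} (hf : MDiff f) (hg : MDiff g)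
    (h : ∀ τ, f τ ^ n = g τ ^ n) : ∃ ζ : ℂ, ζ ^ n = 1 ∧ ∀ τ, f τ = ζ * g τ := by
  by_cases h0 : ∀ τ, g τ = 0
  · refine ⟨1, one_pow n, fun τ => ?_⟩
    have := h τ
    rw [h0 τ, zero_pow hn] at this
    rw [h0 τ, mul_zero]
    exact pow_eq_zero_iff hn |>.mp this
  · push Not at h0
    obtain ⟨τ₀, hτ₀⟩ := h0
    set ζ : ℂ := f τ₀ / g τ₀ with hζ
    have hζn : ζ ^ n = 1 := by
      rw [hζ, div_pow, h τ₀, div_self (pow_ne_zero n hτ₀)]
    have hζ0 : ζ ≠ 0 := by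
      rintro h1
      rw [h1, zero_pow hn] at hζn
      exact zero_ne_one hζn
    refine ⟨ζ, hζn, fun τ => ?_⟩
    have hg' : MDiff (ζ • g) := hg.const_smul ζ
    rw [UpperHalfPlane.mdifferentiable_iff] at hf hg'
    have key := eqOn_of_pow_eq hn isOpen_upperHalfPlaneSet isPreconnected_uhp hf hg'
      (fun z hz => by
        have h3 := h (ofComplex z)
        simp only [Function.comp_apply, Pi.smul_apply, smul_eq_mul, mul_pow, hζn, one_mul]
        exact h3)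
      (z₀ := (τ₀ : ℂ)) τ₀.im_pos (by
        simp only [Function.comp_apply, ofComplex_apply, Pi.smul_apply, smul_eq_mul]
        rw [hζ, div_mul_cancel₀ _ hτ₀])
      (by
        simp only [Function.comp_apply, ofComplex_apply]
        intro h4
        apply hζ0
        rw [hζ, h4, zero_div])
    have := key τ.im_pos
    simpa using this

/-- Roots of holomorphic functions on `ℍ`. -/
theorem exists_root_uhp {n : ℕ} (hn : n ≠ 0) {g : ℍ → ℂ} (hg : MDiff g)
    (hord : ∀ z : ℂ, 0 < z.im → ∃ m : ℕ, analyticOrderAt (g ∘ ofComplex) z = ((n * m : ℕ) : ℕ∞)) :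
    ∃ E : ℍ → ℂ, MDiff E ∧ ∀ τ, E τ ^ n = g τ := by
  rw [UpperHalfPlane.mdifferentiable_iff] at hg
  obtain ⟨E, hE, hEn⟩ := exists_root hn hg hord
  refine ⟨fun τ => E τ, ?_, fun τ => ?_⟩
  · rw [UpperHalfPlane.mdifferentiable_iff]
    refine hE.congr fun z hz => ?_
    simp only [Function.comp_apply]
    rw [ofComplex_apply_of_im_pos hz]
  · rw [hEn τ τ.im_pos]
    simp

/-! ### The three inputs -/

/-- `F_N(ℂ)` -/
abbrev FC (N : ℕ) : IntermediateField ℂ (LaurentSeries ℂ) :=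
  laurentBaseChange ℂ (modularFunctionFieldFull N)

/-- Functions in `F_N(ℂ)` all of whose orders are divisible by `n` come from characters. -/
def H5a (N n : ℕ) : Prop :=
  ∀ f : FC N, f ≠ 0 → (∀ v : Place ℂ (FC N), (n : ℤ) ∣ v.ord f) →
    ∃ χ : Gamma0 N →* ℂˣ, KillsSmall χ ∧ Rel N n χ (f : LaurentSeries ℂ)

/-- Functions in `F_N(ℂ)` which come from characters have all orders divisible by `n`. -/
def H5d (N n : ℕ) : Prop :=
  ∀ (f : FC N) (χ : Gamma0 N →* ℂˣ), f ≠ 0 → KillsSmall χ → χ ^ n = 1 →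
    Rel N n χ (f : LaurentSeries ℂ) → ∀ v : Place ℂ (FC N), (n : ℤ) ∣ v.ord f

/-- Quotients of modular forms of equal weight are in `F_N(ℂ)`. -/
def HD2 (N : ℕ) : Prop :=
  ∀ (k : ℤ) (A B : ℍ → ℂ) (α β : LaurentSeries ℂ), IsCharForm N k 1 A → IsCharForm N k 1 B →
    HasExp (qc 1) A α → HasExp (qc 1) B β → β ≠ 0 → α / β ∈ FC N

theorem dvd_ord_conj {N n : ℕ} (σ : ℂ ≃ₐ[ℚ] ℂ) {f : FC N}
    (h : ∀ v : Place ℂ (FC N), (n : ℤ) ∣ v.ord f) (v : Place ℂ (FC N)) :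
    (n : ℤ) ∣ v.ord (arithmeticGalois (modularFunctionFieldFull N) σ • f) := by
  set g := arithmeticGalois (L := ℂ) (modularFunctionFieldFull N) σ
  have h1 := SemilinearAut.ord_smul g (g⁻¹ • v) f
  rw [smul_inv_smul] at h1
  rw [h1]
  exact h _

/-- the expansion of `Δ ^ 2` -/
def dC : PowerSeries ℂ := ((PowerSeries.X * dedekindEtaUnit) ^ 2 : PowerSeries ℤ).map
  (Int.castRingHom ℂ)

theorem map_dC (σ : ℂ →+* ℂ) : dC.map σ = dC := by
  rw [dC, ← RingHom.comp_apply, ← PowerSeries.map_comp]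
  congr 2
  exact Subsingleton.elim _ _

theorem hasPS_disc_sq : HasPS (qc 1) (discriminant ^ 2) dC := by
  have := hasPS_discriminant.pow 2
  rw [dC, map_pow, map_mul, PowerSeries.map_X]
  exact this

theorem dC_ne_zero : dC ≠ 0 := by
  rw [HasPS.ne_zero_iff hasPS_disc_sq]
  exact ⟨UpperHalfPlane.I, pow_ne_zero 2 (discriminant_ne_zero _)⟩

theorem isCharForm_disc (N : ℕ) : IsCharForm N 12 1 discriminant := by
  refine ⟨mdifferentiable_discriminant, fun γ => ?_, fun g => ?_⟩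
  · rw [discriminant_slash]; simp
  · rw [discriminant_slash]
    exact discriminant_isZeroAtImInfty.isBoundedAtImInfty

theorem one_pow_char (N n : ℕ) : (1 : Gamma0 N →* ℂˣ) ^ n = 1 := by
  ext γ
  simp

theorem isCharForm_disc_sq (N : ℕ) : IsCharForm N 24 1 (discriminant ^ 2) := by
  have := (isCharForm_disc N).pow 2
  rw [one_pow_char] at this
  exact this

theorem isCharForm_disc_sq_pow (N n : ℕ) : IsCharForm N (n * 24) 1 ((discriminant ^ 2) ^ n) := by
  have := (isCharForm_disc_sq N).pow n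
  rw [one_pow_char] at this
  exact this

variable {N n : ℕ} {χ : Gamma0 N →* ℂˣ}

/-- The function in `F_N(ℂ)` attached to a cusp form of weight `24` with character. -/
theorem fE_mem (hD2 : HD2 N) (hn : n ≠ 0) (hχ : χ ^ n = 1) {E : ℍ → ℂ}
    (hE : IsCharCusp N 24 χ E) {w : PowerSeries ℂ} (hw : HasPS (qc 1) E w) :
    (HahnSeries.ofPowerSeries ℤ ℂ (w ^ n) / HahnSeries.ofPowerSeries ℤ ℂ (dC ^ n) :
      LaurentSeries ℂ) ∈ FC N := by
  have h1 := (hE.pow hn).isCharForm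
  rw [hχ] at h1
  refine hD2 _ _ _ _ _ h1 (isCharForm_disc_sq_pow N n) (HasExp.of_hasPS (hw.pow n))
    (HasExp.of_hasPS (hasPS_disc_sq.pow n)) ?_
  intro h
  exact pow_ne_zero n dC_ne_zero (HahnSeries.ofPowerSeries_injective (h.trans (map_zero _).symm))

theorem ofPS_dC_ne_zero (n : ℕ) : (HahnSeries.ofPowerSeries ℤ ℂ (dC ^ n) : LaurentSeries ℂ) ≠ 0 := by
  intro h
  exact pow_ne_zero n dC_ne_zero (HahnSeries.ofPowerSeries_injective (h.trans (map_zero _).symm))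

theorem toC_complex (f : LaurentSeries ℂ) : toC (K := ℂ) f = f := by
  have : (algebraMap ℂ ℂ) = RingHom.id ℂ := rfl
  rw [toC, this, coeffMap_id]

theorem rel_fE {E : ℍ → ℂ}
    (hE : IsCharCusp N 24 χ E) {w : PowerSeries ℂ} (hw : HasPS (qc 1) E w) (hw0 : w ≠ 0) :
    Rel N n χ (HahnSeries.ofPowerSeries ℤ ℂ (w ^ n) / HahnSeries.ofPowerSeries ℤ ℂ (dC ^ n) :
      LaurentSeries ℂ) := by
  refine ⟨24, discriminant ^ 2, E, HahnSeries.ofPowerSeries ℤ ℂ dC, isCharForm_disc_sq N,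
    hE.isCharForm, ⟨UpperHalfPlane.I, pow_ne_zero 2 (discriminant_ne_zero _)⟩,
    (HasPS.ne_zero_iff hw).mp hw0, HasExp.of_hasPS hasPS_disc_sq, ?_⟩
  rw [toC_complex, ← map_pow, div_mul_cancel₀ _ (ofPS_dC_ne_zero n)]
  exact HasExp.of_hasPS (hw.pow n)


theorem arithmetic_fE (σ : ℂ ≃ₐ[ℚ] ℂ) (w : PowerSeries ℂ) :
    coeffMap (σ : ℂ →+* ℂ) (HahnSeries.ofPowerSeries ℤ ℂ (w ^ n) /
      HahnSeries.ofPowerSeries ℤ ℂ (dC ^ n) : LaurentSeries ℂ) =
    HahnSeries.ofPowerSeries ℤ ℂ ((w.map (σ : ℂ →+* ℂ)) ^ n) /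
      HahnSeries.ofPowerSeries ℤ ℂ (dC ^ n) := by
  rw [map_div₀, FermatJ.coeffMap_ofPowerSeries, FermatJ.coeffMap_ofPowerSeries,
    map_pow (PowerSeries.map _) w n, map_pow (PowerSeries.map _) dC n, map_dC]

/-- order computation -/
theorem exists_order_of_mul_pow {n : ℕ} {G B F : ℍ → ℂ} (hG : MDiff G) (hB : MDiff B) (hF : MDiff F)
    (hB0 : ∃ τ, B τ ≠ 0) (hF0 : ∃ τ, F τ ≠ 0) (h : ∀ τ, G τ * B τ ^ n = F τ ^ n)
    {z : ℂ} (hz : 0 < z.im) :
    ∃ m : ℕ, analyticOrderAt (G ∘ ofComplex) z = ((n * m : ℕ) : ℕ∞) := by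
  have aG := analyticOnNhd_of_mdiff hG z hz
  have aB := analyticOnNhd_of_mdiff hB z hz
  have aF := analyticOnNhd_of_mdiff hF z hz
  have tB := order_ne_top hB hB0 hz
  have tF := order_ne_top hF hF0 hz
  have key : (G ∘ ofComplex) * (B ∘ ofComplex) ^ n = (F ∘ ofComplex) ^ n := by
    ext x
    exact h (ofComplex x)
  have h1 := congrArg (fun f => analyticOrderAt f z) key
  simp only [analyticOrderAt_mul aG (aB.pow n), analyticOrderAt_pow aB, analyticOrderAt_pow aF] at h1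
  obtain ⟨b, hb⟩ := ENat.ne_top_iff_exists.mp tB
  obtain ⟨f, hf⟩ := ENat.ne_top_iff_exists.mp tF
  rw [← hb, ← hf, nsmul_eq_mul, nsmul_eq_mul] at h1
  have tG : analyticOrderAt (G ∘ ofComplex) z ≠ ⊤ := by
    intro htop
    rw [htop, top_add] at h1
    have : ((n : ℕ∞) * (f : ℕ∞)) ≠ ⊤ := by
      rw [← Nat.cast_mul]; exact ENat.natCast_ne_top _
    exact this h1.symm
  obtain ⟨g, hg⟩ := ENat.ne_top_iff_exists.mp tG
  rw [← hg] at h1 ⊢
  have h2 : g + n * b = n * f := by exact_mod_cast h1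
  refine ⟨f - b, ?_⟩
  have h3 : g = n * (f - b) := by
    rw [Nat.mul_sub]; omega
  rw [h3]

theorem isZeroAtImInfty_of_pow {n : ℕ} (hn : n ≠ 0) {f : ℍ → ℂ} (h : IsZeroAtImInfty (f ^ n)) :
    IsZeroAtImInfty f := by
  rw [isZeroAtImInfty_iff] at *
  intro ε hε
  obtain ⟨A, hA⟩ := h (ε ^ n) (pow_pos hε n)
  refine ⟨A, fun z hz => ?_⟩
  have := hA z hz
  rw [Pi.pow_apply, norm_pow] at this
  exact le_of_pow_le_pow_left₀ hn hε.le this

/-- If `(E / B) ^ n = G / D ^ n` with `G` holomorphic, then `G` is the `n`-th power of a form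
with the character of `E`. -/
theorem exists_charCusp_root [NeZero N] (hn : n ≠ 0) {k' kD : ℤ} {χ' : Gamma0 N →* ℂˣ}
    {G B E D : ℍ → ℂ} (hG : IsCharCusp N (n * kD) 1 G) (hB : IsCharForm N k' 1 B)
    (hE : IsCharForm N k' χ' E) (hD : IsCharForm N kD 1 D) (hG0 : ∃ τ, G τ ≠ 0)
    (hB0 : ∃ τ, B τ ≠ 0) (hE0 : ∃ τ, E τ ≠ 0) (hD0 : ∃ τ, D τ ≠ 0)
    (h : ∀ τ, G τ * B τ ^ n = (E τ * D τ) ^ n) :
    χ' ^ n = 1 ∧ ∃ E' : ℍ → ℂ, IsCharCusp N kD χ' E' ∧ ∀ τ, E' τ ^ n = G τ := by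
  have hED := hE.mul hD
  have hED0 := exists_ne_zero_mul hE.holo hD.holo hE0 hD0
  obtain ⟨E', hE', hE'n⟩ := exists_root_uhp hn hG.holo
    (fun z hz => exists_order_of_mul_pow hG.holo hB.holo hED.holo hB0 hED0 h hz)
  -- `E' * B = ζ * (E * D)`
  obtain ⟨ζ, hζ, hEB⟩ := exists_root_of_unity hn (hE'.mul hB.holo) hED.holo (fun τ => by
    simp only [Pi.mul_apply]
    rw [mul_pow, hE'n]
    exact h τ)
  have hslash : ∀ γ : Gamma0 N, E' ∣[kD] (γ : SL(2, ℤ)) = (χ' γ : ℂ) • E' := by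
    intro γ
    have e1 : E' * B = ζ • (E * D) := by
      ext τ
      exact hEB τ
    have e2 : (E' ∣[kD] (γ : SL(2, ℤ))) * B = (χ' γ : ℂ) • (E' * B) := by
      have e3 : (E' * B) ∣[kD + k'] (γ : SL(2, ℤ)) = (E' ∣[kD] (γ : SL(2, ℤ))) * B := by
        rw [mul_slash_SL2, hB.slash]
        simp
      rw [← e3, e1, SL_smul_slash, add_comm kD k', mul_slash_SL2, hE.slash, hD.slash]
      ext τ
      simp only [Pi.smul_apply, Pi.mul_apply, smul_eq_mul, MonoidHom.one_apply, Units.val_one,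
        one_mul]
      ring
    have e4 : MDiff (E' ∣[kD] (γ : SL(2, ℤ)) - (χ' γ : ℂ) • E') :=
      (MDifferentiable.slash hE' kD _).sub (hE'.const_smul _)
    rcases eq_zero_or_eq_zero e4 hB.holo (fun τ => by
      have := congrFun e2 τ
      simp only [Pi.smul_apply, Pi.mul_apply, smul_eq_mul] at this
      simp only [Pi.sub_apply, Pi.smul_apply, smul_eq_mul]
      rw [sub_mul, this]; ring) with h5 | h5
    · ext τ
      exact sub_eq_zero.mp (h5 τ)
    · obtain ⟨τ, hτ⟩ := hB0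
      exact absurd (h5 τ) hτ
  have hE'pow : E' ^ n = G := funext hE'n
  refine ⟨?_, E', ⟨hE', hslash, fun g => ?_⟩, hE'n⟩
  · ext γ
    obtain ⟨τ, hτ⟩ := hG0
    have e1 := hG.slash γ
    rw [← hE'pow, pow_slash_SL2, hslash, smul_pow] at e1
    have e2 := congrFun e1 τ
    simp only [Pi.smul_apply, smul_eq_mul, MonoidHom.one_apply, Units.val_one, one_mul] at e2
    rw [hE'pow] at e2
    have e3 := mul_right_cancel₀ hτ (e2.trans (one_mul _).symm)
    rw [MonoidHom.pow_apply, Units.val_pow_eq_pow_val]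
    exact e3
  · have e1 := hG.zero g
    rw [← hE'pow, pow_slash_SL2] at e1
    exact isZeroAtImInfty_of_pow hn e1

theorem HasExp.funext {ι : Type*} {t f g : ι → ℂ} {φ : LaurentSeries ℂ} (ht : ∀ x, t x ≠ 0)
    (hf : HasExp t f φ) (hg : HasExp t g φ) (x : ι) : f x = g x := by
  have h := hf.sub hg
  rw [sub_self] at h
  exact sub_eq_zero.mp (h.eq_zero_of_zero (ht x))

theorem hasPS_cuspForm [NeZero N] {k : ℤ}
    (G : CuspForm (Gamma0 N : Subgroup (GL (Fin 2) ℝ)) k) :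
    HasPS (qc 1) G (PowerSeries.mk (ModularFormClass.qCoeff G)) := by
  have h := hasPS_of_isCharForm (isCharCusp_cuspForm G).isCharForm rfl
  have e : qExpansion ((1 : ℕ) : ℝ) G = PowerSeries.mk (ModularFormClass.qCoeff G) := by
    ext m
    rw [PowerSeries.coeff_mk, ModularFormClass.qCoeff, Nat.cast_one]
  rwa [e] at h

theorem exists_const_of_pow_eq {n : ℕ} (hn : n ≠ 0) {u v : PowerSeries ℂ} (h : u ^ n = v ^ n)
    (hv : v ≠ 0) : ∃ c : ℂ, c ^ n = 1 ∧ v = PowerSeries.C c * u := by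
  have hu : u ≠ 0 := by
    rintro rfl
    rw [zero_pow hn] at h
    exact pow_ne_zero n hv h.symm
  set U : LaurentSeries ℂ := HahnSeries.ofPowerSeries ℤ ℂ u with hU
  set V : LaurentSeries ℂ := HahnSeries.ofPowerSeries ℤ ℂ v with hV
  have hU0 : U ≠ 0 := fun h1 => hu (HahnSeries.ofPowerSeries_injective (h1.trans (map_zero _).symm))
  have hr : (V / U) ^ n = 1 := by
    rw [div_pow, hU, hV, ← map_pow, ← map_pow, h, div_self]
    intro h1
    exact pow_ne_zero n hv (HahnSeries.ofPowerSeries_injective (h1.trans (map_zero _).symm))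
  have hint : IsIntegral ℂ (V / U) := by
    refine ⟨Polynomial.X ^ n - 1, Polynomial.monic_X_pow_sub_C 1 hn, ?_⟩
    simp [hr]
  obtain ⟨c, hc⟩ := minpoly.mem_range_of_degree_eq_one ℂ (V / U)
    (IsAlgClosed.degree_eq_one_of_irreducible ℂ (minpoly.irreducible hint))
  refine ⟨c, ?_, ?_⟩
  · have h1 : algebraMap ℂ (LaurentSeries ℂ) (c ^ n) = algebraMap ℂ (LaurentSeries ℂ) 1 := by
      rw [map_pow, hc, hr, map_one]
    exact (algebraMap ℂ (LaurentSeries ℂ)).injective h1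
  · apply HahnSeries.ofPowerSeries_injective (Γ := ℤ)
    rw [map_mul, ← hV, ← hU]
    have h2 : HahnSeries.ofPowerSeries ℤ ℂ (PowerSeries.C c) = algebraMap ℂ (LaurentSeries ℂ) c := by
      rw [MFF.algebraMap_laurent_eq_single', HahnSeries.ofPowerSeries_C]
      rfl
    rw [h2, hc, div_mul_cancel₀ _ hU0]

/-- **Conjugation of cusp forms with character.** -/
theorem conj_charCusp [NeZero N] (h5a : H5a N n) (h5d : H5d N n) (hD2 : HD2 N) (hn : n ≠ 0)
    (σ : ℂ ≃ₐ[ℚ] ℂ) (hχ : χ ^ n = 1) (hs : KillsSmall χ) {E : ℍ → ℂ} (hE : IsCharCusp N 24 χ E)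
    {w : PowerSeries ℂ} (hw : HasPS (qc 1) E w) (hw0 : w ≠ 0) :
    ∃ χ' : Gamma0 N →* ℂˣ, χ' ^ n = 1 ∧ KillsSmall χ' ∧
      ∃ E' : ℍ → ℂ, IsCharCusp N 24 χ' E' ∧ HasPS (qc 1) E' (w.map (σ : ℂ →+* ℂ)) := by
  set w' : PowerSeries ℂ := w.map (σ : ℂ →+* ℂ) with hw'
  have hw'0 : w' ≠ 0 := by
    intro h
    apply hw0
    apply PowerSeries.map_injective (σ : ℂ →+* ℂ) σ.injective
    rw [← hw', h, map_zero]
  -- the function
  set f : FC N := ⟨_, fE_mem hD2 hn hχ hE hw⟩ with hf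
  have hf0 : f ≠ 0 := by
    intro h
    have h1 := congrArg (fun x : FC N => (x : LaurentSeries ℂ)) h
    simp only [hf] at h1
    rcases div_eq_zero_iff.mp h1 with h2 | h2
    · exact pow_ne_zero n hw0 (HahnSeries.ofPowerSeries_injective (h2.trans (map_zero _).symm))
    · exact ofPS_dC_ne_zero n h2
  have h1 := h5d f χ hf0 hs hχ (rel_fE hE hw hw0)
  set f' : FC N := arithmeticGalois (modularFunctionFieldFull N) σ • f with hf'
  have hf'c : (f' : LaurentSeries ℂ) = HahnSeries.ofPowerSeries ℤ ℂ (w' ^ n) /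
      HahnSeries.ofPowerSeries ℤ ℂ (dC ^ n) := arithmetic_fE σ w
  have hf'0 : f' ≠ 0 := by
    intro h
    have h1 := congrArg (fun x : FC N => (x : LaurentSeries ℂ)) h
    simp only [hf'c] at h1
    rcases div_eq_zero_iff.mp h1 with h2 | h2
    · exact pow_ne_zero n hw'0 (HahnSeries.ofPowerSeries_injective (h2.trans (map_zero _).symm))
    · exact ofPS_dC_ne_zero n h2
  obtain ⟨χ', hs', k', B', E', β', hB', hE', hB'0, hE'0, hBβ, hEβ⟩ :=
    h5a f' hf'0 (dvd_ord_conj σ h1)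
  -- the conjugate cusp form
  have hEn := hE.pow hn
  rw [hχ] at hEn
  obtain ⟨G', hG'⟩ := IntStr.exists_conj N (n * 24) (σ : ℂ →+* ℂ) hEn.toCusp
  have hG'ps : HasPS (qc 1) G' (w' ^ n) := by
    have h2 := hasPS_cuspForm hEn.toCusp
    have h3 : PowerSeries.mk (ModularFormClass.qCoeff hEn.toCusp) = w ^ n :=
      h2.unique (eventually_mem_range_qc 1) (hw.pow n)
    have h4 := hasPS_cuspForm G'
    have h5 : PowerSeries.mk (ModularFormClass.qCoeff G') = w' ^ n := by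
      rw [hw', ← map_pow, ← h3]
      ext m
      rw [PowerSeries.coeff_mk, hG', PowerSeries.coeff_map, PowerSeries.coeff_mk]
    rwa [h5] at h4
  have hG'0 : ∃ τ, G' τ ≠ 0 := (HasPS.ne_zero_iff hG'ps).mp (pow_ne_zero n hw'0)
  have hrel : ∀ τ, G' τ * B' τ ^ n = (E' τ * (discriminant ^ 2) τ) ^ n := by
    refine HasExp.funext (qc_ne_zero 1)
      (φ := HahnSeries.ofPowerSeries ℤ ℂ (w' ^ n) * β' ^ n)
      ((HasExp.of_hasPS hG'ps).mul (hBβ.pow n)) ?_
    have h6 := hEβ.mul (HasExp.of_hasPS (hasPS_disc_sq.pow n))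
    rw [toC_complex, hf'c, div_mul_eq_mul_div, div_mul_cancel₀ _ (ofPS_dC_ne_zero n)] at h6
    exact h6.congr fun τ => (mul_pow _ _ n).symm
  obtain ⟨hχ', E'', hE'', hE''n⟩ := exists_charCusp_root hn (isCharCusp_cuspForm G') hB' hE'
    (isCharForm_disc_sq N) hG'0 hB'0 hE'0 ⟨UpperHalfPlane.I, pow_ne_zero 2 (discriminant_ne_zero _)⟩
    hrel
  refine ⟨χ', hχ', hs', ?_⟩
  have h7 := hasPS_of_isCharForm hE''.isCharForm hs'.map_T0
  set w'' := qExpansion ((1 : ℕ) : ℝ) E'' with hw''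
  have h8 : w'' ^ n = w' ^ n :=
    ((h7.pow n).congr hE''n).unique (eventually_mem_range_qc 1) hG'ps
  obtain ⟨c, hc, hcw⟩ := exists_const_of_pow_eq hn h8 hw'0
  refine ⟨c • E'', hE''.smul c, ?_⟩
  rw [hcw]
  exact (HasPS.C (qc 1) c).mul h7

end Fermat.Agent.JAN.CharConj
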