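import Mathlib
import Fermat.Agent.JAN.CharConj
import Fermat.Agent.JAN.AutOrbit
import Fermat.Prelude.Thm_ModularForm_sturm_bound_Gamma0

/-!
# Every character of `Γ₀(N)` trivial on small elements comes from a function over `ℚ̄`
-/

set_option autoImplicit false

noncomputable section

open UpperHalfPlane CongruenceSubgroup ModularCurve AlgebraicCurve FermatJ ModularForm
open scoped MatrixGroups ModularForm Manifold Topology

namespace Fermat.Agent.JAN.ExistsRel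

open Fermat.Agent.JAN Fermat.Agent.JAN.EisCharB Fermat.Agent.JAN.CharForms
  Fermat.Agent.JAN.CharConj Fermat.Agent.JAN.AutOrbit

variable {N n : ℕ} [NeZero N] {χ χ' : Gamma0 N →* ℂˣ}

/-- the space of expansions of cusp forms of weight `24` and character `χ`. -/
def W (χ : Gamma0 N →* ℂˣ) : Set (PowerSeries ℂ) :=
  {w | ∃ E : ℍ → ℂ, IsCharCusp N 24 χ E ∧ HasPS (qc 1) E w}

omit [NeZero N] in
theorem W_sub {u v : PowerSeries ℂ} (hu : u ∈ W χ) (hv : v ∈ W χ) : u - v ∈ W χ := by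
  obtain ⟨E, hE, hEu⟩ := hu
  obtain ⟨F, hF, hFv⟩ := hv
  refine ⟨E + (-1 : ℂ) • F, hE.add (hF.smul _), ?_⟩
  exact (HasPS.sub' hEu hFv).congr fun x => by simp [sub_eq_add_neg]

omit [NeZero N] in
theorem W_smul {u : PowerSeries ℂ} (hu : u ∈ W χ) (c : ℂ) : PowerSeries.C c * u ∈ W χ := by
  obtain ⟨E, hE, hEu⟩ := hu
  exact ⟨c • E, hE.smul c, (HasPS.C (qc 1) c).mul hEu⟩

/-- Sturm bound -/
theorem order_le (hn : n ≠ 0) (hχ : χ ^ n = 1) {w : PowerSeries ℂ} (hw : w ∈ W χ) (hw0 : w ≠ 0) :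
    w.order ≤ ((((n : ℤ) * 24 * (Gamma0 N).index).toNat / 12 : ℕ) : ℕ∞) := by
  by_contra hcon
  push Not at hcon
  obtain ⟨E, hE, hEw⟩ := hw
  have hEn := hE.pow hn
  rw [hχ] at hEn
  have h2 := hasPS_cuspForm hEn.toCusp
  have h3 : PowerSeries.mk (ModularFormClass.qCoeff hEn.toCusp) = w ^ n :=
    h2.unique (eventually_mem_range_qc 1) (hEw.pow n)
  have h4 := ModularForm.sturm_bound_Gamma0 N
    (f := ModularFormClass.modularForm hEn.toCusp) (fun m hm => by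
      have h5 : (qExpansion 1 (ModularFormClass.modularForm hEn.toCusp)).coeff m =
          (w ^ n).coeff m := by
        rw [← h3, PowerSeries.coeff_mk]
        rfl
      rw [h5]
      apply PowerSeries.coeff_of_lt_order
      have h6 : w.order ≤ (w ^ n).order := by
        obtain ⟨l, rfl⟩ := Nat.exists_eq_succ_of_ne_zero hn
        rw [pow_succ]
        refine le_trans ?_ (PowerSeries.le_order_mul _ _)
        exact le_add_self
      refine lt_of_lt_of_le ?_ h6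
      refine lt_of_le_of_lt ?_ hcon
      exact_mod_cast hm)
  obtain ⟨τ, hτ⟩ := (HasPS.ne_zero_iff (hEw.pow n)).mp (pow_ne_zero n hw0)
  apply hτ
  have := congrArg (fun f => f τ) h4
  exact this

theorem conj_mem (h5a : H5a N n) (h5d : H5d N n) (hD2 : HD2 N) (hn : n ≠ 0)
    (σ : ℂ ≃ₐ[ℚ] ℂ) (hχ : χ ^ n = 1) (hs : KillsSmall χ) {w : PowerSeries ℂ} (hw : w ∈ W χ)
    (hw0 : w ≠ 0) : ∃ χ' : Gamma0 N →* ℂˣ, χ' ^ n = 1 ∧ KillsSmall χ' ∧
      w.map (σ : ℂ →+* ℂ) ∈ W χ' := by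
  obtain ⟨E, hE, hEw⟩ := hw
  exact conj_charCusp h5a h5d hD2 hn σ hχ hs hE hEw hw0

omit [NeZero N] in
theorem map_ne_zero' (σ : ℂ →+* ℂ) {w : PowerSeries ℂ} (hw : w ≠ 0) : w.map σ ≠ 0 := by
  intro h
  apply hw
  apply PowerSeries.map_injective σ σ.injective
  rw [h, map_zero]

omit [NeZero N] in
theorem char_mul_pow {m : ℕ} (hχ : χ ^ (m + 1) = 1) : χ * χ ^ m = 1 := by
  ext γ
  have h : (χ γ) ^ (m + 1) = 1 := DFunLike.congr_fun hχ γ
  rw [MonoidHom.mul_apply, MonoidHom.pow_apply, ← pow_succ', h, MonoidHom.one_apply]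

omit [NeZero N] in
theorem char_eq_of_mul {χ'' χ₀ : Gamma0 N →* ℂˣ} (h1 : χ * χ₀ = 1) (h2 : χ'' * χ₀ = 1) :
    χ'' = χ := by
  ext γ
  have e1 : χ γ * χ₀ γ = 1 := DFunLike.congr_fun h1 γ
  have e2 : χ'' γ * χ₀ γ = 1 := DFunLike.congr_fun h2 γ
  rw [mul_right_cancel (e2.trans e1.symm)]

theorem char_eq {m : ℕ} {χ'' : Gamma0 N →* ℂˣ} (hχ : χ ^ (m + 1) = 1) (hχ' : χ' ^ (m + 1) = 1)
    {w u : PowerSeries ℂ} (hw : w ∈ W χ) (hw0 : w ≠ 0) (hu0 : u ≠ 0) (σ : ℂ ≃ₐ[ℚ] ℂ)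
    (hw1 : w.map (σ : ℂ →+* ℂ) ∈ W χ') (hu : u ∈ W χ')
    (hu1 : u.map (σ.symm : ℂ →+* ℂ) ∈ W χ'') : χ'' = χ := by
  obtain ⟨E, hE, hEw⟩ := hw
  obtain ⟨E1, hE1, hE1w⟩ := hw1
  obtain ⟨F, hF, hFu⟩ := hu
  obtain ⟨F1, hF1, hF1u⟩ := hu1
  have hG : IsCharCusp N (m * 24 + 24) 1 (E1 ^ m * F) := by
    have h1 := hF.mul (hE1.isCharForm.pow m)
    rw [char_mul_pow hχ', mul_comm F, add_comm] at h1
    exact h1
  obtain ⟨G', hG'⟩ := IntStr.exists_conj N (m * 24 + 24) (σ.symm : ℂ →+* ℂ) hG.toCusp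
  have hG'ps : HasPS (qc 1) G' (w ^ m * u.map (σ.symm : ℂ →+* ℂ)) := by
    have h2 := hasPS_cuspForm hG.toCusp
    have h3 : PowerSeries.mk (ModularFormClass.qCoeff hG.toCusp) =
        (w.map (σ : ℂ →+* ℂ)) ^ m * u :=
      h2.unique (eventually_mem_range_qc 1) ((hE1w.pow m).mul hFu)
    have h4 := hasPS_cuspForm G'
    have h5 : PowerSeries.mk (ModularFormClass.qCoeff G') = w ^ m * u.map (σ.symm : ℂ →+* ℂ) := by
      have h6 : ((w.map (σ : ℂ →+* ℂ)) ^ m * u).map (σ.symm : ℂ →+* ℂ) =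
          w ^ m * u.map (σ.symm : ℂ →+* ℂ) := by
        rw [map_mul, map_pow]
        congr 2
        ext i
        simp
      rw [← h6, ← h3]
      ext i
      rw [PowerSeries.coeff_mk, hG', PowerSeries.coeff_map, PowerSeries.coeff_mk]
    rwa [h5] at h4
  have hG'e : (G' : ℍ → ℂ) = E ^ m * F1 := funext fun τ =>
    HasPS.funext hG'ps ((hEw.pow m).mul hF1u) τ
  have hne : ∃ τ, (E ^ m * F1) τ ≠ 0 := by
    rw [← hG'e]
    exact (HasPS.ne_zero_iff hG'ps).mp (mul_ne_zero (pow_ne_zero m hw0) (map_ne_zero' _ hu0))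
  obtain ⟨τ, hτ⟩ := hne
  have h1 := hF1.mul (hE.isCharForm.pow m)
  have h2 : χ'' * χ ^ m = 1 := by
    ext γ
    have h3 := (isCharCusp_cuspForm G').slash γ
    have h4 := h1.slash γ
    rw [add_comm, mul_comm F1, ← hG'e, h3, hG'e] at h4
    have h5 := congrFun h4 τ
    simp only [Pi.smul_apply, smul_eq_mul] at h5
    exact (mul_right_cancel₀ hτ h5).symm
  exact char_eq_of_mul (char_mul_pow hχ) h2

theorem exists_max_order (hn : n ≠ 0) (hχ : χ ^ n = 1) (hs : KillsSmall χ) :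
    ∃ w ∈ W χ, w ≠ 0 ∧ ∃ m : ℕ, w.order = m ∧ w.coeff m = 1 ∧
      ∀ u ∈ W χ, u ≠ 0 → u.order ≤ (m : ℕ∞) := by
  set S : Set ℕ := {m | ∃ w ∈ W χ, w ≠ 0 ∧ w.order = (m : ℕ∞)} with hS
  have hne : S.Nonempty := by
    obtain ⟨E, hE, hE0⟩ := exists_charCusp hn hχ hs
    have h1 := hasPS_of_isCharForm hE.isCharForm hs.map_T0
    have h2 := (HasPS.ne_zero_iff h1).mpr hE0
    obtain ⟨m, hm⟩ := ENat.ne_top_iff_exists.mp (PowerSeries.order_eq_top.not.mpr h2)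
    exact ⟨m, _, ⟨E, hE, h1⟩, h2, hm.symm⟩
  have hbdd : BddAbove S := by
    refine ⟨((n : ℤ) * 24 * (Gamma0 N).index).toNat / 12, ?_⟩
    rintro m ⟨w, hw, hw0, hwm⟩
    have := order_le hn hχ hw hw0
    rw [hwm] at this
    exact_mod_cast this
  obtain ⟨w, hw, hw0, hwm⟩ := Nat.sSup_mem hne hbdd
  have hmax : ∀ u ∈ W χ, u ≠ 0 → u.order ≤ ((sSup S : ℕ) : ℕ∞) := by
    intro u hu hu0
    obtain ⟨m, hm⟩ := ENat.ne_top_iff_exists.mp (PowerSeries.order_eq_top.not.mpr hu0)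
    have h3 : m ≤ sSup S := le_csSup hbdd ⟨u, hu, hu0, hm.symm⟩
    rw [← hm]
    exact_mod_cast h3
  have hc : w.coeff (sSup S) ≠ 0 := by
    have := PowerSeries.coeff_order hw0
    rwa [show w.order.toNat = sSup S by rw [hwm]; rfl] at this
  have hw1 : PowerSeries.C (w.coeff (sSup S))⁻¹ * w ≠ 0 := by
    refine mul_ne_zero ?_ hw0
    intro h
    have h1 := congrArg PowerSeries.constantCoeff h
    rw [PowerSeries.constantCoeff_C, map_zero] at h1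
    exact inv_ne_zero hc h1
  refine ⟨PowerSeries.C (w.coeff (sSup S))⁻¹ * w, W_smul hw _, hw1, sSup S, ?_, ?_, hmax⟩
  · rw [PowerSeries.order_eq_nat]
    refine ⟨?_, fun i hi => ?_⟩
    · rw [PowerSeries.coeff_C_mul]
      exact mul_ne_zero (inv_ne_zero hc) hc
    · have h4 : w.coeff i = 0 :=
        PowerSeries.coeff_of_lt_order i (by rw [hwm]; exact_mod_cast hi)
      rw [PowerSeries.coeff_C_mul, h4, mul_zero]
  · rw [PowerSeries.coeff_C_mul, inv_mul_cancel₀ hc]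

/-- The normalised form of maximal order has a finite orbit. -/
theorem finite_orbit (h5a : H5a N n) (h5d : H5d N n) (hD2 : HD2 N) (hn : n ≠ 0)
    (hχ : χ ^ n = 1) (hs : KillsSmall χ) :
    ∃ w ∈ W χ, w ≠ 0 ∧ (Set.range fun σ : ℂ ≃ₐ[ℚ] ℂ => w.map (σ : ℂ →+* ℂ)).Finite := by
  obtain ⟨w, hw, hw0, m, hm, hm1, hmax⟩ := exists_max_order hn hχ hs
  refine ⟨w, hw, hw0, ?_⟩
  obtain ⟨l, rfl⟩ := Nat.exists_eq_succ_of_ne_zero hn
  rw [Nat.succ_eq_add_one] at *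
  choose! X hX1 hX2 hX3 using fun σ : ℂ ≃ₐ[ℚ] ℂ => conj_mem h5a h5d hD2 hn σ hχ hs hw hw0
  have key : ∀ σ τ : ℂ ≃ₐ[ℚ] ℂ, X σ = X τ → w.map (σ : ℂ →+* ℂ) = w.map (τ : ℂ →+* ℂ) := by
    intro σ τ h
    by_contra hne
    have hu0 : w.map (σ : ℂ →+* ℂ) - w.map (τ : ℂ →+* ℂ) ≠ 0 := sub_ne_zero.mpr hne
    set u := w.map (σ : ℂ →+* ℂ) - w.map (τ : ℂ →+* ℂ) with hu
    have hu' : u ∈ W (X σ) := W_sub (hX3 σ) (by rw [h]; exact hX3 τ)
    obtain ⟨χ'', h1, h2, h3⟩ := conj_mem h5a h5d hD2 hn σ.symm (hX1 σ) (hX2 σ) hu' hu0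
    have h4 : χ'' = χ := char_eq hχ (hX1 σ) hw hw0 hu0 σ (hX3 σ) hu' h3
    rw [h4] at h3
    have h5 := hmax _ h3 (map_ne_zero' _ hu0)
    have h6 : ((m + 1 : ℕ) : ℕ∞) ≤ (u.map ((σ.symm : ℂ ≃ₐ[ℚ] ℂ) : ℂ →+* ℂ)).order := by
      apply PowerSeries.nat_le_order
      intro i hi
      rw [PowerSeries.coeff_map, hu, map_sub, PowerSeries.coeff_map, PowerSeries.coeff_map]
      rcases Nat.lt_succ_iff_lt_or_eq.mp hi with h7 | h7
      · rw [PowerSeries.coeff_of_lt_order i (by rw [hm]; exact_mod_cast h7)]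
        simp
      · rw [h7, hm1]
        simp
    have h8 := h6.trans h5
    have h9 : m + 1 ≤ m := by exact_mod_cast h8
    omega
  have hfin := finite_char (Gamma0 N) (n := l + 1) hn
  have hfin' : Finite {χ : Gamma0 N →* ℂˣ | χ ^ (l + 1) = 1} := Set.finite_coe_iff.mpr hfin
  rw [← Set.finite_coe_iff]
  let F : (Set.range fun σ : ℂ ≃ₐ[ℚ] ℂ => w.map (σ : ℂ →+* ℂ)) →
      {χ : Gamma0 N →* ℂˣ | χ ^ (l + 1) = 1} := fun r => ⟨X r.2.choose, hX1 _⟩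
  refine Finite.of_injective F ?_
  intro r s hrs
  apply Subtype.ext
  rw [← r.2.choose_spec, ← s.2.choose_spec]
  exact key _ _ (congrArg Subtype.val hrs)

theorem exists_algebraic (h5a : H5a N n) (h5d : H5d N n) (hD2 : HD2 N) (hn : n ≠ 0)
    (hχ : χ ^ n = 1) (hs : KillsSmall χ) :
    ∃ w ∈ W χ, w ≠ 0 ∧ ∀ i, IsAlgebraic ℚ (w.coeff i) := by
  obtain ⟨w, hw, hw0, hfin⟩ := finite_orbit h5a h5d hD2 hn hχ hs
  refine ⟨w, hw, hw0, fun i => isAlgebraic_of_finite_orbit _ ?_⟩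
  refine (hfin.image (fun u => u.coeff i)).subset ?_
  rintro _ ⟨σ, rfl⟩
  exact ⟨_, ⟨σ, rfl⟩, by simp⟩

/-- **Existence of a function over `ℚ̄`** with given character. -/
theorem exists_rel_of_char (h5a : H5a N n) (h5d : H5d N n) (hD2 : HD2 N) (hn : n ≠ 0)
    [Algebra (AlgebraicClosure ℚ) ℂ] (hχ : χ ^ n = 1) (hs : KillsSmall χ) :
    ∃ f : LaurentSeries (AlgebraicClosure ℚ), f ∈ modularFunctionFieldBar N ∧ f ≠ 0 ∧
      Rel N n χ f := by
  obtain ⟨w, hw, hw0, halg⟩ := exists_algebraic h5a h5d hD2 hn hχ hs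
  choose v hv using fun i => isAlgebraic_mem_range (halg i)
  set V : PowerSeries (AlgebraicClosure ℚ) := PowerSeries.mk v with hV
  have hVw : V.map (algebraMap (AlgebraicClosure ℚ) ℂ) = w := by
    ext i
    rw [PowerSeries.coeff_map, hV, PowerSeries.coeff_mk, hv]
  set D : PowerSeries (AlgebraicClosure ℚ) :=
    ((PowerSeries.X * dedekindEtaUnit) ^ 2 : PowerSeries ℤ).map (Int.castRingHom _) with hD
  have hDd : D.map (algebraMap (AlgebraicClosure ℚ) ℂ) = dC := by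
    rw [hD, dC, ← RingHom.comp_apply, ← PowerSeries.map_comp]
    congr 2
    exact Subsingleton.elim _ _
  set f : LaurentSeries (AlgebraicClosure ℚ) :=
    HahnSeries.ofPowerSeries ℤ _ (V ^ n) / HahnSeries.ofPowerSeries ℤ _ (D ^ n) with hf
  have hfC : toC f = HahnSeries.ofPowerSeries ℤ ℂ (w ^ n) /
      HahnSeries.ofPowerSeries ℤ ℂ (dC ^ n) := by
    rw [toC, hf, map_div₀, FermatJ.coeffMap_ofPowerSeries, FermatJ.coeffMap_ofPowerSeries,
      map_pow (PowerSeries.map _) V n, map_pow (PowerSeries.map _) D n, hVw, hDd]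
  obtain ⟨E, hE, hEw⟩ := hw
  have hmem := fE_mem (N := N) hD2 hn hχ hE hEw
  refine ⟨f, ?_, ?_, ?_⟩
  · rw [modularFunctionFieldBar, MFF.laurentBaseChange_full, ← MFF.emb_mem_full_iff (Ω := ℂ)]
    rw [FC, MFF.laurentBaseChange_full, ← hfC] at hmem
    exact hmem
  · intro h0
    rw [h0] at hfC
    have h00 : toC (0 : LaurentSeries (AlgebraicClosure ℚ)) = 0 := map_zero (coeffMap _)
    rw [h00] at hfC
    rcases div_eq_zero_iff.mp hfC.symm with h2 | h2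
    · exact pow_ne_zero n hw0 (HahnSeries.ofPowerSeries_injective (h2.trans (map_zero _).symm))
    · exact ofPS_dC_ne_zero n h2
  · refine ⟨24, discriminant ^ 2, E, HahnSeries.ofPowerSeries ℤ ℂ dC, isCharForm_disc_sq N,
      hE.isCharForm, ⟨UpperHalfPlane.I, pow_ne_zero 2 (discriminant_ne_zero _)⟩,
      (HasPS.ne_zero_iff hEw).mp hw0, HasExp.of_hasPS hasPS_disc_sq, ?_⟩
    rw [hfC, ← map_pow, div_mul_cancel₀ _ (ofPS_dC_ne_zero n)]
    exact HasExp.of_hasPS (hEw.pow n)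

omit [NeZero N] in
theorem chiOf_pow [NeZero n] (ψ : Additive (Gamma0 N) →+ ZMod n) : chiOf ψ ^ n = 1 := by
  ext γ
  rw [MonoidHom.pow_apply, chiOf_apply, ← map_pow, ← AddChar.map_nsmul_eq_pow]
  have : n • ψ (Additive.ofMul γ) = 0 := by
    rw [nsmul_eq_mul, CharP.cast_eq_zero, zero_mul]
  rw [this, AddChar.map_zero_eq_one, map_one]
  rfl

omit [NeZero N] in
theorem killsSmall_chiOf [NeZero n] {ψ : Additive (Gamma0 N) →+ ZMod n} (hψ : ψ ∈ XN N n) :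
    KillsSmall (chiOf ψ) := by
  intro γ hγ
  rw [chiOf_apply, hψ γ hγ, AddChar.map_zero_eq_one, map_one]

/-- **P6**: every `ψ ∈ X_n` comes from a function in `F_N(ℚ̄)`. -/
theorem exists_rel [NeZero n] [Algebra (AlgebraicClosure ℚ) ℂ] (h5a : H5a N n) (h5d : H5d N n)
    (hD2 : HD2 N) {ψ : Additive (Gamma0 N) →+ ZMod n} (hψ : ψ ∈ XN N n) :
    ∃ f : LaurentSeries (AlgebraicClosure ℚ), f ∈ modularFunctionFieldBar N ∧ f ≠ 0 ∧
      Rel N n (chiOf ψ) f :=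
  exists_rel_of_char h5a h5d hD2 (NeZero.ne n) (chiOf_pow ψ) (killsSmall_chiOf hψ)

end Fermat.Agent.JAN.ExistsRel

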