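import Mathlib
import Fermat.Agent.JAN.ExistsRel
import Fermat.Agent.MFF.CharDict
import Fermat.Agent.FunField.Quot

/-!
# The input `HD2`
-/

set_option autoImplicit false

noncomputable section

open UpperHalfPlane CongruenceSubgroup ModularCurve AlgebraicCurve FermatJ ModularForm
open scoped MatrixGroups ModularForm Manifold Topology

namespace Fermat.Agent.JAN.HD2

open Fermat.Agent.JAN Fermat.Agent.JAN.CharForms Fermat.Agent.JAN.CharConj

/-- Quotients of forms of equal weight are in `F_N(ℂ)`. -/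
theorem hD2 (N : ℕ) [NeZero N] : HD2 N := by
  intro k A B α β hA hB hα hβ hβ0
  have hA' := MFF.isMN_of_isCharForm hA
  have hB' := MFF.isMN_of_isCharForm hB
  have hα' := MFF.eq_LQ_of_hasExp hA' hα
  have hβ' := MFF.eq_LQ_of_hasExp hB' hβ
  have hB0 : B ≠ 0 := by
    rintro rfl
    apply hβ0
    exact hβ.unique (eventually_mem_range_qc 1) (HasExp.zero (qc 1))
  rw [FC, MFF.laurentBaseChange_full, FunField.modularFunctionFieldFullC_eq, hα', hβ']
  exact FunField.ratio_mem hA' hB' hB0

/-- **P6** with `HD2` discharged. -/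
theorem exists_rel {N n : ℕ} [NeZero N] [NeZero n] [Algebra (AlgebraicClosure ℚ) ℂ]
    (h5a : H5a N n) (h5d : H5d N n) {ψ : Additive (Gamma0 N) →+ ZMod n} (hψ : ψ ∈ XN N n) :
    ∃ f : LaurentSeries (AlgebraicClosure ℚ), f ∈ modularFunctionFieldBar N ∧ f ≠ 0 ∧
      Rel N n (chiOf ψ) f :=
  ExistsRel.exists_rel h5a h5d (hD2 N) hψ

end Fermat.Agent.JAN.HD2
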