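import Mathlib
import Fermat.Prelude.Def_AlgebraicCurve_DivisorClassGroup

/-!
# `ℤ`-valued valuations of a function field and places

An integer valued valuation `w` of a field `F`, nonnegative on a subfield `K`, is either trivial
or `e * v.ord` for a place `v` of `F/K` and some `e ≥ 1`.  In particular, if an element `x` has
all its orders at places divisible by `n`, and `d` divides all the values of `w`, then `n * d`
divides `w x`.
-/

set_option autoImplicit false

noncomputable section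

open AlgebraicCurve

namespace Fermat.Agent.JAN.Orders

/-- An additive integer valued valuation on a field (values at `0` are irrelevant). -/
structure IntVal {F : Type*} [Field F] (w : F → ℤ) : Prop where
  mul : ∀ x y : F, x ≠ 0 → y ≠ 0 → w (x * y) = w x + w y
  add : ∀ x y : F, x ≠ 0 → y ≠ 0 → x + y ≠ 0 → min (w x) (w y) ≤ w (x + y)

namespace IntVal

variable {F : Type*} [Field F] {w : F → ℤ}

theorem one (hw : IntVal w) : w 1 = 0 := by
  have := hw.mul 1 1 one_ne_zero one_ne_zero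
  rw [mul_one] at this
  omega

theorem inv (hw : IntVal w) {x : F} (hx : x ≠ 0) : w x⁻¹ = - w x := by
  have := hw.mul x x⁻¹ hx (inv_ne_zero hx)
  rw [mul_inv_cancel₀ hx, hw.one] at this
  omega

theorem neg_one (hw : IntVal w) : w (-1) = 0 := by
  have := hw.mul (-1) (-1) (neg_ne_zero.mpr one_ne_zero) (neg_ne_zero.mpr one_ne_zero)
  rw [neg_mul_neg, mul_one, hw.one] at this
  omega

theorem neg (hw : IntVal w) {x : F} (hx : x ≠ 0) : w (-x) = w x := by
  rw [← neg_one_mul, hw.mul _ _ (neg_ne_zero.mpr one_ne_zero) hx, hw.neg_one, zero_add]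

theorem zpow (hw : IntVal w) {x : F} (hx : x ≠ 0) (n : ℤ) : w (x ^ n) = n * w x := by
  have hnat : ∀ n : ℕ, w (x ^ n) = n * w x := by
    intro n
    induction n with
    | zero => simp [hw.one]
    | succ n ih =>
      rw [pow_succ, hw.mul _ _ (pow_ne_zero n hx) hx, ih]
      push_cast
      ring
  rcases n with n | n
  · simpa using hnat n
  · rw [zpow_negSucc, hw.inv (pow_ne_zero _ hx), hnat, Int.negSucc_eq]
    push_cast
    ring

theorem pow (hw : IntVal w) {x : F} (hx : x ≠ 0) (n : ℕ) : w (x ^ n) = n * w x := by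
  simpa using hw.zpow hx n

theorem div (hw : IntVal w) {x y : F} (hx : x ≠ 0) (hy : y ≠ 0) : w (x / y) = w x - w y := by
  rw [div_eq_mul_inv, hw.mul _ _ hx (inv_ne_zero hy), hw.inv hy, sub_eq_add_neg]

/-- The valuation ring of an integer valuation. -/
def ring (hw : IntVal w) : ValuationSubring F where
  carrier := {x | x = 0 ∨ 0 ≤ w x}
  mul_mem' := by
    rintro x y (rfl | hx) (rfl | hy)
    · exact Or.inl (by simp)
    · exact Or.inl (by simp)
    · exact Or.inl (by simp)
    · by_cases hx0 : x = 0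
      · exact Or.inl (by simp [hx0])
      by_cases hy0 : y = 0
      · exact Or.inl (by simp [hy0])
      right
      rw [hw.mul x y hx0 hy0]
      omega
  one_mem' := Or.inr hw.one.ge
  add_mem' := by
    rintro x y hx hy
    by_cases hx0 : x = 0
    · subst hx0
      rwa [zero_add]
    by_cases hy0 : y = 0
    · subst hy0
      rwa [add_zero]
    by_cases hxy : x + y = 0
    · exact Or.inl hxy
    have hx' := hx.resolve_left hx0
    have hy' := hy.resolve_left hy0
    exact Or.inr (le_trans (le_min hx' hy') (hw.add x y hx0 hy0 hxy))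
  zero_mem' := Or.inl rfl
  neg_mem' := by
    rintro x (rfl | hx)
    · exact Or.inl (by simp)
    · by_cases hx0 : x = 0
      · exact Or.inl (by simp [hx0])
      · exact Or.inr (by rwa [hw.neg hx0])
  mem_or_inv_mem' := by
    intro x
    by_cases hx0 : x = 0
    · exact Or.inl (Or.inl hx0)
    rcases le_total 0 (w x) with h | h
    · exact Or.inl (Or.inr h)
    · refine Or.inr (Or.inr ?_)
      rw [hw.inv hx0]
      omega

theorem mem_ring (hw : IntVal w) {x : F} : x ∈ hw.ring ↔ x = 0 ∨ 0 ≤ w x := Iff.rfl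

theorem mem_ring_of_ne_zero (hw : IntVal w) {x : F} (hx : x ≠ 0) : x ∈ hw.ring ↔ 0 ≤ w x := by
  rw [mem_ring]
  exact ⟨fun h => h.resolve_left hx, Or.inr⟩

theorem isUnit_iff (hw : IntVal w) (x : hw.ring) (hx : (x : F) ≠ 0) : IsUnit x ↔ w x = 0 := by
  constructor
  · rintro ⟨u, rfl⟩
    have h1 : ((u : hw.ring) : F) * ((u⁻¹ : hw.ringˣ) : hw.ring) = 1 :=
      congrArg Subtype.val u.mul_inv
    have h2 : (((u⁻¹ : hw.ringˣ) : hw.ring) : F) ≠ 0 := by
      intro h
      rw [h, mul_zero] at h1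
      exact zero_ne_one h1
    have h3 := hw.mul _ _ hx h2
    rw [h1, hw.one] at h3
    have h4 := (hw.mem_ring_of_ne_zero hx).mp (u : hw.ring).2
    have h5 := (hw.mem_ring_of_ne_zero h2).mp ((u⁻¹ : hw.ringˣ) : hw.ring).2
    omega
  · intro h
    have h1 : (x : F)⁻¹ ∈ hw.ring := by
      rw [hw.mem_ring_of_ne_zero (inv_ne_zero hx), hw.inv hx, h, neg_zero]
    refine IsUnit.of_mul_eq_one ⟨(x : F)⁻¹, h1⟩ ?_
    apply Subtype.ext
    exact mul_inv_cancel₀ hx

/-- The generator of the value group. -/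
theorem exists_generator (hw : IntVal w) (hnt : ∃ y, y ≠ 0 ∧ w y ≠ 0) :
    ∃ (e : ℕ) (π : F), 0 < e ∧ π ≠ 0 ∧ w π = e ∧ ∀ y, y ≠ 0 → (e : ℤ) ∣ w y := by
  let G : AddSubgroup ℤ :=
    { carrier := {m | ∃ y, y ≠ 0 ∧ w y = m}
      zero_mem' := ⟨1, one_ne_zero, hw.one⟩
      add_mem' := by
        rintro _ _ ⟨x, hx, rfl⟩ ⟨y, hy, rfl⟩
        exact ⟨x * y, mul_ne_zero hx hy, hw.mul x y hx hy⟩
      neg_mem' := by
        rintro _ ⟨x, hx, rfl⟩
        exact ⟨x⁻¹, inv_ne_zero hx, hw.inv hx⟩ }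
  obtain ⟨g, hg⟩ := Int.subgroup_cyclic G
  have hg' : G = AddSubgroup.zmultiples g := by rw [hg, AddSubgroup.zmultiples_eq_closure]
  have hmem : ∀ y, y ≠ 0 → g ∣ w y := by
    intro y hy
    have : w y ∈ G := ⟨y, hy, rfl⟩
    rw [hg', Int.mem_zmultiples_iff] at this
    exact this
  have hg0 : g ≠ 0 := by
    rintro rfl
    obtain ⟨y, hy, hwy⟩ := hnt
    exact hwy (zero_dvd_iff.mp (hmem y hy))
  have habs : ((g.natAbs : ℕ) : ℤ) ∈ G := by
    rw [hg', Int.mem_zmultiples_iff]
    exact Int.dvd_natAbs_self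
  obtain ⟨π, hπ, hwπ⟩ := habs
  exact ⟨g.natAbs, π, Int.natAbs_pos.mpr hg0, hπ, hwπ, fun y hy =>
    Int.natAbs_dvd.mpr (hmem y hy)⟩

theorem irreducible_of_generator (hw : IntVal w) {e : ℕ} {π : F} (he : 0 < e) (hπ : π ≠ 0)
    (hwπ : w π = e) (hdvd : ∀ y, y ≠ 0 → (e : ℤ) ∣ w y) (hmem : π ∈ hw.ring) :
    Irreducible (⟨π, hmem⟩ : hw.ring) := by
  constructor
  · rw [hw.isUnit_iff _ hπ]
    simp only [hwπ]
    omega
  · intro a b hab
    have hab' : π = (a : F) * b := congrArg Subtype.val hab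
    have ha : (a : F) ≠ 0 := fun h => hπ (by rw [hab', h, zero_mul])
    have hb : (b : F) ≠ 0 := fun h => hπ (by rw [hab', h, mul_zero])
    have h1 := hw.mul _ _ ha hb
    rw [← hab', hwπ] at h1
    have h2 := (hw.mem_ring_of_ne_zero ha).mp a.2
    have h3 := (hw.mem_ring_of_ne_zero hb).mp b.2
    obtain ⟨s, hs⟩ := hdvd _ ha
    obtain ⟨t, ht⟩ := hdvd _ hb
    rw [hw.isUnit_iff _ ha, hw.isUnit_iff _ hb]
    rw [hs, ht, ← mul_add] at h1
    have he' : (0 : ℤ) < e := by exact_mod_cast he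
    have h4 : s + t = 1 := by
      have h5 : (e : ℤ) * (s + t) = e * 1 := by rw [mul_one]; exact h1.symm
      exact mul_left_cancel₀ he'.ne' h5
    rw [hs] at h2
    rw [ht] at h3
    have hs0 : 0 ≤ s := nonneg_of_mul_nonneg_right h2 he'
    have ht0 : 0 ≤ t := nonneg_of_mul_nonneg_right h3 he'
    rcases (by omega : s = 0 ∨ t = 0) with h | h
    · left
      rw [hs, h, mul_zero]
    · right
      rw [ht, h, mul_zero]

theorem isDVR (hw : IntVal w) (hnt : ∃ y, y ≠ 0 ∧ w y ≠ 0) :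
    IsDiscreteValuationRing hw.ring := by
  obtain ⟨e, π, he, hπ, hwπ, hdvd⟩ := hw.exists_generator hnt
  have hmem : π ∈ hw.ring := by
    rw [hw.mem_ring_of_ne_zero hπ, hwπ]
    exact Int.natCast_nonneg e
  apply IsDiscreteValuationRing.ofHasUnitMulPowIrreducibleFactorization
  refine ⟨⟨π, hmem⟩, hw.irreducible_of_generator he hπ hwπ hdvd hmem, ?_⟩
  intro x hx
  have hx0 : (x : F) ≠ 0 := fun h => hx (Subtype.ext h)
  obtain ⟨s, hs⟩ := hdvd _ hx0
  have he' : (0 : ℤ) < e := by exact_mod_cast he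
  have h2 := (hw.mem_ring_of_ne_zero hx0).mp x.2
  rw [hs] at h2
  have hs0 : 0 ≤ s := nonneg_of_mul_nonneg_right h2 he'
  obtain ⟨m, rfl⟩ := Int.eq_ofNat_of_zero_le hs0
  refine ⟨m, ?_⟩
  -- `x = π ^ m * u`
  have hq0 : (x : F) / π ^ m ≠ 0 := div_ne_zero hx0 (pow_ne_zero m hπ)
  have hq : w ((x : F) / π ^ m) = 0 := by
    rw [hw.div hx0 (pow_ne_zero m hπ), hw.pow hπ, hs, hwπ]
    ring
  have hqm : (x : F) / π ^ m ∈ hw.ring := by rw [hw.mem_ring_of_ne_zero hq0, hq]
  have hu : IsUnit (⟨(x : F) / π ^ m, hqm⟩ : hw.ring) := (hw.isUnit_iff _ hq0).mpr hq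
  obtain ⟨u, hu⟩ := hu
  refine ⟨u, ?_⟩
  rw [hu]
  apply Subtype.ext
  show π ^ m * ((x : F) / π ^ m) = x
  field_simp

theorem ring_ne_top (hw : IntVal w) (hnt : ∃ y, y ≠ 0 ∧ w y ≠ 0) : hw.ring ≠ ⊤ := by
  obtain ⟨e, π, he, hπ, hwπ, hdvd⟩ := hw.exists_generator hnt
  intro h
  have h1 : π⁻¹ ∈ hw.ring := by rw [h]; exact ValuationSubring.mem_top _
  rw [hw.mem_ring_of_ne_zero (inv_ne_zero hπ), hw.inv hπ, hwπ] at h1
  omega

variable {K : Type*} [Field K] [Algebra K F]

/-- The place defined by a nontrivial integer valuation. -/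
def place (hw : IntVal w) (hK : ∀ c : K, c ≠ 0 → 0 ≤ w (algebraMap K F c))
    (hnt : ∃ y, y ≠ 0 ∧ w y ≠ 0) : Place K F where
  toValuationSubring := hw.ring
  algebraMap_mem' c := by
    by_cases hc : c = 0
    · subst hc
      rw [map_zero]
      exact hw.ring.zero_mem
    · exact Or.inr (hK c hc)
  ne_top' := hw.ring_ne_top hnt
  isPrincipalIdealRing' := by
    have := hw.isDVR hnt
    infer_instance

/-- A nontrivial integer valuation is a multiple of the order at a place. -/
theorem exists_place (hw : IntVal w) (hK : ∀ c : K, c ≠ 0 → 0 ≤ w (algebraMap K F c))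
    (hnt : ∃ y, y ≠ 0 ∧ w y ≠ 0) :
    ∃ (v : Place K F) (e : ℕ), 0 < e ∧ v.toValuationSubring = hw.ring ∧
      ∀ y : F, y ≠ 0 → w y = e * v.ord y := by
  obtain ⟨e, π, he, hπ, hwπ, hdvd⟩ := hw.exists_generator hnt
  have hmem : π ∈ hw.ring := by
    rw [hw.mem_ring_of_ne_zero hπ, hwπ]
    exact Int.natCast_nonneg e
  refine ⟨hw.place hK hnt, e, he, rfl, fun y hy => ?_⟩
  have hirr : Irreducible (⟨π, hmem⟩ : (hw.place hK hnt).toValuationSubring) :=
    hw.irreducible_of_generator he hπ hwπ hdvd hmem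
  obtain ⟨u, hu⟩ := (hw.place hK hnt).exists_unit_mul_zpow hy hirr
  have hu0 : ((u : (hw.place hK hnt).toValuationSubring) : F) ≠ 0 := by
    intro h
    rw [h, zero_mul] at hu
    exact hy hu
  have hwu : w ((u : (hw.place hK hnt).toValuationSubring) : F) = 0 :=
    (hw.isUnit_iff (u : (hw.place hK hnt).toValuationSubring) hu0).mp u.isUnit
  have h1 : w y = w (((u : (hw.place hK hnt).toValuationSubring) : F) *
      π ^ ((hw.place hK hnt).ord y)) := congrArg w hu
  rw [h1, hw.mul _ _ hu0 (zpow_ne_zero _ hπ), hwu, hw.zpow hπ, hwπ]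
  ring

/-- **Main divisibility statement.** -/
theorem mul_dvd (hw : IntVal w) (hK : ∀ c : K, c ≠ 0 → 0 ≤ w (algebraMap K F c))
    {n : ℤ} {x : F} (hx : x ≠ 0) (hn : ∀ v : Place K F, n ∣ v.ord x) {d : ℤ}
    (hd : ∀ y : F, y ≠ 0 → d ∣ w y) : n * d ∣ w x := by
  by_cases hnt : ∃ y, y ≠ 0 ∧ w y ≠ 0
  · obtain ⟨v, e, he, -, hv⟩ := hw.exists_place hK hnt
    have he' : (e : ℤ) ≠ 0 := by exact_mod_cast he.ne'
    -- `d ∣ e`
    have hde : d ∣ (e : ℤ) := by
      obtain ⟨e', π, he1, hπ, hwπ, hdvd⟩ := hw.exists_generator hnt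
      have h1 := hd π hπ
      have h2 : w π = e * v.ord π := hv π hπ
      -- `e` is a value of `w`
      obtain ⟨p, hp⟩ := IsDiscreteValuationRing.exists_irreducible v.toValuationSubring
      have hp0 : (p : F) ≠ 0 := by
        simpa [ne_eq, ZeroMemClass.coe_eq_zero] using hp.ne_zero
      have h3 := hd (p : F) hp0
      rw [hv _ hp0, v.ord_coe_irreducible hp, mul_one] at h3
      exact h3
    obtain ⟨s, hs⟩ := hn v
    rw [hv x hx, hs]
    obtain ⟨t, ht⟩ := hde
    exact ⟨t * s, by rw [ht]; ring⟩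
  · push Not at hnt
    rw [hnt x hx]
    exact dvd_zero _

end IntVal

/-! ### Valuations from embeddings into Laurent series -/

/-- The order of the image in a field of Laurent series is an integer valuation. -/
theorem intVal_order {F k : Type*} [Field F] [Field k] (ι : F →+* LaurentSeries k) :
    IntVal (fun x => (ι x).order) where
  mul x y hx hy := by
    rw [map_mul, HahnSeries.order_mul ((map_ne_zero ι).mpr hx) ((map_ne_zero ι).mpr hy)]
  add x y hx hy hxy := by
    rw [map_add]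
    exact HahnSeries.min_order_le_order_add (by rwa [← map_add, map_ne_zero])

/-- If all orders of `x` at places are divisible by `n`, and `d` divides the orders of all
elements in an embedding into Laurent series, constant on constants, then `n * d` divides the
order of `x`. -/
theorem mul_dvd_order {K F k : Type*} [Field K] [Field F] [Algebra K F] [Field k]
    (ι : F →+* LaurentSeries k) (hι : ∀ c : K, c ≠ 0 → 0 ≤ (ι (algebraMap K F c)).order)
    {n : ℤ} {x : F} (hx : x ≠ 0) (hn : ∀ v : Place K F, n ∣ v.ord x) {d : ℤ}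
    (hd : ∀ y : F, y ≠ 0 → d ∣ (ι y).order) : n * d ∣ (ι x).order :=
  (intVal_order ι).mul_dvd hι hx hn hd

end Fermat.Agent.JAN.Orders
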