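import Mathlib
import Fermat.Agent.JAN.Defs
import Fermat.Agent.JAN.MerField
import Fermat.Agent.JAN.OrdVal
import Fermat.Agent.JAN.AnFun
import Fermat.Agent.JAN.CharForm
import Fermat.Agent.MFF.CharDict
import Fermat.Agent.J.Local

/-!
# Orders of modular functions at points of `ℍ` and at cusps (P4a)
-/

set_option autoImplicit false

noncomputable section

open UpperHalfPlane Filter Topology CongruenceSubgroup AlgebraicCurve ModularCurve
open scoped MatrixGroups Manifold ModularForm ComplexConjugate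

namespace Fermat.Agent.JAN.Orders

open FermatJ MerField AnFun

/-! ### Local expansions at points of the upper half plane -/

theorem analyticAt_discFun (τ₀ : ℍ) {f : ℍ → ℂ} (hf : MDiff f) :
    AnalyticAt ℂ (discFun τ₀ f) 0 :=
  (differentiableOn_discFun τ₀ hf).analyticAt (Metric.ball_mem_nhds 0 one_pos)

/-- the coordinate `wc` as a function on `ℂ` -/
def wcC (τ₀ : ℍ) (z : ℂ) : ℂ := (z - τ₀) / (z - conj (τ₀ : ℂ))

theorem hasDerivAt_wcC (τ₀ τ : ℍ) : HasDerivAt (wcC τ₀)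
    (((τ₀ : ℂ) - conj (τ₀ : ℂ)) / ((τ : ℂ) - conj (τ₀ : ℂ)) ^ 2) (τ : ℂ) := by
  have h2 := ((hasDerivAt_id (τ : ℂ)).sub_const (τ₀ : ℂ)).div
    ((hasDerivAt_id (τ : ℂ)).sub_const (conj (τ₀ : ℂ))) (sub_conj_ne_zero τ₀ τ)
  convert! h2 using 1
  simp

theorem analyticAt_wcC (τ₀ τ : ℍ) : AnalyticAt ℂ (wcC τ₀) (τ : ℂ) :=
  (analyticAt_id.sub analyticAt_const).div (analyticAt_id.sub analyticAt_const)
    (sub_conj_ne_zero τ₀ τ)

theorem eventuallyEq_discFun (τ₀ τ : ℍ) (f : ℍ → ℂ) :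
    (f ∘ ofComplex) =ᶠ[𝓝 (τ : ℂ)] (discFun τ₀ f ∘ wcC τ₀) := by
  filter_upwards [isOpen_upperHalfPlaneSet.mem_nhds τ.im_pos] with z hz
  have := discFun_wc τ₀ f ⟨z, hz⟩
  simp only [Function.comp_apply, ofComplex_apply_of_im_pos hz]
  rw [← this]
  rfl

theorem analyticOrderAt_eq_discFun (τ₀ : ℍ) (f : ℍ → ℂ) :
    analyticOrderAt (f ∘ ofComplex) (τ₀ : ℂ) = analyticOrderAt (discFun τ₀ f) 0 := by
  have h0 : wcC τ₀ (τ₀ : ℂ) = 0 := wc_self τ₀
  rw [analyticOrderAt_congr (eventuallyEq_discFun τ₀ τ₀ f),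
    analyticOrderAt_comp_of_deriv_ne_zero (analyticAt_wcC τ₀ τ₀), h0]
  rw [(hasDerivAt_wcC τ₀ τ₀).deriv]
  exact div_ne_zero (sub_conj_ne_zero τ₀ τ₀) (pow_ne_zero _ (sub_conj_ne_zero τ₀ τ₀))

theorem coeff_localPS (τ₀ : ℍ) (f : ℍ → ℂ) (n : ℕ) : (localPS τ₀ f).coeff n =
    (n.factorial : ℂ)⁻¹ * iteratedDeriv n (discFun τ₀ f) 0 := by
  rw [localPS, PowerSeries.coeff_mk]

theorem coeff_localPS_eq_zero_iff (τ₀ : ℍ) (f : ℍ → ℂ) (n : ℕ) : (localPS τ₀ f).coeff n = 0 ↔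
    iteratedDeriv n (discFun τ₀ f) 0 = 0 := by
  rw [coeff_localPS, mul_eq_zero, inv_eq_zero, Nat.cast_eq_zero]
  simp [Nat.factorial_ne_zero]

/-- The ring homomorphism `f ↦ localPS τ₀ f` on holomorphic functions. -/
def locHol (τ₀ : ℍ) : Hol →+* PowerSeries ℂ where
  toFun f := localPS τ₀ f
  map_one' := (hasPS_local τ₀ (1 : Hol).2).unique (eventually_mem_range_wc τ₀) (HasPS.one _)
  map_mul' f g := (hasPS_local τ₀ (f * g).2).unique (eventually_mem_range_wc τ₀)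
    ((hasPS_local τ₀ f.2).mul (hasPS_local τ₀ g.2))
  map_zero' := (hasPS_local τ₀ (0 : Hol).2).unique (eventually_mem_range_wc τ₀) (HasPS.zero _)
  map_add' f g := (hasPS_local τ₀ (f + g).2).unique (eventually_mem_range_wc τ₀)
    ((hasPS_local τ₀ f.2).add (hasPS_local τ₀ g.2))

theorem locHol_apply (τ₀ : ℍ) (f : Hol) : locHol τ₀ f = localPS τ₀ f := rfl

theorem eq_zero_of_localPS {τ₀ : ℍ} {f : ℍ → ℂ} (hf : MDiff f) (h : localPS τ₀ f = 0) :
    f = 0 := by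
  funext τ
  have h1 := hasPS_local τ₀ hf τ
  rw [h] at h1
  simp only [map_zero, zero_mul] at h1
  exact h1.unique hasSum_zero

theorem locHol_injective (τ₀ : ℍ) : Function.Injective (locHol τ₀) := by
  rw [injective_iff_map_eq_zero]
  intro f hf
  exact Subtype.ext (eq_zero_of_localPS f.2 hf)

/-- The order of the local expansion is the order of vanishing. -/
theorem order_localPS (τ₀ : ℍ) {f : ℍ → ℂ} (hf : MDiff f) :
    (localPS τ₀ f).order = analyticOrderAt (f ∘ ofComplex) (τ₀ : ℂ) := by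
  rw [analyticOrderAt_eq_discFun]
  by_cases h0 : localPS τ₀ f = 0
  · have hf0 : f = 0 := eq_zero_of_localPS hf h0
    subst hf0
    rw [h0, PowerSeries.order_zero, eq_comm, analyticOrderAt_eq_top]
    exact Filter.Eventually.of_forall fun z => rfl
  · obtain ⟨n, hn⟩ : ∃ n : ℕ, (localPS τ₀ f).order = n :=
      ⟨_, (PowerSeries.coe_toNat_order h0).symm⟩
    rw [hn, eq_comm]
    rw [PowerSeries.order_eq_nat] at hn
    rw [analyticOrderAt_eq_nat_iff_iteratedDeriv_eq_zero (analyticAt_discFun τ₀ hf)]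
    refine ⟨fun i hi => (coeff_localPS_eq_zero_iff τ₀ f i).mp (hn.2 i hi), fun h => hn.1 ?_⟩
    exact (coeff_localPS_eq_zero_iff τ₀ f n).mpr h

/-- The embedding of the field of meromorphic functions in the field of Laurent series at a
point. -/
def locMer (τ₀ : ℍ) : Mer →+* LaurentSeries ℂ :=
  IsFractionRing.lift (A := Hol) (K := Mer)
    (g := (HahnSeries.ofPowerSeries ℤ ℂ).comp (locHol τ₀))
    (HahnSeries.ofPowerSeries_injective.comp (locHol_injective τ₀))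

theorem locMer_algebraMap (τ₀ : ℍ) (f : Hol) :
    locMer τ₀ (algebraMap Hol Mer f) = HahnSeries.ofPowerSeries ℤ ℂ (localPS τ₀ f) :=
  IsFractionRing.lift_algebraMap _ _

theorem order_ofPowerSeries {k : Type*} [Field k] (P : PowerSeries k) :
    (HahnSeries.ofPowerSeries ℤ k P : LaurentSeries k).order = P.order.toNat := by
  by_cases hP : P = 0
  · subst hP
    simp
  have h1 : (HahnSeries.ofPowerSeries ℤ k P : LaurentSeries k).coeff (P.order.toNat : ℤ) ≠ 0 := by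
    rw [HahnSeries.ofPowerSeries_apply_coeff]
    exact PowerSeries.coeff_order hP
  refine le_antisymm (HahnSeries.order_le_of_coeff_ne_zero h1) ?_
  by_contra hlt
  push Not at hlt
  have h0 : (HahnSeries.ofPowerSeries ℤ k P : LaurentSeries k) ≠ 0 := by
    intro h
    rw [h] at h1
    exact h1 rfl
  apply h0
  rw [← HahnSeries.coeff_order_eq_zero]
  rcases lt_or_ge (HahnSeries.ofPowerSeries ℤ k P : LaurentSeries k).order 0 with hneg | hpos
  · rw [ofPowerSeries_coeff_of_neg _ hneg]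
  · obtain ⟨m, hm⟩ := Int.eq_ofNat_of_zero_le hpos
    rw [hm, HahnSeries.ofPowerSeries_apply_coeff]
    apply PowerSeries.coeff_of_lt_order_toNat
    omega

/-! ### Stabilisers -/

/-- In the coordinate `wc τ₀`, elements of the stabiliser of `τ₀` are rotations. -/
theorem wc_smul_of_fix {γ : SL(2, ℤ)} {τ₀ : ℍ} (h : γ • τ₀ = τ₀) (τ : ℍ) :
    wc τ₀ (γ • τ) = (denom γ τ₀ ^ 2)⁻¹ * wc τ₀ τ := by
  have hdet : (γ 0 0 : ℂ) * γ 1 1 - γ 0 1 * γ 1 0 = 1 := by
    have := γ.det_coe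
    rw [Matrix.det_fin_two] at this
    exact_mod_cast this
  -- the equation of the fixed point
  have hj0 : denom γ τ₀ ≠ 0 := denom_ne_zero γ τ₀
  have hfix : (γ 0 0 : ℂ) * τ₀ + γ 0 1 = τ₀ * (γ 1 0 * τ₀ + γ 1 1) := by
    have h1 : ((γ • τ₀ : ℍ) : ℂ) = τ₀ := by rw [h]
    rw [coe_specialLinearGroup_apply] at h1
    rw [ModularGroup.denom_apply] at hj0
    simp only [algebraMap_int_eq, eq_intCast, Complex.ofReal_intCast] at h1
    rwa [div_eq_iff hj0] at h1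
  have hfix' : (γ 0 0 : ℂ) * conj (τ₀ : ℂ) + γ 0 1 =
      conj (τ₀ : ℂ) * (γ 1 0 * conj (τ₀ : ℂ) + γ 1 1) := by
    have := congrArg conj hfix
    simpa using this
  have hnorm : denom γ τ₀ * conj (denom γ τ₀) = 1 := by
    have h1 := ModularGroup.im_smul_eq_div_normSq γ τ₀
    rw [h] at h1
    have him : τ₀.im ≠ 0 := τ₀.im_pos.ne'
    have h2 : Complex.normSq (denom γ τ₀) = 1 := by
      have h3 : Complex.normSq (denom γ τ₀) ≠ 0 := (map_ne_zero Complex.normSq).mpr hj0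
      rw [eq_div_iff h3] at h1
      exact mul_left_cancel₀ him (by rw [h1, mul_one])
    rw [Complex.mul_conj, h2, Complex.ofReal_one]
  have hj : denom γ τ ≠ 0 := denom_ne_zero γ τ
  rw [ModularGroup.denom_apply] at hj0 hj hnorm ⊢
  simp only [map_add, map_mul, map_intCast] at hnorm
  have hs := sub_conj_ne_zero τ₀ τ
  have hs' := sub_conj_ne_zero τ₀ (γ • τ)
  have hγ : ((γ • τ : ℍ) : ℂ) = (γ 0 0 * τ + γ 0 1) / (γ 1 0 * τ + γ 1 1) := by
    rw [coe_specialLinearGroup_apply]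
    simp
  -- the two factors
  have e1 : ((γ 0 0 : ℂ) - γ 1 0 * τ₀) * (γ 1 0 * τ₀ + γ 1 1) = 1 := by
    linear_combination hdet + (γ 1 0 : ℂ) * hfix
  have e2 : ((γ 0 0 : ℂ) - γ 1 0 * conj (τ₀ : ℂ)) * (γ 1 0 * conj (τ₀ : ℂ) + γ 1 1) = 1 := by
    linear_combination hdet + (γ 1 0 : ℂ) * hfix'
  have n1 : ((γ • τ : ℍ) : ℂ) - τ₀ =
      ((γ 0 0 : ℂ) - γ 1 0 * τ₀) * (τ - τ₀) / (γ 1 0 * τ + γ 1 1) := by
    rw [hγ, eq_div_iff hj, sub_mul, div_mul_cancel₀ _ hj]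
    linear_combination hfix
  have n2 : ((γ • τ : ℍ) : ℂ) - conj (τ₀ : ℂ) =
      ((γ 0 0 : ℂ) - γ 1 0 * conj (τ₀ : ℂ)) * (τ - conj (τ₀ : ℂ)) / (γ 1 0 * τ + γ 1 1) := by
    rw [hγ, eq_div_iff hj, sub_mul, div_mul_cancel₀ _ hj]
    linear_combination hfix'
  set J : ℂ := γ 1 0 * τ₀ + γ 1 1 with hJ
  set J' : ℂ := γ 1 0 * conj (τ₀ : ℂ) + γ 1 1 with hJ'
  have hJ'0 : J' ≠ 0 := fun h0 => by rw [h0, mul_zero] at hnorm; exact zero_ne_one hnorm
  have a1 : ((γ 0 0 : ℂ) - γ 1 0 * τ₀) = J⁻¹ := eq_inv_of_mul_eq_one_left e1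
  have a2 : ((γ 0 0 : ℂ) - γ 1 0 * conj (τ₀ : ℂ)) = J'⁻¹ := eq_inv_of_mul_eq_one_left e2
  have a3 : J' = J⁻¹ := eq_inv_of_mul_eq_one_right hnorm
  rw [wc, wc, n1, n2, a1, a2, a3]
  generalize (γ 1 0 : ℂ) * τ + γ 1 1 = D at hj
  field_simp

/-- the multiplier of an element of the stabiliser -/
def mulU (γ : SL(2, ℤ)) (τ₀ : ℍ) : ℂˣ :=
  (Units.mk0 (denom γ τ₀) (denom_ne_zero γ τ₀) ^ 2)⁻¹

theorem coe_mulU (γ : SL(2, ℤ)) (τ₀ : ℍ) : (mulU γ τ₀ : ℂ) = (denom γ τ₀ ^ 2)⁻¹ := by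
  simp [mulU]

theorem localPS_comp {γ : SL(2, ℤ)} {τ₀ : ℍ} (h : γ • τ₀ = τ₀) (f : Hol) :
    localPS τ₀ (compHol (slp γ) f) = PowerSeries.rescale (mulU γ τ₀ : ℂ) (localPS τ₀ f) := by
  refine (hasPS_local τ₀ (compHol (slp γ) f).2).unique (eventually_mem_range_wc τ₀) ?_
  intro τ
  have h1 := hasPS_local τ₀ f.2 (γ • τ)
  have h2 : (compHol (slp γ) f : ℍ → ℂ) τ = (f : ℍ → ℂ) (γ • τ) := rfl
  rw [h2]
  convert! h1 using 1
  funext n
  rw [PowerSeries.coeff_rescale, wc_smul_of_fix h, coe_mulU, mul_pow]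
  ring

theorem locMer_sact {γ : SL(2, ℤ)} {τ₀ : ℍ} (h : γ • τ₀ = τ₀) (y : Mer) :
    locMer τ₀ (sact γ y) = twist (mulU γ τ₀) (locMer τ₀ y) := by
  have key : (locMer τ₀).comp (sact γ : Mer →+* Mer) = (twist (mulU γ τ₀)).comp (locMer τ₀) := by
    apply IsFractionRing.ringHom_ext (A := Hol)
    intro f
    simp only [RingHom.comp_apply, RingHom.coe_coe, act_algebraMap, locMer_algebraMap]
    rw [localPS_comp h, twist_ofPowerSeries]
  exact RingHom.congr_fun key y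

/-- The order at `τ₀` of an element of `Mer` invariant under an element of the stabiliser. -/
theorem mulU_pow_order {γ : SL(2, ℤ)} {τ₀ : ℍ} (h : γ • τ₀ = τ₀) {y : Mer} (hy : y ≠ 0)
    (hinv : sact γ y = y) : mulU γ τ₀ ^ (locMer τ₀ y).order = 1 := by
  have h1 := locMer_sact h y
  rw [hinv] at h1
  have h2 := congrArg (fun φ : LaurentSeries ℂ => φ.coeff (locMer τ₀ y).order) h1
  simp only [coeff_twist] at h2
  have h3 : (locMer τ₀ y).coeff (locMer τ₀ y).order ≠ 0 := by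
    rw [Ne, HahnSeries.coeff_order_eq_zero, map_eq_zero]
    exact hy
  have h4 : ((mulU γ τ₀ ^ (locMer τ₀ y).order : ℂˣ) : ℂ) = 1 := by
    apply mul_right_cancel₀ h3
    rw [one_mul]
    exact h2.symm
  exact Units.ext h4

theorem locMer_algebraMapC (τ₀ : ℍ) (c : ℂ) :
    locMer τ₀ (algebraMap ℂ Mer c) = HahnSeries.C c := by
  rw [IsScalarTower.algebraMap_apply ℂ Hol Mer, locMer_algebraMap]
  have h1 : localPS τ₀ (algebraMap ℂ Hol c : Hol) = PowerSeries.C c :=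
    (hasPS_local τ₀ (algebraMap ℂ Hol c).2).unique (eventually_mem_range_wc τ₀) (HasPS.C _ c)
  rw [h1, HahnSeries.ofPowerSeries_C]

section Field

variable {L : Type*} [Field L] [Algebra ℚ L] [Algebra L ℂ]

/-- The embedding of `F_N(L)` in the field of Laurent series at `τ₀`. -/
def locN (N : ℕ) (τ₀ : ℍ) : laurentBaseChange L (modularFunctionFieldFull N) →+* LaurentSeries ℂ :=
  (locMer τ₀).comp (anN N)

theorem locN_algebraMap_order (N : ℕ) (τ₀ : ℍ) (c : L) :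
    (locN N τ₀ (algebraMap L (laurentBaseChange L (modularFunctionFieldFull N)) c)).order = 0 := by
  rw [locN, RingHom.comp_apply, anN_algebraMap, locMer_algebraMapC, HahnSeries.order_C]

/-- The order at the point `τ₀` of an element of the function field. -/
def ordPt (N : ℕ) (τ₀ : ℍ) (x : laurentBaseChange L (modularFunctionFieldFull N)) : ℤ :=
  (locN N τ₀ x).order

theorem intVal_ordPt (N : ℕ) (τ₀ : ℍ) : IntVal (ordPt (L := L) N τ₀) := intVal_order _

theorem ordPt_algebraMap (N : ℕ) (τ₀ : ℍ) (c : L) : ordPt N τ₀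
    (algebraMap L (laurentBaseChange L (modularFunctionFieldFull N)) c) = 0 :=
  locN_algebraMap_order N τ₀ c

theorem mulU_pow_ordPt {N : ℕ} {γ : SL(2, ℤ)} (hγ : γ ∈ Gamma0 N) {τ₀ : ℍ} (h : γ • τ₀ = τ₀)
    {x : laurentBaseChange L (modularFunctionFieldFull N)} (hx : x ≠ 0) :
    mulU γ τ₀ ^ ordPt N τ₀ x = 1 := by
  refine mulU_pow_order h ((map_ne_zero (anN N)).mpr hx) (sact_anN ?_ x)
  rw [Gamma0_mem, ZMod.intCast_zmod_eq_zero_iff_dvd] at hγ
  exact hγ

theorem hol_ne_zero {f : Hol} (hf : (f : ℍ → ℂ) ≠ 0) : f ≠ 0 := fun h => hf (by rw [h]; rfl)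

/-- An element of the function field as a ratio of forms. -/
theorem anN_eq_div {N : ℕ} {x : laurentBaseChange L (modularFunctionFieldFull N)} {k : ℤ}
    {A B : ℍ → ℂ} (h : IsQuot N (x : LaurentSeries L) k A B) :
    anN N x = algebraMap Hol Mer ⟨A, h.num.holo⟩ / algebraMap Hol Mer ⟨B, h.den.holo⟩ := by
  obtain ⟨β, hβ, hα⟩ := h.exp
  exact anN_eq ⟨⟨A, h.num.holo⟩, ⟨B, h.den.holo⟩, _, β, hol_ne_zero h.den_ne, hα, hβ, rfl, rfl⟩

theorem num_ne_zero {N : ℕ} {x : laurentBaseChange L (modularFunctionFieldFull N)} (hx : x ≠ 0)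
    {k : ℤ} {A B : ℍ → ℂ} (h : IsQuot N (x : LaurentSeries L) k A B) : A ≠ 0 := by
  intro hA
  have h1 := anN_eq_div h
  have h2 : (⟨A, h.num.holo⟩ : Hol) = 0 := Subtype.ext hA
  rw [h2, map_zero, zero_div, map_eq_zero] at h1
  exact hx h1

theorem ordH_eq (τ₀ : ℍ) {f : ℍ → ℂ} (hf : MDiff f) : ordH f τ₀ = (localPS τ₀ f).order.toNat := by
  rw [order_localPS τ₀ hf]
  rfl

theorem ordPt_eq {N : ℕ} {x : laurentBaseChange L (modularFunctionFieldFull N)} (hx : x ≠ 0)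
    {k : ℤ} {A B : ℍ → ℂ} (h : IsQuot N (x : LaurentSeries L) k A B) (τ₀ : ℍ) :
    ordPt N τ₀ x = ordH A τ₀ - ordH B τ₀ := by
  have hA : algebraMap Hol Mer ⟨A, h.num.holo⟩ ≠ 0 :=
    algebraMap_ne_zero (hol_ne_zero (num_ne_zero hx h))
  have hB : algebraMap Hol Mer ⟨B, h.den.holo⟩ ≠ 0 :=
    algebraMap_ne_zero (hol_ne_zero h.den_ne)
  rw [ordPt, locN, RingHom.comp_apply, anN_eq_div h]
  have h1 := (intVal_order (locMer τ₀)).div hA hB
  rw [h1, locMer_algebraMap, locMer_algebraMap, order_ofPowerSeries, order_ofPowerSeries,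
    ordH_eq τ₀ h.num.holo, ordH_eq τ₀ h.den.holo]

/-! ### Cusps -/

/-- the automorphy factor `denom g τ ^ (-k)` as a holomorphic function -/
def factHol (g : SL(2, ℤ)) (k : ℤ) : Hol :=
  ⟨(1 : ℍ → ℂ) ∣[k] g, mdiff_slash mdifferentiable_const g⟩

theorem factHol_apply (g : SL(2, ℤ)) (k : ℤ) (τ : ℍ) :
    (factHol g k : ℍ → ℂ) τ = denom g τ ^ (-k) := by
  show ((1 : ℍ → ℂ) ∣[k] g) τ = _
  rw [slash_apply_eq]
  simp

theorem factHol_ne_zero (g : SL(2, ℤ)) (k : ℤ) : factHol g k ≠ 0 := by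
  intro h
  have := congrFun (congrArg Subtype.val h) UpperHalfPlane.I
  rw [factHol_apply] at this
  exact zpow_ne_zero _ (denom_ne_zero g _) this

/-- the slash action on holomorphic functions -/
def slashHol (k : ℤ) (g : SL(2, ℤ)) (f : Hol) : Hol := ⟨(f : ℍ → ℂ) ∣[k] g, mdiff_slash f.2 g⟩

theorem slashHol_eq (k : ℤ) (g : SL(2, ℤ)) (f : Hol) :
    slashHol k g f = compHol (slp g) f * factHol g k := by
  apply Subtype.ext
  funext τ
  show ((f : ℍ → ℂ) ∣[k] g) τ = (f : ℍ → ℂ) (g • τ) * (factHol g k : ℍ → ℂ) τ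
  rw [slash_apply_eq, factHol_apply]

theorem sact_div (k : ℤ) (g : SL(2, ℤ)) (a b : Hol) :
    sact g (algebraMap Hol Mer a / algebraMap Hol Mer b) =
      algebraMap Hol Mer (slashHol k g a) / algebraMap Hol Mer (slashHol k g b) := by
  rw [map_div₀, act_algebraMap, act_algebraMap, slashHol_eq, slashHol_eq, map_mul, map_mul]
  rw [mul_div_mul_right _ _ (algebraMap_ne_zero (factHol_ne_zero g k))]

/-- Expansions of forms at cusps. -/
theorem hasPS_slash {N : ℕ} {k : ℤ} {E : ℍ → ℂ} (hE : IsCharForm N k 1 E) {g : SL(2, ℤ)} {h : ℕ}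
    [NeZero h] (hg : g * ModularGroup.T ^ h * g⁻¹ ∈ Gamma0 N) :
    HasPS (qc h) (E ∣[k] g) (qExpansion h (E ∣[k] g)) := by
  refine hasPS_of_slash_T (k := k) ?_ (mdiff_slash hE.holo g) (hE.bdd g)
  rw [← SlashAction.slash_mul]
  have h1 : g * ModularGroup.T ^ (h : ℤ) = (g * ModularGroup.T ^ h * g⁻¹) * g := by
    rw [inv_mul_cancel_right, zpow_natCast]
  rw [h1, SlashAction.slash_mul]
  have h2 := hE.slash ⟨_, hg⟩
  rw [MonoidHom.one_apply, Units.val_one, one_smul] at h2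
  rw [h2]

theorem hasQ_sact_of_isQuot {N : ℕ} {x : laurentBaseChange L (modularFunctionFieldFull N)}
    {k : ℤ} {A B : ℍ → ℂ} (hx : IsQuot N (x : LaurentSeries L) k A B) {g : SL(2, ℤ)} {h : ℕ}
    [NeZero h] {P Q : PowerSeries ℂ} (hP : HasPS (qc h) (A ∣[k] g) P)
    (hQ : HasPS (qc h) (B ∣[k] g) Q) :
    HasQ h (sact g (anN N x))
      (HahnSeries.ofPowerSeries ℤ ℂ P / HahnSeries.ofPowerSeries ℤ ℂ Q) := by
  rw [anN_eq_div hx, sact_div k]
  have hB : slashHol k g ⟨B, hx.den.holo⟩ ≠ 0 := hol_ne_zero (slash_ne_zero hx.den_ne g)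
  have hQ0 : (HahnSeries.ofPowerSeries ℤ ℂ Q : LaurentSeries ℂ) ≠ 0 :=
    exp_ne_zero (h := h) (b := slashHol k g ⟨B, hx.den.holo⟩) (HasExp.of_hasPS hQ) hB
  exact ⟨slashHol k g ⟨A, hx.num.holo⟩, slashHol k g ⟨B, hx.den.holo⟩, _, _, hB,
    HasExp.of_hasPS hP, HasExp.of_hasPS hQ, rfl, div_mul_cancel₀ _ hQ0⟩

/-- Every element of the function field is a quotient of forms. -/
theorem exists_isQuot {N : ℕ} [NeZero N]
    (x : laurentBaseChange L (modularFunctionFieldFull N)) :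
    ∃ (k : ℤ) (A B : ℍ → ℂ), IsQuot N (x : LaurentSeries L) k A B := by
  obtain ⟨m, A, B, β, hA, hB, hB0, hβ, hα⟩ := MFF.exists_charForm_ratio' x.2
  exact ⟨_, A, B, hA, hB, ne_zero_iff_exists.mpr hB0, β, hβ, hα⟩

theorem exists_hasQ_sact {N : ℕ} [NeZero N] {g : SL(2, ℤ)} {h : ℕ} [NeZero h]
    (hg : g * ModularGroup.T ^ h * g⁻¹ ∈ Gamma0 N)
    (x : laurentBaseChange L (modularFunctionFieldFull N)) :
    ∃ φ, HasQ h (sact g (anN N x)) φ := by
  obtain ⟨k, A, B, hx⟩ := exists_isQuot x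
  exact ⟨_, hasQ_sact_of_isQuot hx (hasPS_slash hx.num hg) (hasPS_slash hx.den hg)⟩

/-- The embedding of the function field in the field of Laurent series in `q_h` at the cusp
`g ∞`. -/
def cuspHom (N : ℕ) [NeZero N] (g : SL(2, ℤ)) (h : ℕ) [NeZero h]
    (hg : g * ModularGroup.T ^ h * g⁻¹ ∈ Gamma0 N) :
    laurentBaseChange L (modularFunctionFieldFull N) →+* LaurentSeries ℂ where
  toFun x := (exists_hasQ_sact hg x).choose
  map_one' := (exists_hasQ_sact hg _).choose_spec.unique (by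
    simpa only [map_one] using HasQ.one)
  map_zero' := (exists_hasQ_sact hg _).choose_spec.unique (by
    simpa only [map_zero] using HasQ.zero)
  map_mul' x y := (exists_hasQ_sact hg _).choose_spec.unique (by
    simpa only [map_mul] using
      (exists_hasQ_sact hg x).choose_spec.mul (exists_hasQ_sact hg y).choose_spec)
  map_add' x y := (exists_hasQ_sact hg _).choose_spec.unique (by
    simpa only [map_add] using
      (exists_hasQ_sact hg x).choose_spec.add (exists_hasQ_sact hg y).choose_spec)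

theorem hasQ_cuspHom {N : ℕ} [NeZero N] {g : SL(2, ℤ)} {h : ℕ} [NeZero h]
    (hg : g * ModularGroup.T ^ h * g⁻¹ ∈ Gamma0 N)
    (x : laurentBaseChange L (modularFunctionFieldFull N)) :
    HasQ h (sact g (anN N x)) (cuspHom N g h hg x) := (exists_hasQ_sact hg x).choose_spec

theorem cuspHom_eq {N : ℕ} [NeZero N] {g : SL(2, ℤ)} {h : ℕ} [NeZero h]
    (hg : g * ModularGroup.T ^ h * g⁻¹ ∈ Gamma0 N)
    {x : laurentBaseChange L (modularFunctionFieldFull N)} {φ : LaurentSeries ℂ}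
    (hφ : HasQ h (sact g (anN N x)) φ) : cuspHom N g h hg x = φ :=
  (hasQ_cuspHom hg x).unique hφ

theorem cuspHom_algebraMap {N : ℕ} [NeZero N] {g : SL(2, ℤ)} {h : ℕ} [NeZero h]
    (hg : g * ModularGroup.T ^ h * g⁻¹ ∈ Gamma0 N) (c : L) :
    cuspHom N g h hg (algebraMap L (laurentBaseChange L (modularFunctionFieldFull N)) c) =
      algebraMap ℂ (LaurentSeries ℂ) (algebraMap L ℂ c) := by
  apply cuspHom_eq
  rw [anN_algebraMap, AlgHom.commutes]
  exact HasQ.algebraMap_hasQ _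

/-- The order at the cusp `g ∞` (in the coordinate `q_h`). -/
def ordCusp (N : ℕ) [NeZero N] (g : SL(2, ℤ)) (h : ℕ) [NeZero h]
    (hg : g * ModularGroup.T ^ h * g⁻¹ ∈ Gamma0 N)
    (x : laurentBaseChange L (modularFunctionFieldFull N)) : ℤ := (cuspHom N g h hg x).order

theorem intVal_ordCusp {N : ℕ} [NeZero N] {g : SL(2, ℤ)} {h : ℕ} [NeZero h]
    (hg : g * ModularGroup.T ^ h * g⁻¹ ∈ Gamma0 N) : IntVal (ordCusp (L := L) N g h hg) :=
  intVal_order _

theorem ordCusp_algebraMap {N : ℕ} [NeZero N] {g : SL(2, ℤ)} {h : ℕ} [NeZero h]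
    (hg : g * ModularGroup.T ^ h * g⁻¹ ∈ Gamma0 N) (c : L) :
    ordCusp N g h hg (algebraMap L (laurentBaseChange L (modularFunctionFieldFull N)) c) = 0 := by
  rw [ordCusp, cuspHom_algebraMap, algebraMap_laurentSeries_eq_single]
  by_cases hc : algebraMap L ℂ c = 0
  · rw [hc]
    simp
  · exact HahnSeries.order_single hc

theorem ordCusp_eq {N : ℕ} [NeZero N] {g : SL(2, ℤ)} {h : ℕ} [NeZero h]
    (hg : g * ModularGroup.T ^ h * g⁻¹ ∈ Gamma0 N)
    {x : laurentBaseChange L (modularFunctionFieldFull N)} (hx : x ≠ 0) {k : ℤ} {A B : ℍ → ℂ}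
    (hq : IsQuot N (x : LaurentSeries L) k A B) {P Q : PowerSeries ℂ}
    (hP : HasPS (qc h) (A ∣[k] g) P) (hQ : HasPS (qc h) (B ∣[k] g) Q) :
    ordCusp N g h hg x = P.order.toNat - Q.order.toNat := by
  have h1 := cuspHom_eq hg (hasQ_sact_of_isQuot hq hP hQ)
  have hP0 : P ≠ 0 := by
    rw [Ne, hasPS_qc_eq_zero_iff hP]
    exact slash_ne_zero (num_ne_zero hx hq) g
  have hQ0 : Q ≠ 0 := by
    rw [Ne, hasPS_qc_eq_zero_iff hQ]
    exact slash_ne_zero hq.den_ne g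
  have hP1 : (HahnSeries.ofPowerSeries ℤ ℂ P : LaurentSeries ℂ) ≠ 0 := by
    intro h
    exact hP0 (HahnSeries.ofPowerSeries_injective (h.trans (map_zero _).symm))
  have hQ1 : (HahnSeries.ofPowerSeries ℤ ℂ Q : LaurentSeries ℂ) ≠ 0 := by
    intro h
    exact hQ0 (HahnSeries.ofPowerSeries_injective (h.trans (map_zero _).symm))
  rw [ordCusp, h1]
  have h2 := (intVal_order (RingHom.id (LaurentSeries ℂ))).div hP1 hQ1
  simp only [RingHom.id_apply] at h2
  rw [h2, order_ofPowerSeries, order_ofPowerSeries]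

/-! ### Final statement -/

theorem mulU_eq_one_iff (γ : SL(2, ℤ)) (τ₀ : ℍ) (m : ℤ) :
    mulU γ τ₀ ^ m = 1 ↔ denom γ τ₀ ^ (2 * m) = 1 := by
  rw [mulU, inv_zpow, inv_eq_one, ← Units.val_inj, zpow_mul]
  simp only [Units.val_zpow_eq_zpow_val, Units.val_pow_eq_pow_val, Units.val_mk0, Units.val_one]
  rw [show (2 : ℤ) = ((2 : ℕ) : ℤ) from rfl, zpow_natCast]

/-- **P4a.** If all the orders of `f` at the places of the function field are divisible by `n`,
so are the local orders of `f` at the points of `ℍ` and the cusps (with multiplicities `e` at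
elliptic points). -/
theorem localDvd {N n : ℕ} [NeZero N] {f : laurentBaseChange L (modularFunctionFieldFull N)}
    (hf : f ≠ 0)
    (hv : ∀ v : Place L (laurentBaseChange L (modularFunctionFieldFull N)), (n : ℤ) ∣ v.ord f)
    {k : ℤ} {A B : ℍ → ℂ} (h : IsQuot N (f : LaurentSeries L) k A B) : LocalDvd N n k A B where
  ell τ γ hγ := by
    have hd : ∀ y : laurentBaseChange L (modularFunctionFieldFull N), y ≠ 0 →
        ((orderOf (mulU γ τ) : ℕ) : ℤ) ∣ ordPt N τ y := by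
      intro y hy
      rw [orderOf_dvd_iff_zpow_eq_one]
      exact mulU_pow_ordPt γ.2 hγ hy
    have h1 := (intVal_ordPt (L := L) N τ).mul_dvd (K := L)
      (fun c _ => (ordPt_algebraMap N τ c).ge) hf hv hd
    rw [ordPt_eq hf h τ] at h1
    obtain ⟨s, hs⟩ := h1
    refine ⟨orderOf (mulU γ τ) * s, by rw [hs]; ring, ?_⟩
    rw [← mulU_eq_one_iff, zpow_mul, zpow_natCast, pow_orderOf_eq_one, one_zpow]
  cusp g h' _ hg P Q hP hQ := by
    have h1 := (intVal_ordCusp (L := L) hg).mul_dvd (K := L)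
      (fun c _ => (ordCusp_algebraMap hg c).ge) hf hv (d := 1) (fun y _ => one_dvd _)
    rw [mul_one, ordCusp_eq hg hf h hP hQ] at h1
    exact h1

end Field

end Fermat.Agent.JAN.Orders
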