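import Fermat.Agent.JAN.KummerDvd
import Fermat.Agent.JAN.Orders
import Fermat.Agent.JAN.HD2
import Fermat.Agent.JAN.Main

/-!
# The Kummer inputs of `JAN/Main.lean`

`kummerInputs` : `PlacesDesc N ℂ` and `PlacesDesc N ℚ̄` imply `KummerInputs N n`.
-/

set_option autoImplicit false

noncomputable section

open UpperHalfPlane CongruenceSubgroup ModularCurve FermatJ AlgebraicCurve
open scoped MatrixGroups ModularForm

namespace Fermat.Agent.JAN

section General

variable {N n : ℕ} [NeZero N] {L : Type*} [Field L] [Algebra ℚ L] [Algebra L ℂ]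

/-- (a) **P5a**: a function whose divisor is divisible by `n` has a Kummer character. -/
theorem exists_rel_of_dvd (hn : n ≠ 0) {f : laurentBaseChange L (modularFunctionFieldFull N)}
    (hf : f ≠ 0)
    (hv : ∀ v : Place L (laurentBaseChange L (modularFunctionFieldFull N)), (n : ℤ) ∣ v.ord f) :
    ∃ χ : Gamma0 N →* ℂˣ, χ ^ n = 1 ∧ Kills χ ∧ Rel N n χ (f : LaurentSeries L) := by
  obtain ⟨k, A, B, hq⟩ := Orders.exists_isQuot f
  have hf' : (f : LaurentSeries L) ≠ 0 := fun h => hf (Subtype.ext h)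
  exact exists_rel_of_localDvd hn hf' hq (Orders.localDvd hf hv hq)

theorem h5a (hn : n ≠ 0) : CharConj.H5a N n := by
  intro f hf hv
  obtain ⟨χ, -, h1, h2⟩ := exists_rel_of_dvd hn hf hv
  exact ⟨χ, h1, h2⟩

theorem h5d (hP : PlacesDesc N ℂ) : CharConj.H5d N n := by
  intro f χ _ hχ _ hf v
  exact dvd_of_rel hP hχ hf v

end General

local notation "Qbar" => AlgebraicClosure ℚ

variable [Algebra Qbar ℂ] {N n : ℕ} [NeZero N] [NeZero n]

/-- **P5 + P6**: the Kummer inputs, from the description of the places (P4b). -/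
theorem kummerInputs (hP : PlacesDesc N ℂ) (hP' : PlacesDesc N Qbar) : KummerInputs N n where
  mul χ χ' f f' hf hf' := hf.mul hf'
  unique χ χ' f _ h h' := Rel.char_unique (NeZero.ne n) h h'
  root χ f f' hf0 hf0' h h' := by
    obtain ⟨k, A, B, hq⟩ := Orders.exists_isQuot f
    have hχ := Rel.char_pow h hq
    obtain ⟨g, hg, he⟩ := Rel.exists_root (NeZero.ne n) h h' (NeZero.ne n) hχ
    rw [← MFF.laurentBaseChange_full] at hg
    exact ⟨⟨g, hg⟩, Subtype.ext he⟩
  pow_self f hf := by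
    obtain ⟨k, A, B, hq⟩ := Orders.exists_isQuot f
    have hf' : (f : LaurentSeries Qbar) ≠ 0 := fun h => hf (Subtype.ext h)
    exact Rel.pow_self hf' hq n
  of_dvd f hf hd := exists_rel_of_dvd (NeZero.ne n) hf hd
  dvd_of χ f _ _ hk hf := fun v => dvd_of_rel hP' hk hf v
  exists_rel ψ hψ := by
    obtain ⟨f, hf, hf0, hrel⟩ := HD2.exists_rel (h5a (NeZero.ne n)) (h5d hP) hψ
    exact ⟨⟨f, hf⟩, fun h => hf0 (congrArg Subtype.val h), hrel⟩

end Fermat.Agent.JAN
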