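import Mathlib
import Fermat.Agent.JAN.Main
import Fermat.Agent.JAN.HD2
import Fermat.Agent.GAL.FiniteXN
import Fermat.Agent.Jan.DegreeWiring

/-!
# `GAL.JanMain` from the inputs of team JAN
-/

set_option autoImplicit false
set_option linter.style.haveILetI false

noncomputable section

open UpperHalfPlane CongruenceSubgroup ModularCurve AlgebraicCurve
open scoped MatrixGroups ModularForm

namespace Fermat.Agent.JAN

open KumPic Fermat.Agent.Jan Fermat.Agent.Jan.PushPull

local notation "Qbar" => AlgebraicClosure ℚ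

/-- `GAL.JanMain N` from the inputs. -/
theorem janMain_of_inputs [Algebra Qbar ℂ] {N : ℕ} [NeZero N]
    (hK : ∀ (n : ℕ) [NeZero n], KummerInputs N n) (hH : ∀ n : ℕ, n ≠ 0 → HeckeInput N n) :
    Fermat.Agent.GAL.JanMain N := by
  intro n hn
  haveI : NeZero n := ⟨hn.ne'⟩
  refine ⟨Phi DegreeWiring.jAlg (hK n), Phi_injective _ _,
    fun x hx => exists_Phi_eq DegreeWiring.jAlg (hK n) hx, fun ℓ _ ψ => ?_⟩
  exact Phi_hecke DegreeWiring.jAlg (hK n) (hH n hn.ne') ℓ ψ

end Fermat.Agent.JAN
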