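import Mathlib
import Fermat.Agent.JAN.Wiring
import Fermat.Agent.JAN.KummerFinal
import Fermat.Agent.JAN.HeckeInputDone

/-!
# Assembly of the inputs: everything from `PlacesDesc`
-/

set_option autoImplicit false
set_option linter.style.haveILetI false

noncomputable section

open UpperHalfPlane CongruenceSubgroup ModularCurve AlgebraicCurve
open scoped MatrixGroups ModularForm

namespace Fermat.Agent.JAN

local notation "Qbar" => AlgebraicClosure ℚ

/-- **`JanMain N` from the description of the places.** -/
theorem janMain_of_places [Algebra Qbar ℂ] {N : ℕ} [NeZero N] (hPC : PlacesDesc N ℂ)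
    (hPQ : PlacesDesc N Qbar) : Fermat.Agent.GAL.JanMain N :=
  janMain_of_inputs (fun _ _ => kummerInputs hPC hPQ)
    (fun n _ => HeckeInputDone.heckeInput N n)

/-- An embedding of `ℚ̄` in `ℂ`. -/
@[reducible] def algebraQbarC : Algebra Qbar ℂ :=
  (IsAlgClosed.lift (M := ℂ) (R := ℚ) (S := Qbar)).toAlgebra

end Fermat.Agent.JAN
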