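import Fermat.Agent.JAN.KummerMap

/-!
# Divisors of functions with a Kummer character

* `card_stabilizer_dvd`: structure of the stabiliser of a point of `ℍ` in `Γ₀(N)`.
* `PlacesDesc N L`: description of the places of the function field of `X₀(N)` over `L` by points
  of `ℍ` and cusps (P4b).
* `dvd_of_rel` (d): if `χ` kills the elements with `trace ^ 2 ≤ 4` and `Rel N n χ f`, then the
  divisor of `f` is divisible by `n`.
-/

set_option autoImplicit false

noncomputable section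

open UpperHalfPlane CongruenceSubgroup ModularCurve FermatJ Filter AlgebraicCurve
open scoped MatrixGroups ModularForm Manifold Topology

namespace Fermat.Agent.JAN

/-! ### stabilisers -/

theorem fixed_eq {δ : SL(2, ℤ)} {τ : ℍ} (h : δ • τ = τ) :
    ((δ 0 0 : ℤ) : ℂ) * τ + ((δ 0 1 : ℤ) : ℂ) =
      τ * (((δ 1 0 : ℤ) : ℂ) * τ + ((δ 1 1 : ℤ) : ℂ)) := by
  have h1 : ((δ • τ : ℍ) : ℂ) = τ := by rw [h]
  rw [coe_specialLinearGroup_apply] at h1
  have h2 := denom_ne_zero δ τ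
  rw [ModularGroup.denom_apply] at h2
  simp only [algebraMap_int_eq, eq_intCast, Complex.ofReal_intCast] at h1
  rwa [div_eq_iff h2] at h1

theorem denom_mul_of_fixed {γ δ : SL(2, ℤ)} {τ : ℍ} (hδ : δ • τ = τ) :
    denom (γ * δ : SL(2, ℤ)) τ = denom γ τ * denom δ τ := by
  have h := fixed_eq hδ
  rw [ModularGroup.denom_apply, ModularGroup.denom_apply, ModularGroup.denom_apply,
    Matrix.SpecialLinearGroup.coe_mul, Matrix.mul_apply, Matrix.mul_apply, Fin.sum_univ_two,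
    Fin.sum_univ_two]
  push_cast
  linear_combination ((γ 1 0 : ℤ) : ℂ) * h

/-- `γ ↦ denom γ τ` on the stabiliser. -/
def denomHom (τ : ℍ) : MulAction.stabilizer SL(2, ℤ) τ →* ℂ where
  toFun γ := denom (γ : SL(2, ℤ)) τ
  map_one' := by simp [denom]
  map_mul' γ δ := by
    exact denom_mul_of_fixed δ.2

theorem eq_one_of_denom_eq_one {δ : SL(2, ℤ)} {τ : ℍ} (h : δ • τ = τ) (h1 : denom δ τ = 1) :
    δ = 1 := by
  have h2 := fixed_eq h
  rw [ModularGroup.denom_apply] at h1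
  have him := congrArg Complex.im h1
  simp only [Complex.add_im, Complex.mul_im, Complex.intCast_re, Complex.intCast_im, coe_re,
    coe_im, zero_mul, add_zero, Complex.one_im] at him
  have hc : δ 1 0 = 0 := by
    rcases mul_eq_zero.mp him with h3 | h3
    · exact_mod_cast h3
    · exact absurd h3 τ.im_pos.ne'
  rw [h1, mul_one] at h2
  rw [hc] at h1
  have hd : δ 1 1 = 1 := by
    simp only [Int.cast_zero, zero_mul, zero_add] at h1
    exact_mod_cast h1
  have hdet := δ.det_coe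
  rw [Matrix.det_fin_two, hc, hd, mul_zero, sub_zero, mul_one] at hdet
  rw [hdet] at h2
  have hb : δ 0 1 = 0 := by
    have : ((δ 0 1 : ℤ) : ℂ) = 0 := by
      simp only [Int.cast_one, one_mul] at h2
      linear_combination h2
    exact_mod_cast this
  apply Matrix.SpecialLinearGroup.ext
  intro i j
  fin_cases i <;> fin_cases j <;> simp [hc, hd, hdet, hb]

theorem denomHom_injective (τ : ℍ) : Function.Injective (denomHom τ) := by
  intro γ δ h
  have h1 : denomHom τ (γ * δ⁻¹) = 1 := by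
    have h2 : denomHom τ (γ * δ⁻¹) * denomHom τ δ = denomHom τ δ := by
      rw [← map_mul, inv_mul_cancel_right, h]
    have h3 : denomHom τ δ ≠ 0 := denom_ne_zero _ _
    exact mul_right_cancel₀ h3 (by rw [h2, one_mul])
  have h4 : ((γ * δ⁻¹ : MulAction.stabilizer SL(2, ℤ) τ) : SL(2, ℤ)) = 1 :=
    eq_one_of_denom_eq_one (γ * δ⁻¹).2 h1
  exact mul_inv_eq_one.mp (Subtype.ext h4)

/-- An element of `SL₂(ℤ)` fixing a point of `ℍ` has `trace ^ 2 ≤ 4`. -/
theorem trace_sq_le_of_fixed {γ : SL(2, ℤ)} {τ : ℍ} (h : γ • τ = τ) :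
    ((γ : Matrix (Fin 2) (Fin 2) ℤ)).trace ^ 2 ≤ 4 := by
  rw [Matrix.trace_fin_two]
  have hdet := γ.det_coe
  rw [Matrix.det_fin_two] at hdet
  have h1 := fixed_eq h
  have hre := congrArg Complex.re h1
  have him := congrArg Complex.im h1
  simp only [Complex.add_re, Complex.mul_re, Complex.add_im, Complex.mul_im, Complex.intCast_re,
    Complex.intCast_im, coe_re, coe_im, zero_mul, add_zero, sub_zero] at hre him
  have hy := τ.im_pos
  have e1 : ((γ 0 0 : ℤ) : ℝ) - γ 1 1 = 2 * γ 1 0 * τ.re := by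
    apply mul_right_cancel₀ hy.ne'
    linear_combination him
  have e2 : ((γ 0 1 : ℤ) : ℝ) = - (γ 1 0 * (τ.re ^ 2 + τ.im ^ 2)) := by
    linear_combination hre - τ.re * e1
  have hdetR : ((γ 0 0 : ℤ) : ℝ) * γ 1 1 - γ 0 1 * γ 1 0 = 1 := by exact_mod_cast hdet
  have e3 : (((γ 0 0 : ℤ) : ℝ) + γ 1 1) ^ 2 ≤ 4 := by
    have : (((γ 0 0 : ℤ) : ℝ) + γ 1 1) ^ 2 = 4 - 4 * ((γ 1 0 : ℝ) * τ.im) ^ 2 := by
      have h3 : (((γ 0 0 : ℤ) : ℝ) + γ 1 1) ^ 2 = (((γ 0 0 : ℤ) : ℝ) - γ 1 1) ^ 2 +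
        4 * (1 + γ 0 1 * γ 1 0) := by linear_combination 4 * hdetR
      rw [h3, e1, e2]
      ring
    rw [this]
    nlinarith [sq_nonneg ((γ 1 0 : ℝ) * τ.im)]
  exact_mod_cast e3

theorem finite_stabilizer_SL (τ : ℍ) : Finite (MulAction.stabilizer SL(2, ℤ) τ) := by
  have h1 : {γ : (𝒮ℒ : Subgroup (GL (Fin 2) ℝ)) | γ • τ = τ}.Finite :=
    ProperlyDiscontinuousSMul.finite_stabilizer' _ τ
  have h2 := h1.to_subtype
  refine Finite.of_injective (β := {γ : (𝒮ℒ : Subgroup (GL (Fin 2) ℝ)) | γ • τ = τ})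
    (fun γ => ⟨⟨Matrix.SpecialLinearGroup.mapGL ℝ (γ : SL(2, ℤ)), ⟨_, rfl⟩⟩, γ.2⟩) ?_
  intro γ δ h
  have h3 := congrArg (fun x => ((x : (𝒮ℒ : Subgroup (GL (Fin 2) ℝ))) : GL (Fin 2) ℝ))
    (congrArg Subtype.val h)
  exact Subtype.ext (Matrix.SpecialLinearGroup.mapGL_injective h3)

/-- inclusion of stabilisers -/
def stabIncl (N : ℕ) (τ : ℍ) :
    MulAction.stabilizer (Gamma0 N) τ →* MulAction.stabilizer SL(2, ℤ) τ where
  toFun γ := ⟨((γ : Gamma0 N) : SL(2, ℤ)), γ.2⟩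
  map_one' := rfl
  map_mul' _ _ := rfl

theorem stabIncl_injective (N : ℕ) (τ : ℍ) : Function.Injective (stabIncl N τ) := by
  intro γ δ h
  have h1 := congrArg Subtype.val h
  exact Subtype.ext (Subtype.ext h1)

theorem finite_stabilizer_Gamma0 (N : ℕ) (τ : ℍ) : Finite (MulAction.stabilizer (Gamma0 N) τ) := by
  have := finite_stabilizer_SL τ
  exact Finite.of_injective _ (stabIncl_injective N τ)

theorem card_stabilizer_ne_zero (N : ℕ) (τ : ℍ) :
    Nat.card (MulAction.stabilizer (Gamma0 N) τ) ≠ 0 := by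
  have := finite_stabilizer_Gamma0 N τ
  exact Nat.card_pos.ne'

/-- If all multipliers of the stabiliser of `τ` in `Γ₀(N)` satisfy `z ^ m = 1` then the order of
the stabiliser divides `m`. -/
theorem card_stabilizer_dvd {N : ℕ} {τ : ℍ} {m : ℤ}
    (h : ∀ γ : Gamma0 N, (γ : SL(2, ℤ)) • τ = τ → denom (γ : SL(2, ℤ)) τ ^ m = 1) :
    (Nat.card (MulAction.stabilizer (Gamma0 N) τ) : ℤ) ∣ m := by
  have hfin := finite_stabilizer_Gamma0 N τ
  set φ : MulAction.stabilizer (Gamma0 N) τ →* ℂ := (denomHom τ).comp (stabIncl N τ) with hφ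
  have hinj : Function.Injective φ := (denomHom_injective τ).comp (stabIncl_injective N τ)
  have hcyc : IsCyclic (MulAction.stabilizer (Gamma0 N) τ) :=
    isCyclic_of_injective_ringHom φ hinj
  obtain ⟨g, hg⟩ := hcyc.exists_generator
  have hord := orderOf_eq_card_of_forall_mem_zpowers hg
  rw [← hord, orderOf_dvd_iff_zpow_eq_one]
  have h1 : φ g ^ m = 1 := h (g : Gamma0 N) g.2
  have h2 : φ.toHomUnits (g ^ m) = 1 := by
    rw [map_zpow]
    apply Units.ext
    rw [Units.val_zpow_eq_zpow_val]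
    exact h1
  apply hinj
  rw [map_one]
  exact congrArg Units.val h2

/-- Conversely the multipliers are killed by the order of the stabiliser. -/
theorem denom_pow_card {N : ℕ} {τ : ℍ} {γ : Gamma0 N} (h : (γ : SL(2, ℤ)) • τ = τ) :
    denom (γ : SL(2, ℤ)) τ ^ Nat.card (MulAction.stabilizer (Gamma0 N) τ) = 1 := by
  have hfin := finite_stabilizer_Gamma0 N τ
  set φ : MulAction.stabilizer (Gamma0 N) τ →* ℂ := (denomHom τ).comp (stabIncl N τ) with hφ
  have h1 : (⟨γ, h⟩ : MulAction.stabilizer (Gamma0 N) τ) ^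
    Nat.card (MulAction.stabilizer (Gamma0 N) τ) = 1 := pow_card_eq_one'
  have h2 := congrArg φ h1
  rw [map_pow, map_one] at h2
  exact h2

/-! ### places (interface with P4b) -/

section Places

variable {L : Type*} [Field L] [Algebra ℚ L] [Algebra L ℂ]

/-- `v` is the place of the function field of `X₀(N)` given by the point `τ ∈ ℍ`. -/
def IsPlaceOfPoint (N : ℕ) (v : Place L (laurentBaseChange L (modularFunctionFieldFull N)))
    (τ : ℍ) : Prop :=
  ∀ (x : laurentBaseChange L (modularFunctionFieldFull N)) (k : ℤ) (A B : ℍ → ℂ), x ≠ 0 →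
    IsQuot N (x : LaurentSeries L) k A B →
      2 * ((ordH A τ : ℤ) - ordH B τ) =
        (Nat.card (MulAction.stabilizer (Gamma0 N) τ) : ℤ) * v.ord x

/-- `v` is the place of the function field of `X₀(N)` given by the cusp `g ∞` of width `h`. -/
def IsPlaceOfCusp (N : ℕ) (v : Place L (laurentBaseChange L (modularFunctionFieldFull N)))
    (g : SL(2, ℤ)) (h : ℕ) : Prop :=
  g * ModularGroup.T ^ h * g⁻¹ ∈ Gamma0 N ∧
  ∀ (x : laurentBaseChange L (modularFunctionFieldFull N)) (k : ℤ) (A B : ℍ → ℂ), x ≠ 0 →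
    IsQuot N (x : LaurentSeries L) k A B → ∀ P Q : PowerSeries ℂ,
      HasPS (qc h) (A ∣[k] g) P → HasPS (qc h) (B ∣[k] g) Q →
        (P.order.toNat : ℤ) - Q.order.toNat = v.ord x

/-- Every place of the function field of `X₀(N)` over `L` is given by a point of `ℍ` or a cusp. -/
def PlacesDesc (N : ℕ) (L : Type*) [Field L] [Algebra ℚ L] [Algebra L ℂ] : Prop :=
  ∀ v : Place L (laurentBaseChange L (modularFunctionFieldFull N)),
    (∃ τ : ℍ, IsPlaceOfPoint N v τ) ∨ ∃ (g : SL(2, ℤ)) (h : ℕ), h ≠ 0 ∧ IsPlaceOfCusp N v g h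

variable {N n : ℕ} {χ : Gamma0 N →* ℂˣ}

/-- (d) **Functions with a Kummer character have divisor divisible by `n`.** -/
theorem dvd_of_rel [NeZero N] (hP : PlacesDesc N L)
    {f : laurentBaseChange L (modularFunctionFieldFull N)}
    (hχ : ∀ γ : Gamma0 N, ((γ : SL(2, ℤ)) : Matrix (Fin 2) (Fin 2) ℤ).trace ^ 2 ≤ 4 → χ γ = 1)
    (hf : Rel N n χ (f : LaurentSeries L))
    (v : Place L (laurentBaseChange L (modularFunctionFieldFull N))) : (n : ℤ) ∣ v.ord f := by
  have hf0' := hf.ne_zero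
  have hf0 : f ≠ 0 := fun h => hf0' (by rw [h]; rfl)
  obtain ⟨k', A, B', hq⟩ := exists_isQuot' f.2
  have hA0 := hq.num_ne_zero hf0'
  have hB0' := hq.den_ne
  obtain ⟨k, B, E, β, hB, hE, hB0, hE0, hβ, hf⟩ := rel_iff.mp hf
  have heq : E ^ n * B' = A * B ^ n := Rel.mul_eq hβ hf hq
  rcases hP v with ⟨τ, hτ⟩ | ⟨g, h, hh, hmem, hcusp⟩
  · have h1 := hτ f k' A B' hf0 hq
    have h2 : n * ordH E τ + ordH B' τ = ordH A τ + n * ordH B τ := by
      rw [← ordH_pow hE.holo, ← ordH_pow hB.holo,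
        ← ordH_mul (mdiff_pow hE.holo n) hq.den.holo (pow_ne_zero' hE0 n) hB0',
        ← ordH_mul hq.num.holo (mdiff_pow hB.holo n) hA0 (pow_ne_zero' hB0 n), heq]
    have h3 : (ordH A τ : ℤ) - ordH B' τ = n * ((ordH E τ : ℤ) - ordH B τ) := by
      have : (n : ℤ) * ordH E τ + ordH B' τ = ordH A τ + n * ordH B τ := by exact_mod_cast h2
      linear_combination -this
    have h4 : (Nat.card (MulAction.stabilizer (Gamma0 N) τ) : ℤ) ∣
        2 * ((ordH E τ : ℤ) - ordH B τ) := by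
      refine card_stabilizer_dvd fun γ hγ => ?_
      have h5 := mult_compare hE.holo hE0 hB.holo hB0 (hE.slash γ) (hB.slash γ) hγ
      rw [hχ γ (trace_sq_le_of_fixed hγ)] at h5
      simpa using h5
    obtain ⟨c, hc⟩ := h4
    refine ⟨c, ?_⟩
    have hcard : (Nat.card (MulAction.stabilizer (Gamma0 N) τ) : ℤ) ≠ 0 := by
      exact_mod_cast card_stabilizer_ne_zero N τ
    apply mul_left_cancel₀ hcard
    rw [← h1, h3]
    linear_combination n * hc
  · have : NeZero h := ⟨hh⟩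
    have htr : (((⟨_, hmem⟩ : Gamma0 N) : SL(2, ℤ)) : Matrix (Fin 2) (Fin 2) ℤ).trace ^ 2 ≤ 4 := by
      have h1 : ((g * ModularGroup.T ^ h * g⁻¹ : SL(2, ℤ)) : Matrix (Fin 2) (Fin 2) ℤ).trace = 2 := by
        rw [Matrix.SpecialLinearGroup.coe_mul, Matrix.trace_mul_comm,
          ← Matrix.SpecialLinearGroup.coe_mul, inv_mul_cancel_left, ← zpow_natCast,
          ModularGroup.coe_T_zpow, Matrix.trace_fin_two]
        simp
      show ((g * ModularGroup.T ^ h * g⁻¹ : SL(2, ℤ)) : Matrix (Fin 2) (Fin 2) ℤ).trace ^ 2 ≤ 4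
      rw [h1]
      norm_num
    have key : ∀ {l : ℤ} {ψ : Gamma0 N →* ℂˣ} {F : ℍ → ℂ}, IsCharForm N l ψ F → F ≠ 0 →
        ψ ⟨_, hmem⟩ = 1 → HasPS (qc h) (F ∣[l] g) (qExpansion h (F ∣[l] g)) ∧
          OrdInf (F ∣[l] g) (((qExpansion h (F ∣[l] g)).order.toNat : ℝ) / h) := by
      intro l ψ F hF hF0 hψ
      have h1 : (F ∣[l] g) ∣[l] (ModularGroup.T ^ (h : ℤ) : SL(2, ℤ)) = F ∣[l] g := by
        have h2 := slash_conj hF hmem
        rw [hψ, Units.val_one, one_smul] at h2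
        rw [zpow_natCast]
        exact h2
      have h2 := hasPS_of_slash_T h1 (mdiff_slash hF.holo g) (hF.bdd g)
      refine ⟨h2, ordInf_of_hasPS h2 ?_⟩
      rw [Ne, hasPS_qc_eq_zero_iff h2]
      exact slash_ne_zero hF0 g
    obtain ⟨hPA, oA⟩ := key hq.num hA0 rfl
    obtain ⟨hPB', oB'⟩ := key hq.den hB0' rfl
    obtain ⟨hPB, oB⟩ := key hB hB0 rfl
    obtain ⟨hPE, oE⟩ := key hE hE0 (hχ _ htr)
    have h1 := hcusp f k' A B' hf0 hq _ _ hPA hPB'
    have h2 : (E ∣[k] g) ^ n * (B' ∣[k'] g) = (A ∣[k'] g) * (B ∣[k] g) ^ n := by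
      rw [← pow_slash, ← pow_slash, ← ModularForm.mul_slash_SL2, ← ModularForm.mul_slash_SL2, heq,
        add_comm]
    have o1 := (oE.pow n).mul oB'
    have o2 := oA.mul (oB.pow n)
    rw [← h2] at o2
    have h3 := o1.unique o2
    have hh0 : (h : ℝ) ≠ 0 := by exact_mod_cast hh
    refine ⟨((qExpansion h (E ∣[k] g)).order.toNat : ℤ) - (qExpansion h (B ∣[k] g)).order.toNat, ?_⟩
    rw [← h1]
    field_simp at h3
    have h4 : (n : ℤ) * ((qExpansion h (E ∣[k] g)).order.toNat : ℤ) +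
        (qExpansion h (B' ∣[k'] g)).order.toNat = (qExpansion h (A ∣[k'] g)).order.toNat +
          (n : ℤ) * ((qExpansion h (B ∣[k] g)).order.toNat : ℤ) := by
      exact_mod_cast h3
    linear_combination -h4

end Places

end Fermat.Agent.JAN
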