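import Fermat.Agent.JAN.CharForm

/-!
# Local multiplier formulas for forms with character

* `mult_fixed`: if `γ τ = τ` and `E ∣[k] γ = c • E` then `c * denom γ τ ^ (k + 2 * ordH E τ) = 1`.
-/

set_option autoImplicit false

noncomputable section

open UpperHalfPlane CongruenceSubgroup ModularCurve FermatJ Filter
open scoped MatrixGroups ModularForm Manifold Topology

namespace Fermat.Agent.JAN

/-! ### elliptic points -/

theorem analyticAt_comp {f : ℍ → ℂ} (hf : MDiff f) (τ : ℍ) :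
    AnalyticAt ℂ (f ∘ ofComplex) (τ : ℂ) := by
  rw [UpperHalfPlane.mdifferentiable_iff] at hf
  exact (hf.analyticOnNhd isOpen_upperHalfPlaneSet) _ τ.im_pos

theorem analyticOrderAt_ne_top {f : ℍ → ℂ} (hf : MDiff f) (hf0 : f ≠ 0) (τ : ℍ) :
    analyticOrderAt (f ∘ ofComplex) (τ : ℂ) ≠ ⊤ := by
  intro h
  rw [analyticOrderAt_eq_top] at h
  apply hf0
  refine UpperHalfPlane.eq_zero_of_frequently hf (τ := τ) ?_
  have h1 : ∀ᶠ z : ℍ in 𝓝 τ, f z = 0 := by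
    rw [← isOpenEmbedding_coe.map_nhds_eq, eventually_map] at h
    simpa using h
  exact (h1.filter_mono nhdsWithin_le_nhds).frequently

theorem ordH_cast {f : ℍ → ℂ} (hf : MDiff f) (hf0 : f ≠ 0) (τ : ℍ) :
    ((ordH f τ : ℕ) : ℕ∞) = analyticOrderAt (f ∘ ofComplex) (τ : ℂ) :=
  Nat.cast_analyticOrderNatAt (analyticOrderAt_ne_top hf hf0 τ)

theorem ordH_mul {f g : ℍ → ℂ} (hf : MDiff f) (hg : MDiff g) (hf0 : f ≠ 0) (hg0 : g ≠ 0) (τ : ℍ) :
    ordH (f * g) τ = ordH f τ + ordH g τ := by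
  have h1 : (f * g) ∘ ofComplex = (f ∘ ofComplex) * (g ∘ ofComplex) := rfl
  rw [ordH, h1, analyticOrderNatAt_mul (analyticAt_comp hf τ) (analyticAt_comp hg τ)
    (analyticOrderAt_ne_top hf hf0 τ) (analyticOrderAt_ne_top hg hg0 τ)]
  rfl

theorem ordH_pow {f : ℍ → ℂ} (hf : MDiff f) (n : ℕ) (τ : ℍ) :
    ordH (f ^ n) τ = n * ordH f τ := by
  have h1 : (f ^ n) ∘ ofComplex = (f ∘ ofComplex) ^ n := rfl
  rw [ordH, h1, analyticOrderNatAt_pow (analyticAt_comp hf τ), smul_eq_mul]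
  rfl

theorem exists_factor {f : ℍ → ℂ} (hf : MDiff f) (hf0 : f ≠ 0) (τ₀ : ℍ) :
    ∃ G : ℍ → ℂ, ContinuousAt G τ₀ ∧ G τ₀ ≠ 0 ∧
      ∀ᶠ τ in 𝓝 τ₀, f τ = ((τ : ℂ) - τ₀) ^ (ordH f τ₀) * G τ := by
  obtain ⟨g, hg, hg0, hgf⟩ := (analyticAt_comp hf τ₀).analyticOrderAt_eq_natCast.mp
    (ordH_cast hf hf0 τ₀).symm
  refine ⟨fun τ => g τ, hg.continuousAt.comp continuous_coe.continuousAt, hg0, ?_⟩
  rw [← isOpenEmbedding_coe.map_nhds_eq, eventually_map] at hgf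
  filter_upwards [hgf] with τ hτ
  simpa using hτ

theorem coe_smul_sub (γ : SL(2, ℤ)) (τ τ' : ℍ) :
    ((γ • τ : ℍ) : ℂ) - (γ • τ' : ℍ) = ((τ : ℂ) - τ') / (denom γ τ * denom γ τ') := by
  have h1 := denom_ne_zero γ τ
  have h2 := denom_ne_zero γ τ'
  rw [coe_specialLinearGroup_apply, coe_specialLinearGroup_apply]
  rw [ModularGroup.denom_apply] at h1 h2
  rw [ModularGroup.denom_apply, ModularGroup.denom_apply]
  have hdet : ((γ 0 0 : ℤ) : ℂ) * (γ 1 1 : ℤ) - (γ 0 1 : ℤ) * (γ 1 0 : ℤ) = 1 := by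
    have := γ.2
    rw [Matrix.det_fin_two] at this
    exact_mod_cast this
  simp only [algebraMap_int_eq, eq_intCast, Complex.ofReal_intCast]
  rw [div_sub_div _ _ h1 h2]
  congr 1
  linear_combination ((τ : ℂ) - τ') * hdet

/-- **Multiplier at a fixed point**. -/
theorem mult_fixed {k : ℤ} {E : ℍ → ℂ} (hE : MDiff E) (hE0 : E ≠ 0) {γ : SL(2, ℤ)} {c : ℂ}
    (h : E ∣[k] γ = c • E) {τ₀ : ℍ} (hfix : γ • τ₀ = τ₀) :
    c * denom γ τ₀ ^ (k + 2 * (ordH E τ₀ : ℤ)) = 1 := by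
  obtain ⟨G, hGc, hG0, hG⟩ := exists_factor hE hE0 τ₀
  set m := ordH E τ₀ with hm
  have hcont : Tendsto (fun τ : ℍ => γ • τ) (𝓝 τ₀) (𝓝 τ₀) := by
    have : ContinuousAt (fun τ : ℍ => γ • τ) τ₀ :=
      (continuous_const_smul (Matrix.SpecialLinearGroup.mapGL ℝ γ)).continuousAt
    simpa [ContinuousAt, hfix] using this
  have hG2 := hcont.eventually hG
  have hd0 : denom γ τ₀ ≠ 0 := denom_ne_zero _ _
  -- the identity off `τ₀`
  have key : ∀ᶠ τ in 𝓝[≠] τ₀, G (γ • τ) = c * denom γ τ ^ k * (denom γ τ * denom γ τ₀) ^ m * G τ := by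
    filter_upwards [nhdsWithin_le_nhds hG, nhdsWithin_le_nhds hG2, self_mem_nhdsWithin] with τ h1 h2 h3
    have h4 := smul_apply_of_slash h τ
    rw [h2, h1] at h4
    have h5 := coe_smul_sub γ τ τ₀
    rw [hfix] at h5
    rw [h5, div_pow] at h4
    have h6 : ((τ : ℂ) - τ₀) ≠ 0 := by
      rw [sub_ne_zero]
      intro h7
      exact h3 (UpperHalfPlane.ext h7)
    have h7 : denom γ τ ≠ 0 := denom_ne_zero _ _
    have h8 : (denom γ τ * denom γ τ₀) ^ m ≠ 0 := pow_ne_zero _ (mul_ne_zero h7 hd0)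
    have h9 : ((τ : ℂ) - τ₀) ^ m ≠ 0 := pow_ne_zero _ h6
    rw [div_mul_eq_mul_div, div_eq_iff h8] at h4
    apply mul_left_cancel₀ h9
    rw [h4]
    ring
  have hden : ContinuousAt (fun τ : ℍ => denom γ τ) τ₀ :=
    ((mdifferentiable_denom γ).continuous).continuousAt
  have hlim1 : Tendsto (fun τ : ℍ => G (γ • τ)) (𝓝[≠] τ₀) (𝓝 (G τ₀)) :=
    (hGc.tendsto.comp hcont).mono_left nhdsWithin_le_nhds
  have hlim2 : Tendsto (fun τ : ℍ => c * denom γ τ ^ k * (denom γ τ * denom γ τ₀) ^ m * G τ)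
      (𝓝[≠] τ₀) (𝓝 (c * denom γ τ₀ ^ k * (denom γ τ₀ * denom γ τ₀) ^ m * G τ₀)) := by
    refine Tendsto.mono_left ?_ nhdsWithin_le_nhds
    exact ((tendsto_const_nhds.mul (hden.tendsto.zpow₀ k (Or.inl hd0))).mul
      ((hden.tendsto.mul tendsto_const_nhds).pow m)).mul hGc.tendsto
  have h10 := tendsto_nhds_unique_of_eventuallyEq hlim1 hlim2 key
  have h11 : (c * denom γ τ₀ ^ k * (denom γ τ₀ * denom γ τ₀) ^ m) = 1 := by
    apply mul_right_cancel₀ hG0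
    rw [one_mul]
    exact h10.symm
  rw [← h11, zpow_add₀ hd0, two_mul, zpow_add₀ hd0, zpow_natCast, mul_pow]
  ring

/-- Comparison of the multipliers of two forms of the same weight at a fixed point. -/
theorem mult_compare {k : ℤ} {E B : ℍ → ℂ} (hE : MDiff E) (hE0 : E ≠ 0) (hB : MDiff B)
    (hB0 : B ≠ 0) {γ : SL(2, ℤ)} {c d : ℂ} (h : E ∣[k] γ = c • E) (h' : B ∣[k] γ = d • B) {τ₀ : ℍ}
    (hfix : γ • τ₀ = τ₀) :
    c * denom γ τ₀ ^ (2 * ((ordH E τ₀ : ℤ) - ordH B τ₀)) = d := by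
  have h1 := mult_fixed hE hE0 h hfix
  have h2 := mult_fixed hB hB0 h' hfix
  have hd0 : denom γ τ₀ ≠ 0 := denom_ne_zero _ _
  have h3 : denom γ τ₀ ^ (k + 2 * (ordH B τ₀ : ℤ)) ≠ 0 := zpow_ne_zero _ hd0
  apply mul_right_cancel₀ h3
  rw [h2, mul_assoc, ← zpow_add₀ hd0, ← h1]
  congr 2
  ring

/-- An elliptic element of `SL₂(ℤ)` has a fixed point. -/
theorem exists_fixed {γ : SL(2, ℤ)} (h : (γ : Matrix (Fin 2) (Fin 2) ℤ).trace ^ 2 < 4) :
    ∃ τ : ℍ, γ • τ = τ := by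
  rw [Matrix.trace_fin_two] at h
  have hdet := γ.det_coe
  rw [Matrix.det_fin_two] at hdet
  have hc : γ 1 0 ≠ 0 := by
    intro h0
    rw [h0, mul_zero, sub_zero] at hdet
    nlinarith [sq_nonneg (γ 0 0 - γ 1 1)]
  have hcR : ((γ 1 0 : ℤ) : ℝ) ≠ 0 := by exact_mod_cast hc
  set D : ℝ := Real.sqrt (4 - ((γ 0 0 : ℝ) + γ 1 1) ^ 2) with hD
  have hpos : (0 : ℝ) < 4 - ((γ 0 0 : ℝ) + γ 1 1) ^ 2 := by
    have : ((γ 0 0 + γ 1 1 : ℤ) : ℝ) ^ 2 < 4 := by exact_mod_cast h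
    push_cast at this
    linarith
  have hD0 : 0 < D := Real.sqrt_pos.mpr hpos
  have hD2 : D ^ 2 = 4 - ((γ 0 0 : ℝ) + γ 1 1) ^ 2 := Real.sq_sqrt hpos.le
  have habs : (0 : ℝ) < |((γ 1 0 : ℤ) : ℝ)| := abs_pos.mpr hcR
  set z : ℂ := ((((γ 0 0 : ℝ) - γ 1 1) / (2 * γ 1 0) : ℝ) : ℂ) +
    ((D / (2 * |((γ 1 0 : ℤ) : ℝ)|) : ℝ) : ℂ) * Complex.I with hz
  have him : 0 < z.im := by
    rw [hz]
    simp only [Complex.add_im, Complex.ofReal_im, Complex.mul_im, Complex.ofReal_re,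
      Complex.I_im, Complex.I_re, mul_one, mul_zero, zero_add, add_zero]
    positivity
  refine ⟨⟨z, him⟩, UpperHalfPlane.ext ?_⟩
  rw [coe_specialLinearGroup_apply]
  have hden : ((γ 1 0 : ℤ) : ℂ) * z + ((γ 1 1 : ℤ) : ℂ) ≠ 0 := by
    intro h0
    have := congrArg Complex.im h0
    simp only [Complex.add_im, Complex.mul_im, Complex.intCast_re, Complex.intCast_im, zero_mul,
      add_zero, Complex.zero_im] at this
    rcases mul_eq_zero.mp this with h1 | h1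
    · exact hcR h1
    · exact him.ne' h1
  simp only [algebraMap_int_eq, eq_intCast, Complex.ofReal_intCast]
  rw [div_eq_iff hden]
  -- quadratic equation
  have hsq : (((D / (2 * |((γ 1 0 : ℤ) : ℝ)|) : ℝ) : ℂ) * Complex.I) ^ 2 =
      -(((4 - ((γ 0 0 : ℝ) + γ 1 1) ^ 2) / (4 * (γ 1 0 : ℝ) ^ 2) : ℝ) : ℂ) := by
    rw [mul_pow, Complex.I_sq, ← Complex.ofReal_pow, div_pow, mul_pow, hD2, sq_abs]
    push_cast
    ring
  have hcC : ((γ 1 0 : ℤ) : ℂ) ≠ 0 := by exact_mod_cast hc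
  have hw : ((γ 1 0 : ℤ) : ℂ) ^ 2 * (((D / (2 * |((γ 1 0 : ℤ) : ℝ)|) : ℝ) : ℂ) * Complex.I) ^ 2 * 4 =
      -(4 - ((γ 0 0 : ℂ) + γ 1 1) ^ 2) := by
    rw [hsq]
    push_cast
    field_simp
  have hx : ((((γ 0 0 : ℝ) - γ 1 1) / (2 * γ 1 0) : ℝ) : ℂ) * (2 * ((γ 1 0 : ℤ) : ℂ)) =
      (γ 0 0 : ℂ) - γ 1 1 := by
    push_cast
    field_simp
  have hdetC : ((γ 0 0 : ℤ) : ℂ) * (γ 1 1 : ℤ) - (γ 0 1 : ℤ) * (γ 1 0 : ℤ) = 1 := by
    exact_mod_cast hdet
  set w : ℂ := ((D / (2 * |((γ 1 0 : ℤ) : ℝ)|) : ℝ) : ℂ) * Complex.I with hwdef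
  set x : ℂ := ((((γ 0 0 : ℝ) - γ 1 1) / (2 * γ 1 0) : ℝ) : ℂ) with hxdef
  have h4 : ((4 : ℂ) * ((γ 1 0 : ℤ) : ℂ)) ≠ 0 := mul_ne_zero (by norm_num) hcC
  apply mul_left_cancel₀ h4
  have e1 : z = x + w := hz
  show (4 : ℂ) * ((γ 1 0 : ℤ) : ℂ) * (((γ 0 0 : ℤ) : ℂ) * z + ((γ 0 1 : ℤ) : ℂ)) =
    (4 : ℂ) * ((γ 1 0 : ℤ) : ℂ) * (z * (((γ 1 0 : ℤ) : ℂ) * z + ((γ 1 1 : ℤ) : ℂ)))
  rw [e1]
  linear_combination (((γ 0 0 : ℂ) - γ 1 1) - x * (2 * ((γ 1 0 : ℤ) : ℂ)) -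
    4 * ((γ 1 0 : ℤ) : ℂ) * w) * hx - hw - 4 * hdetC

/-! ### cusps -/

/-- `u` has (real) order `r` at `i∞`: `u(τ) e^{-2 π i r τ}` tends to a nonzero limit. -/
def OrdInf (u : ℍ → ℂ) (r : ℝ) : Prop :=
  ∃ c : ℂ, c ≠ 0 ∧ Tendsto (fun τ : ℍ => u τ * Complex.exp (-(2 * Real.pi * Complex.I * r * τ)))
    atImInfty (𝓝 c)

theorem OrdInf.mul {u v : ℍ → ℂ} {r s : ℝ} (hu : OrdInf u r) (hv : OrdInf v s) :
    OrdInf (u * v) (r + s) := by
  obtain ⟨c, hc, h1⟩ := hu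
  obtain ⟨d, hd, h2⟩ := hv
  refine ⟨c * d, mul_ne_zero hc hd, (h1.mul h2).congr fun τ => ?_⟩
  rw [Pi.mul_apply, show -(2 * (Real.pi : ℂ) * Complex.I * ((r + s : ℝ) : ℂ) * τ) =
    -(2 * Real.pi * Complex.I * r * τ) + -(2 * Real.pi * Complex.I * s * τ) by push_cast; ring,
    Complex.exp_add]
  ring

theorem OrdInf.one : OrdInf (1 : ℍ → ℂ) 0 := by
  refine ⟨1, one_ne_zero, ?_⟩
  simp

theorem OrdInf.pow {u : ℍ → ℂ} {r : ℝ} (hu : OrdInf u r) (n : ℕ) : OrdInf (u ^ n) (n * r) := by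
  induction n with
  | zero => simpa using OrdInf.one
  | succ n ih =>
    have := ih.mul hu
    rw [← pow_succ] at this
    convert this using 1
    push_cast
    ring

theorem OrdInf.unique {u : ℍ → ℂ} {r s : ℝ} (hr : OrdInf u r) (hs : OrdInf u s) : r = s := by
  obtain ⟨c, hc, h1⟩ := hr
  obtain ⟨d, hd, h2⟩ := hs
  -- norm of the quotient
  have h3 : Tendsto (fun τ : ℍ => Real.exp (2 * Real.pi * (r - s) * τ.im)) atImInfty
      (𝓝 (‖c‖ / ‖d‖)) := by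
    have h4 := (h1.norm).div (h2.norm) (norm_ne_zero_iff.mpr hd)
    refine h4.congr' ?_
    have h5 : ∀ᶠ τ : ℍ in atImInfty, u τ * Complex.exp (-(2 * Real.pi * Complex.I * s * τ)) ≠ 0 :=
      h2.eventually_ne hd
    filter_upwards [h5] with τ hτ
    have h6 : u τ ≠ 0 := left_ne_zero_of_mul hτ
    have h7 : ‖u τ‖ ≠ 0 := norm_ne_zero_iff.mpr h6
    simp only [Pi.div_apply, norm_mul, Complex.norm_exp]
    rw [mul_div_mul_left _ _ h7, ← Real.exp_sub]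
    congr 1
    simp only [Complex.neg_re, Complex.mul_re, Complex.mul_im, Complex.re_ofNat, Complex.im_ofNat,
      Complex.ofReal_re, Complex.ofReal_im, Complex.I_re, Complex.I_im, coe_re, coe_im]
    ring
  have hcd : 0 < ‖c‖ / ‖d‖ := div_pos (norm_pos_iff.mpr hc) (norm_pos_iff.mpr hd)
  have him : Tendsto (fun τ : ℍ => τ.im) atImInfty atTop := tendsto_comap
  rcases lt_trichotomy r s with h | h | h
  · exfalso
    have h8 : Tendsto (fun τ : ℍ => 2 * Real.pi * (r - s) * τ.im) atImInfty atBot :=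
      him.const_mul_atTop_of_neg (mul_neg_of_pos_of_neg (by positivity) (by linarith))
    have h9 := tendsto_nhds_unique h3 (Real.tendsto_exp_atBot.comp h8)
    exact hcd.ne' h9
  · exact h
  · exfalso
    have h8 : Tendsto (fun τ : ℍ => 2 * Real.pi * (r - s) * τ.im) atImInfty atTop :=
      him.const_mul_atTop (mul_pos (by positivity) (by linarith))
    exact not_tendsto_nhds_of_tendsto_atTop (Real.tendsto_exp_atTop.comp h8) _ h3

theorem tendsto_vadd_atImInfty (x : ℝ) : Tendsto (fun τ : ℍ => x +ᵥ τ) atImInfty atImInfty := by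
  rw [atImInfty, tendsto_comap_iff]
  refine tendsto_comap.congr fun τ => ?_
  simp

/-- The multiplier of a translation is determined by the order at infinity. -/
theorem OrdInf.translate {u : ℍ → ℂ} {r : ℝ} (hu : OrdInf u r) {x : ℝ} {ζ : ℂ}
    (h : ∀ τ : ℍ, u (x +ᵥ τ) = ζ * u τ) : ζ = Complex.exp (2 * Real.pi * Complex.I * (r * x : ℝ)) := by
  obtain ⟨c, hc, h1⟩ := hu
  have h2 := h1.comp (tendsto_vadd_atImInfty x)
  have h3 : Tendsto (fun τ : ℍ => ζ * Complex.exp (-(2 * Real.pi * Complex.I * (r * x : ℝ))) *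
      (u τ * Complex.exp (-(2 * Real.pi * Complex.I * r * τ)))) atImInfty
      (𝓝 (ζ * Complex.exp (-(2 * Real.pi * Complex.I * (r * x : ℝ))) * c)) :=
    h1.const_mul _
  have h4 : ∀ τ : ℍ, ζ * Complex.exp (-(2 * Real.pi * Complex.I * (r * x : ℝ))) *
      (u τ * Complex.exp (-(2 * Real.pi * Complex.I * r * τ))) =
      u (x +ᵥ τ) * Complex.exp (-(2 * Real.pi * Complex.I * r * ((x +ᵥ τ : ℍ) : ℂ))) := by
    intro τ
    rw [h τ, coe_vadd, show -(2 * (Real.pi : ℂ) * Complex.I * r * (x + τ)) =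
      -(2 * Real.pi * Complex.I * (r * x : ℝ)) + -(2 * Real.pi * Complex.I * r * τ) by
        push_cast; ring, Complex.exp_add]
    ring
  have h5 := tendsto_nhds_unique (h3.congr h4) h2
  have h6 : ζ * Complex.exp (-(2 * Real.pi * Complex.I * (r * x : ℝ))) = 1 := by
    apply mul_right_cancel₀ hc
    rw [one_mul, h5]
  rw [Complex.exp_neg] at h6
  have h7 := Complex.exp_ne_zero (2 * Real.pi * Complex.I * (r * x : ℝ))
  field_simp at h6
  exact h6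

theorem qc_eq (h : ℕ) (τ : ℍ) : qc h τ = Complex.exp (2 * Real.pi * Complex.I * τ / h) := by
  simp [qc, Function.Periodic.qParam]

/-- A nonzero function with an expansion in `qc h` has order `P.order / h`. -/
theorem ordInf_of_hasPS {u : ℍ → ℂ} {h : ℕ} [NeZero h] {P : PowerSeries ℂ} (hu : HasPS (qc h) u P)
    (hP : P ≠ 0) : OrdInf u ((P.order.toNat : ℝ) / h) := by
  set s := P.order.toNat with hs
  have hs' : (s : ℕ∞) = P.order := ENat.natCast_toNat (by rwa [Ne, PowerSeries.order_eq_top])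
  have hcoef : P.coeff s ≠ 0 := PowerSeries.coeff_order hP
  have hlow : ∀ i < s, P.coeff i = 0 := by
    intro i hi
    apply PowerSeries.coeff_of_lt_order
    rw [← hs']
    exact_mod_cast hi
  have h1 : HasPS (qc h) (fun τ => u τ / qc h τ ^ s) (PowerSeries.mk fun i => P.coeff (i + s)) := by
    intro τ
    have h2 := hu τ
    rw [← hasSum_nat_add_iff' s] at h2
    have h3 : ∑ i ∈ Finset.range s, P.coeff i * qc h τ ^ i = 0 :=
      Finset.sum_eq_zero fun i hi => by rw [hlow i (Finset.mem_range.mp hi), zero_mul]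
    rw [h3, sub_zero] at h2
    have h4 := h2.div_const (qc h τ ^ s)
    have h5 := pow_ne_zero s (qc_ne_zero h τ)
    convert! h4 using 1
    funext i
    rw [PowerSeries.coeff_mk, pow_add]
    field_simp
  refine ⟨P.coeff s, hcoef, ?_⟩
  have h6 := h1.tendsto
  rw [PowerSeries.coeff_mk, zero_add] at h6
  refine h6.congr fun τ => ?_
  rw [div_eq_mul_inv, qc_eq, ← Complex.exp_nat_mul, ← Complex.exp_neg]
  congr 2
  push_cast
  ring

end Fermat.Agent.JAN
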