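import Mathlib
import Fermat.Agent.JAN.CharForm

/-!
# Quotients of forms without poles are constant

If `A`, `B` are forms of the same weight on `Γ₀(N)` such that `A / B` has no poles on `ℍ` and at
the cusps, then `A / B` is constant.
-/

set_option autoImplicit false

noncomputable section

open UpperHalfPlane CongruenceSubgroup ModularCurve FermatJ Filter Set
open scoped MatrixGroups ModularForm Manifold Topology

namespace Fermat.Agent.JAN.PlacesConst

/-! ### Division of holomorphic functions -/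

theorem analyticOnNhd_ofComplex {f : ℍ → ℂ} (hf : MDiff f) :
    AnalyticOnNhd ℂ (f ∘ ofComplex) upperHalfPlaneSet := by
  rw [UpperHalfPlane.mdifferentiable_iff] at hf
  exact hf.analyticOnNhd isOpen_upperHalfPlaneSet

theorem analyticAt_ofComplex {f : ℍ → ℂ} (hf : MDiff f) (τ : ℍ) :
    AnalyticAt ℂ (f ∘ ofComplex) (τ : ℂ) := analyticOnNhd_ofComplex hf τ τ.im_pos

/-- A nonzero holomorphic function has finite order everywhere. -/
theorem analyticOrderAt_ne_top {f : ℍ → ℂ} (hf : MDiff f) (hf0 : f ≠ 0) (τ : ℍ) :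
    analyticOrderAt (f ∘ ofComplex) (τ : ℂ) ≠ ⊤ := by
  intro htop
  rw [analyticOrderAt_eq_top] at htop
  have hconn : IsPreconnected upperHalfPlaneSet := (convex_halfSpace_im_gt 0).isPreconnected
  have h1 := (analyticOnNhd_ofComplex hf).eqOn_zero_of_preconnected_of_eventuallyEq_zero hconn
    (z₀ := (τ : ℂ)) τ.im_pos htop
  apply hf0
  funext σ
  have h2 := h1 (show (σ : ℂ) ∈ upperHalfPlaneSet from σ.im_pos)
  simpa [ofComplex_apply] using h2

theorem coe_ordH {f : ℍ → ℂ} (hf : MDiff f) (hf0 : f ≠ 0) (τ : ℍ) :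
    (ordH f τ : ℕ∞) = analyticOrderAt (f ∘ ofComplex) (τ : ℂ) :=
  Nat.cast_analyticOrderNatAt (analyticOrderAt_ne_top hf hf0 τ)

theorem meromorphicOrderAt_ofComplex {f : ℍ → ℂ} (hf : MDiff f) (hf0 : f ≠ 0) (τ : ℍ) :
    meromorphicOrderAt (f ∘ ofComplex) (τ : ℂ) = ((ordH f τ : ℤ) : WithTop ℤ) := by
  rw [(analyticAt_ofComplex hf τ).meromorphicOrderAt_eq, ← coe_ordH hf hf0]
  rfl

theorem eventually_ne_zero {f : ℍ → ℂ} (hf : MDiff f) (hf0 : f ≠ 0) (τ : ℍ) :
    ∀ᶠ z in 𝓝[≠] (τ : ℂ), (f ∘ ofComplex) z ≠ 0 := by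
  rcases (analyticAt_ofComplex hf τ).eventually_eq_zero_or_eventually_ne_zero with h | h
  · exact absurd (analyticOrderAt_eq_top.mpr h) (analyticOrderAt_ne_top hf hf0 τ)
  · exact h

/-- Division of holomorphic functions on the upper half plane. -/
theorem exists_div {f g : ℍ → ℂ} (hf : MDiff f) (hg : MDiff g) (hf0 : f ≠ 0) (hg0 : g ≠ 0)
    (hord : ∀ τ, ordH g τ ≤ ordH f τ) : ∃ h : ℍ → ℂ, MDiff h ∧ f = g * h := by
  have hmero : MeromorphicOn ((f ∘ ofComplex) / (g ∘ ofComplex)) upperHalfPlaneSet :=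
    (analyticOnNhd_ofComplex hf).meromorphicOn.div (analyticOnNhd_ofComplex hg).meromorphicOn
  set H : ℂ → ℂ := toMeromorphicNFOn ((f ∘ ofComplex) / (g ∘ ofComplex)) upperHalfPlaneSet with hH
  have hHa : ∀ τ : ℍ, AnalyticAt ℂ H (τ : ℂ) := fun τ => by
    have hmem : (τ : ℂ) ∈ upperHalfPlaneSet := τ.im_pos
    rw [← (meromorphicNFOn_toMeromorphicNFOn _ _ hmem).meromorphicOrderAt_nonneg_iff_analyticAt,
      meromorphicOrderAt_toMeromorphicNFOn hmero hmem,
      meromorphicOrderAt_div (analyticAt_ofComplex hf τ).meromorphicAt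
        (analyticAt_ofComplex hg τ).meromorphicAt,
      meromorphicOrderAt_ofComplex hf hf0, meromorphicOrderAt_ofComplex hg hg0]
    have h1 : (0 : ℤ) ≤ (ordH f τ : ℤ) - ordH g τ := by
      have := hord τ
      omega
    exact_mod_cast h1
  refine ⟨fun τ => H τ, ?_, ?_⟩
  · rw [UpperHalfPlane.mdifferentiable_iff]
    intro z hz
    have h1 : ((fun τ : ℍ => H τ) ∘ ofComplex) =ᶠ[𝓝 z] H := by
      filter_upwards [isOpen_upperHalfPlaneSet.mem_nhds hz] with w hw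
      simp [ofComplex_apply_of_im_pos hw]
    exact ((hHa ⟨z, hz⟩).differentiableAt.congr_of_eventuallyEq h1).differentiableWithinAt
  · funext τ
    have hmem : (τ : ℂ) ∈ upperHalfPlaneSet := τ.im_pos
    have h1 : (f ∘ ofComplex) =ᶠ[𝓝[≠] (τ : ℂ)] (g ∘ ofComplex) * H := by
      filter_upwards [hmero.toMeromorphicNFOn_eq_self_on_nhdsNE hmem,
        eventually_ne_zero hg hg0 τ] with z hz hz'
      rw [Pi.mul_apply, hH, hz, Pi.div_apply, mul_div_cancel₀ _ hz']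
    have h2 : (f ∘ ofComplex) =ᶠ[𝓝 (τ : ℂ)] (g ∘ ofComplex) * H :=
      (ContinuousAt.eventuallyEq_nhds_iff_eventuallyEq_nhdsNE
        (analyticAt_ofComplex hf τ).continuousAt
        ((analyticAt_ofComplex hg τ).continuousAt.mul (hHa τ).continuousAt)).mp h1
    have h3 := h2.eq_of_nhds
    simpa [ofComplex_apply] using h3

/-! ### Boundedness of a quotient at a cusp -/

theorem hasPS_div_pow {h : ℕ} {f : ℍ → ℂ} {R : PowerSeries ℂ} (n : ℕ)
    (hf : HasPS (qc h) f (PowerSeries.X ^ n * R)) :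
    HasPS (qc h) (fun τ => f τ * (qc h τ)⁻¹ ^ n) R := by
  have h1 := (HasExp.of_hasPS hf).mul ((HasExp.coord_inv (qc h) (qc_ne_zero h)).pow n)
  have h2 : (HahnSeries.ofPowerSeries ℤ ℂ (PowerSeries.X ^ n * R) : LaurentSeries ℂ) *
      HahnSeries.single (-1) 1 ^ n = HahnSeries.ofPowerSeries ℤ ℂ R := by
    rw [map_mul, map_pow, HahnSeries.ofPowerSeries_X, mul_right_comm, ← mul_pow,
      HahnSeries.single_mul_single]
    simp
  rw [h2] at h1
  exact HasExp.hasPS (qc_ne_zero h) h1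

/-- If `A = B C` with power series expansions of `A`, `B` with `ord B ≤ ord A` then `C` is
bounded. -/
theorem isBounded_of_order_le {h : ℕ} [NeZero h] {A B C : ℍ → ℂ} {P Q : PowerSeries ℂ}
    (hA : HasPS (qc h) A P) (hB : HasPS (qc h) B Q) (hQ : Q ≠ 0) (hPQ : Q.order ≤ P.order)
    (hABC : A = B * C) : IsBoundedAtImInfty C := by
  -- divide by the power of `q`
  obtain ⟨Q', hQ', hQ'0⟩ : ∃ Q' : PowerSeries ℂ, Q = PowerSeries.X ^ Q.order.toNat * Q' ∧
      Q'.coeff 0 ≠ 0 := by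
    refine ⟨PowerSeries.divXPowOrder Q, ?_, ?_⟩
    · exact (PowerSeries.X_pow_order_mul_divXPowOrder (f := Q)).symm
    · rw [PowerSeries.coeff_zero_eq_constantCoeff]
      exact PowerSeries.constantCoeff_divXPowOrder_eq_zero_iff.not.mpr hQ
  obtain ⟨P', hP'⟩ : ∃ P' : PowerSeries ℂ, P = PowerSeries.X ^ Q.order.toNat * P' := by
    have h1 : PowerSeries.X ^ Q.order.toNat ∣ P := by
      rw [PowerSeries.X_pow_dvd_iff]
      intro m hm
      apply PowerSeries.coeff_of_lt_order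
      refine lt_of_lt_of_le ?_ hPQ
      have hne : Q.order ≠ ⊤ := by
        rwa [Ne, PowerSeries.order_eq_top]
      rw [← ENat.natCast_toNat hne]
      exact_mod_cast hm
    exact h1
  rw [hP'] at hA
  rw [hQ'] at hB
  have hA' := (hasPS_div_pow _ hA).tendsto
  have hB' := (hasPS_div_pow _ hB).tendsto
  have h1 := hA'.div hB' hQ'0
  have h2 : (fun τ => A τ * (qc h τ)⁻¹ ^ Q.order.toNat) / (fun τ => B τ * (qc h τ)⁻¹ ^ Q.order.toNat)
      =ᶠ[atImInfty] C := by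
    filter_upwards [hB'.eventually_ne hQ'0] with τ hτ
    rw [Pi.div_apply, div_eq_iff hτ, hABC, Pi.mul_apply]
    ring
  exact (h1.congr' h2).isBigO_one ℝ

/-! ### Expansions at the cusps -/

theorem conj_T_pow_mem (N : ℕ) (g : SL(2, ℤ)) {h : ℕ} (hN : N ∣ h) :
    g * ModularGroup.T ^ h * g⁻¹ ∈ Gamma0 N := by
  have h1 : (g * ModularGroup.T ^ h * g⁻¹) 1 0 = -((g 1 0) ^ 2 * h) := by
    show ((g * ModularGroup.T ^ h * g⁻¹ : SL(2, ℤ)) : Matrix (Fin 2) (Fin 2) ℤ) 1 0 = _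
    have hT : ((ModularGroup.T ^ h : SL(2, ℤ)) : Matrix (Fin 2) (Fin 2) ℤ) = !![1, (h : ℤ); 0, 1] := by
      have := ModularGroup.coe_T_zpow (h : ℤ)
      rwa [zpow_natCast] at this
    rw [Matrix.SpecialLinearGroup.coe_mul, Matrix.SpecialLinearGroup.coe_mul, hT,
      Matrix.SpecialLinearGroup.coe_inv, Matrix.adjugate_fin_two]
    simp [Matrix.mul_apply, Fin.sum_univ_two]
    ring
  rw [Gamma0_mem, h1, ZMod.intCast_zmod_eq_zero_iff_dvd]
  obtain ⟨m, rfl⟩ := hN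
  exact ⟨-((g 1 0) ^ 2 * m), by push_cast; ring⟩

theorem slash_T_pow {N : ℕ} {k : ℤ} {A : ℍ → ℂ} (hA : IsCharForm N k 1 A) {g : SL(2, ℤ)} {h : ℕ}
    (hg : g * ModularGroup.T ^ h * g⁻¹ ∈ Gamma0 N) :
    (A ∣[k] g) ∣[k] (ModularGroup.T ^ (h : ℤ) : SL(2, ℤ)) = A ∣[k] g := by
  have h1 := hA.slash ⟨_, hg⟩
  rw [MonoidHom.one_apply, Units.val_one, one_smul] at h1
  rw [zpow_natCast, ← SlashAction.slash_mul]
  have h2 : g * ModularGroup.T ^ h = (g * ModularGroup.T ^ h * g⁻¹) * g := by group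
  rw [h2, SlashAction.slash_mul]
  exact congrArg (· ∣[k] g) h1

theorem hasPS_slash {N : ℕ} {k : ℤ} {A : ℍ → ℂ} (hA : IsCharForm N k 1 A) {g : SL(2, ℤ)} {h : ℕ}
    [NeZero h] (hg : g * ModularGroup.T ^ h * g⁻¹ ∈ Gamma0 N) :
    HasPS (qc h) (A ∣[k] g) (qExpansion h (A ∣[k] g)) :=
  hasPS_of_slash_T (slash_T_pow hA hg) (mdiff_slash hA.holo g) (hA.bdd g)

/-! ### Constants -/

/-- A quotient of two forms of the same weight without poles on `ℍ` and at the cusps is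
constant. -/
theorem exists_const {N : ℕ} [NeZero N] {k : ℤ} {A B : ℍ → ℂ} (hA : IsCharForm N k 1 A)
    (hB : IsCharForm N k 1 B) (hB0 : B ≠ 0) (hH : A ≠ 0 → ∀ τ, ordH B τ ≤ ordH A τ)
    (hc : A ≠ 0 → ∀ g : SL(2, ℤ), ∃ (h : ℕ) (_ : NeZero h),
      g * ModularGroup.T ^ h * g⁻¹ ∈ Gamma0 N ∧ ∀ P Q : PowerSeries ℂ,
      HasPS (qc h) (A ∣[k] g) P → HasPS (qc h) (B ∣[k] g) Q → Q.order ≤ P.order) :
    ∃ c : ℂ, A = c • B := by
  by_cases hA0 : A = 0
  · exact ⟨0, by rw [hA0, zero_smul]⟩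
  obtain ⟨C, hC, hABC⟩ := exists_div hA.holo hB.holo hA0 hB0 (hH hA0)
  have hslash : ∀ g : SL(2, ℤ), A ∣[k] g = (B ∣[k] g) * (C ∣[(0 : ℤ)] g) := fun g => by
    rw [← ModularForm.mul_slash_SL2, add_zero, ← hABC]
  have hCform : IsCharForm N 0 1 C := by
    refine ⟨hC, fun γ => ?_, fun g => ?_⟩
    · have h1 := hslash γ
      have h2 := hA.slash γ
      have h3 := hB.slash γ
      rw [MonoidHom.one_apply, Units.val_one, one_smul] at h2 h3
      rw [h2, h3, hABC] at h1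
      rw [MonoidHom.one_apply, Units.val_one, one_smul]
      exact (mdiff_mul_left_cancel hB.holo hC (mdiff_slash hC _) hB0 h1).symm
    · obtain ⟨h, _, hg, hgc⟩ := hc hA0 g
      have h1 := hasPS_slash hA hg
      have h2 := hasPS_slash hB hg
      refine isBounded_of_order_le h1 h2 ?_ (hgc _ _ h1 h2) (hslash g)
      rw [Ne, hasPS_qc_eq_zero_iff h2]
      exact slash_ne_zero hB0 g
  obtain ⟨c, hc⟩ := ModularForm.eq_const_of_weight_zero hCform.toModularForm
  refine ⟨c, ?_⟩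
  have h1 : C = Function.const ℍ c := hc
  rw [hABC, h1]
  funext τ
  simp [mul_comm]

/-- An element of the function field all of whose orders at analytic places are nonnegative is
constant. -/
theorem exists_eq_algebraMap {L : Type*} [Field L] [Algebra L ℂ] {N : ℕ} [NeZero N] {k : ℤ}
    {A B : ℍ → ℂ} {f : LaurentSeries L} (hf : IsQuot N f k A B)
    (hH : A ≠ 0 → ∀ τ, ordH B τ ≤ ordH A τ)
    (hc : A ≠ 0 → ∀ g : SL(2, ℤ), ∃ (h : ℕ) (_ : NeZero h),
      g * ModularGroup.T ^ h * g⁻¹ ∈ Gamma0 N ∧ ∀ P Q : PowerSeries ℂ,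
      HasPS (qc h) (A ∣[k] g) P → HasPS (qc h) (B ∣[k] g) Q → Q.order ≤ P.order) :
    ∃ c : L, f = HahnSeries.C c := by
  obtain ⟨c, hAB⟩ := exists_const hf.num hf.den hf.den_ne hH hc
  obtain ⟨β, hβ, hα⟩ := hf.exp
  have hβ0 : β ≠ 0 := by
    rw [Ne, hasExp_qc_eq_zero_iff hβ]
    exact hf.den_ne
  have h1 : HasExp (qc 1) A (HahnSeries.C c * β) := by
    have := (HasExp.const (qc 1) c).mul hβ
    refine this.congr fun τ => ?_
    rw [hAB]
    rfl
  have h2 := hα.unique (eventually_mem_range_qc 1) h1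
  have h3 : toC f = HahnSeries.C c := mul_right_cancel₀ hβ0 h2
  refine ⟨f.coeff 0, ?_⟩
  ext n
  have h4 : algebraMap L ℂ (f.coeff n) = (HahnSeries.C c : LaurentSeries ℂ).coeff n := by
    rw [← h3, coeffMap_coeff]
  rcases eq_or_ne n 0 with rfl | hn
  · simp
  · rw [HahnSeries.C_apply, HahnSeries.coeff_single_of_ne hn] at h4 ⊢
    rwa [map_eq_zero] at h4

end Fermat.Agent.JAN.PlacesConst
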