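import Mathlib
import Fermat.Agent.JAN.PlacesConst
import Fermat.Agent.JAN.OrdVal
import Fermat.Agent.MFF.CoeffDescent
import Fermat.Agent.RR.Corollaries
import Fermat.Agent.Jan.HeckeInputs

/-!
# Analytic valuations of the function field of `X₀(N)`

Orders of vanishing of forms at points of the upper half plane and at cusps define integer
valuations of the function field `F_N(L)` of `X₀(N)` over a field `L` embedded in `ℂ`.
If `L` is algebraically closed then every place of `F_N(L)` comes from such a valuation.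
-/

set_option autoImplicit false
set_option linter.style.haveILetI false
set_option linter.unusedSectionVars false

noncomputable section

open UpperHalfPlane CongruenceSubgroup ModularCurve FermatJ Filter Set AlgebraicCurve
open scoped MatrixGroups ModularForm Manifold Topology

namespace Fermat.Agent.JAN.PlacesVal

open Fermat.Agent.JAN.PlacesConst Fermat.Agent.JAN.Orders

/-! ### Quotients of forms -/

section Quot

variable {L : Type*} [Field L] [Algebra L ℂ] {N : ℕ} {k l : ℤ} {A B C D : ℍ → ℂ}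
  {f g : LaurentSeries L}

theorem isCharForm_one_mul (hA : IsCharForm N k 1 A) (hB : IsCharForm N l 1 B) :
    IsCharForm N (k + l) 1 (A * B) :=
  (hA.mul hB).congr_char (by ext; simp)

theorem isQuot_mul (hf : IsQuot N f k A B) (hg : IsQuot N g l C D) :
    IsQuot N (f * g) (k + l) (A * C) (B * D) := by
  obtain ⟨β, hβ, hα⟩ := hf.exp
  obtain ⟨δ, hδ, hγ⟩ := hg.exp
  refine ⟨isCharForm_one_mul hf.num hg.num, isCharForm_one_mul hf.den hg.den,
    mdiff_mul_ne_zero hf.den.holo hg.den.holo hf.den_ne hg.den_ne, β * δ, hβ.mul hδ, ?_⟩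
  have h1 : toC (f * g) * (β * δ) = (toC f * β) * (toC g * δ) := by
    rw [toC, map_mul]
    ring
  rw [h1]
  exact hα.mul hγ

theorem isQuot_add (hf : IsQuot N f k A B) (hg : IsQuot N g l C D) :
    IsQuot N (f + g) (k + l) (A * D + B * C) (B * D) := by
  obtain ⟨β, hβ, hα⟩ := hf.exp
  obtain ⟨δ, hδ, hγ⟩ := hg.exp
  refine ⟨(isCharForm_one_mul hf.num hg.den).add (isCharForm_one_mul hf.den hg.num),
    isCharForm_one_mul hf.den hg.den,
    mdiff_mul_ne_zero hf.den.holo hg.den.holo hf.den_ne hg.den_ne, β * δ, hβ.mul hδ, ?_⟩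
  have h1 : toC (f + g) * (β * δ) = (toC f * β) * δ + β * (toC g * δ) := by
    rw [toC, map_add]
    ring
  rw [h1]
  exact (hα.mul hδ).add (hβ.mul hγ)

theorem isQuot_const (c : L) :
    IsQuot N (HahnSeries.C c) 0 (algebraMap L ℂ c • (1 : ℍ → ℂ)) 1 := by
  refine ⟨(IsCharForm.one N).smul _, IsCharForm.one N, one_ne_zero, 1, HasExp.one _, ?_⟩
  have h1 : toC (HahnSeries.C c : LaurentSeries L) = HahnSeries.C (algebraMap L ℂ c) := by
    rw [toC, HahnSeries.C_apply, coeffMap_single, HahnSeries.C_apply]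
  rw [h1, mul_one]
  refine (HasExp.const (qc 1) (algebraMap L ℂ c)).congr fun τ => ?_
  simp

theorem isQuot_num_ne_zero [NeZero N] (hf : IsQuot N f k A B) (hf0 : f ≠ 0) : A ≠ 0 := by
  obtain ⟨β, hβ, hα⟩ := hf.exp
  rw [Ne, ← hasExp_qc_eq_zero_iff hα, mul_eq_zero, hasExp_qc_eq_zero_iff hβ, not_or]
  refine ⟨?_, hf.den_ne⟩
  intro h
  apply hf0
  ext n
  have h1 := congrArg (fun x : LaurentSeries ℂ => x.coeff n) h
  simp only [coeffMap_coeff, HahnSeries.coeff_zero, map_eq_zero] at h1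
  rw [h1, HahnSeries.coeff_zero]

/-- Two presentations of `f` as a quotient. -/
theorem isQuot_cross (hf : IsQuot N f k A B) (hf' : IsQuot N f l C D) : A * D = C * B := by
  obtain ⟨β, hβ, hα⟩ := hf.exp
  obtain ⟨δ, hδ, hγ⟩ := hf'.exp
  refine eq_of_hasExp (hα.mul hδ) ?_
  have h1 : toC f * β * δ = (toC f * δ) * β := by ring
  rw [h1]
  exact hγ.mul hβ

theorem isQuot_inv [NeZero N] (hf : IsQuot N f k A B) (hf0 : f ≠ 0) : IsQuot N f⁻¹ k B A := by
  obtain ⟨β, hβ, hα⟩ := hf.exp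
  refine ⟨hf.den, hf.num, isQuot_num_ne_zero hf hf0, toC f * β, hα, ?_⟩
  have h1 : toC f⁻¹ * (toC f * β) = β := by
    rw [← mul_assoc, toC, toC, ← map_mul, inv_mul_cancel₀ hf0, map_one, one_mul]
  rw [h1]
  exact hβ

end Quot

/-! ### Valuations of forms -/

/-- A valuation on forms of trivial character. -/
structure FormVal (N : ℕ) (ν : ℤ → (ℍ → ℂ) → ℤ) : Prop where
  mul : ∀ {k l : ℤ} {A B : ℍ → ℂ}, IsCharForm N k 1 A → IsCharForm N l 1 B → A ≠ 0 → B ≠ 0 →
    ν (k + l) (A * B) = ν k A + ν l B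
  add : ∀ {k : ℤ} {A B : ℍ → ℂ}, IsCharForm N k 1 A → IsCharForm N k 1 B → A ≠ 0 → B ≠ 0 →
    A + B ≠ 0 → min (ν k A) (ν k B) ≤ ν k (A + B)
  const : ∀ c : ℂ, c ≠ 0 → ν 0 (c • (1 : ℍ → ℂ)) = 0

/-- The value of a Laurent series, a quotient of forms, at a valuation of forms. -/
def valQ (N : ℕ) {L : Type*} [Field L] [Algebra L ℂ] (ν : ℤ → (ℍ → ℂ) → ℤ) (f : LaurentSeries L) :
    ℤ :=
  open Classical in
  if h : ∃ (k : ℤ) (A B : ℍ → ℂ), IsQuot N f k A B then
    ν h.choose h.choose_spec.choose - ν h.choose h.choose_spec.choose_spec.choose else 0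

section FormVal

variable {L : Type*} [Field L] [Algebra L ℂ] {N : ℕ} [NeZero N] {k : ℤ} {A B : ℍ → ℂ}
  {f : LaurentSeries L} {ν : ℤ → (ℍ → ℂ) → ℤ}

theorem valQ_eq (hν : FormVal N ν) (hf : IsQuot N f k A B) (hf0 : f ≠ 0) :
    valQ N ν f = ν k A - ν k B := by
  have h : ∃ (k : ℤ) (A B : ℍ → ℂ), IsQuot N f k A B := ⟨k, A, B, hf⟩
  unfold valQ
  rw [dif_pos h]
  have hq := h.choose_spec.choose_spec.choose_spec
  set l := h.choose
  set C := h.choose_spec.choose
  set D := h.choose_spec.choose_spec.choose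
  have hA0 := isQuot_num_ne_zero hf hf0
  have hC0 := isQuot_num_ne_zero hq hf0
  have h1 := hν.mul hf.num hq.den hA0 hq.den_ne
  have h2 := hν.mul hq.num hf.den hC0 hf.den_ne
  rw [isQuot_cross hf hq, add_comm k l] at h1
  have h3 := h1.symm.trans h2
  linarith

/-- The valuation of a field of quotients of forms. -/
theorem intVal_valQ (hν : FormVal N ν) {F : Type*} [Field F] (ι : F →+* LaurentSeries L)
    (hF : ∀ f : F, ∃ (k : ℤ) (A B : ℍ → ℂ), IsQuot N (ι f) k A B) :
    IntVal (fun f : F => valQ N ν (ι f)) where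
  mul x y hx hy := by
    obtain ⟨k, A, B, hxq⟩ := hF x
    obtain ⟨l, C, D, hyq⟩ := hF y
    have hx' : ι x ≠ 0 := (map_ne_zero ι).mpr hx
    have hy' : ι y ≠ 0 := (map_ne_zero ι).mpr hy
    have h1 := isQuot_mul hxq hyq
    rw [map_mul, valQ_eq hν h1 (mul_ne_zero hx' hy'), valQ_eq hν hxq hx', valQ_eq hν hyq hy',
      hν.mul hxq.num hyq.num (isQuot_num_ne_zero hxq hx') (isQuot_num_ne_zero hyq hy'),
      hν.mul hxq.den hyq.den hxq.den_ne hyq.den_ne]
    ring
  add x y hx hy hxy := by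
    obtain ⟨k, A, B, hxq⟩ := hF x
    obtain ⟨l, C, D, hyq⟩ := hF y
    have hx' : ι x ≠ 0 := (map_ne_zero ι).mpr hx
    have hy' : ι y ≠ 0 := (map_ne_zero ι).mpr hy
    have hxy' : ι x + ι y ≠ 0 := by
      rw [← map_add]
      exact (map_ne_zero ι).mpr hxy
    have h1 := isQuot_add hxq hyq
    have hA0 := isQuot_num_ne_zero hxq hx'
    have hC0 := isQuot_num_ne_zero hyq hy'
    have hAD := mdiff_mul_ne_zero hxq.num.holo hyq.den.holo hA0 hyq.den_ne
    have hBC := mdiff_mul_ne_zero hxq.den.holo hyq.num.holo hxq.den_ne hC0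
    have hsum := isQuot_num_ne_zero h1 hxy'
    rw [map_add, valQ_eq hν h1 hxy', valQ_eq hν hxq hx', valQ_eq hν hyq hy',
      hν.mul hxq.den hyq.den hxq.den_ne hyq.den_ne]
    have h2 := hν.add (isCharForm_one_mul hxq.num hyq.den) (isCharForm_one_mul hxq.den hyq.num)
      hAD hBC hsum
    rw [hν.mul hxq.num hyq.den hA0 hyq.den_ne, hν.mul hxq.den hyq.num hxq.den_ne hC0] at h2
    omega

theorem valQ_const (hν : FormVal N ν) {c : L} (hc : c ≠ 0) :
    valQ N ν (HahnSeries.C c : LaurentSeries L) = 0 := by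
  have h1 : (HahnSeries.C c : LaurentSeries L) ≠ 0 := by
    rwa [Ne, map_eq_zero]
  rw [valQ_eq hν (isQuot_const c) h1, hν.const _ (by rwa [Ne, map_eq_zero]),
    show (1 : ℍ → ℂ) = (1 : ℂ) • (1 : ℍ → ℂ) by rw [one_smul], hν.const _ one_ne_zero, sub_zero]

end FormVal

/-! ### Points of the upper half plane -/

theorem ordH_mul {A B : ℍ → ℂ} (hA : MDiff A) (hB : MDiff B) (hA0 : A ≠ 0) (hB0 : B ≠ 0) (τ : ℍ) :
    ordH (A * B) τ = ordH A τ + ordH B τ :=
  analyticOrderNatAt_mul (analyticAt_ofComplex hA τ) (analyticAt_ofComplex hB τ)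
    (analyticOrderAt_ne_top hA hA0 τ) (analyticOrderAt_ne_top hB hB0 τ)

theorem ordH_pow {A : ℍ → ℂ} (hA : MDiff A) (n : ℕ) (τ : ℍ) : ordH (A ^ n) τ = n * ordH A τ := by
  have := analyticOrderNatAt_pow (analyticAt_ofComplex hA τ) n
  rw [smul_eq_mul] at this
  exact this

theorem ordH_add {A B : ℍ → ℂ} (hA : MDiff A) (hB : MDiff B) (hA0 : A ≠ 0) (hB0 : B ≠ 0)
    (hAB : A + B ≠ 0) (τ : ℍ) : min (ordH A τ) (ordH B τ) ≤ ordH (A + B) τ := by
  have h1 : min (analyticOrderAt (A ∘ ofComplex) (τ : ℂ)) (analyticOrderAt (B ∘ ofComplex) (τ : ℂ)) ≤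
      analyticOrderAt ((A + B) ∘ ofComplex) (τ : ℂ) := le_analyticOrderAt_add
  rw [← coe_ordH hA hA0, ← coe_ordH hB hB0, ← coe_ordH (hA.add hB) hAB, min_le_iff] at h1
  rw [min_le_iff]
  exact_mod_cast h1

theorem ordH_eq_zero_of_ne {A : ℍ → ℂ} (hA : MDiff A) {τ : ℍ} (h : A τ ≠ 0) : ordH A τ = 0 := by
  have hA0 : A ≠ 0 := fun h0 => h (congrFun h0 τ)
  have h1 : analyticOrderAt (A ∘ ofComplex) (τ : ℂ) = 0 := by
    rw [(analyticAt_ofComplex hA τ).analyticOrderAt_eq_zero]
    simpa [ofComplex_apply] using h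
  rw [← coe_ordH hA hA0] at h1
  exact_mod_cast h1

theorem ordH_pos_iff {A : ℍ → ℂ} (hA : MDiff A) (hA0 : A ≠ 0) {τ : ℍ} :
    0 < ordH A τ ↔ A τ = 0 := by
  constructor
  · intro h
    by_contra h0
    rw [ordH_eq_zero_of_ne hA h0] at h
    exact lt_irrefl _ h
  · intro h
    rw [Nat.pos_iff_ne_zero]
    intro h0
    have h1 := coe_ordH hA hA0 τ
    rw [h0, Nat.cast_zero, eq_comm, (analyticAt_ofComplex hA τ).analyticOrderAt_eq_zero] at h1
    apply h1
    simpa [ofComplex_apply] using h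

theorem ordH_one (τ : ℍ) : ordH (1 : ℍ → ℂ) τ = 0 :=
  ordH_eq_zero_of_ne mdifferentiable_const one_ne_zero

theorem ordH_smul {A : ℍ → ℂ} (hA : MDiff A) {c : ℂ} (hc : c ≠ 0) (τ : ℍ) :
    ordH (c • A) τ = ordH A τ := by
  by_cases hA0 : A = 0
  · rw [hA0, smul_zero]
  have hcM : MDiff (c • (1 : ℍ → ℂ)) := (mdifferentiable_const (c := (1 : ℂ))).const_smul c
  have hc1 : (c • (1 : ℍ → ℂ)) τ ≠ 0 := by simpa using hc
  have h1 : c • A = (c • (1 : ℍ → ℂ)) * A := by
    funext σ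
    simp
  rw [h1, ordH_mul hcM hA (fun h => hc1 (congrFun h τ)) hA0, ordH_eq_zero_of_ne hcM hc1, zero_add]

/-- The order at a point of the upper half plane. -/
def ptVal (τ : ℍ) : ℤ → (ℍ → ℂ) → ℤ := fun _ A => ordH A τ

theorem formVal_ptVal (N : ℕ) (τ : ℍ) : FormVal N (ptVal τ) where
  mul hA hB hA0 hB0 := by
    unfold ptVal
    rw [ordH_mul hA.holo hB.holo hA0 hB0]
    push_cast
    rfl
  add hA hB hA0 hB0 hAB := by
    unfold ptVal
    exact_mod_cast ordH_add hA.holo hB.holo hA0 hB0 hAB τ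
  const c hc := by
    unfold ptVal
    rw [ordH_smul (A := (1 : ℍ → ℂ)) mdifferentiable_const hc, ordH_one]
    rfl

/-! ### Cusps -/

/-- The order of a form at the cusp `g ∞`, with respect to `exp (2 π i τ / h)`. -/
def cuspVal (g : SL(2, ℤ)) (h : ℕ) : ℤ → (ℍ → ℂ) → ℤ :=
  fun k A => ((qExpansion h (A ∣[k] g)).order.toNat : ℤ)

theorem cuspVal_eq {N : ℕ} {g : SL(2, ℤ)} {h : ℕ} [NeZero h]
    (hg : g * ModularGroup.T ^ h * g⁻¹ ∈ Gamma0 N) {k : ℤ} {A : ℍ → ℂ} (hA : IsCharForm N k 1 A)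
    {P : PowerSeries ℂ} (hP : HasPS (qc h) (A ∣[k] g) P) :
    cuspVal g h k A = (P.order.toNat : ℤ) := by
  unfold cuspVal
  rw [(hasPS_slash hA hg).unique (eventually_mem_range_qc h) hP]

theorem order_ne_top {g : SL(2, ℤ)} {h : ℕ} [NeZero h]
    {k : ℤ} {A : ℍ → ℂ} (hA0 : A ≠ 0)
    {P : PowerSeries ℂ} (hP : HasPS (qc h) (A ∣[k] g) P) : P.order ≠ ⊤ := by
  rw [Ne, PowerSeries.order_eq_top, hasPS_qc_eq_zero_iff hP]
  exact slash_ne_zero hA0 g

theorem formVal_cuspVal {N : ℕ} {g : SL(2, ℤ)} {h : ℕ} [NeZero h]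
    (hg : g * ModularGroup.T ^ h * g⁻¹ ∈ Gamma0 N) : FormVal N (cuspVal g h) where
  mul {k l A B} hA hB hA0 hB0 := by
    have h1 := hasPS_slash hA hg
    have h2 := hasPS_slash hB hg
    have h3 : HasPS (qc h) ((A * B) ∣[k + l] g) (qExpansion h (A ∣[k] g) * qExpansion h (B ∣[l] g)) := by
      rw [ModularForm.mul_slash_SL2]
      exact h1.mul h2
    rw [cuspVal_eq hg (isCharForm_one_mul hA hB) h3, cuspVal_eq hg hA h1, cuspVal_eq hg hB h2,
      PowerSeries.order_mul, ENat.toNat_add (order_ne_top hA0 h1) (order_ne_top hB0 h2)]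
    push_cast
    rfl
  add {k A B} hA hB hA0 hB0 hAB := by
    have h1 := hasPS_slash hA hg
    have h2 := hasPS_slash hB hg
    have h3 : HasPS (qc h) ((A + B) ∣[k] g) (qExpansion h (A ∣[k] g) + qExpansion h (B ∣[k] g)) := by
      rw [SlashAction.add_slash]
      exact h1.add h2
    rw [cuspVal_eq hg (hA.add hB) h3, cuspVal_eq hg hA h1, cuspVal_eq hg hB h2]
    have h4 := PowerSeries.min_order_le_order_add (qExpansion h (A ∣[k] g)) (qExpansion h (B ∣[k] g))
    rw [← ENat.natCast_toNat (order_ne_top hA0 h1),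
      ← ENat.natCast_toNat (order_ne_top hB0 h2),
      ← ENat.natCast_toNat (order_ne_top hAB h3), min_le_iff] at h4
    rw [min_le_iff]
    exact_mod_cast h4
  const c hc := by
    have h1 : HasPS (qc h) ((c • (1 : ℍ → ℂ)) ∣[(0 : ℤ)] g) (PowerSeries.C c) := by
      refine (HasPS.C (qc h) c).congr fun τ => ?_
      rw [slash_apply_eq]
      simp
    rw [cuspVal_eq hg ((IsCharForm.one N).smul c) h1]
    have h2 : (PowerSeries.C c : PowerSeries ℂ).order = ((0 : ℕ) : ℕ∞) := by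
      rw [PowerSeries.order_eq_nat]
      simpa using hc
    rw [h2]
    rfl

/-! ### The function field -/

section Field

variable (L : Type*) [Field L] [Algebra ℚ L] [Algebra L ℂ] (N : ℕ) [NeZero N]

/-- The function field of `X₀(N)` over `L`. -/
abbrev FN (L : Type*) [Field L] [Algebra ℚ L] (N : ℕ) : Type _ :=
  laurentBaseChange L (modularFunctionFieldFull N)

variable {L N}

theorem isQuot_of_isRatio {f : LaurentSeries L} (hf : MFF.IsRatio N (toC f)) :
    ∃ (k : ℤ) (A B : ℍ → ℂ), IsQuot N f k A B := by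
  obtain ⟨m, _, _, ⟨A, rfl⟩, ⟨B, rfl⟩, hB0, h⟩ := hf
  have hA := IsCharForm.of_modularForm A
  have hB := IsCharForm.of_modularForm B
  refine ⟨_, A, B, hA, hB, hB0, MFF.LQ B, hB.hasExp, ?_⟩
  rw [h]
  exact hA.hasExp

omit [NeZero N] in
theorem toC_mem {f : LaurentSeries L} (hf : f ∈ laurentBaseChange L (modularFunctionFieldFull N)) :
    toC f ∈ modularFunctionFieldFullC ℂ N := by
  rw [MFF.laurentBaseChange_full] at hf
  exact MFF.emb_mem_full_iff.mpr hf

/-- Every element of the function field is a quotient of two forms. -/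
theorem exists_isQuot (f : FN L N) : ∃ (k : ℤ) (A B : ℍ → ℂ), IsQuot N (f : LaurentSeries L) k A B :=
  isQuot_of_isRatio (MFF.isRatio_of_mem (toC_mem f.2))

variable (L N) in
/-- The inclusion of the function field in Laurent series. -/
def inc : FN L N →+* LaurentSeries L := algebraMap (FN L N) (LaurentSeries L)

omit [Algebra L ℂ] [NeZero N] in
theorem inc_apply (f : FN L N) : inc L N f = (f : LaurentSeries L) := rfl

/-- The valuation of the function field defined by a valuation of forms. -/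
theorem intVal_FN {ν : ℤ → (ℍ → ℂ) → ℤ} (hν : FormVal N ν) :
    IntVal (fun f : FN L N => valQ N ν (f : LaurentSeries L)) :=
  intVal_valQ hν (inc L N) fun f => exists_isQuot f

theorem valQ_algebraMap {ν : ℤ → (ℍ → ℂ) → ℤ} (hν : FormVal N ν) {c : L} (hc : c ≠ 0) :
    valQ N ν ((algebraMap L (FN L N) c : FN L N) : LaurentSeries L) = 0 := by
  have h1 : ((algebraMap L (FN L N) c : FN L N) : LaurentSeries L) = HahnSeries.C c := by
    rw [HahnSeries.C_apply, ← algebraMap_laurentSeries_eq_single]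
    rfl
  rw [h1]
  exact valQ_const hν hc

/-- A valuation of forms gives a multiple of the order at a place. -/
theorem exists_place_of_formVal {ν : ℤ → (ℍ → ℂ) → ℤ} (hν : FormVal N ν)
    (hnt : ∃ f : FN L N, f ≠ 0 ∧ valQ N ν (f : LaurentSeries L) ≠ 0) :
    ∃ (v : Place L (FN L N)) (e : ℕ), 0 < e ∧
      ∀ f : FN L N, f ≠ 0 → valQ N ν (f : LaurentSeries L) = e * v.ord f := by
  obtain ⟨v, e, he, -, h⟩ := (intVal_FN hν).exists_place
    (fun c hc => (valQ_algebraMap (L := L) hν hc).ge) hnt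
  exact ⟨v, e, he, h⟩

end Field

/-! ### Every place is analytic -/

section Analytic

variable {L : Type*} [Field L] [Algebra ℚ L] [Algebra L ℂ] [IsAlgClosed L] {N : ℕ} [NeZero N]

omit [Algebra L ℂ] in
theorem functionField_of_place (hJ : Fermat.Agent.Jan.HeckeInputs.JAlg) (v : Place L (FN L N)) :
    RR.FunctionField L (FN L N) := by
  haveI : CharZero L := charZero_of_injective_algebraMap (algebraMap ℚ L).injective
  haveI := Fermat.Agent.Jan.HeckeInputs.isFF1_modular L hJ N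
  exact
    { toHasPrincipalDivisors := Fermat.FF.hasPrincipalDivisors
      finiteResidue := fun v => Fermat.FF.finite_residueField v
      nonempty_place := ⟨v⟩
      exists_finite := Fermat.FF.IsFF1.exists_finite }

/-- `v` is a multiple of the valuation defined by `ν`. -/
def Hits (ν : ℤ → (ℍ → ℂ) → ℤ) (v : Place L (FN L N)) (e : ℕ) : Prop :=
  0 < e ∧ ∀ f : FN L N, f ≠ 0 → valQ N ν (f : LaurentSeries L) = e * v.ord f

/-- **Every place is analytic.** `W g` is any width for the cusp `g ∞`. -/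
theorem exists_hits (hJ : Fermat.Agent.Jan.HeckeInputs.JAlg) (W : SL(2, ℤ) → ℕ)
    (hW0 : ∀ g, W g ≠ 0) (hW : ∀ g, g * ModularGroup.T ^ (W g) * g⁻¹ ∈ Gamma0 N)
    (v : Place L (FN L N)) :
    (∃ (τ : ℍ) (e : ℕ), Hits (ptVal τ) v e) ∨
      (∃ (g : SL(2, ℤ)) (e : ℕ), Hits (cuspVal g (W g)) v e) := by
  by_contra hcon
  rw [not_or] at hcon
  obtain ⟨hcon1, hcon2⟩ := hcon
  haveI := functionField_of_place hJ v
  obtain ⟨f, hf0, hfv, hfw⟩ := RR.exists_single_pole (K := L) v
    (n := 2 * genusFF L (FN L N) + 1) (by omega)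
  have hf0' : (f : LaurentSeries L) ≠ 0 := fun h => hf0 (Subtype.ext h)
  -- all analytic values are nonnegative
  have key : ∀ ν : ℤ → (ℍ → ℂ) → ℤ, FormVal N ν → (∀ e, ¬ Hits ν v e) →
      0 ≤ valQ N ν (f : LaurentSeries L) := by
    intro ν hν hno
    by_cases hnt : ∃ f : FN L N, f ≠ 0 ∧ valQ N ν (f : LaurentSeries L) ≠ 0
    · obtain ⟨w, e, he, hw⟩ := exists_place_of_formVal hν hnt
      have hwv : w ≠ v := by
        rintro rfl
        exact hno e ⟨he, hw⟩
      rw [hw f hf0]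
      exact mul_nonneg (Int.natCast_nonneg e) (hfw w hwv)
    · push Not at hnt
      rw [hnt f hf0]
  obtain ⟨k, A, B, hq⟩ := exists_isQuot f
  have h1 : ∃ c : L, (f : LaurentSeries L) = HahnSeries.C c := by
    refine exists_eq_algebraMap hq ?_ ?_
    · intro _ τ
      have h2 := key (ptVal τ) (formVal_ptVal N τ) fun e he => hcon1 ⟨τ, e, he⟩
      rw [valQ_eq (formVal_ptVal N τ) hq hf0'] at h2
      unfold ptVal at h2
      omega
    · intro hA0 g
      haveI : NeZero (W g) := ⟨hW0 g⟩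
      refine ⟨W g, ⟨hW0 g⟩, hW g, fun P Q hP hQ => ?_⟩
      have hν := formVal_cuspVal (hW g)
      have h2 := key (cuspVal g (W g)) hν fun e he => hcon2 ⟨g, e, he⟩
      rw [valQ_eq hν hq hf0', cuspVal_eq (hW g) hq.num hP, cuspVal_eq (hW g) hq.den hQ] at h2
      rw [← ENat.natCast_toNat (order_ne_top hA0 hP), ← ENat.natCast_toNat (order_ne_top hq.den_ne hQ)]
      have h3 : Q.order.toNat ≤ P.order.toNat := by omega
      exact_mod_cast h3
  obtain ⟨c, hc⟩ := h1
  have h2 : f = algebraMap L (FN L N) c := by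
    apply Subtype.ext
    rw [hc, HahnSeries.C_apply, ← algebraMap_laurentSeries_eq_single]
    rfl
  rw [h2, Fermat.FF.ord_algebraMap] at hfv
  push_cast at hfv
  omega

end Analytic

end Fermat.Agent.JAN.PlacesVal
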