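import Mathlib
import Fermat.Agent.JAN.PlacesVal
import Fermat.Agent.VVMF.Divide
import Fermat.Agent.VVMF.NonVan

/-!
# Exact ramification at the points of the upper half plane

If the order at a point `τ` of the upper half plane is `e` times the order at a place `v` of the
function field of `X₀(N)`, then `e` is the order of the stabiliser of `τ` in `Γ₀(N) / ± 1`, in the
form: if `denom γ τ ^ (2 m) = 1` for all `γ ∈ Γ₀(N)` fixing `τ` then `e ∣ m`.
-/

set_option autoImplicit false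
set_option linter.style.haveILetI false
set_option linter.unusedSectionVars false

noncomputable section

open UpperHalfPlane CongruenceSubgroup ModularCurve FermatJ Filter Set AlgebraicCurve
open ModularForm EisensteinSeries
open scoped MatrixGroups ModularForm Manifold Topology

namespace Fermat.Agent.JAN.PlacesExact

open Fermat.Agent.JAN.PlacesConst Fermat.Agent.JAN.Orders Fermat.Agent.JAN.PlacesVal
open Fermat.Agent.MFF

/-! ### Orders of level one functions -/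

theorem ordH_eq_one {G : ℍ → ℂ} (hG : MDiff G) {τ : ℍ} (h0 : G τ = 0)
    (h1 : deriv (G ∘ ofComplex) τ ≠ 0) : ordH G τ = 1 := by
  have h2 := (analyticAt_ofComplex hG τ).analyticOrderAt_sub_eq_one_of_deriv_ne_zero h1
  have h3 : (fun z => (G ∘ ofComplex) z - (G ∘ ofComplex) (τ : ℂ)) = G ∘ ofComplex := by
    funext z
    simp [ofComplex_apply, h0]
  rw [h3] at h2
  rw [ordH, analyticOrderNatAt, h2]
  rfl

theorem mdiff_E4 : MDiff (E₄ : ℍ → ℂ) := E₄.holo'

theorem mdiff_E6 : MDiff (E₆ : ℍ → ℂ) := E₆.holo'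

theorem ordH_E4 {τ : ℍ} (h : E₄ τ = 0) : ordH E₄ τ = 1 :=
  ordH_eq_one mdiff_E4 h (VVMF.E4_simple τ h)

theorem ordH_E6 {τ : ℍ} (h : E₆ τ = 0) : ordH E₆ τ = 1 :=
  ordH_eq_one mdiff_E6 h (VVMF.E6_simple τ h)

theorem delta_apply (τ : ℍ) : Delta τ = (E₄ τ ^ 3 - E₆ τ ^ 2) / 1728 := by
  rw [coe_Delta]
  exact discriminant_eq_E₄_cube_sub_E₆_sq τ

/-- The form `E₄³ - c Δ`. -/
def jNum (c : ℂ) : ℍ → ℂ := (⇑E4cube : ℍ → ℂ) - c • (⇑Delta : ℍ → ℂ)

theorem jNum_apply (c : ℂ) (τ : ℍ) : jNum c τ = E₄ τ ^ 3 - c * Delta τ := by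
  simp [jNum, coe_E4cube]

theorem mdiff_Delta : MDiff (⇑Delta : ℍ → ℂ) := Delta.holo'

theorem mdiff_jNum (c : ℂ) : MDiff (jNum c) := E4cube.holo'.sub (mdiff_Delta.const_smul c)

/-- The order of `j - j(τ)` at `τ`. -/
theorem dvd_ordH_jNum {c : ℂ} {τ : ℍ} (h : jNum c τ = 0) {e : ℕ} (he : e ∣ ordH (jNum c) τ) :
    e = 1 ∨ (e = 3 ∧ E₄ τ = 0) ∨ (e = 2 ∧ E₆ τ = 0) := by
  have hΔ := Delta_ne_zero τ
  rw [jNum_apply] at h
  by_cases h4 : E₄ τ = 0
  · have hc : c = 0 := by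
      rw [h4] at h
      have h1 : c * Delta τ = 0 := by linear_combination -h
      exact (mul_eq_zero.mp h1).resolve_right hΔ
    have h1 : jNum c = (⇑(E₄ : ModularForm 𝒮ℒ 4) : ℍ → ℂ) ^ 3 := by
      funext σ
      rw [jNum_apply, hc]
      simp
    rw [h1, ordH_pow mdiff_E4, ordH_E4 h4, mul_one, Nat.dvd_prime Nat.prime_three] at he
    rcases he with he | he
    · exact Or.inl he
    · exact Or.inr (Or.inl ⟨he, h4⟩)
  by_cases h6 : E₆ τ = 0
  · have hc : c = 1728 := by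
      have h1 : (c - 1728) * Delta τ = 0 := by
        have h2 := delta_apply τ
        rw [h6] at h2
        linear_combination -h - 1728 * h2
      have := (mul_eq_zero.mp h1).resolve_right hΔ
      linear_combination this
    have h1 : jNum c = (⇑(E₆ : ModularForm 𝒮ℒ 6) : ℍ → ℂ) ^ 2 := by
      funext σ
      rw [jNum_apply, hc, delta_apply]
      simp only [Pi.pow_apply]
      ring
    rw [h1, ordH_pow mdiff_E6, ordH_E6 h6, mul_one, Nat.dvd_prime Nat.prime_two] at he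
    rcases he with he | he
    · exact Or.inl he
    · exact Or.inr (Or.inr ⟨he, h6⟩)
  · left
    have hg : VVMF.genForm τ τ = 0 := by
      rw [VVMF.genForm_apply]
      ring
    have hs := VVMF.genForm_simple τ τ h4 h6 hg
    have h1 : (⇑(VVMF.genForm τ) : ℍ → ℂ) = (-(1728 * Delta τ)) • jNum c := by
      funext σ
      rw [VVMF.genForm_apply, Pi.smul_apply, smul_eq_mul, jNum_apply, delta_apply, delta_apply σ]
      rw [delta_apply] at h
      linear_combination (E₄ σ ^ 3 - E₆ σ ^ 2) * h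
    have hne : -(1728 * Delta τ) ≠ 0 := by
      rw [neg_ne_zero]
      exact mul_ne_zero (by norm_num) hΔ
    have h2 : ordH (VVMF.genForm τ) τ = 1 := ordH_eq_one (VVMF.genForm τ).holo' hg hs
    rw [h1, ordH_smul (mdiff_jNum c) hne] at h2
    rw [h2] at he
    exact Nat.dvd_one.mp he

/-! ### The maps `τ ↦ d τ` -/

/-- The order of `G (d τ)`. -/
theorem ordH_comp_mul {G : ℍ → ℂ} {d : ℕ} [NeZero d] (τ : ℍ) :
    ordH (fun σ => G (heckeDiagMatrix d • σ)) τ = ordH G (heckeDiagMatrix d • τ) := by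
  have hd : d ≠ 0 := NeZero.ne d
  have hd' : (d : ℂ) ≠ 0 := by exact_mod_cast hd
  have h1 : ((fun σ : ℍ => G (heckeDiagMatrix d • σ)) ∘ ofComplex) =ᶠ[𝓝 (τ : ℂ)]
      ((G ∘ ofComplex) ∘ fun z => (d : ℂ) * z) := by
    filter_upwards [isOpen_upperHalfPlaneSet.mem_nhds τ.im_pos] with z hz
    simp only [Function.comp_apply, ofComplex_apply_of_im_pos hz]
    congr 1
    rw [← ofComplex_apply (heckeDiagMatrix d • (⟨z, hz⟩ : ℍ)), coe_heckeDiagMatrix_smul hd]
  unfold ordH analyticOrderNatAt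
  rw [analyticOrderAt_congr h1, analyticOrderAt_comp_of_deriv_ne_zero (by fun_prop),
    coe_heckeDiagMatrix_smul hd]
  have : deriv (fun z : ℂ => (d : ℂ) * z) (τ : ℂ) = d := by
    simp
  rw [this]
  exact hd'

/-! ### Stabilisers -/

theorem denom_mul (A B : SL(2, ℤ)) (τ : ℍ) :
    denom (A * B : SL(2, ℤ)) τ = denom A (B • τ : ℍ) * denom B τ := by
  have h := denom_ne_zero B τ
  rw [ModularGroup.denom_apply] at h
  rw [ModularGroup.denom_apply, ModularGroup.denom_apply, ModularGroup.denom_apply,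
    coe_specialLinearGroup_apply]
  have h10 : (A * B) 1 0 = A 1 0 * B 0 0 + A 1 1 * B 1 0 := by
    show ((A * B : SL(2, ℤ)) : Matrix (Fin 2) (Fin 2) ℤ) 1 0 = _
    rw [Matrix.SpecialLinearGroup.coe_mul, Matrix.mul_apply, Fin.sum_univ_two]
  have h11 : (A * B) 1 1 = A 1 0 * B 0 1 + A 1 1 * B 1 1 := by
    show ((A * B : SL(2, ℤ)) : Matrix (Fin 2) (Fin 2) ℤ) 1 1 = _
    rw [Matrix.SpecialLinearGroup.coe_mul, Matrix.mul_apply, Fin.sum_univ_two]
  rw [h10, h11]
  simp only [eq_intCast, Complex.ofReal_intCast]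
  push_cast
  field_simp
  ring

theorem denom_conj {M δ : SL(2, ℤ)} {τ : ℍ} (hM : M • τ = τ) :
    denom (δ * M * δ⁻¹ : SL(2, ℤ)) (δ • τ : ℍ) = denom M τ := by
  have h1 := denom_mul (δ * M * δ⁻¹) δ τ
  have h2 := denom_mul δ M τ
  rw [hM] at h2
  rw [inv_mul_cancel_right, h2] at h1
  have h3 := denom_ne_zero δ τ
  exact mul_right_cancel₀ h3 (h1.symm.trans (mul_comm _ _))

/-- If `M` fixes `τ` and `N τ` is in the `SL(2, ℤ)`-orbit of `τ` then `M ∈ Γ₀(N)`. -/
theorem mem_Gamma0_of_smul {N : ℕ} {M δ : SL(2, ℤ)} {τ : ℍ} (hM : M • τ = τ)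
    (hδ : ((δ • τ : ℍ) : ℂ) = N * τ) : M ∈ Gamma0 N := by
  have h1 := denom_conj (δ := δ) hM
  rw [ModularGroup.denom_apply, ModularGroup.denom_apply, hδ] at h1
  set X := δ * M * δ⁻¹
  have h2 : ((X 1 0 * N - M 1 0 : ℤ) : ℂ) * τ + ((X 1 1 - M 1 1 : ℤ) : ℂ) = 0 := by
    push_cast
    linear_combination h1
  have h3 := congrArg Complex.im h2
  have h4 : ((X 1 0 * N - M 1 0 : ℤ) : ℝ) * τ.im = 0 := by
    simpa using h3
  have h5 : X 1 0 * N - M 1 0 = 0 := by
    have := (mul_eq_zero.mp h4).resolve_right τ.im_pos.ne'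
    exact_mod_cast this
  rw [Gamma0_mem, ZMod.intCast_zmod_eq_zero_iff_dvd]
  exact ⟨X 1 0, by linear_combination -h5⟩

/-! ### The elements `j(q^d)` -/

section Elements

variable {L : Type*} [Field L] [Algebra ℚ L] {N : ℕ}

variable (L) in
/-- The element `j(q^d)` of the function field. -/
def jd (d : ℕ) [NeZero d] (hd : d ∣ N) : FN L N := ⟨qExpand L d (jqModC L), by
  rw [MFF.laurentBaseChange_full]
  exact IntermediateField.subset_adjoin L _ (mem_divisorExpansionsC L N hd)⟩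

theorem coe_algebraMap_FN (c : L) :
    ((algebraMap L (FN L N) c : FN L N) : LaurentSeries L) = HahnSeries.C c := by
  rw [HahnSeries.C_apply, ← algebraMap_laurentSeries_eq_single]
  rfl

theorem coe_jd_sub {d : ℕ} [NeZero d] (hd : d ∣ N) (c : L) :
    ((jd L d hd - algebraMap L (FN L N) c : FN L N) : LaurentSeries L) =
      qExpand L d (jqModC L) - HahnSeries.C c := by
  rw [← coe_algebraMap_FN (N := N) c]
  rfl

theorem jd_sub_ne_zero {d : ℕ} [NeZero d] (hd : d ∣ N) (c : L) :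
    jd L d hd - algebraMap L (FN L N) c ≠ 0 := by
  intro h
  have h1 := congrArg (fun x : FN L N => (x : LaurentSeries L).coeff ((d : ℤ) * (-1))) h
  have hd0 : (d : ℤ) * (-1) ≠ 0 := by
    have : (d : ℤ) ≠ 0 := by exact_mod_cast NeZero.ne d
    omega
  rw [coe_jd_sub, HahnSeries.coeff_sub, qExpand_coeff_mul, coeff_jqModC_neg_one,
    HahnSeries.C_apply, HahnSeries.coeff_single_of_ne hd0, sub_zero] at h1
  exact one_ne_zero h1

variable [Algebra L ℂ] [NeZero N]

theorem toC_C (c : L) :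
    toC (HahnSeries.C c : LaurentSeries L) = HahnSeries.C (algebraMap L ℂ c) := by
  rw [toC, HahnSeries.C_apply, coeffMap_single, HahnSeries.C_apply]

/-- `j(d τ) - c` as a quotient of forms. -/
theorem isQuot_jd_sub {d : ℕ} [NeZero d] (hd : d ∣ N) (c : L) :
    IsQuot N ((jd L d hd - algebraMap L (FN L N) c : FN L N) : LaurentSeries L) 12
      (fun τ => jNum (algebraMap L ℂ c) (heckeDiagMatrix d • τ)) (liftMod hd Delta) := by
  have hA := IsCharForm.of_modularForm (liftMod hd E4cube)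
  have hB := IsCharForm.of_modularForm (liftMod hd Delta)
  have hnum : (fun τ => jNum (algebraMap L ℂ c) (heckeDiagMatrix d • τ)) =
      (⇑(liftMod hd E4cube) : ℍ → ℂ) + (-(algebraMap L ℂ c)) • (⇑(liftMod hd Delta) : ℍ → ℂ) := by
    funext τ
    rw [Pi.add_apply, Pi.smul_apply, liftMod_apply, liftMod_apply, jNum, Pi.sub_apply,
      Pi.smul_apply, smul_eq_mul, smul_eq_mul]
    ring
  rw [hnum]
  refine ⟨hA.add (hB.smul _), hB, ?_, LQ (liftMod hd Delta), hB.hasExp, ?_⟩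
  · intro h
    have := congrFun h I
    rw [liftMod_apply] at this
    exact Delta_ne_zero _ this
  · have h1 : toC ((jd L d hd - algebraMap L (FN L N) c : FN L N) : LaurentSeries L) *
        LQ (liftMod hd Delta) = LQ (liftMod hd E4cube) +
          HahnSeries.C (-(algebraMap L ℂ c)) * LQ (liftMod hd Delta) := by
      rw [coe_jd_sub, toC, map_sub, sub_mul, map_neg, neg_mul, ← sub_eq_add_neg]
      congr 1
      · have h2 : coeffMap (algebraMap L ℂ) (qExpand L d (jqModC L)) =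
            qExpand ℂ d (jqModC ℂ) := MFF.emb_qExpand_jqModC d
        rw [h2, LQ_liftMod, LQ_liftMod, ← map_mul, jqModC_mul_LQ_Delta]
      · rw [← toC_C]
    rw [h1]
    refine (hA.hasExp.add ((HasExp.const (qc 1) (-(algebraMap L ℂ c))).mul hB.hasExp)).congr
      fun τ => ?_
    rw [Pi.add_apply, Pi.smul_apply, smul_eq_mul]

theorem ordH_liftMod_Delta {d : ℕ} [NeZero d] (hd : d ∣ N) (τ : ℍ) :
    ordH (liftMod hd Delta) τ = 0 := by
  apply ordH_eq_zero_of_ne (liftMod hd Delta).holo'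
  show liftMod hd Delta τ ≠ 0
  rw [liftMod_apply]
  exact Delta_ne_zero _

theorem valQ_jd_sub {d : ℕ} [NeZero d] (hd : d ∣ N) (c : L) (τ : ℍ) :
    valQ N (ptVal τ) ((jd L d hd - algebraMap L (FN L N) c : FN L N) : LaurentSeries L) =
      ordH (jNum (algebraMap L ℂ c)) (heckeDiagMatrix d • τ) := by
  have h0 : ((jd L d hd - algebraMap L (FN L N) c : FN L N) : LaurentSeries L) ≠ 0 := fun h =>
    jd_sub_ne_zero hd c (Subtype.ext h)
  rw [valQ_eq (formVal_ptVal N τ) (isQuot_jd_sub hd c) h0]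
  unfold ptVal
  rw [ordH_liftMod_Delta, ordH_comp_mul]
  simp

/-- If the order at `τ` is `e` times the order at the place `v`, then `j(d τ) ∈ L` and `e` divides
the order of `j - j(d τ)` at `d τ`. -/
theorem exists_const_of_hits [IsAlgClosed L] (hJ : Fermat.Agent.Jan.HeckeInputs.JAlg)
    {v : Place L (FN L N)} {τ : ℍ} {e : ℕ} (h : Hits (ptVal τ) v e) {d : ℕ} [NeZero d]
    (hd : d ∣ N) : ∃ c : L, jNum (algebraMap L ℂ c) (heckeDiagMatrix d • τ) = 0 ∧
      e ∣ ordH (jNum (algebraMap L ℂ c)) (heckeDiagMatrix d • τ) := by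
  haveI : CharZero L := charZero_of_injective_algebraMap (algebraMap ℚ L).injective
  haveI := Fermat.Agent.Jan.HeckeInputs.isFF1_modular L hJ N
  have he : (0 : ℤ) < e := by exact_mod_cast h.1
  have hj0 : jd L d hd ≠ 0 := by
    have := jd_sub_ne_zero hd (0 : L)
    rwa [map_zero, sub_zero] at this
  have h1 : 0 ≤ v.ord (jd L d hd) := by
    have h2 := h.2 _ hj0
    have h3 := valQ_jd_sub hd (0 : L) τ
    rw [map_zero, sub_zero] at h3
    rw [h3] at h2
    have h4 : 0 ≤ (e : ℤ) * v.ord (jd L d hd) := by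
      rw [← h2]
      exact Int.natCast_nonneg _
    exact nonneg_of_mul_nonneg_right h4 he
  obtain ⟨c, hc⟩ := Fermat.FF.exists_const_of_mem v ((Fermat.FF.mem_iff_ord v hj0).mpr h1)
  have hne := jd_sub_ne_zero hd c
  have h2 := Fermat.FF.ord_pos_of_val_lt_one v hne hc
  have h3 := h.2 _ hne
  rw [valQ_jd_sub] at h3
  have hpos : (0 : ℤ) < e * v.ord (jd L d hd - algebraMap L (FN L N) c) := mul_pos he h2
  rw [← h3] at hpos
  have hpos' : 0 < ordH (jNum (algebraMap L ℂ c)) (heckeDiagMatrix d • τ) := by exact_mod_cast hpos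
  refine ⟨c, ?_, ?_⟩
  · have hA0 : jNum (algebraMap L ℂ c) ≠ 0 := by
      intro h0
      have h4 := isQuot_num_ne_zero (isQuot_jd_sub hd c) fun h => hne (Subtype.ext h)
      apply h4
      funext σ
      rw [h0]
      rfl
    exact (ordH_pos_iff (mdiff_jNum _) hA0).mp hpos'
  · have h4 : (e : ℤ) ∣ (ordH (jNum (algebraMap L ℂ c)) (heckeDiagMatrix d • τ) : ℤ) := by
      rw [h3]
      exact dvd_mul_right _ _
    exact_mod_cast h4

theorem heckeDiagMatrix_one_smul (τ : ℍ) : heckeDiagMatrix 1 • τ = τ := by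
  ext
  rw [coe_heckeDiagMatrix_smul one_ne_zero]
  simp

/-- **Exactness at the points of the upper half plane.** -/
theorem dvd_of_hits [IsAlgClosed L] (hJ : Fermat.Agent.Jan.HeckeInputs.JAlg)
    {v : Place L (FN L N)} {τ : ℍ} {e : ℕ} (h : Hits (ptVal τ) v e) {m : ℤ}
    (hm : ∀ γ : Gamma0 N, (γ : SL(2, ℤ)) • τ = τ → denom (γ : SL(2, ℤ)) τ ^ (2 * m) = 1) :
    (e : ℤ) ∣ m := by
  obtain ⟨c, hc0, hc⟩ := exists_const_of_hits hJ h (one_dvd N)
  obtain ⟨c', hc0', hc'⟩ := exists_const_of_hits hJ h (dvd_refl N)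
  rw [heckeDiagMatrix_one_smul] at hc0 hc
  have hN : N ≠ 0 := NeZero.ne N
  -- a stabiliser in `Γ₀(N)`
  have key : ∀ (M : SL(2, ℤ)) (σ : ℍ), M • σ = σ →
      E₄ σ ^ 3 * E₆ τ ^ 2 = E₄ τ ^ 3 * E₆ σ ^ 2 →
      E₄ τ ^ 3 * E₆ (heckeDiagMatrix N • τ) ^ 2 = E₄ (heckeDiagMatrix N • τ) ^ 3 * E₆ τ ^ 2 →
      (denom M σ ^ 2) ^ m = 1 := by
    intro M σ hM h1 h2
    obtain ⟨γ, hγ⟩ := VVMF.exists_smul_eq_of_E4_E6 σ τ h1
    obtain ⟨δ, hδ⟩ := VVMF.exists_smul_eq_of_E4_E6 τ (heckeDiagMatrix N • τ) h2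
    have h3 : (γ * M * γ⁻¹) • τ = τ := by
      rw [← hγ, mul_smul, mul_smul, inv_smul_smul, hM]
    have h4 : ((δ • τ : ℍ) : ℂ) = N * τ := by
      rw [hδ, coe_heckeDiagMatrix_smul hN]
    have h5 := hm ⟨_, mem_Gamma0_of_smul h3 h4⟩ h3
    have h6 := denom_conj (δ := γ) hM
    rw [hγ] at h6
    have h7 : denom ((⟨γ * M * γ⁻¹, mem_Gamma0_of_smul h3 h4⟩ : Gamma0 N) : SL(2, ℤ)) (τ : ℂ) =
      denom M σ := h6
    rw [h7, zpow_mul] at h5
    exact_mod_cast h5
  rcases dvd_ordH_jNum hc0 hc with he | ⟨he, h4⟩ | ⟨he, h6⟩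
  · rw [he]
    simp
  · rcases dvd_ordH_jNum hc0' hc' with he' | ⟨_, h4'⟩ | ⟨he', _⟩
    · omega
    · have h1 := key (ModularGroup.S * ModularGroup.T) VVMF.Traces.rho VVMF.Traces.ST_smul_rho
        (by rw [VVMF.E4_rho, h4]; ring) (by rw [h4, h4']; ring)
      rw [VVMF.Traces.denom_ST_rho] at h1
      have h2 : VVMF.Traces.omega ^ m = 1 := by
        rw [VVMF.Traces.omega, inv_zpow, h1, inv_one]
      rw [he]
      exact (VVMF.Traces.omega_isPrimitiveRoot.zpow_eq_one_iff_dvd m).mp h2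
    · omega
  · rcases dvd_ordH_jNum hc0' hc' with he' | ⟨he', _⟩ | ⟨_, h6'⟩
    · omega
    · omega
    · have h1 := key ModularGroup.S UpperHalfPlane.I VVMF.Traces.S_smul_I
        (by rw [VVMF.E6_I, h6]; ring) (by rw [h6, h6']; ring)
      rw [VVMF.Traces.denom_S_I, Complex.I_sq] at h1
      rw [he]
      have h2 : IsPrimitiveRoot (-1 : ℂ) 2 := IsPrimitiveRoot.neg_one 0 (by norm_num)
      exact (h2.zpow_eq_one_iff_dvd m).mp h1

end Elements

end Fermat.Agent.JAN.PlacesExact
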