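import Mathlib
import Fermat.Agent.JAN.PlacesExact
import Fermat.Agent.JAN.KummerLocal
import Fermat.Agent.J.Mat
import Fermat.Agent.MFF.Integral

/-!
# Exact ramification at the cusps

The width `wid N g` of the cusp `g ∞` of `X₀(N)`; the orders of `j(τ)` and `j(N τ)` at this cusp
are coprime, so that a place `v` of the function field which is a divisor of the cusp is
unramified: the order with respect to `exp (2 π i τ / wid N g)` is `v.ord`.
-/

set_option autoImplicit false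
set_option linter.style.haveILetI false
set_option linter.unusedSectionVars false

noncomputable section

open UpperHalfPlane CongruenceSubgroup ModularCurve FermatJ Filter Set AlgebraicCurve
open ModularForm EisensteinSeries
open scoped MatrixGroups ModularForm Manifold Topology

namespace Fermat.Agent.JAN.PlacesCusp

open Fermat.Agent.JAN.PlacesConst Fermat.Agent.JAN.Orders Fermat.Agent.JAN.PlacesVal
open Fermat.Agent.JAN.PlacesExact Fermat.Agent.MFF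

/-! ### Widths -/

/-- `gcd(c, d)` for `g = (* *; c *)`. -/
def cA (d : ℕ) (g : SL(2, ℤ)) : ℕ := Int.gcd (g 1 0) d

/-- `d / gcd(c, d)`. -/
def cD (d : ℕ) (g : SL(2, ℤ)) : ℕ := d / cA d g

/-- The width of the cusp `g ∞` of `X₀(N)`. -/
def wid (N : ℕ) (g : SL(2, ℤ)) : ℕ := cD N g / Nat.gcd (cA N g) (cD N g)

variable {N d : ℕ} (g : SL(2, ℤ))

theorem cA_dvd : cA d g ∣ d := by
  have := Int.gcd_dvd_right (g 1 0) (d : ℤ)
  exact_mod_cast this

theorem cA_mul_cD : cA d g * cD d g = d := Nat.mul_div_cancel' (cA_dvd g)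

theorem cA_ne_zero [NeZero d] : cA d g ≠ 0 := by
  intro h
  have := cA_mul_cD (d := d) g
  rw [h, zero_mul] at this
  exact NeZero.ne d this.symm

theorem cD_ne_zero [NeZero d] : cD d g ≠ 0 := by
  intro h
  have := cA_mul_cD (d := d) g
  rw [h, mul_zero] at this
  exact NeZero.ne d this.symm

theorem wid_ne_zero [NeZero N] : wid N g ≠ 0 := by
  have h1 : Nat.gcd (cA N g) (cD N g) ∣ cD N g := Nat.gcd_dvd_right _ _
  have h2 := Nat.div_mul_cancel h1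
  intro h
  unfold wid at h
  rw [h, zero_mul] at h2
  exact cD_ne_zero (d := N) g h2.symm

theorem conj_T_pow_entry (h : ℕ) : (g * ModularGroup.T ^ h * g⁻¹) 1 0 = -((g 1 0) ^ 2 * h) := by
  show ((g * ModularGroup.T ^ h * g⁻¹ : SL(2, ℤ)) : Matrix (Fin 2) (Fin 2) ℤ) 1 0 = _
  have hT : ((ModularGroup.T ^ h : SL(2, ℤ)) : Matrix (Fin 2) (Fin 2) ℤ) = !![1, (h : ℤ); 0, 1] := by
    have := ModularGroup.coe_T_zpow (h : ℤ)
    rwa [zpow_natCast] at this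
  rw [Matrix.SpecialLinearGroup.coe_mul, Matrix.SpecialLinearGroup.coe_mul, hT,
    Matrix.SpecialLinearGroup.coe_inv, Matrix.adjugate_fin_two]
  simp [Matrix.mul_apply, Fin.sum_univ_two]
  ring

theorem wid_mem : g * ModularGroup.T ^ (wid N g) * g⁻¹ ∈ Gamma0 N := by
  rw [Gamma0_mem, conj_T_pow_entry, ZMod.intCast_zmod_eq_zero_iff_dvd, dvd_neg]
  -- `c = y a`, `N = a d`, `a = t a'`, `wid = d / t`
  obtain ⟨y, hy⟩ : ((cA N g : ℕ) : ℤ) ∣ g 1 0 := Int.gcd_dvd_left _ _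
  obtain ⟨a', ha'⟩ : Nat.gcd (cA N g) (cD N g) ∣ cA N g := Nat.gcd_dvd_left _ _
  have h1 : wid N g * Nat.gcd (cA N g) (cD N g) = cD N g :=
    Nat.div_mul_cancel (Nat.gcd_dvd_right _ _)
  have h2 := cA_mul_cD (d := N) g
  have h1' : (wid N g : ℤ) * (Nat.gcd (cA N g) (cD N g) : ℕ) = (cD N g : ℕ) := by exact_mod_cast h1
  have h2' : ((cA N g : ℕ) : ℤ) * (cD N g : ℕ) = N := by exact_mod_cast h2
  have h3' : ((cA N g : ℕ) : ℤ) = (Nat.gcd (cA N g) (cD N g) : ℕ) * a' := by exact_mod_cast ha'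
  refine ⟨y ^ 2 * a', ?_⟩
  rw [hy]
  linear_combination (((cA N g : ℕ) : ℤ) * y ^ 2 * (wid N g : ℤ)) * h3' +
    (((cA N g : ℕ) : ℤ) * y ^ 2 * a') * h1' + (y ^ 2 * a') * h2'

/-! ### Hermite form -/

/-- `γ diag(d, 1) g = (a b; 0 d')` with `a = gcd(c, d)`, `a d' = d`. -/
theorem exists_hermite_cusp (d : ℕ) [NeZero d] (g : SL(2, ℤ)) : ∃ (γ : SL(2, ℤ)) (b : ℤ),
    γ 0 0 * (d * g 0 0) + γ 0 1 * g 1 0 = (cA d g : ℕ) ∧
    γ 0 0 * (d * g 0 1) + γ 0 1 * g 1 1 = b ∧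
    γ 1 0 * (d * g 0 0) + γ 1 1 * g 1 0 = 0 ∧
    γ 1 0 * (d * g 0 1) + γ 1 1 * g 1 1 = (cD d g : ℕ) := by
  have hdet : g 0 0 * g 1 1 - g 0 1 * g 1 0 = 1 := by
    have := g.det_coe
    rwa [Matrix.det_fin_two] at this
  obtain ⟨y, hy⟩ : ((cA d g : ℕ) : ℤ) ∣ g 1 0 := Int.gcd_dvd_left _ _
  have hd : ((cA d g : ℕ) : ℤ) * (cD d g : ℕ) = d := by exact_mod_cast cA_mul_cD (d := d) g
  have ha0 : ((cA d g : ℕ) : ℤ) ≠ 0 := by exact_mod_cast cA_ne_zero (d := d) g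
  have hcop1 : IsCoprime y ((cD d g : ℕ) : ℤ) := by
    have h1 : ((cA d g : ℕ) : ℤ) = g 1 0 * Int.gcdA (g 1 0) d + d * Int.gcdB (g 1 0) d :=
      Int.gcd_eq_gcd_ab _ _
    refine ⟨Int.gcdA (g 1 0) d, Int.gcdB (g 1 0) d, ?_⟩
    apply mul_left_cancel₀ ha0
    linear_combination -h1 + Int.gcdA (g 1 0) d * (-hy) + Int.gcdB (g 1 0) d * hd
  have hcop2 : IsCoprime (g 0 0) y := by
    refine ⟨g 1 1, -(g 0 1 * (cA d g : ℕ)), ?_⟩
    linear_combination hdet + g 0 1 * hy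
  obtain ⟨u, v, huv⟩ : IsCoprime (((cD d g : ℕ) : ℤ) * g 0 0) y := (hcop1.symm).mul_left hcop2
  refine ⟨⟨!![u, v; -y, ((cD d g : ℕ) : ℤ) * g 0 0], ?_⟩, u * (d * g 0 1) + v * g 1 1, ?_, ?_, ?_, ?_⟩
  · rw [Matrix.det_fin_two_of]
    linear_combination huv
  · show u * (d * g 0 0) + v * g 1 0 = _
    rw [hy, ← hd]
    linear_combination ((cA d g : ℕ) : ℤ) * huv
  · rfl
  · show -y * (d * g 0 0) + ((cD d g : ℕ) : ℤ) * g 0 0 * g 1 0 = 0
    rw [hy, ← hd]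
    ring
  · show -y * (d * g 0 1) + ((cD d g : ℕ) : ℤ) * g 0 0 * g 1 1 = _
    rw [← hd]
    linear_combination ((cD d g : ℕ) : ℤ) * hdet + ((cD d g : ℕ) : ℤ) * g 0 1 * hy

theorem cA_neZero (d : ℕ) [NeZero d] (g : SL(2, ℤ)) : NeZero (cA d g) := ⟨cA_ne_zero g⟩

theorem cD_neZero (d : ℕ) [NeZero d] (g : SL(2, ℤ)) : NeZero (cD d g) := ⟨cD_ne_zero g⟩

/-- The affine map `τ ↦ (a τ + b) / d'`. -/
theorem exists_aff (d : ℕ) [NeZero d] (g : SL(2, ℤ)) :
    haveI := cA_neZero d g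
    haveI := cD_neZero d g
    ∃ (γ : SL(2, ℤ)) (b : ℤ), ∀ τ : ℍ,
      γ • (heckeDiagMatrix d • (g • τ)) = aff (cA d g) b (cD d g) τ ∧
      denom γ (heckeDiagMatrix d • (g • τ) : ℍ) * denom g τ = (cD d g : ℕ) := by
  haveI := cA_neZero d g
  haveI := cD_neZero d g
  obtain ⟨γ, b, h1, h2, h3, h4⟩ := exists_hermite_cusp d g
  refine ⟨γ, b, fun τ => ?_⟩
  have hd : d ≠ 0 := NeZero.ne d
  have hg := denom_ne_zero g τ
  rw [ModularGroup.denom_apply] at hg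
  have h1' : (γ 0 0 : ℂ) * (d * g 0 0) + γ 0 1 * g 1 0 = (cA d g : ℕ) := by exact_mod_cast h1
  have h2' : (γ 0 0 : ℂ) * (d * g 0 1) + γ 0 1 * g 1 1 = b := by exact_mod_cast h2
  have h3' : (γ 1 0 : ℂ) * (d * g 0 0) + γ 1 1 * g 1 0 = 0 := by exact_mod_cast h3
  have h4' : (γ 1 0 : ℂ) * (d * g 0 1) + γ 1 1 * g 1 1 = (cD d g : ℕ) := by exact_mod_cast h4
  have hσ : ((heckeDiagMatrix d • (g • τ) : ℍ) : ℂ) =
      d * ((g 0 0 * τ + g 0 1) / (g 1 0 * τ + g 1 1)) := by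
    rw [coe_heckeDiagMatrix_smul hd, coe_specialLinearGroup_apply]
    simp
  have hAB := div_mul_cancel₀ ((g 0 0 : ℂ) * τ + g 0 1) hg
  have hden : denom γ (heckeDiagMatrix d • (g • τ) : ℍ) * denom g τ = (cD d g : ℕ) := by
    rw [ModularGroup.denom_apply, ModularGroup.denom_apply, hσ]
    linear_combination (γ 1 0 * d : ℂ) * hAB + (τ : ℂ) * h3' + h4'
  refine ⟨?_, hden⟩
  ext
  have hne : denom γ (heckeDiagMatrix d • (g • τ) : ℍ) ≠ 0 := denom_ne_zero _ _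
  have hD0 : ((cD d g : ℕ) : ℂ) ≠ 0 := by exact_mod_cast cD_ne_zero (d := d) g
  show ((γ • (heckeDiagMatrix d • (g • τ)) : ℍ) : ℂ) = ((cA d g : ℕ) * (τ : ℂ) + b) / (cD d g : ℕ)
  rw [eq_div_iff hD0, ← hden, coe_specialLinearGroup_apply]
  rw [ModularGroup.denom_apply] at hne ⊢
  rw [ModularGroup.denom_apply]
  simp only [algebraMap_int_eq, eq_intCast, Complex.ofReal_intCast]
  rw [← mul_assoc, div_mul_cancel₀ _ hne, hσ]
  linear_combination (γ 0 0 * d : ℂ) * hAB + (τ : ℂ) * h1' + h2'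

/-- The slash of `F(d τ)` at a cusp. -/
theorem liftMod_slash (hd : d ∣ N) [NeZero d] (F : ModularForm 𝒮ℒ 12) (g : SL(2, ℤ)) :
    haveI := cA_neZero d g
    haveI := cD_neZero d g
    ∃ b : ℤ, ∀ τ : ℍ, ((⇑(liftMod hd F) : ℍ → ℂ) ∣[(12 : ℤ)] g) τ =
      ((cD d g : ℕ) : ℂ) ^ (-12 : ℤ) * F (aff (cA d g) b (cD d g) τ) := by
  haveI := cA_neZero d g
  haveI := cD_neZero d g
  obtain ⟨γ, b, h⟩ := exists_aff d g
  refine ⟨b, fun τ => ?_⟩
  obtain ⟨h1, h2⟩ := h τ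
  have hne : denom γ (heckeDiagMatrix d • (g • τ) : ℍ) ≠ 0 := denom_ne_zero _ _
  have hne' : denom g τ ≠ 0 := denom_ne_zero _ _
  have h3 : F (γ • (heckeDiagMatrix d • (g • τ))) =
      denom γ (heckeDiagMatrix d • (g • τ) : ℍ) ^ (12 : ℤ) * F (heckeDiagMatrix d • (g • τ)) :=
    slash_eq_smul (F.slash_action_eq' γ ⟨γ, rfl⟩) _
  rw [slash_apply_eq, liftMod_apply, ← h1, h3, ← h2, mul_zpow]
  have h4 : denom γ (heckeDiagMatrix d • (g • τ) : ℍ) ^ (-12 : ℤ) *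
      denom γ (heckeDiagMatrix d • (g • τ) : ℍ) ^ (12 : ℤ) = 1 := by
    rw [← zpow_add₀ hne]
    simp
  linear_combination (-(F (heckeDiagMatrix d • g • τ)) * denom g τ ^ (-12 : ℤ)) * h4

theorem tendsto_aff (a : ℕ) (b : ℤ) (d : ℕ) [NeZero a] [NeZero d] :
    Tendsto (aff a b d) atImInfty atImInfty := by
  have ha : (0 : ℝ) < a := by exact_mod_cast Nat.pos_of_ne_zero (NeZero.ne a)
  have hd : (0 : ℝ) < d := by exact_mod_cast Nat.pos_of_ne_zero (NeZero.ne d)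
  rw [atImInfty, tendsto_comap_iff]
  have h1 : (im ∘ aff a b d : ℍ → ℝ) = fun τ : ℍ => (a / d : ℝ) * τ.im := by
    funext τ
    show (((a : ℂ) * τ + b) / d).im = _
    have h2 : (((a : ℂ) * τ + b) / d) = (((a : ℂ) * τ + b)) * ((d : ℝ)⁻¹ : ℝ) := by
      push_cast
      rfl
    rw [h2, Complex.im_mul_ofReal]
    have h3 : (((a : ℂ) * τ + b)).im = a * τ.im := by
      simp
    rw [h3]
    ring
  rw [h1]
  exact (tendsto_comap (f := im) (x := atTop)).const_mul_atTop (by positivity)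

theorem tendsto_E4cube : Tendsto (⇑E4cube : ℍ → ℂ) atImInfty (𝓝 1) := by
  have h1 := (hasPS_E (k := 12) E4cube).tendsto
  have h2 := E4cube_coeff_zero 1
  rw [pow_one] at h2
  rwa [h2] at h1

theorem tendsto_Delta :
    Tendsto (fun τ : ℍ => Delta τ * Complex.exp (-(2 * Real.pi * Complex.I * τ))) atImInfty (𝓝 1) := by
  have h1 := (hasPS_etaP.pow 24).tendsto
  have h2 : ((ModularCurve.etaProd.map (Int.castRingHom ℂ)) ^ 24 : PowerSeries ℂ).coeff 0 = 1 := by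
    rw [PowerSeries.coeff_zero_eq_constantCoeff_apply, map_pow,
      ← PowerSeries.coeff_zero_eq_constantCoeff_apply, PowerSeries.coeff_map,
      PowerSeries.coeff_zero_eq_constantCoeff_apply, ModularCurve.constantCoeff_etaProd]
    simp
  rw [h2] at h1
  refine h1.congr fun τ => ?_
  rw [coe_Delta, discriminant_eq_etaP, qc_eq, Complex.exp_neg]
  have h3 : Complex.exp (2 * Real.pi * Complex.I * τ / ((1 : ℕ) : ℂ)) =
      Complex.exp (2 * Real.pi * Complex.I * τ) := by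
    rw [Nat.cast_one, div_one]
  rw [h3]
  have h4 := Complex.exp_ne_zero (2 * Real.pi * Complex.I * τ)
  field_simp

/-- The order of `E₄³(d τ)` at a cusp. -/
theorem ordInf_liftMod_E4cube (hd : d ∣ N) [NeZero d] (g : SL(2, ℤ)) :
    OrdInf ((⇑(liftMod hd E4cube) : ℍ → ℂ) ∣[(12 : ℤ)] g) 0 := by
  haveI := cA_neZero d g
  haveI := cD_neZero d g
  obtain ⟨b, hb⟩ := liftMod_slash hd E4cube g
  have hD0 : ((cD d g : ℕ) : ℂ) ≠ 0 := by exact_mod_cast cD_ne_zero (d := d) g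
  refine ⟨((cD d g : ℕ) : ℂ) ^ (-12 : ℤ), zpow_ne_zero _ hD0, ?_⟩
  have h1 := ((tendsto_E4cube.comp (tendsto_aff (cA d g) b (cD d g))).const_mul
    (((cD d g : ℕ) : ℂ) ^ (-12 : ℤ)))
  rw [mul_one] at h1
  refine h1.congr fun τ => ?_
  rw [hb τ]
  simp

/-- The order of `Δ(d τ)` at a cusp. -/
theorem ordInf_liftMod_Delta (hd : d ∣ N) [NeZero d] (g : SL(2, ℤ)) :
    OrdInf ((⇑(liftMod hd Delta) : ℍ → ℂ) ∣[(12 : ℤ)] g) ((cA d g : ℝ) / cD d g) := by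
  haveI := cA_neZero d g
  haveI := cD_neZero d g
  obtain ⟨b, hb⟩ := liftMod_slash hd Delta g
  have hD0 : ((cD d g : ℕ) : ℂ) ≠ 0 := by exact_mod_cast cD_ne_zero (d := d) g
  set ζ := Complex.exp (2 * Real.pi * Complex.I * b / (cD d g : ℕ)) with hζ
  refine ⟨((cD d g : ℕ) : ℂ) ^ (-12 : ℤ) * ζ,
    mul_ne_zero (zpow_ne_zero _ hD0) (Complex.exp_ne_zero _), ?_⟩
  have h1 := ((tendsto_Delta.comp (tendsto_aff (cA d g) b (cD d g))).const_mul
    (((cD d g : ℕ) : ℂ) ^ (-12 : ℤ) * ζ))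
  rw [mul_one] at h1
  refine h1.congr fun τ => ?_
  rw [hb τ, Function.comp_apply]
  have h2 : ((aff (cA d g) b (cD d g) τ : ℍ) : ℂ) = ((cA d g : ℕ) * (τ : ℂ) + b) / (cD d g : ℕ) := rfl
  have h3 : ζ * Complex.exp (-(2 * Real.pi * Complex.I * (aff (cA d g) b (cD d g) τ : ℍ))) =
      Complex.exp (-(2 * Real.pi * Complex.I * (((cA d g : ℝ) / cD d g : ℝ) : ℂ) * τ)) := by
    rw [hζ, ← Complex.exp_add, h2]
    congr 1
    push_cast
    field_simp
    ring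
  rw [← h3]
  ring

/-! ### Exactness -/

theorem liftMod_ne_zero_of [NeZero d] (hd : d ∣ N) {F : ModularForm 𝒮ℒ 12} {τ : ℍ}
    (h : F (heckeDiagMatrix d • τ) ≠ 0) : (⇑(liftMod hd F) : ℍ → ℂ) ≠ 0 := by
  intro h0
  have := congrFun h0 τ
  rw [liftMod_apply] at this
  exact h this

theorem cuspVal_mul_of_ordInf [NeZero N] [NeZero d] (hd : d ∣ N) {F : ModularForm 𝒮ℒ 12}
    (hF : (⇑(liftMod hd F) : ℍ → ℂ) ≠ 0) {g : SL(2, ℤ)} {r : ℝ}
    (hr : OrdInf ((⇑(liftMod hd F) : ℍ → ℂ) ∣[(12 : ℤ)] g) r) :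
    (cuspVal g (wid N g) 12 (liftMod hd F) : ℝ) = r * wid N g := by
  haveI : NeZero (wid N g) := ⟨wid_ne_zero g⟩
  have hA := IsCharForm.of_modularForm (liftMod hd F)
  have h1 := hasPS_slash hA (wid_mem (N := N) g)
  have h2 : qExpansion (wid N g) ((⇑(liftMod hd F) : ℍ → ℂ) ∣[(12 : ℤ)] g) ≠ 0 := by
    rw [Ne, hasPS_qc_eq_zero_iff h1]
    exact slash_ne_zero hF g
  have h3 := (ordInf_of_hasPS h1 h2).unique hr
  have h4 : ((wid N g : ℕ) : ℝ) ≠ 0 := by exact_mod_cast wid_ne_zero (N := N) g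
  rw [← h3, div_mul_cancel₀ _ h4]
  unfold cuspVal
  push_cast
  rfl

theorem E4cube_ne_zero : ∃ τ : ℍ, E4cube τ ≠ 0 := by
  by_contra h
  push Not at h
  have h1 : (⇑E4cube : ℍ → ℂ) = fun _ => 0 := funext h
  have h2 := tendsto_E4cube
  rw [h1] at h2
  exact zero_ne_one (tendsto_nhds_unique tendsto_const_nhds h2)

theorem liftMod_E4cube_ne_zero [NeZero N] [NeZero d] (hd : d ∣ N) :
    (⇑(liftMod hd E4cube) : ℍ → ℂ) ≠ 0 := by
  have hA := IsCharForm.of_modularForm (liftMod hd E4cube)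
  intro h
  have h1 := (hasExp_qc_eq_zero_iff hA.hasExp).mpr h
  rw [LQ_liftMod] at h1
  have h2 : LQ E4cube = 0 := by
    ext n
    have h3 := congrArg (fun x : LaurentSeries ℂ => x.coeff ((d : ℤ) * n)) h1
    rw [qExpand_coeff_mul] at h3
    rw [h3]
    simp
  exact LQ_E4cube_ne_zero h2

variable {L : Type*} [Field L] [Algebra ℚ L] [Algebra L ℂ] [NeZero N]

/-- The order of `j(d τ)` at the cusp `g ∞`. -/
theorem valQ_jd_mul [NeZero d] (hd : d ∣ N) (g : SL(2, ℤ)) :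
    valQ N (cuspVal g (wid N g)) ((jd L d hd : FN L N) : LaurentSeries L) * (cD d g : ℤ) =
      -((wid N g : ℤ) * (cA d g : ℤ)) := by
  haveI : NeZero (wid N g) := ⟨wid_ne_zero g⟩
  have h0 : ((jd L d hd : FN L N) : LaurentSeries L) ≠ 0 := by
    intro h
    have h1 := jd_sub_ne_zero hd (0 : L)
    rw [map_zero, sub_zero] at h1
    exact h1 (Subtype.ext h)
  have hq : IsQuot N ((jd L d hd : FN L N) : LaurentSeries L) 12 (liftMod hd E4cube)
      (liftMod hd Delta) := by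
    have h1 := isQuot_jd_sub hd (0 : L)
    rw [map_zero, sub_zero, map_zero] at h1
    convert h1 using 1
    funext τ
    rw [liftMod_apply, PlacesExact.jNum, Pi.sub_apply, Pi.smul_apply, zero_smul, sub_zero]
  rw [valQ_eq (formVal_cuspVal (wid_mem (N := N) g)) hq h0]
  have h1 := cuspVal_mul_of_ordInf hd (liftMod_E4cube_ne_zero hd) (ordInf_liftMod_E4cube hd g)
  have h2 := cuspVal_mul_of_ordInf hd hq.den_ne (ordInf_liftMod_Delta hd g)
  rw [zero_mul] at h1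
  have h1' : cuspVal g (wid N g) 12 (liftMod hd E4cube) = 0 := by exact_mod_cast h1
  have hD : ((cD d g : ℕ) : ℝ) ≠ 0 := by exact_mod_cast cD_ne_zero (d := d) g
  have h3 : (cuspVal g (wid N g) 12 (liftMod hd Delta) : ℝ) * (cD d g : ℕ) =
      (wid N g : ℝ) * (cA d g : ℕ) := by
    rw [h2]
    field_simp
  have h4 : cuspVal g (wid N g) 12 (liftMod hd Delta) * (cD d g : ℤ) =
      (wid N g : ℤ) * (cA d g : ℤ) := by exact_mod_cast h3
  rw [h1', zero_sub, neg_mul, h4]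

/-- **Exactness at the cusps.** -/
theorem eq_one_of_hits {v : Place L (FN L N)} {g : SL(2, ℤ)} {e : ℕ}
    (h : Hits (cuspVal g (wid N g)) v e) : e = 1 := by
  have hne : ∀ (d : ℕ) [NeZero d] (hd : d ∣ N), jd L d hd ≠ 0 := by
    intro d _ hd
    have h1 := jd_sub_ne_zero hd (0 : L)
    rwa [map_zero, sub_zero] at h1
  -- `e` divides the width
  have h1 : e ∣ wid N g := by
    have h2 := valQ_jd_mul (L := L) (one_dvd N) g
    have h3 : cA 1 g = 1 := Nat.dvd_one.mp (cA_dvd g)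
    have h4 : cD 1 g = 1 := by rw [cD, h3]
    rw [h3, h4, h.2 _ (hne 1 (one_dvd N))] at h2
    have h5 : (e : ℤ) ∣ (wid N g : ℤ) := by
      refine ⟨-(v.ord (jd L 1 (one_dvd N))), ?_⟩
      push_cast at h2
      linear_combination h2
    exact_mod_cast h5
  -- `e` divides `a / gcd(a, d)`
  have hT0 : Nat.gcd (cA N g) (cD N g) ≠ 0 := by
    rw [Ne, Nat.gcd_eq_zero_iff]
    exact fun hc => cA_ne_zero (d := N) g hc.1
  have hW : wid N g * Nat.gcd (cA N g) (cD N g) = cD N g :=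
    Nat.div_mul_cancel (Nat.gcd_dvd_right _ _)
  have hA : cA N g / Nat.gcd (cA N g) (cD N g) * Nat.gcd (cA N g) (cD N g) = cA N g :=
    Nat.div_mul_cancel (Nat.gcd_dvd_left _ _)
  have h2 : e ∣ cA N g / Nat.gcd (cA N g) (cD N g) := by
    have h3 := valQ_jd_mul (L := L) (dvd_refl N) g
    rw [h.2 _ (hne N (dvd_refl N))] at h3
    have h5 : (e : ℤ) ∣ ((cA N g / Nat.gcd (cA N g) (cD N g) : ℕ) : ℤ) := by
      refine ⟨-(v.ord (jd L N (dvd_refl N))), ?_⟩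
      have hD : ((cD N g : ℕ) : ℤ) ≠ 0 := by exact_mod_cast cD_ne_zero (d := N) g
      apply mul_right_cancel₀ hD
      have hW' : (wid N g : ℤ) * (Nat.gcd (cA N g) (cD N g) : ℕ) = (cD N g : ℕ) := by
        exact_mod_cast hW
      have hA' : ((cA N g / Nat.gcd (cA N g) (cD N g) : ℕ) : ℤ) * (Nat.gcd (cA N g) (cD N g) : ℕ) =
          (cA N g : ℕ) := by exact_mod_cast hA
      linear_combination h3 - ((cA N g / Nat.gcd (cA N g) (cD N g) : ℕ) : ℤ) * hW' +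
        (wid N g : ℤ) * hA'
    exact_mod_cast h5
  have h3 : Nat.Coprime (cA N g / Nat.gcd (cA N g) (cD N g)) (wid N g) :=
    Nat.coprime_div_gcd_div_gcd (Nat.pos_of_ne_zero hT0)
  exact Nat.eq_one_of_dvd_coprimes h3 h2 h1

end Fermat.Agent.JAN.PlacesCusp
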