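import Fermat.Agent.JAN.KummerChar

/-!
# Basic properties of the relation `Rel N n χ f`

* `Rel.mul`, `Rel.one`, `Rel.inv`, `Rel.char_unique`, `Rel.pow_right`, `Rel.of_mul`;
* `exists_coeffs_of_pow`: a Laurent series over `ℂ` whose `n`-th power has coefficients in an
  algebraically closed subfield `L` has coefficients in `L`.
* `exists_rel_of_localDvd`: the Kummer character.
* `exists_isQuot`: elements of the function field of `X₀(N)` are quotients of forms.
-/

set_option autoImplicit false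

noncomputable section

open UpperHalfPlane CongruenceSubgroup ModularCurve FermatJ Filter AlgebraicCurve
open scoped MatrixGroups ModularForm Manifold Topology

namespace Fermat.Agent.JAN

/-! ### `n`-th roots of Laurent series and coefficient fields -/

section Coeffs

/-- A power series over `ℂ` whose `n`-th power has coefficients in a subfield `S`, and whose
constant coefficient is a nonzero element of `S`, has coefficients in `S`. -/
theorem coeff_mem_of_pow {n : ℕ} (hn : n ≠ 0) (S : Subfield ℂ) (P : PowerSeries ℂ)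
    (h0 : P.coeff 0 ∈ S) (h0' : P.coeff 0 ≠ 0) (hP : ∀ i, (P ^ n).coeff i ∈ S) :
    ∀ i, P.coeff i ∈ S := by
  set G := P ^ n with hG
  set d := PowerSeries.derivative (R := ℂ) with hd
  -- differential equation `n G P' = G' P`
  have hde : (n : PowerSeries ℂ) * G * d P = d G * P := by
    obtain ⟨m, rfl⟩ := Nat.exists_eq_succ_of_ne_zero hn
    rw [hG, Derivation.leibniz_pow, Nat.succ_sub_one]
    simp only [smul_eq_mul, nsmul_eq_mul]
    rw [pow_succ]
    push_cast
    ring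
  have hG0 : G.coeff 0 ≠ 0 := by
    rw [hG, PowerSeries.coeff_zero_eq_constantCoeff, map_pow,
      ← PowerSeries.coeff_zero_eq_constantCoeff]
    exact pow_ne_zero n h0'
  have hdG : ∀ i, (d G).coeff i ∈ S := by
    intro i
    rw [hd, PowerSeries.coeff_derivative]
    exact mul_mem (hP _) (add_mem (natCast_mem S i) (one_mem S))
  intro i
  induction i using Nat.strong_induction_on with
  | _ i ih =>
    rcases Nat.eq_zero_or_pos i with rfl | hi
    · exact h0
    obtain ⟨k, rfl⟩ : ∃ k, i = k + 1 := ⟨i - 1, by omega⟩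
    have h1 := congrArg (PowerSeries.coeff k) hde
    rw [mul_assoc, ← map_natCast (PowerSeries.C (R := ℂ)) n, PowerSeries.coeff_C_mul,
      PowerSeries.coeff_mul, PowerSeries.coeff_mul] at h1
    have hmem : ((0, k) : ℕ × ℕ) ∈ Finset.HasAntidiagonal.antidiagonal k := by
      rw [Finset.HasAntidiagonal.mem_antidiagonal]; simp
    rw [← Finset.add_sum_erase _ _ hmem] at h1
    have hcoef : ∀ j, (d P).coeff j = P.coeff (j + 1) * (j + 1) := by
      intro j
      rw [hd, PowerSeries.coeff_derivative]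
    have hR : ∑ p ∈ Finset.HasAntidiagonal.antidiagonal k, (d G).coeff p.1 * P.coeff p.2 ∈ S := by
      refine sum_mem fun p hp => mul_mem (hdG _) (ih _ ?_)
      rw [Finset.HasAntidiagonal.mem_antidiagonal] at hp
      omega
    have hT : ∑ p ∈ (Finset.HasAntidiagonal.antidiagonal k).erase (0, k), G.coeff p.1 * (d P).coeff p.2 ∈ S := by
      refine sum_mem fun p hp => mul_mem (hP _) ?_
      rw [Finset.mem_erase, Finset.HasAntidiagonal.mem_antidiagonal] at hp
      rw [hcoef]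
      refine mul_mem (ih _ ?_) (add_mem (natCast_mem S _) (one_mem S))
      rcases Nat.lt_or_ge p.2 k with h2 | h2
      · omega
      · exfalso
        apply hp.1
        ext
        · show p.1 = 0; omega
        · show p.2 = k; omega
    set R := ∑ p ∈ Finset.HasAntidiagonal.antidiagonal k, (d G).coeff p.1 * P.coeff p.2
    set T := ∑ p ∈ (Finset.HasAntidiagonal.antidiagonal k).erase (0, k), G.coeff p.1 * (d P).coeff p.2
    rw [hcoef] at h1
    have hn0 : (n : ℂ) ≠ 0 := by exact_mod_cast hn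
    have hk0 : ((k : ℂ) + 1) ≠ 0 := by exact_mod_cast Nat.succ_ne_zero k
    have h2 : P.coeff (k + 1) = (R - n * T) / (n * G.coeff 0 * (k + 1)) := by
      rw [eq_div_iff (mul_ne_zero (mul_ne_zero hn0 hG0) hk0), ← h1]
      ring
    rw [h2]
    refine div_mem (sub_mem hR (mul_mem (natCast_mem S n) hT))
      (mul_mem (mul_mem (natCast_mem S n) (hP 0)) (add_mem (natCast_mem S k) (one_mem S)))

variable {L : Type*} [Field L] [Algebra L ℂ]

theorem toC_injective : Function.Injective (toC : LaurentSeries L → LaurentSeries ℂ) := by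
  intro x y h
  ext k
  have := congrArg (fun z : LaurentSeries ℂ => z.coeff k) h
  exact (algebraMap L ℂ).injective this

theorem toC_zero : toC (0 : LaurentSeries L) = 0 := map_zero (coeffMap (algebraMap L ℂ))

theorem toC_one : toC (1 : LaurentSeries L) = 1 := map_one (coeffMap (algebraMap L ℂ))

theorem toC_mul (x y : LaurentSeries L) : toC (x * y) = toC x * toC y :=
  map_mul (coeffMap (algebraMap L ℂ)) x y

theorem toC_add (x y : LaurentSeries L) : toC (x + y) = toC x + toC y :=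
  map_add (coeffMap (algebraMap L ℂ)) x y

theorem toC_pow (x : LaurentSeries L) (n : ℕ) : toC (x ^ n) = toC x ^ n :=
  map_pow (coeffMap (algebraMap L ℂ)) x n

theorem toC_inv (x : LaurentSeries L) : toC x⁻¹ = (toC x)⁻¹ :=
  map_inv₀ (coeffMap (algebraMap L ℂ)) x

theorem toC_div (x y : LaurentSeries L) : toC (x / y) = toC x / toC y :=
  map_div₀ (coeffMap (algebraMap L ℂ)) x y

theorem toC_ne_zero {x : LaurentSeries L} (hx : x ≠ 0) : toC x ≠ 0 := by
  intro h
  exact hx (toC_injective (h.trans (map_zero _).symm))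

/-- A Laurent series with all its coefficients in `L` comes from `L((q))`. -/
theorem exists_toC_eq {x : LaurentSeries ℂ} (h : ∀ k, x.coeff k ∈ (algebraMap L ℂ).fieldRange) :
    ∃ y : LaurentSeries L, toC y = x := by
  obtain ⟨φ, hφ⟩ := (Algebra.linearMap L ℂ).exists_leftInverse_of_injective
    (LinearMap.ker_eq_bot.mpr (algebraMap L ℂ).injective)
  refine ⟨MFF.coeffLin φ x, ?_⟩
  ext k
  obtain ⟨a, ha⟩ := h k
  show algebraMap L ℂ (φ (x.coeff k)) = x.coeff k
  rw [← ha]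
  congr 1
  exact LinearMap.congr_fun hφ a

/-- **Descent of `n`-th roots.** -/
theorem exists_coeffs_of_pow [IsAlgClosed L] {n : ℕ} (hn : n ≠ 0) {x : LaurentSeries ℂ}
    {g : LaurentSeries L} (h : x ^ n = toC g) : ∃ y : LaurentSeries L, toC y = x := by
  rcases eq_or_ne x 0 with rfl | hx
  · exact ⟨0, map_zero _⟩
  set S : Subfield ℂ := (algebraMap L ℂ).fieldRange with hS
  set m := x.order with hm
  set P := x.powerSeriesPart with hP
  have hxP : (HahnSeries.single m 1 : LaurentSeries ℂ) * HahnSeries.ofPowerSeries ℤ ℂ P = x :=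
    LaurentSeries.single_order_mul_powerSeriesPart x
  have hPn : ∀ i : ℕ, (P ^ n).coeff i ∈ S := by
    intro i
    have h1 : x ^ n = HahnSeries.single (n • m) 1 * HahnSeries.ofPowerSeries ℤ ℂ (P ^ n) := by
      rw [← hxP, mul_pow, HahnSeries.single_pow, one_pow, map_pow]
    have h2 : (x ^ n).coeff (n • m + i) = (P ^ n).coeff i := by
      rw [h1, HahnSeries.coeff_single_mul, one_mul]
      rw [show (n • m + (i : ℤ)) - n • m = (i : ℤ) by ring]
      exact HahnSeries.ofPowerSeries_apply_coeff _ _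
    rw [← h2, h]
    exact ⟨g.coeff _, rfl⟩
  have hP0 : P.coeff 0 ≠ 0 := by
    rw [hP, LaurentSeries.powerSeriesPart_coeff]
    simpa using HahnSeries.coeff_order_eq_zero.not.mpr hx
  have hP0' : P.coeff 0 ∈ S := by
    obtain ⟨a, ha⟩ := hPn 0
    have h3 : P.coeff 0 ^ n = algebraMap L ℂ a := by
      rw [ha, PowerSeries.coeff_zero_eq_constantCoeff, map_pow]
    have h4 : IsIntegral L (P.coeff 0) :=
      IsIntegral.of_pow (Nat.pos_of_ne_zero hn) (by rw [h3]; exact isIntegral_algebraMap)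
    obtain ⟨b, hb⟩ := (IsAlgClosed.algebraMap_bijective_of_isIntegral (k := L)
      (K := integralClosure L ℂ)).2 ⟨P.coeff 0, h4⟩
    exact ⟨b, congrArg Subtype.val hb⟩
  have hcoef := coeff_mem_of_pow hn S P hP0' hP0 hPn
  refine exists_toC_eq fun k => ?_
  rw [← hxP, HahnSeries.coeff_single_mul, one_mul]
  rcases lt_or_ge (k - m) 0 with h7 | h7
  · rw [ofPowerSeries_coeff_of_neg _ h7]
    exact zero_mem S
  · lift k - m to ℕ using h7 with j hj
    rw [HahnSeries.ofPowerSeries_apply_coeff]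
    exact hcoef j

end Coeffs

/-! ### the relation `Rel` -/

section Chi

variable {N : ℕ}

theorem chi_one_mul (χ : Gamma0 N →* ℂˣ) : 1 * χ = χ := by ext; simp

theorem chi_mul_one (χ : Gamma0 N →* ℂˣ) : χ * 1 = χ := by ext; simp

theorem chi_one_pow (m : ℕ) : (1 : Gamma0 N →* ℂˣ) ^ m = 1 := by ext; simp

theorem chi_pow_zero (χ : Gamma0 N →* ℂˣ) : χ ^ 0 = 1 := by ext; simp

theorem chi_pow_succ (χ : Gamma0 N →* ℂˣ) (m : ℕ) : χ ^ (m + 1) = χ ^ m * χ := by
  ext; simp [pow_succ]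

theorem chi_inv_eq (χ : Gamma0 N →* ℂˣ) {m : ℕ} (h : χ ^ (m + 1) = 1) : χ⁻¹ = χ ^ m := by
  ext γ
  have h1 := DFunLike.congr_fun h γ
  rw [MonoidHom.pow_apply, MonoidHom.one_apply, pow_succ] at h1
  have h2 : (χ γ)⁻¹ = χ γ ^ m := inv_eq_of_mul_eq_one_left h1
  show (((χ γ)⁻¹ : ℂˣ) : ℂ) = _
  rw [h2, MonoidHom.pow_apply]

end Chi

section Rel

variable {N n : ℕ} {L : Type*} [Field L] [Algebra L ℂ] {χ ψ : Gamma0 N →* ℂˣ}
  {f g : LaurentSeries L}

theorem funpow (E : ℍ → ℂ) (n : ℕ) : (fun τ => E τ ^ n) = E ^ n := rfl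

/-- Unfolded form of `Rel`. -/
theorem rel_iff : Rel N n χ f ↔ ∃ (k : ℤ) (B E : ℍ → ℂ) (β : LaurentSeries ℂ),
    IsCharForm N k 1 B ∧ IsCharForm N k χ E ∧ B ≠ 0 ∧ E ≠ 0 ∧
    HasExp (qc 1) B β ∧ HasExp (qc 1) (E ^ n) (toC f * β ^ n) := by
  simp only [Rel, ne_zero_iff_exists]
  rfl

theorem pow_ne_zero' {E : ℍ → ℂ} (hE0 : E ≠ 0) (n : ℕ) : E ^ n ≠ 0 := by
  obtain ⟨τ, hτ⟩ := ne_zero_iff_exists.mp hE0
  exact ne_zero_iff_exists.mpr ⟨τ, pow_ne_zero n hτ⟩

theorem Rel.ne_zero (h : Rel N n χ f) : f ≠ 0 := by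
  obtain ⟨k, B, E, β, hB, hE, hB0, hE0, hβ, hf⟩ := rel_iff.mp h
  rintro rfl
  rw [toC_zero, zero_mul] at hf
  exact pow_ne_zero' hE0 n ((hasExp_qc_eq_zero_iff hf).mp rfl)

theorem Rel.one : Rel N n 1 (1 : LaurentSeries L) := by
  refine rel_iff.mpr ⟨0, 1, 1, 1, IsCharForm.one N, IsCharForm.one N, one_ne_zero, one_ne_zero,
    HasExp.one _, ?_⟩
  rw [toC_one, one_pow, one_pow, mul_one]
  exact HasExp.one _

theorem Rel.mul (hf : Rel N n χ f) (hg : Rel N n ψ g) : Rel N n (χ * ψ) (f * g) := by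
  obtain ⟨k, B, E, β, hB, hE, hB0, hE0, hβ, hf⟩ := rel_iff.mp hf
  obtain ⟨k', B', E', β', hB', hE', hB0', hE0', hβ', hg⟩ := rel_iff.mp hg
  refine rel_iff.mpr ⟨k + k', B * B', E * E', β * β', (hB.mul hB').congr_char (chi_one_mul 1),
    hE.mul hE', mdiff_mul_ne_zero hB.holo hB'.holo hB0 hB0',
    mdiff_mul_ne_zero hE.holo hE'.holo hE0 hE0', hβ.mul hβ', ?_⟩
  have h1 := hf.mul hg
  rw [toC_mul, mul_pow, mul_pow]
  rw [show toC f * toC g * (β ^ n * β' ^ n) = toC f * β ^ n * (toC g * β' ^ n) by ring]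
  exact h1

/-- The value of the expansions of `E ^ n * B' = A * B ^ n` etc.: two forms with the same
expansion agree. -/
theorem Rel.char_unique (hn : n ≠ 0) (hf : Rel N n χ f) (hg : Rel N n ψ f) : χ = ψ := by
  obtain ⟨k, B, E, β, hB, hE, hB0, hE0, hβ, hf⟩ := rel_iff.mp hf
  obtain ⟨k', B', E', β', hB', hE', hB0', hE0', hβ', hg⟩ := rel_iff.mp hg
  have h1 : (E * B') ^ n = (E' * B) ^ n := by
    have h2 := hf.mul (hβ'.pow n)
    have h3 := hg.mul (hβ.pow n)
    rw [show toC f * β' ^ n * β ^ n = toC f * β ^ n * β' ^ n by ring] at h3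
    have h4 := eq_of_hasExp h2 h3
    rw [mul_pow, mul_pow]
    exact h4
  obtain ⟨ζ, hζ, h5⟩ := eq_const_mul_of_pow_eq hn (hE.holo.mul hB'.holo) (hE'.holo.mul hB.holo) h1
  have h6 : IsCharForm N (k + k') χ (E * B') := (hE.mul hB').congr_char (chi_mul_one χ)
  have h7 : IsCharForm N (k + k') ψ (E * B') := by
    rw [h5]
    exact (((hE'.mul hB).cast (add_comm _ _)).congr_char (chi_mul_one ψ)).smul ζ
  obtain ⟨τ, hτ⟩ := ne_zero_iff_exists.mp (mdiff_mul_ne_zero hE.holo hB'.holo hE0 hB0')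
  ext γ
  have h8 := (h6.slash γ).symm.trans (h7.slash γ)
  have h9 := congrFun h8 τ
  simp only [Pi.smul_apply, smul_eq_mul] at h9
  exact mul_right_cancel₀ hτ h9

theorem Rel.pow (hf : Rel N n χ f) (m : ℕ) : Rel N n (χ ^ m) (f ^ m) := by
  induction m with
  | zero => rw [chi_pow_zero, pow_zero]; exact Rel.one
  | succ m ih => rw [chi_pow_succ, pow_succ]; exact ih.mul hf

/-- `f = (E / B) ^ (n m) = (E ^ m / B ^ m) ^ n`. -/
theorem Rel.of_mul_right {m : ℕ} (hf : Rel N (n * m) χ f) : Rel N n (χ ^ m) f := by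
  obtain ⟨k, B, E, β, hB, hE, hB0, hE0, hβ, hf⟩ := rel_iff.mp hf
  refine rel_iff.mpr ⟨m * k, B ^ m, E ^ m, β ^ m, (hB.pow m).congr_char (chi_one_pow m), hE.pow m,
    pow_ne_zero' hB0 m, pow_ne_zero' hE0 m, hβ.pow m, ?_⟩
  rw [← pow_mul, ← pow_mul, mul_comm m n]
  exact hf

/-- If `f = (E / B) ^ n` then `f ^ m = (E / B) ^ (n m)`. -/
theorem Rel.mul_pow {m : ℕ} (hf : Rel N n χ f) : Rel N (n * m) χ (f ^ m) := by
  obtain ⟨k, B, E, β, hB, hE, hB0, hE0, hβ, hf⟩ := rel_iff.mp hf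
  refine rel_iff.mpr ⟨k, B, E, β, hB, hE, hB0, hE0, hβ, ?_⟩
  rw [pow_mul, pow_mul, toC_pow, ← _root_.mul_pow]
  exact hf.pow m

theorem Rel.inv (hf : Rel N n χ f) {m : ℕ} (hm : m ≠ 0) (hχ : χ ^ m = 1) : Rel N n χ⁻¹ f⁻¹ := by
  have hf0 := hf.ne_zero
  obtain ⟨k, B, E, β, hB, hE, hB0, hE0, hβ, hf⟩ := rel_iff.mp hf
  obtain ⟨m, rfl⟩ := Nat.exists_eq_succ_of_ne_zero hm
  -- `f⁻¹ = (B E ^ m / E ^ (m + 1)) ^ n`
  have hχ' : χ⁻¹ = χ ^ m := chi_inv_eq χ hχ
  have hEm : IsCharForm N (m * k) (χ ^ m) (E ^ m) := hE.pow m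
  have hEm1 : IsCharForm N ((m + 1 : ℕ) * k) 1 (E ^ (m + 1)) := (hE.pow (m + 1)).congr_char hχ
  have hnum : IsCharForm N ((m + 1 : ℕ) * k) χ⁻¹ (B * E ^ m) := by
    refine ((hB.mul hEm).cast ?_).congr_char ?_
    · push_cast; ring
    · rw [chi_one_mul, hχ']
  have hexpE := hEm1.hasExp
  set ε := MFF.LQ (E ^ (m + 1)) with hε
  have hεn : ε ^ n = (toC f * β ^ n) ^ (m + 1) := by
    refine (hexpE.pow n).unique (eventually_mem_range_qc 1) ((hf.pow (m + 1)).congr fun τ => ?_)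
    simp only [Pi.pow_apply]
    ring
  refine rel_iff.mpr ⟨_, E ^ (m + 1), B * E ^ m, ε, hEm1, hnum, pow_ne_zero' hE0 _,
    mdiff_mul_ne_zero hB.holo hEm.holo hB0 (pow_ne_zero' hE0 _), hexpE, ?_⟩
  have h1 : HasExp (qc 1) ((B * E ^ m) ^ n) (β ^ n * (toC f * β ^ n) ^ m) := by
    refine ((hβ.pow n).mul (hf.pow m)).congr fun τ => ?_
    simp only [Pi.pow_apply, Pi.mul_apply]
    ring
  rw [hεn, toC_inv]
  have hf0' : toC f ≠ 0 := toC_ne_zero hf0
  rw [pow_succ (toC f * β ^ n) m, show (toC f)⁻¹ * ((toC f * β ^ n) ^ m * (toC f * β ^ n)) =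
    ((toC f)⁻¹ * toC f) * (β ^ n * (toC f * β ^ n) ^ m) by ring, inv_mul_cancel₀ hf0', one_mul]
  exact h1

theorem Rel.div (hf : Rel N n χ f) (hg : Rel N n ψ g) {m : ℕ} (hm : m ≠ 0) (hψ : ψ ^ m = 1) :
    Rel N n (χ * ψ⁻¹) (f / g) := by
  rw [div_eq_mul_inv]
  exact hf.mul (hg.inv hm hψ)

end Rel

end Fermat.Agent.JAN
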