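import Mathlib
import Fermat.Agent.JAN.PlacesCusp
import Fermat.Agent.JAN.RelBasic
import Fermat.Agent.JAN.Chars
import Fermat.Agent.JAN.KumPic
import Fermat.Agent.Jan.DegreeWiring

/-!
# Places of the modular function field

* `place_analytic`: every place of `F_N(L)`, `L ⊆ ℂ` algebraically closed, is given by a point
  of `ℍ` (with exact ramification) or by a cusp.
* `dvdOrd_of_rel`: if `f = (E / B) ^ n` with `E` of character `χ`, `χ ^ n = 1` and `χ` kills the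
  parabolic and elliptic elements then all orders of `f` are divisible by `n`.
-/

set_option autoImplicit false
set_option linter.style.haveILetI false
set_option linter.unusedSectionVars false

noncomputable section

open UpperHalfPlane CongruenceSubgroup ModularCurve FermatJ Filter Set AlgebraicCurve
open scoped MatrixGroups ModularForm Manifold Topology

namespace Fermat.Agent.JAN.Places

open Fermat.Agent.JAN.PlacesConst Fermat.Agent.JAN.PlacesVal
open Fermat.Agent.JAN.PlacesExact Fermat.Agent.JAN.PlacesCusp Fermat.Agent.JAN.KumPic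

variable {L : Type*} [Field L] [Algebra ℚ L] [Algebra L ℂ] [IsAlgClosed L] {N : ℕ} [NeZero N]

/-- **Every place of the modular function field is analytic, with exact ramification.** -/
theorem place_analytic (v : Place L (FN L N)) :
    (∃ (τ : ℍ) (e : ℕ), 0 < e ∧
      (∀ m : ℤ, (∀ γ : Gamma0 N, (γ : SL(2, ℤ)) • τ = τ →
        denom (γ : SL(2, ℤ)) τ ^ (2 * m) = 1) → (e : ℤ) ∣ m) ∧
      ∀ (f : FN L N) (k : ℤ) (A B : ℍ → ℂ), f ≠ 0 → IsQuot N (f : LaurentSeries L) k A B →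
        (ordH A τ : ℤ) - ordH B τ = e * v.ord f) ∨
    (∃ g : SL(2, ℤ), ∀ (f : FN L N) (k : ℤ) (A B : ℍ → ℂ), f ≠ 0 →
      IsQuot N (f : LaurentSeries L) k A B → ∀ P Q : PowerSeries ℂ,
        HasPS (qc (wid N g)) (A ∣[k] g) P → HasPS (qc (wid N g)) (B ∣[k] g) Q →
          (P.order.toNat : ℤ) - Q.order.toNat = v.ord f) := by
  have hJ := Fermat.Agent.Jan.DegreeWiring.jAlg
  rcases exists_hits hJ (wid N) (fun g => wid_ne_zero g) (fun g => wid_mem g) v with ⟨τ, e, h⟩ | ⟨g, e, h⟩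
  · left
    refine ⟨τ, e, h.1, fun m hm => dvd_of_hits hJ h hm, ?_⟩
    intro f k A B hf0 hf
    have hf0' : (f : LaurentSeries L) ≠ 0 := fun h => hf0 (Subtype.ext h)
    rw [← h.2 f hf0, valQ_eq (formVal_ptVal N τ) hf hf0']
    rfl
  · right
    refine ⟨g, ?_⟩
    intro f k A B hf0 hf P Q hP hQ
    haveI : NeZero (wid N g) := ⟨wid_ne_zero g⟩
    have hf0' : (f : LaurentSeries L) ≠ 0 := fun h => hf0 (Subtype.ext h)
    have h1 := h.2 f hf0
    rw [eq_one_of_hits h, valQ_eq (formVal_cuspVal (wid_mem g)) hf hf0',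
      cuspVal_eq (wid_mem g) hf.num hP, cuspVal_eq (wid_mem g) hf.den hQ] at h1
    simpa using h1

/-- A matrix with a fixed point in `ℍ` has `trace² ≤ 4`. -/
theorem trace_sq_le_of_fixed {γ : SL(2, ℤ)} {τ : ℍ} (h : γ • τ = τ) :
    (γ : Matrix (Fin 2) (Fin 2) ℤ).trace ^ 2 ≤ 4 := by
  have hdet : (γ 0 0 : ℤ) * γ 1 1 - γ 0 1 * γ 1 0 = 1 := by
    have := γ.det_coe
    rwa [Matrix.det_fin_two] at this
  have hne := denom_ne_zero γ τ
  rw [ModularGroup.denom_apply] at hne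
  have h1 := congrArg (fun z : ℍ => (z : ℂ)) h
  rw [coe_specialLinearGroup_apply] at h1
  simp only [algebraMap_int_eq, eq_intCast, Complex.ofReal_intCast] at h1
  rw [div_eq_iff hne] at h1
  have h2 := congrArg Complex.re h1
  have h3 := congrArg Complex.im h1
  simp only [Complex.add_re, Complex.mul_re, Complex.add_im, Complex.mul_im, Complex.intCast_re,
    Complex.intCast_im, coe_re, coe_im, zero_mul, sub_zero, add_zero] at h2 h3
  set x := τ.re
  set y := τ.im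
  have hy : 0 < y := τ.im_pos
  have hx : (2 : ℝ) * (γ 1 0 : ℤ) * x = (γ 0 0 : ℤ) - (γ 1 1 : ℤ) := by
    apply mul_right_cancel₀ hy.ne'
    linear_combination -h3
  have hb : ((γ 0 1 : ℤ) : ℝ) = -((γ 1 0 : ℤ) : ℝ) * (x ^ 2 + y ^ 2) := by
    linear_combination h2 + x * hx
  have hdet' : ((γ 0 0 : ℤ) : ℝ) * (γ 1 1 : ℤ) - (γ 0 1 : ℤ) * (γ 1 0 : ℤ) = 1 := by
    exact_mod_cast hdet
  have key : (((γ 0 0 : ℤ) : ℝ) + (γ 1 1 : ℤ)) ^ 2 = 4 - 4 * ((γ 1 0 : ℤ) : ℝ) ^ 2 * y ^ 2 := by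
    have h4 : (((γ 0 0 : ℤ) : ℝ) + (γ 1 1 : ℤ)) ^ 2 =
        (((γ 0 0 : ℤ) : ℝ) - (γ 1 1 : ℤ)) ^ 2 + 4 * (((γ 0 0 : ℤ) : ℝ) * (γ 1 1 : ℤ)) := by ring
    rw [h4, ← hx]
    linear_combination 4 * hdet' + 4 * ((γ 1 0 : ℤ) : ℝ) * hb
  rw [Matrix.trace_fin_two]
  have h5 : (((γ 0 0 : ℤ) : ℝ) + (γ 1 1 : ℤ)) ^ 2 ≤ 4 := by
    rw [key]
    nlinarith [mul_nonneg (sq_nonneg ((γ 1 0 : ℤ) : ℝ)) (sq_nonneg y)]
  exact_mod_cast h5

theorem trace_conj_T_pow (g : SL(2, ℤ)) (h : ℕ) :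
    ((g * ModularGroup.T ^ h * g⁻¹ : SL(2, ℤ)) : Matrix (Fin 2) (Fin 2) ℤ).trace = 2 := by
  have hT : ((ModularGroup.T ^ h : SL(2, ℤ)) : Matrix (Fin 2) (Fin 2) ℤ) = !![1, (h : ℤ); 0, 1] := by
    have := ModularGroup.coe_T_zpow (h : ℤ)
    rwa [zpow_natCast] at this
  rw [Matrix.SpecialLinearGroup.coe_mul, Matrix.trace_mul_comm, ← Matrix.SpecialLinearGroup.coe_mul,
    inv_mul_cancel_left, hT, Matrix.trace_fin_two_of]
  norm_num

/-- **Divisibility of the orders of `(E / B) ^ n`.** -/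
theorem dvdOrd_of_rel {n : ℕ} {χ : Gamma0 N →* ℂˣ} (hχ : χ ^ n = 1) (hk : Kills χ) {f : FN L N}
    (hf0 : f ≠ 0) (hf : Rel N n χ (f : LaurentSeries L)) : DvdOrd L n f := by
  intro v
  obtain ⟨k, B, E, β, hB, hE, hB0, hE0, hβ, hexp⟩ := rel_iff.mp hf
  have hq : IsQuot N (f : LaurentSeries L) (n * k) (E ^ n) (B ^ n) :=
    ⟨(hE.pow n).congr_char hχ, (hB.pow n).congr_char (chi_one_pow n), pow_ne_zero' hB0 n, β ^ n,
      hβ.pow n, hexp⟩
  rcases place_analytic v with ⟨τ, e, he, hdvd, h⟩ | ⟨g, h⟩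
  · have h1 := h f _ _ _ hf0 hq
    rw [PlacesVal.ordH_pow hE.holo, PlacesVal.ordH_pow hB.holo] at h1
    obtain ⟨m, hm⟩ := hdvd ((ordH E τ : ℤ) - ordH B τ) (by
      intro γ hγ
      have h2 := mult_compare hE.holo hE0 hB.holo hB0 (hE.slash γ) (hB.slash γ) hγ
      have h3 := hk γ (trace_sq_le_of_fixed hγ)
      rw [h3, MonoidHom.one_apply, Units.val_one, one_mul] at h2
      exact h2)
    have he' : (e : ℤ) ≠ 0 := by exact_mod_cast he.ne'
    refine ⟨m, ?_⟩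
    apply mul_left_cancel₀ he'
    rw [← h1]
    push_cast
    linear_combination (n : ℤ) * hm
  · haveI : NeZero (wid N g) := ⟨wid_ne_zero g⟩
    have hW := wid_mem (N := N) g
    have hEg : (E ∣[k] g) ∣[k] (ModularGroup.T ^ ((wid N g : ℕ) : ℤ) : SL(2, ℤ)) = E ∣[k] g := by
      have h1 := hE.slash ⟨_, hW⟩
      have h2 := hk ⟨_, hW⟩ (by
        have h3 := trace_conj_T_pow g (wid N g)
        show ((g * ModularGroup.T ^ (wid N g) * g⁻¹ : SL(2, ℤ)) :
          Matrix (Fin 2) (Fin 2) ℤ).trace ^ 2 ≤ 4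
        rw [h3]
        norm_num)
      rw [h2, Units.val_one, one_smul] at h1
      rw [zpow_natCast, ← SlashAction.slash_mul]
      have h2 : g * ModularGroup.T ^ (wid N g) = (g * ModularGroup.T ^ (wid N g) * g⁻¹) * g := by
        group
      rw [h2, SlashAction.slash_mul]
      exact congrArg (· ∣[k] g) h1
    have hP := hasPS_of_slash_T hEg (mdiff_slash hE.holo g) (hE.bdd g)
    have hQ := hasPS_slash hB hW
    have hP' := hP.pow n
    have hQ' := hQ.pow n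
    rw [show (fun τ => (E ∣[k] g) τ ^ n) = (E ^ n) ∣[(n : ℤ) * k] g from (pow_slash k n g E).symm]
      at hP'
    rw [show (fun τ => (B ∣[k] g) τ ^ n) = (B ^ n) ∣[(n : ℤ) * k] g from (pow_slash k n g B).symm]
      at hQ'
    rw [← h f _ _ _ hf0 hq _ _ hP' hQ', PowerSeries.order_pow, PowerSeries.order_pow]
    simp only [nsmul_eq_mul, ENat.toNat_mul, ENat.toNat_natCast]
    push_cast
    exact ⟨_, (mul_sub (n : ℤ) _ _).symm⟩

end Fermat.Agent.JAN.Places
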