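import Mathlib
import Fermat.Agent.JAN.Places
import Fermat.Agent.JAN.KummerDvd

/-!
# Description of the places of the modular function field

`placesDesc : PlacesDesc N L` for `L ⊆ ℂ` algebraically closed.
-/

set_option autoImplicit false
set_option linter.style.haveILetI false

noncomputable section

open UpperHalfPlane CongruenceSubgroup ModularCurve FermatJ Filter Set AlgebraicCurve
open scoped MatrixGroups ModularForm Manifold Topology

namespace Fermat.Agent.JAN.PlacesDesc

open Fermat.Agent.JAN.PlacesVal Fermat.Agent.JAN.PlacesCusp Fermat.Agent.JAN.Places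

variable {L : Type*} [Field L] [Algebra ℚ L] [Algebra L ℂ] [IsAlgClosed L] {N : ℕ} [NeZero N]

theorem even_card_stabilizer (N : ℕ) (τ : ℍ) :
    Even (Nat.card (MulAction.stabilizer (Gamma0 N) τ)) := by
  have hmem : (-1 : SL(2, ℤ)) ∈ Gamma0 N := by
    rw [Gamma0_mem]
    simp
  have hfix : ((⟨-1, hmem⟩ : Gamma0 N) : SL(2, ℤ)) • τ = τ := by
    show (-1 : SL(2, ℤ)) • τ = τ
    rw [ModularGroup.SL_neg_smul, one_smul]
  have h1 := denom_pow_card hfix
  have h2 : denom ((⟨-1, hmem⟩ : Gamma0 N) : SL(2, ℤ)) τ = -1 := by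
    show denom (-1 : SL(2, ℤ)) τ = -1
    simp [denom]
  rw [h2] at h1
  exact (neg_one_pow_eq_one_iff_even (by norm_num)).mp h1

/-- **P4b**: every place of the function field of `X₀(N)` over `L` is given by a point of `ℍ` or
a cusp. -/
theorem placesDesc : PlacesDesc N L := by
  intro v
  rcases place_analytic v with ⟨τ, e, he, hdvd, h⟩ | ⟨g, h⟩
  · left
    refine ⟨τ, ?_⟩
    have hcard : 2 * e = Nat.card (MulAction.stabilizer (Gamma0 N) τ) := by
      apply Nat.dvd_antisymm
      · obtain ⟨m, hm⟩ := even_card_stabilizer N τ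
        have h1 : (e : ℤ) ∣ (m : ℤ) := hdvd m fun γ hγ => by
          have h2 := denom_pow_card hγ
          rw [hm, ← two_mul] at h2
          exact_mod_cast h2
        have h2 : e ∣ m := by exact_mod_cast h1
        rw [hm, ← two_mul]
        exact mul_dvd_mul_left 2 h2
      · obtain ⟨x, hx⟩ := Fermat.FF.exists_ord_eq_one v
        have hx0 : x ≠ 0 := Fermat.FF.ne_zero_of_ord_ne_zero v (by rw [hx]; exact one_ne_zero)
        obtain ⟨k, A, B, hq⟩ := PlacesVal.exists_isQuot x
        have hA0 : A ≠ 0 := isQuot_num_ne_zero hq fun h => hx0 (Subtype.ext h)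
        have h1 := h x k A B hx0 hq
        rw [hx, mul_one] at h1
        have h2 : (Nat.card (MulAction.stabilizer (Gamma0 N) τ) : ℤ) ∣ 2 * (e : ℤ) := by
          apply card_stabilizer_dvd
          intro γ hγ
          have h3 := mult_compare hq.num.holo hA0 hq.den.holo hq.den_ne (hq.num.slash γ)
            (hq.den.slash γ) hγ
          rw [MonoidHom.one_apply, Units.val_one, one_mul, h1] at h3
          exact h3
        exact_mod_cast h2
    intro x k A B hx0 hq
    rw [h x k A B hx0 hq, ← hcard]
    push_cast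
    ring
  · right
    exact ⟨g, wid N g, wid_ne_zero g, wid_mem g, h⟩

end Fermat.Agent.JAN.PlacesDesc
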