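import Mathlib
import Fermat.Agent.JAN.Assemble
import Fermat.Agent.JAN.PlacesDesc

/-!
# `GAL.JanMain N`, unconditionally

`J₀(N)[n]` is isomorphic with the group of homomorphisms `Γ₀(N) → ℤ/n` killing the parabolic and
elliptic elements, compatibly with the Hecke operators.
-/

set_option autoImplicit false

noncomputable section

open UpperHalfPlane CongruenceSubgroup ModularCurve AlgebraicCurve
open scoped MatrixGroups ModularForm

namespace Fermat.Agent.JAN

/-- **The main theorem of team JAN.** -/
theorem janMain (N : ℕ) [NeZero N] : Fermat.Agent.GAL.JanMain N := by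
  letI : Algebra (AlgebraicClosure ℚ) ℂ := algebraQbarC
  exact janMain_of_places PlacesDesc.placesDesc PlacesDesc.placesDesc

end Fermat.Agent.JAN
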