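import Fermat.Agent.JAN.Degeneracy
import Fermat.Agent.FlatMatch.Datum

/-!
# Degeneracy maps `α^*, β^* : J₀(N) → J₀(Nq)`, `α_*, β_* : J₀(Nq) → J₀(N)` and `w_q`
-/

set_option autoImplicit false
set_option linter.unusedSectionVars false
set_option linter.style.haveILetI false

noncomputable section

open AlgebraicCurve ModularCurve SemilinearAut

namespace Fermat.Agent.JAN.Degeneracy

open Fermat.Agent.Jan.HeckeCommute Fermat.Agent.Jan.PushPull
  Fermat.Agent.Jan.RelFundamental Fermat.Agent.Jan.DegreeWiring Fermat.Agent.S28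
  Fermat.Agent.DR.S36 Fermat.Agent.JAN.Square Fermat.Agent.JAN.KumPic

section AL

variable {L : Type} [Field L] [Algebra ℚ L] [IsAlgClosed L] {N q : ℕ} [NeZero N] [NeZero q]
  {w : laurentBaseChange L (modularFunctionFieldFull (N * q)) ≃ₐ[L]
    laurentBaseChange L (modularFunctionFieldFull (N * q))}

theorem IsAL.invol' (hq : q.Prime) (hw : DR.Mod.IsAL w) (x) : w (w x) = x := by
  have h : (w : laurentBaseChange L (modularFunctionFieldFull (N * q)) →+*
      laurentBaseChange L (modularFunctionFieldFull (N * q))).comp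
      (w : laurentBaseChange L (modularFunctionFieldFull (N * q)) →+*
      laurentBaseChange L (modularFunctionFieldFull (N * q))) = RingHom.id _ := by
    refine DR.ModGal.hom_ext_alpha_beta hq (fun c => ?_) (fun y => ?_) (fun y => ?_)
    · simp only [RingHom.comp_apply, RingHom.coe_coe, RingHom.id_apply]
      rw [AlgEquiv.commutes, AlgEquiv.commutes]
    · simp only [RingHom.comp_apply, RingHom.coe_coe, RingHom.id_apply]
      rw [hw.alpha, hw.beta]
    · simp only [RingHom.comp_apply, RingHom.coe_coe, RingHom.id_apply]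
      rw [hw.beta, hw.alpha]
  exact RingHom.congr_fun h x

/-- `β_* = α_* w_*`. -/
theorem push_beta_eq (hw : DR.Mod.IsAL w)
    (x : Pic0 L (laurentBaseChange L (modularFunctionFieldFull (N * q)))) :
    push (heckeBetaBar L N q) x = push (heckeAlphaBar L N q) (push w.toAlgHom x) := by
  rw [← push_comp]
  have : w.toAlgHom.comp (heckeAlphaBar L N q) = heckeBetaBar L N q :=
    AlgHom.ext fun y => hw.alpha y
  rw [this]

/-- `α_* = β_* w_*`. -/
theorem push_alpha_eq (hw : DR.Mod.IsAL w)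
    (x : Pic0 L (laurentBaseChange L (modularFunctionFieldFull (N * q)))) :
    push (heckeAlphaBar L N q) x = push (heckeBetaBar L N q) (push w.toAlgHom x) := by
  rw [← push_comp]
  have : w.toAlgHom.comp (heckeBetaBar L N q) = heckeAlphaBar L N q :=
    AlgHom.ext fun y => hw.beta y
  rw [this]

/-- `β^* = w^* α^*`. -/
theorem pull_beta_eq (hw : DR.Mod.IsAL w)
    (x : Pic0 L (laurentBaseChange L (modularFunctionFieldFull N))) :
    pull (heckeBetaBar L N q) x = pull w.toAlgHom (pull (heckeAlphaBar L N q) x) := by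
  rw [← pull_comp]
  have : w.toAlgHom.comp (heckeAlphaBar L N q) = heckeBetaBar L N q :=
    AlgHom.ext fun y => hw.alpha y
  rw [this]

/-- `α^* = w^* β^*`. -/
theorem pull_alpha_eq (hw : DR.Mod.IsAL w)
    (x : Pic0 L (laurentBaseChange L (modularFunctionFieldFull N))) :
    pull (heckeAlphaBar L N q) x = pull w.toAlgHom (pull (heckeBetaBar L N q) x) := by
  rw [← pull_comp]
  have : w.toAlgHom.comp (heckeBetaBar L N q) = heckeAlphaBar L N q :=
    AlgHom.ext fun y => hw.beta y
  rw [this]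

/-- `w` at level `Nq` and `w'` at level `Nℓq` are compatible along `x(t) ↦ x(t^d)`,
`d ∣ ℓ`. -/
theorem al_degen {ℓ M d : ℕ} [NeZero ℓ] [NeZero M] [NeZero d] (hq : q.Prime)
    (hw : DR.Mod.IsAL w) (h : N * q * d ∣ M) (hd : N * d ∣ N * ℓ)
    {w' : laurentBaseChange L (modularFunctionFieldFull M) ≃ₐ[L]
      laurentBaseChange L (modularFunctionFieldFull M)}
    (h1 : N * ℓ * 1 ∣ M) (h2 : N * ℓ * q ∣ M)
    (hw1 : ∀ y, w' (degen L (N * ℓ) M 1 h1 y) = degen L (N * ℓ) M q h2 y)
    (hw2 : ∀ y, w' (degen L (N * ℓ) M q h2 y) = degen L (N * ℓ) M 1 h1 y)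
    (x : laurentBaseChange L (modularFunctionFieldFull (N * q))) :
    w' (degen L (N * q) M d h x) = degen L (N * q) M d h (w x) := by
  have h : (w' : laurentBaseChange L (modularFunctionFieldFull M) →+*
      laurentBaseChange L (modularFunctionFieldFull M)).comp
      ((degen L (N * q) M d h : _ →ₐ[L] _) : _ →+* _) =
      ((degen L (N * q) M d h : _ →ₐ[L] _) : _ →+* _).comp
      (w : laurentBaseChange L (modularFunctionFieldFull (N * q)) →+*
      laurentBaseChange L (modularFunctionFieldFull (N * q))) := by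
    refine DR.ModGal.hom_ext_alpha_beta hq (fun c => ?_) (fun y => ?_) (fun y => ?_)
    · simp only [RingHom.comp_apply, RingHom.coe_coe]
      rw [AlgHom.commutes, AlgEquiv.commutes, AlgEquiv.commutes, AlgHom.commutes]
    · simp only [RingHom.comp_apply, RingHom.coe_coe]
      have e1 : degen L (N * q) M d h (heckeAlphaBar L N q y) =
          degen L (N * ℓ) M 1 h1 (degen L N (N * ℓ) d hd y) := by
        refine Subtype.ext ?_
        rw [coe_degen, coe_heckeAlphaBar, coe_degen, coe_degen, qExpand_one_apply]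
      rw [e1, hw1, hw.alpha]
      refine Subtype.ext ?_
      rw [coe_degen, coe_degen, coe_degen, coe_heckeBetaBar, qExpand_qExpand, qExpand_qExpand]
      exact qExpand_congr (mul_comm _ _) _
    · simp only [RingHom.comp_apply, RingHom.coe_coe]
      have e1 : degen L (N * q) M d h (heckeBetaBar L N q y) =
          degen L (N * ℓ) M q h2 (degen L N (N * ℓ) d hd y) := by
        refine Subtype.ext ?_
        rw [coe_degen, coe_heckeBetaBar, coe_degen, coe_degen, qExpand_qExpand, qExpand_qExpand]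
        exact qExpand_congr (mul_comm _ _) _
      rw [e1, hw2, hw.beta]
      refine Subtype.ext ?_
      rw [coe_degen, coe_degen, coe_degen, coe_heckeAlphaBar, qExpand_one_apply]
  exact RingHom.congr_fun h x

/-- `w_q` commutes with `T_ℓ` (or `U_ℓ`), `ℓ ≠ q`, `q ∤ N`. -/
theorem push_al_hecke (hq : q.Prime) (hqN : ¬ q ∣ N) (hw : DR.Mod.IsAL w) {ℓ : ℕ} [NeZero ℓ]
    (hℓ : ℓ.Prime) (hne : ℓ ≠ q)
    (x : Pic0 L (laurentBaseChange L (modularFunctionFieldFull (N * q)))) :
    push w.toAlgHom (heckeOperatorAlong L (N * q) ℓ x) =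
      heckeOperatorAlong L (N * q) ℓ (push w.toAlgHom x) := by
  haveI : Fact q.Prime := ⟨hq⟩
  have hqNℓ : ¬ q ∣ N * ℓ := by
    intro h
    rcases hq.dvd_mul.mp h with h | h
    · exact hqN h
    · exact hne ((Nat.prime_dvd_prime_iff_eq hq hℓ).mp h).symm
  -- the automorphism at level `N q ℓ`
  obtain ⟨w', hw'w', hw1, hw2⟩ : ∃ w' : laurentBaseChange L (modularFunctionFieldFull (N * q * ℓ))
      ≃ₐ[L] laurentBaseChange L (modularFunctionFieldFull (N * q * ℓ)),
      (∀ x, w' (w' x) = x) ∧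
      (∀ y, w' (degen L (N * ℓ) (N * q * ℓ) 1 (by rw [mul_one]; exact ⟨q, by ring⟩) y) =
        degen L (N * ℓ) (N * q * ℓ) q ⟨1, by ring⟩ y) ∧
      (∀ y, w' (degen L (N * ℓ) (N * q * ℓ) q ⟨1, by ring⟩ y) =
        degen L (N * ℓ) (N * q * ℓ) 1 (by rw [mul_one]; exact ⟨q, by ring⟩) y) := by
    have key : ∀ M (hM : N * ℓ * q = M) [NeZero M] (h1 : N * ℓ * 1 ∣ M) (h2 : N * ℓ * q ∣ M),
        ∃ w' : laurentBaseChange L (modularFunctionFieldFull M)
          ≃ₐ[L] laurentBaseChange L (modularFunctionFieldFull M), (∀ x, w' (w' x) = x) ∧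
        (∀ y, w' (degen L (N * ℓ) M 1 h1 y) = degen L (N * ℓ) M q h2 y) ∧
        (∀ y, w' (degen L (N * ℓ) M q h2 y) = degen L (N * ℓ) M 1 h1 y) := by
      intro M hM _ h1 h2
      subst hM
      obtain ⟨w', h3, h4, h5⟩ := JRED.AL.exists_wBar L (N * ℓ) q hqNℓ
      refine ⟨w', h3, fun y => ?_, fun y => ?_⟩
      · rw [← heckeAlphaBar_eq_degen, h4, heckeBetaBar_eq_degen]
      · rw [← heckeAlphaBar_eq_degen, ← h5, heckeBetaBar_eq_degen]
    haveI : NeZero (N * q * ℓ) := ⟨Nat.mul_ne_zero (NeZero.ne _) (NeZero.ne _)⟩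
    exact key (N * q * ℓ) (by ring) _ _
  haveI : NeZero (N * q * ℓ) := ⟨Nat.mul_ne_zero (NeZero.ne _) (NeZero.ne _)⟩
  have ha : ∀ y, w' (heckeAlphaBar L (N * q) ℓ y) = heckeAlphaBar L (N * q) ℓ (w y) := by
    intro y
    rw [heckeAlphaBar_eq_degen]
    exact al_degen hq hw _ (by rw [mul_one]; exact dvd_mul_right _ _) _ _ hw1 hw2 y
  have hb : ∀ y, w' (heckeBetaBar L (N * q) ℓ y) = heckeBetaBar L (N * q) ℓ (w y) := by
    intro y
    rw [heckeBetaBar_eq_degen]
    exact al_degen hq hw _ dvd_rfl _ _ hw1 hw2 y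
  rw [heckeOperatorAlong_eq_push_pull, heckeOperatorAlong_eq_push_pull, ← push_comp]
  have h1 : (heckeAlphaBar L (N * q) ℓ).comp w.toAlgHom =
      w'.toAlgHom.comp (heckeAlphaBar L (N * q) ℓ) := AlgHom.ext fun y => (ha y).symm
  have h2 : w'.toAlgHom.comp (heckeBetaBar L (N * q) ℓ) =
      (heckeBetaBar L (N * q) ℓ).comp w.toAlgHom := AlgHom.ext fun y => hb y
  rw [h1, push_comp, ← pull_eq_push_of_invol w' hw'w', ← pull_comp, h2, pull_comp,
    pull_eq_push_of_invol w (IsAL.invol' hq hw)]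

end AL

section Bar

/-- the field `ℚ̄` -/
local notation "Qb" => AlgebraicClosure ℚ

variable (N q : ℕ) [NeZero N] [NeZero q]

/-- `α^* : J₀(N) → J₀(Nq)`. -/
def alphaPull : JZero N →+ JZero (N * q) := pull (heckeAlphaBar Qb N q)

/-- `β^* : J₀(N) → J₀(Nq)`. -/
def betaPull : JZero N →+ JZero (N * q) := pull (heckeBetaBar Qb N q)

/-- `α_* : J₀(Nq) → J₀(N)`. -/
def alphaPush : JZero (N * q) →+ JZero N := push (heckeAlphaBar Qb N q)

/-- `β_* : J₀(Nq) → J₀(N)`. -/
def betaPush : JZero (N * q) →+ JZero N := push (heckeBetaBar Qb N q)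

variable {N q}

theorem alphaPush_mk (D : Divisor.degZero (K := Qb) (F := modularFunctionFieldBar (N * q))) :
    alphaPush N q (Pic0.mk D) = Pic0.mk (degZeroPush (heckeAlphaBar Qb N q)
      (isIntegral_modular Qb _) D) := rfl

theorem betaPush_mk (D : Divisor.degZero (K := Qb) (F := modularFunctionFieldBar (N * q))) :
    betaPush N q (Pic0.mk D) = Pic0.mk (degZeroPush (heckeBetaBar Qb N q)
      (isIntegral_modular Qb _) D) := rfl

section

variable (hq : q.Prime)

include hq

/-- `α_* α^* = deg`. -/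
theorem alphaPush_alphaPull (x : JZero N) :
    alphaPush N q (alphaPull N q x) = (if q ∣ N then q else q + 1) • x := by
  rw [← JAN.Degree.alphaDegree Qb N q hq]
  exact push_pull _ x

/-- `β_* β^* = deg`. -/
theorem betaPush_betaPull (x : JZero N) :
    betaPush N q (betaPull N q x) = (if q ∣ N then q else q + 1) • x := by
  rw [← JRED.AL.finrankAlong_beta Qb N q hq]
  exact push_pull _ x

end

/-- `α_* β^* = T_q`. -/
theorem alphaPush_betaPull (q : Nat.Primes) (x : JZero N) :
    haveI : NeZero (q : ℕ) := ⟨q.2.ne_zero⟩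
    alphaPush N q (betaPull N q x) = heckeOperatorBar N q x := by
  haveI : NeZero (q : ℕ) := ⟨q.2.ne_zero⟩
  rw [heckeOperatorBar_apply]
  exact (heckeOperatorAlong_eq_push_pull N (q : ℕ) x).symm

section Gal

variable (σ : Qb ≃ₐ[ℚ] Qb)

theorem alphaPull_smul (x : JZero N) : alphaPull N q (σ • x) = σ • alphaPull N q x :=
  pull_smul _ σ (Fermat.Agent.Jan.GaloisHecke.intertwines_alpha N q σ) x

theorem betaPull_smul (x : JZero N) : betaPull N q (σ • x) = σ • betaPull N q x :=
  pull_smul _ σ (Fermat.Agent.Jan.GaloisHecke.intertwines_beta N q σ) x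

theorem alphaPush_smul (x : JZero (N * q)) : alphaPush N q (σ • x) = σ • alphaPush N q x :=
  push_smul _ σ (Fermat.Agent.Jan.GaloisHecke.intertwines_alpha N q σ) x

theorem betaPush_smul (x : JZero (N * q)) : betaPush N q (σ • x) = σ • betaPush N q x :=
  push_smul _ σ (Fermat.Agent.Jan.GaloisHecke.intertwines_beta N q σ) x

end Gal

section Cls

open Fermat.Agent.JAN.KumPic

theorem alphaPull_cls {n : ℕ} {f : modularFunctionFieldBar N} (hf : DvdOrd Qb n f) :
    haveI := hasPrincipalDivisors_modular' Qb N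
    haveI := hasPrincipalDivisors_modular' Qb (N * q)
    alphaPull N q (cls n f) = cls n (heckeAlphaBar Qb N q f) :=
  pull_cls (heckeAlphaBar Qb N q) hf

theorem betaPull_cls {n : ℕ} {f : modularFunctionFieldBar N} (hf : DvdOrd Qb n f) :
    haveI := hasPrincipalDivisors_modular' Qb N
    haveI := hasPrincipalDivisors_modular' Qb (N * q)
    betaPull N q (cls n f) = cls n (heckeBetaBar Qb N q f) :=
  pull_cls (heckeBetaBar Qb N q) hf

theorem alphaPush_cls {n : ℕ} {f : modularFunctionFieldBar (N * q)} (hf0 : f ≠ 0)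
    (hf : DvdOrd Qb n f) :
    haveI := hasPrincipalDivisors_modular' Qb N
    haveI := hasPrincipalDivisors_modular' Qb (N * q)
    alphaPush N q (cls n f) = cls n (normAlong (heckeAlphaBar Qb N q) f) :=
  push_cls (heckeAlphaBar Qb N q) hf0 hf

theorem betaPush_cls {n : ℕ} {f : modularFunctionFieldBar (N * q)} (hf0 : f ≠ 0)
    (hf : DvdOrd Qb n f) :
    haveI := hasPrincipalDivisors_modular' Qb N
    haveI := hasPrincipalDivisors_modular' Qb (N * q)
    betaPush N q (cls n f) = cls n (normAlong (heckeBetaBar Qb N q) f) :=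
  push_cls (heckeBetaBar Qb N q) hf0 hf

end Cls

section Hecke

variable (hq : q.Prime) (ℓ : Nat.Primes) (hne : (ℓ : ℕ) ≠ q)

include hq hne

theorem alphaPull_hecke (x : JZero N) :
    alphaPull N q (heckeOperatorBar N ℓ x) = heckeOperatorBar (N * q) ℓ (alphaPull N q x) := by
  haveI : NeZero (ℓ : ℕ) := ⟨ℓ.2.ne_zero⟩
  rw [heckeOperatorBar_apply, heckeOperatorBar_apply]
  show pull (heckeAlphaBar Qb N q) _ = heckeOperatorAlong Qb (N * q) ℓ
    (pull (heckeAlphaBar Qb N q) x)
  rw [heckeAlphaBar_eq_degen]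
  exact pull_hecke hq ℓ.2 hne (Or.inl rfl) _ x

theorem betaPull_hecke (x : JZero N) :
    betaPull N q (heckeOperatorBar N ℓ x) = heckeOperatorBar (N * q) ℓ (betaPull N q x) := by
  haveI : NeZero (ℓ : ℕ) := ⟨ℓ.2.ne_zero⟩
  rw [heckeOperatorBar_apply, heckeOperatorBar_apply]
  show pull (heckeBetaBar Qb N q) _ = heckeOperatorAlong Qb (N * q) ℓ
    (pull (heckeBetaBar Qb N q) x)
  rw [heckeBetaBar_eq_degen]
  exact pull_hecke hq ℓ.2 hne (Or.inr rfl) _ x

theorem alphaPush_hecke (x : JZero (N * q)) :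
    alphaPush N q (heckeOperatorBar (N * q) ℓ x) = heckeOperatorBar N ℓ (alphaPush N q x) := by
  haveI : NeZero (ℓ : ℕ) := ⟨ℓ.2.ne_zero⟩
  rw [heckeOperatorBar_apply, heckeOperatorBar_apply]
  show push (heckeAlphaBar Qb N q) _ = heckeOperatorAlong Qb N ℓ (push (heckeAlphaBar Qb N q) x)
  rw [heckeAlphaBar_eq_degen]
  exact push_hecke hq ℓ.2 hne (Or.inl rfl) _ x

theorem betaPush_hecke (x : JZero (N * q)) :
    betaPush N q (heckeOperatorBar (N * q) ℓ x) = heckeOperatorBar N ℓ (betaPush N q x) := by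
  haveI : NeZero (ℓ : ℕ) := ⟨ℓ.2.ne_zero⟩
  rw [heckeOperatorBar_apply, heckeOperatorBar_apply]
  show push (heckeBetaBar Qb N q) _ = heckeOperatorAlong Qb N ℓ (push (heckeBetaBar Qb N q) x)
  rw [heckeBetaBar_eq_degen]
  exact push_hecke hq ℓ.2 hne (Or.inr rfl) _ x

end Hecke

section Alg

/-- An additive map commuting with the operators `T_ℓ`, `ℓ ∈ range i`, commutes with the
polynomials in them. -/
theorem map_rename_smul {N₁ N₂ : ℕ} [NeZero N₁] [NeZero N₂] (φ : JZero N₁ →+ JZero N₂)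
    {ι : Type} (i : ι → Nat.Primes)
    (h : ∀ j x, φ (heckeOperatorBar N₁ (i j) x) = heckeOperatorBar N₂ (i j) (φ x))
    (t : MvPolynomial ι ℤ) (x : JZero N₁) :
    φ (letI := heckeModuleBar N₁; (MvPolynomial.rename i t : HeckeAlg) • x) =
      (letI := heckeModuleBar N₂; (MvPolynomial.rename i t : HeckeAlg) • φ x) := by
  letI := heckeModuleBar N₁
  letI := heckeModuleBar N₂
  have hc1 := JAN.Degree.heckeOperatorsCommuteBar N₁
  have hc2 := JAN.Degree.heckeOperatorsCommuteBar N₂
  induction t using MvPolynomial.induction_on generalizing x with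
  | C a =>
    rw [MvPolynomial.rename_C, heckeModuleBar_C_smul, heckeModuleBar_C_smul]
    exact map_zsmul φ a x
  | add p q hp hq =>
    rw [map_add, add_smul, add_smul, map_add, hp, hq]
  | mul_X p ℓ hp =>
    rw [map_mul, MvPolynomial.rename_X, mul_smul, mul_smul, hp]
    congr 1
    exact (congrArg φ (heckeModuleBar_heckeGen_smul hc1 (i ℓ) x)).trans
      ((h ℓ x).trans (heckeModuleBar_heckeGen_smul hc2 (i ℓ) (φ x)).symm)

/-- The version for the anemic Hecke algebra. -/
theorem map_anemic_smul {N₁ N₂ : ℕ} [NeZero N₁] [NeZero N₂] (φ : JZero N₁ →+ JZero N₂)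
    {S : Finset ℕ} (h : ∀ ℓ : Nat.Primes, (ℓ : ℕ) ∉ S → ∀ x,
      φ (heckeOperatorBar N₁ ℓ x) = heckeOperatorBar N₂ ℓ (φ x))
    (t : Fermat.FlatMatch.AnemicAlg S) (x : JZero N₁) :
    φ (letI := heckeModuleBar N₁; Fermat.FlatMatch.anemicIncl S t • x) =
      (letI := heckeModuleBar N₂; Fermat.FlatMatch.anemicIncl S t • φ x) :=
  map_rename_smul φ Subtype.val (fun j x => h j.1 j.2 x) t x

variable (hq : q.Prime) {S : Finset ℕ} (hqS : q ∈ S) (t : Fermat.FlatMatch.AnemicAlg S)

include hq hqS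

theorem alphaPull_anemic (x : JZero N) :
    alphaPull N q (letI := heckeModuleBar N; Fermat.FlatMatch.anemicIncl S t • x) =
      (letI := heckeModuleBar (N * q); Fermat.FlatMatch.anemicIncl S t • alphaPull N q x) :=
  map_anemic_smul _ (fun ℓ hℓ x => alphaPull_hecke hq ℓ (fun h => hℓ (h ▸ hqS)) x) t x

theorem betaPull_anemic (x : JZero N) :
    betaPull N q (letI := heckeModuleBar N; Fermat.FlatMatch.anemicIncl S t • x) =
      (letI := heckeModuleBar (N * q); Fermat.FlatMatch.anemicIncl S t • betaPull N q x) :=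
  map_anemic_smul _ (fun ℓ hℓ x => betaPull_hecke hq ℓ (fun h => hℓ (h ▸ hqS)) x) t x

theorem alphaPush_anemic (x : JZero (N * q)) :
    alphaPush N q (letI := heckeModuleBar (N * q); Fermat.FlatMatch.anemicIncl S t • x) =
      (letI := heckeModuleBar N; Fermat.FlatMatch.anemicIncl S t • alphaPush N q x) :=
  map_anemic_smul _ (fun ℓ hℓ x => alphaPush_hecke hq ℓ (fun h => hℓ (h ▸ hqS)) x) t x

theorem betaPush_anemic (x : JZero (N * q)) :
    betaPush N q (letI := heckeModuleBar (N * q); Fermat.FlatMatch.anemicIncl S t • x) =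
      (letI := heckeModuleBar N; Fermat.FlatMatch.anemicIncl S t • betaPush N q x) :=
  map_anemic_smul _ (fun ℓ hℓ x => betaPush_hecke hq ℓ (fun h => hℓ (h ▸ hqS)) x) t x

end Alg

section W

variable {w : modularFunctionFieldBar (N * q) ≃ₐ[Qb] modularFunctionFieldBar (N * q)}

/-- The action of an automorphism on `J₀(N)`. -/
def wPush {N : ℕ} [NeZero N] (w : modularFunctionFieldBar N ≃ₐ[Qb] modularFunctionFieldBar N) :
    JZero N →+ JZero N := push w.toAlgHom

theorem betaPush_eq (hw : DR.Mod.IsAL w) (x : JZero (N * q)) :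
    betaPush N q x = alphaPush N q (wPush w x) := push_beta_eq hw x

theorem alphaPush_eq (hw : DR.Mod.IsAL w) (x : JZero (N * q)) :
    alphaPush N q x = betaPush N q (wPush w x) := push_alpha_eq hw x

theorem wPush_wPush (hq : q.Prime) (hw : DR.Mod.IsAL w) (x : JZero (N * q)) :
    wPush w (wPush w x) = x := push_invol w (IsAL.invol' hq hw) x

theorem betaPull_eq (hq : q.Prime) (hw : DR.Mod.IsAL w) (x : JZero N) :
    betaPull N q x = wPush w (alphaPull N q x) :=
  (pull_beta_eq hw x).trans (pull_eq_push_of_invol w (IsAL.invol' hq hw) _)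

theorem alphaPull_eq (hq : q.Prime) (hw : DR.Mod.IsAL w) (x : JZero N) :
    alphaPull N q x = wPush w (betaPull N q x) :=
  (pull_alpha_eq hw x).trans (pull_eq_push_of_invol w (IsAL.invol' hq hw) _)

/-- `w_q` commutes with `T_ℓ`, `U_ℓ` for `ℓ ≠ q`. -/
theorem wPush_hecke (hq : q.Prime) (hqN : ¬ q ∣ N) (hw : DR.Mod.IsAL w) (ℓ : Nat.Primes)
    (hne : (ℓ : ℕ) ≠ q) (x : JZero (N * q)) :
    wPush w (heckeOperatorBar (N * q) ℓ x) = heckeOperatorBar (N * q) ℓ (wPush w x) := by
  haveI : NeZero (ℓ : ℕ) := ⟨ℓ.2.ne_zero⟩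
  rw [heckeOperatorBar_apply, heckeOperatorBar_apply]
  exact push_al_hecke hq hqN hw ℓ.2 hne x

theorem wPush_anemic (hq : q.Prime) (hqN : ¬ q ∣ N) (hw : DR.Mod.IsAL w) {S : Finset ℕ}
    (hqS : q ∈ S) (t : Fermat.FlatMatch.AnemicAlg S) (x : JZero (N * q)) :
    wPush w (letI := heckeModuleBar (N * q); Fermat.FlatMatch.anemicIncl S t • x) =
      (letI := heckeModuleBar (N * q); Fermat.FlatMatch.anemicIncl S t • wPush w x) :=
  map_anemic_smul _ (fun ℓ hℓ x => wPush_hecke hq hqN hw ℓ (fun h => hℓ (h ▸ hqS)) x) t x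

/-- `w_q` commutes with the Galois action. -/
theorem wPush_smul (hq : q.Prime) (hw : DR.Mod.IsAL w) (σ : Qb ≃ₐ[ℚ] Qb) (x : JZero (N * q)) :
    wPush w (σ • x) = σ • wPush w x := by
  refine push_smul w.toAlgHom σ (fun y => ?_) x
  exact (DR.ModGal.galois_w hq hw σ y).symm

end W

end Bar

end Fermat.Agent.JAN.Degeneracy
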