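import Fermat.Agent.JAN.Square
import Fermat.Agent.JAN.KumPic
import Fermat.Agent.DR.ModGal.Galois

/-!
# Degeneracy maps between the `JZero`

`pull φ`, `push φ` on `Pic⁰` for every embedding `φ` of modular function fields; functoriality,
`φ_* φ^* = deg φ`, Galois equivariance, Kummer classes; base change in the modular squares;
commutation of the degeneracy maps with all `T_ℓ`, `U_ℓ`, `ℓ ≠ q`; Atkin–Lehner automorphisms.
-/

set_option autoImplicit false
set_option linter.unusedSectionVars false
set_option linter.style.haveILetI false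

noncomputable section

open AlgebraicCurve ModularCurve SemilinearAut

namespace Fermat.Agent.JAN.Degeneracy

open Fermat.Agent.Jan.HeckeInputs Fermat.Agent.Jan.HeckeCommute Fermat.Agent.Jan.PushPull
  Fermat.Agent.Jan.DegreeWiring Fermat.Agent.Jan.RelFundamental Fermat.Agent.S28
  Fermat.Agent.DR.S36 Fermat.Agent.JAN.Square Fermat.Agent.JAN.KumPic

theorem correspondence_eq {K F F' : Type*} [Field K] [Field F] [Field F'] [Algebra K F]
    [Algebra K F'] [HasPrincipalDivisors K F'] (φ ψ : F →ₐ[K] F')
    (hφ : φ.toRingHom.IsIntegral) (hψ : ψ.toRingHom.IsIntegral)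
    (hFI : FundamentalIdentityAlong K φ hφ) (hfin : FiniteAlong K ψ)
    (hN : NormFormulaAlong K ψ hfin) (x : Pic0 K F) :
    Pic0.correspondence φ ψ hφ hψ hFI hfin hN x =
      picPush ψ hψ hfin hN (picPull φ hφ hFI x) := by
  obtain ⟨D, rfl⟩ := Pic0.mk_surjective x
  rw [Pic0.correspondence_mk, picPull_mk, picPush_mk]
  rfl

section General

variable {L : Type} [Field L] [Algebra ℚ L] [IsAlgClosed L]

theorem deg_place {N : ℕ} [NeZero N] (w : Place L (laurentBaseChange L
    (modularFunctionFieldFull N))) : w.deg = 1 := by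
  haveI := isFF1_modular' L N
  haveI : CharZero L := charZero_of_injective_algebraMap (algebraMap ℚ L).injective
  exact Fermat.FF.deg_eq_one w

theorem fundamentalIdentity_modular {N M : ℕ} [NeZero N] [NeZero M]
    (φ : laurentBaseChange L (modularFunctionFieldFull N) →ₐ[L]
      laurentBaseChange L (modularFunctionFieldFull M)) :
    haveI := hasPrincipalDivisors_modular' L M
    FundamentalIdentityAlong L φ (isIntegral_modular L φ) := by
  haveI := hasPrincipalDivisors_modular' L M
  haveI := isFF1_modular' L N
  haveI := isFF1_modular' L M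
  haveI : CharZero L := charZero_of_injective_algebraMap (algebraMap ℚ L).injective
  exact fundamentalIdentityAlong _ _ (finiteAlong_modular L φ)

/-- Pull-back of divisor classes along an embedding of modular function fields. -/
def pull {N M : ℕ} [NeZero N] [NeZero M]
    (φ : laurentBaseChange L (modularFunctionFieldFull N) →ₐ[L]
      laurentBaseChange L (modularFunctionFieldFull M)) :
    Pic0 L (laurentBaseChange L (modularFunctionFieldFull N)) →+
      Pic0 L (laurentBaseChange L (modularFunctionFieldFull M)) :=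
  haveI := hasPrincipalDivisors_modular' L M
  picPull φ (isIntegral_modular L φ) (fundamentalIdentity_modular φ)

/-- Push-forward of divisor classes along an embedding of modular function fields. -/
def push {N M : ℕ} [NeZero N] [NeZero M]
    (φ : laurentBaseChange L (modularFunctionFieldFull N) →ₐ[L]
      laurentBaseChange L (modularFunctionFieldFull M)) :
    Pic0 L (laurentBaseChange L (modularFunctionFieldFull M)) →+
      Pic0 L (laurentBaseChange L (modularFunctionFieldFull N)) :=
  picPush φ (isIntegral_modular L φ) (finiteAlong_modular L φ) (normFormula_modular L φ)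

section OneMap

variable {N M : ℕ} [NeZero N] [NeZero M]
  (φ : laurentBaseChange L (modularFunctionFieldFull N) →ₐ[L]
    laurentBaseChange L (modularFunctionFieldFull M))

theorem pull_mk (D : Divisor.degZero (K := L)
    (F := laurentBaseChange L (modularFunctionFieldFull N))) :
    haveI := hasPrincipalDivisors_modular' L M
    pull φ (Pic0.mk D) = Pic0.mk (degZeroPull φ (isIntegral_modular L φ)
      (fundamentalIdentity_modular φ) D) := rfl

theorem push_mk (D : Divisor.degZero (K := L)
    (F := laurentBaseChange L (modularFunctionFieldFull M))) :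
    push φ (Pic0.mk D) = Pic0.mk (degZeroPush φ (isIntegral_modular L φ) D) := rfl

/-- `φ_* φ^* = deg φ`. -/
theorem push_pull (x : Pic0 L (laurentBaseChange L (modularFunctionFieldFull N))) :
    push φ (pull φ x) = finrankAlong L φ • x :=
  haveI := hasPrincipalDivisors_modular' L M
  picPush_picPull φ (isIntegral_modular L φ) (fundamentalIdentity_modular φ)
    (finiteAlong_modular L φ) (normFormula_modular L φ) deg_place deg_place x

theorem pull_smul (σ : L ≃ₐ[ℚ] L)
    (h : IntertwinesAlong (φ : _ →+* _) (arithmeticGalois (modularFunctionFieldFull N) σ)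
      (arithmeticGalois (modularFunctionFieldFull M) σ))
    (x : Pic0 L (laurentBaseChange L (modularFunctionFieldFull N))) :
    pull φ (σ • x) = σ • pull φ x :=
  haveI := hasPrincipalDivisors_modular' L M
  picPull_smul φ (isIntegral_modular L φ) (fundamentalIdentity_modular φ) h x

theorem push_smul (σ : L ≃ₐ[ℚ] L)
    (h : IntertwinesAlong (φ : _ →+* _) (arithmeticGalois (modularFunctionFieldFull N) σ)
      (arithmeticGalois (modularFunctionFieldFull M) σ))
    (x : Pic0 L (laurentBaseChange L (modularFunctionFieldFull M))) :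
    push φ (σ • x) = σ • push φ x :=
  picPush_smul φ (isIntegral_modular L φ) (finiteAlong_modular L φ) (normFormula_modular L φ) h x

/-- Pull-back of Kummer classes. -/
theorem pull_cls {n : ℕ} {f : laurentBaseChange L (modularFunctionFieldFull N)}
    (hf : DvdOrd L n f) :
    haveI := hasPrincipalDivisors_modular' L N
    haveI := hasPrincipalDivisors_modular' L M
    pull φ (cls n f) = cls n (φ f) := by
  haveI := hasPrincipalDivisors_modular' L N
  haveI := hasPrincipalDivisors_modular' L M
  rcases eq_or_ne n 0 with rfl | hn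
  · rw [cls_of_not (by simp), cls_of_not (by simp), map_zero]
  obtain ⟨D, hD⟩ := exists_degZero hn hf
  rw [cls_eq_mk hn hD, pull_mk]
  refine (cls_eq_mk hn fun w => ?_).symm
  rw [coe_degZeroPull, Divisor.pullbackAlong_apply, Place.ord_restrictAlong φ
    (isIntegral_modular L φ), ← hD]
  ring

/-- Push-forward of Kummer classes. -/
theorem push_cls {n : ℕ} {f : laurentBaseChange L (modularFunctionFieldFull M)} (hf0 : f ≠ 0)
    (hf : DvdOrd L n f) :
    haveI := hasPrincipalDivisors_modular' L N
    haveI := hasPrincipalDivisors_modular' L M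
    push φ (cls n f) = cls n (normAlong φ f) := by
  haveI := hasPrincipalDivisors_modular' L N
  haveI := hasPrincipalDivisors_modular' L M
  rcases eq_or_ne n 0 with rfl | hn
  · rw [cls_of_not (by simp), cls_of_not (by simp), map_zero]
  obtain ⟨D, hD⟩ := exists_degZero hn hf
  rw [cls_eq_mk hn hD, push_mk]
  refine (cls_eq_mk hn fun v => ?_).symm
  rw [coe_degZeroPush]
  exact mul_pushforwardAlong_apply φ (isIntegral_modular L φ) (finiteAlong_modular L φ)
    (normFormula_modular L φ) hf0 hD v

end OneMap

section Comp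

variable {N M K : ℕ} [NeZero N] [NeZero M] [NeZero K]

theorem pull_comp (φ : laurentBaseChange L (modularFunctionFieldFull N) →ₐ[L]
      laurentBaseChange L (modularFunctionFieldFull M))
    (ψ : laurentBaseChange L (modularFunctionFieldFull M) →ₐ[L]
      laurentBaseChange L (modularFunctionFieldFull K))
    (x : Pic0 L (laurentBaseChange L (modularFunctionFieldFull N))) :
    pull (ψ.comp φ) x = pull ψ (pull φ x) := by
  haveI := hasPrincipalDivisors_modular' L M
  haveI := hasPrincipalDivisors_modular' L K
  obtain ⟨D, rfl⟩ := Pic0.mk_surjective x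
  rw [pull_mk, pull_mk, pull_mk]
  refine congrArg Pic0.mk (Subtype.ext ?_)
  rw [coe_degZeroPull, coe_degZeroPull, coe_degZeroPull]
  exact pullbackAlong_comp φ ψ (isIntegral_modular L φ) (isIntegral_modular L ψ) _ _

theorem push_comp (φ : laurentBaseChange L (modularFunctionFieldFull N) →ₐ[L]
      laurentBaseChange L (modularFunctionFieldFull M))
    (ψ : laurentBaseChange L (modularFunctionFieldFull M) →ₐ[L]
      laurentBaseChange L (modularFunctionFieldFull K))
    (x : Pic0 L (laurentBaseChange L (modularFunctionFieldFull K))) :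
    push (ψ.comp φ) x = push φ (push ψ x) := by
  obtain ⟨D, rfl⟩ := Pic0.mk_surjective x
  rw [push_mk, push_mk, push_mk]
  refine congrArg Pic0.mk (Subtype.ext ?_)
  rw [coe_degZeroPush, coe_degZeroPush, coe_degZeroPush]
  exact pushforwardAlong_comp φ ψ (isIntegral_modular L φ) (isIntegral_modular L ψ) _
    deg_place _

theorem push_id (x : Pic0 L (laurentBaseChange L (modularFunctionFieldFull N))) :
    push (AlgHom.id L (laurentBaseChange L (modularFunctionFieldFull N))) x = x := by
  obtain ⟨D, rfl⟩ := Pic0.mk_surjective x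
  rw [push_mk]
  refine congrArg Pic0.mk (Subtype.ext ?_)
  rw [coe_degZeroPush]
  generalize (D : Divisor L (laurentBaseChange L (modularFunctionFieldFull N))) = D'
  induction D' using Finsupp.induction_linear with
  | zero => simp
  | add D E hD hE => rw [map_add, hD, hE]
  | single P n =>
    rw [Divisor.pushforwardAlong_single, inertiaDegAlong_eq_one _ _ (deg_place P), Nat.cast_one,
      mul_one]
    congr 1

theorem finrankAlong_id {K F : Type*} [Field K] [Field F] [Algebra K F] :
    finrankAlong K (AlgHom.id K F) = 1 := by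
  rw [finrankAlong_eq_finrank_fieldRange]
  have : (AlgHom.id K F).fieldRange = ⊤ := AlgHom.fieldRange_eq_top.mpr Function.surjective_id
  rw [this]
  exact IntermediateField.finrank_top

theorem pull_id (x : Pic0 L (laurentBaseChange L (modularFunctionFieldFull N))) :
    pull (AlgHom.id L (laurentBaseChange L (modularFunctionFieldFull N))) x = x := by
  have h := push_pull (AlgHom.id L (laurentBaseChange L (modularFunctionFieldFull N))) x
  rwa [push_id, finrankAlong_id, one_smul] at h

/-- For mutually inverse automorphisms. -/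
theorem push_push_symm (w : laurentBaseChange L (modularFunctionFieldFull N) ≃ₐ[L]
      laurentBaseChange L (modularFunctionFieldFull N))
    (x : Pic0 L (laurentBaseChange L (modularFunctionFieldFull N))) :
    push w.toAlgHom (push w.symm.toAlgHom x) = x := by
  rw [← push_comp]
  have : w.symm.toAlgHom.comp w.toAlgHom =
      AlgHom.id L (laurentBaseChange L (modularFunctionFieldFull N)) :=
    AlgHom.ext fun y => w.symm_apply_apply y
  rw [this, push_id]

theorem pull_symm_pull (w : laurentBaseChange L (modularFunctionFieldFull N) ≃ₐ[L]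
      laurentBaseChange L (modularFunctionFieldFull N))
    (x : Pic0 L (laurentBaseChange L (modularFunctionFieldFull N))) :
    pull w.symm.toAlgHom (pull w.toAlgHom x) = x := by
  rw [← pull_comp]
  have : w.symm.toAlgHom.comp w.toAlgHom =
      AlgHom.id L (laurentBaseChange L (modularFunctionFieldFull N)) :=
    AlgHom.ext fun y => w.symm_apply_apply y
  rw [this, pull_id]

theorem finrankAlong_equiv (w : laurentBaseChange L (modularFunctionFieldFull N) ≃ₐ[L]
      laurentBaseChange L (modularFunctionFieldFull N)) : finrankAlong L w.toAlgHom = 1 := by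
  rw [finrankAlong_eq_finrank_fieldRange]
  have : w.toAlgHom.fieldRange = ⊤ := AlgHom.fieldRange_eq_top.mpr w.surjective
  rw [this]
  exact IntermediateField.finrank_top

theorem push_pull_equiv (w : laurentBaseChange L (modularFunctionFieldFull N) ≃ₐ[L]
      laurentBaseChange L (modularFunctionFieldFull N))
    (x : Pic0 L (laurentBaseChange L (modularFunctionFieldFull N))) :
    push w.toAlgHom (pull w.toAlgHom x) = x := by
  rw [push_pull, finrankAlong_equiv, one_smul]

/-- For an automorphism push-forward is inverse to pull-back. -/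
theorem push_eq_pull_symm (w : laurentBaseChange L (modularFunctionFieldFull N) ≃ₐ[L]
      laurentBaseChange L (modularFunctionFieldFull N))
    (x : Pic0 L (laurentBaseChange L (modularFunctionFieldFull N))) :
    push w.toAlgHom x = pull w.symm.toAlgHom x := by
  have h1 : pull w.toAlgHom (pull w.symm.toAlgHom x) = x := pull_symm_pull w.symm x
  conv_lhs => rw [← h1]
  rw [push_pull_equiv]

theorem pull_push_equiv (w : laurentBaseChange L (modularFunctionFieldFull N) ≃ₐ[L]
      laurentBaseChange L (modularFunctionFieldFull N))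
    (x : Pic0 L (laurentBaseChange L (modularFunctionFieldFull N))) :
    pull w.toAlgHom (push w.toAlgHom x) = x := by
  rw [push_eq_pull_symm]
  exact pull_symm_pull w.symm x

theorem push_invol (w : laurentBaseChange L (modularFunctionFieldFull N) ≃ₐ[L]
      laurentBaseChange L (modularFunctionFieldFull N)) (hw : ∀ x, w (w x) = x)
    (x : Pic0 L (laurentBaseChange L (modularFunctionFieldFull N))) :
    push w.toAlgHom (push w.toAlgHom x) = x := by
  rw [← push_comp]
  have : w.toAlgHom.comp w.toAlgHom =
      AlgHom.id L (laurentBaseChange L (modularFunctionFieldFull N)) :=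
    AlgHom.ext fun y => hw y
  rw [this, push_id]

/-- For an involution push-forward is pull-back. -/
theorem pull_eq_push_of_invol (w : laurentBaseChange L (modularFunctionFieldFull N) ≃ₐ[L]
      laurentBaseChange L (modularFunctionFieldFull N)) (hw : ∀ x, w (w x) = x)
    (x : Pic0 L (laurentBaseChange L (modularFunctionFieldFull N))) :
    pull w.toAlgHom x = push w.toAlgHom x := by
  conv_lhs => rw [← push_invol w hw x]
  exact pull_push_equiv w _

end Comp

/-- The Hecke operator as a composite. -/
theorem heckeOperatorAlong_eq_push_pull (N ℓ : ℕ) [NeZero N] [NeZero ℓ]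
    (x : Pic0 L (laurentBaseChange L (modularFunctionFieldFull N))) :
    heckeOperatorAlong L N ℓ x = push (heckeAlphaBar L N ℓ) (pull (heckeBetaBar L N ℓ) x) := by
  obtain ⟨hα, hβ, hP, hfin, hFI, hN⟩ := heckeInputsAlong L N ℓ Fermat.Agent.Jan.DegreeWiring.jAlg
  rw [heckeOperatorAlong_eq hα hβ hFI hfin hN]
  exact correspondence_eq (heckeBetaBar L N ℓ) (heckeAlphaBar L N ℓ) hβ hα hFI hfin hN x

/-- **Base change on `Pic⁰`.** -/
theorem pull_push_square {N N₁ N₂ M p r e f : ℕ} [NeZero N] [NeZero N₁] [NeZero N₂] [NeZero M]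
    [NeZero e] [NeZero f] (hp : p.Prime) (hr : r.Prime) (hpr : p ≠ r) (h1 : N * p = N₁)
    (h2 : N * r = N₂) (hM : N * p * r = M) (he : e = 1 ∨ e = p) (hf : f = 1 ∨ f = r)
    (hd1 : N₂ * e ∣ M) (hd2 : N₁ * f ∣ M) (hd3 : N * e ∣ N₁) (hd4 : N * f ∣ N₂)
    (x : Pic0 L (laurentBaseChange L (modularFunctionFieldFull N₁))) :
    pull (degen L N N₂ f hd4) (push (degen L N N₁ e hd3) x) =
      push (degen L N₂ M e hd1) (pull (degen L N₁ M f hd2) x) := by
  haveI := hasPrincipalDivisors_modular' L N₂
  haveI := hasPrincipalDivisors_modular' L M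
  obtain ⟨D, rfl⟩ := Pic0.mk_surjective x
  rw [push_mk, pull_mk, pull_mk, push_mk]
  refine congrArg Pic0.mk (Subtype.ext ?_)
  rw [coe_degZeroPull, coe_degZeroPush, coe_degZeroPush, coe_degZeroPull]
  exact divisor_square L hp hr hpr h1 h2 hM he hf hd1 hd2 hd3 hd4 _

/-- Push-forward along `F_N → F_{Nq}` commutes with `T_ℓ` (or `U_ℓ`), `ℓ ≠ q`. -/
theorem push_hecke {N q ℓ e : ℕ} [NeZero N] [NeZero q] [NeZero ℓ] [NeZero e] (hq : q.Prime)
    (hℓ : ℓ.Prime) (hne : ℓ ≠ q) (he : e = 1 ∨ e = q) (h : N * e ∣ N * q)
    (x : Pic0 L (laurentBaseChange L (modularFunctionFieldFull (N * q)))) :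
    push (degen L N (N * q) e h) (heckeOperatorAlong L (N * q) ℓ x) =
      heckeOperatorAlong L N ℓ (push (degen L N (N * q) e h) x) := by
  haveI : NeZero (N * q * ℓ) := ⟨Nat.mul_ne_zero (NeZero.ne _) (NeZero.ne _)⟩
  have hd1 : N * ℓ * e ∣ N * q * ℓ := by
    have : N * ℓ * e = N * e * ℓ := by ring
    rw [this]
    exact Nat.mul_dvd_mul h dvd_rfl
  rw [heckeOperatorAlong_eq_push_pull, heckeOperatorAlong_eq_push_pull, heckeBetaBar_eq_degen L N ℓ,
    pull_push_square hq hℓ hne.symm rfl rfl rfl he (Or.inr rfl) hd1 dvd_rfl h dvd_rfl,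
    ← push_comp, ← push_comp, heckeBetaBar_eq_degen L (N * q) ℓ]
  have hc : (heckeAlphaBar L (N * q) ℓ).comp (degen L N (N * q) e h) =
      (degen L (N * ℓ) (N * q * ℓ) e hd1).comp (heckeAlphaBar L N ℓ) := by
    refine AlgHom.ext fun y => Subtype.ext ?_
    rw [AlgHom.comp_apply, AlgHom.comp_apply, coe_heckeAlphaBar, coe_degen, coe_degen,
      coe_heckeAlphaBar]
  rw [hc]

/-- Pull-back along `F_N → F_{Nq}` commutes with `T_ℓ` (or `U_ℓ`), `ℓ ≠ q`. -/
theorem pull_hecke {N q ℓ e : ℕ} [NeZero N] [NeZero q] [NeZero ℓ] [NeZero e] (hq : q.Prime)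
    (hℓ : ℓ.Prime) (hne : ℓ ≠ q) (he : e = 1 ∨ e = q) (h : N * e ∣ N * q)
    (x : Pic0 L (laurentBaseChange L (modularFunctionFieldFull N))) :
    pull (degen L N (N * q) e h) (heckeOperatorAlong L N ℓ x) =
      heckeOperatorAlong L (N * q) ℓ (pull (degen L N (N * q) e h) x) := by
  haveI : NeZero (N * q * ℓ) := ⟨Nat.mul_ne_zero (NeZero.ne _) (NeZero.ne _)⟩
  have hd1 : N * ℓ * e ∣ N * q * ℓ := by
    have : N * ℓ * e = N * e * ℓ := by ring
    rw [this]
    exact Nat.mul_dvd_mul h dvd_rfl
  have hd5 : N * 1 ∣ N * ℓ := by rw [mul_one]; exact dvd_mul_right _ _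
  have hd6 : N * q * 1 ∣ N * q * ℓ := by rw [mul_one]; exact dvd_mul_right _ _
  rw [heckeOperatorAlong_eq_push_pull, heckeOperatorAlong_eq_push_pull,
    heckeAlphaBar_eq_degen L N ℓ, heckeAlphaBar_eq_degen L (N * q) ℓ,
    pull_push_square hℓ hq hne rfl rfl (by ring : N * ℓ * q = N * q * ℓ) (Or.inl rfl) he hd6 hd1
      hd5 h, ← pull_comp, ← pull_comp]
  have hc : (heckeBetaBar L (N * q) ℓ).comp (degen L N (N * q) e h) =
      (degen L (N * ℓ) (N * q * ℓ) e hd1).comp (heckeBetaBar L N ℓ) := by
    refine AlgHom.ext fun y => Subtype.ext ?_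
    rw [AlgHom.comp_apply, AlgHom.comp_apply, coe_heckeBetaBar, coe_degen, coe_degen,
      coe_heckeBetaBar, qExpand_qExpand, qExpand_qExpand]
    exact qExpand_congr (mul_comm _ _) _
  rw [hc]

end General

end Fermat.Agent.JAN.Degeneracy
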