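import Fermat.Agent.JAN.DegeneracyBar
import Fermat.Agent.CMP.PushHecke
import Fermat.Agent.DR.Mod.KroneckerModular

/-!
# Comparison of the various push-forwards
-/

set_option autoImplicit false
set_option linter.style.haveILetI false

noncomputable section

open AlgebraicCurve ModularCurve

namespace Fermat.Agent.JAN.Degeneracy

open Fermat.Agent.Jan.HeckeCommute Fermat.Agent.DR.S36

/-- `PushZero` in terms of `push`. -/
theorem pushZero_iff {L : Type} [Field L] [Algebra ℚ L] [IsAlgClosed L] {N M : ℕ} [NeZero N]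
    [NeZero M] (φ : laurentBaseChange L (modularFunctionFieldFull N) →ₐ[L]
      laurentBaseChange L (modularFunctionFieldFull M))
    (x : Pic0 L (laurentBaseChange L (modularFunctionFieldFull M))) :
    PushZero φ x ↔ push φ x = 0 := by
  obtain ⟨D, rfl⟩ := Pic0.mk_surjective x
  constructor
  · intro h
    rw [push_mk, pic0_mk_eq_zero_iff]
    exact h (isIntegral_modular L φ) D rfl
  · intro h hφ D' hD'
    have h1 : push φ (Pic0.mk D') = 0 := by rw [hD', h]
    rw [push_mk, pic0_mk_eq_zero_iff] at h1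
    exact h1

theorem push_eq_CMP {L : Type} [Field L] [Algebra ℚ L] [IsAlgClosed L] (N M e : ℕ) [NeZero N]
    [NeZero M] [NeZero e] (h : N * e ∣ M)
    (x : Pic0 L (laurentBaseChange L (modularFunctionFieldFull M))) :
    CMP.PushHecke.push L N M e h x = push (degen L N M e h) x := by
  obtain ⟨D, rfl⟩ := Pic0.mk_surjective x
  rw [CMP.PushHecke.push_mk, push_mk]
  exact congrArg Pic0.mk (Subtype.ext rfl)

theorem alphaPush_eq_DR (M q : ℕ) [NeZero M] [NeZero q] (x : JZero (M * q)) :
    DR.Mod.alphaPush M q x = alphaPush M q x := by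
  obtain ⟨D, rfl⟩ := Pic0.mk_surjective x
  rw [DR.Mod.alphaPush_mk, alphaPush_mk]
  exact congrArg Pic0.mk (Subtype.ext rfl)

theorem betaPush_eq_DR (M q : ℕ) [NeZero M] [NeZero q] (x : JZero (M * q)) :
    DR.Mod.betaPush M q x = betaPush M q x := by
  obtain ⟨D, rfl⟩ := Pic0.mk_surjective x
  rw [DR.Mod.betaPush_mk, betaPush_mk]
  exact congrArg Pic0.mk (Subtype.ext rfl)

end Fermat.Agent.JAN.Degeneracy
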