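import Mathlib
import Fermat.Agent.JAN.Annihilate
import Fermat.Agent.JAN.JanMain
import Fermat.Agent.S27D.Divisible
import Fermat.Agent.RH.ModularGenus

/-!
# Annihilation of the torsion of `J₀(N)`, unconditionally
-/

set_option autoImplicit false
set_option linter.style.haveILetI false

noncomputable section

open UpperHalfPlane CongruenceSubgroup ModularCurve AlgebraicCurve
open scoped MatrixGroups ModularForm
open Fermat.Agent.S30Wiring

namespace Fermat.Agent.JAN.AnnFinal

variable (N : ℕ) [NeZero N]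

/-- `J₀(N)(ℚ̄)` is divisible. -/
theorem jZero_divisible {n : ℕ} (hn : n ≠ 0) (x : JZero N) : ∃ y : JZero N, n • y = x := by
  have := RH.functionField_bar N
  exact S27D.pic0_divisible (AlgebraicClosure ℚ) (modularFunctionFieldBar N) n hn x

variable {N}

/-- **Annihilation**: a Hecke polynomial in the `T_ℓ`, `ℓ ∉ S`, killing `S₂(Γ₀(N))` kills the
torsion of `J₀(N)`. -/
theorem smul_eq_zero_of_torsion {S : Finset ℕ} (hNS : ∀ q : ℕ, q.Prime → q ∣ N → q ∈ S)
    {t : AnemicAlg S} (ht : anemicEval (N := N) hNS t = 0) {n : ℕ} (hn : n ≠ 0) {x : JZero N}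
    (hx : n • x = 0) :
    letI := heckeModuleBar N
    anemicIncl S t • x = 0 :=
  Annihilate.smul_eq_zero_of_divisible (PsiDegree.heckeOperatorsCommuteBar N) (janMain N)
    (fun c _ hc _ x _ => jZero_divisible N hc.ne' x) hNS t ht n (Nat.pos_of_ne_zero hn) x hx

end Fermat.Agent.JAN.AnnFinal
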