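import Mathlib

/-!
# Eisenstein series with a unitary character on a subgroup of `SL(2, ℤ)`

For a subgroup `Γ ≤ SL(2, ℤ)` and a unitary character `χ : Γ →* ℂˣ` which is trivial on the
elements of `Γ` fixing `∞`, we define
`eisChar k χ z = ∑ χ(γ)⁻¹ (c z + d)^(-k)` (sum over bottom rows `(c, d)` of elements of `Γ`)
and prove that, for `k ≥ 3`, it is holomorphic, satisfies `eisChar k χ ∣[k] γ = χ γ • eisChar k χ`,
all its `SL(2, ℤ)`-translates are bounded at `i∞`, and it tends to `2` at `i∞` (when `-1 ∈ Γ` and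
`k` is even).
-/

set_option autoImplicit false

noncomputable section

namespace Fermat.Agent.JAN.EisChar

open UpperHalfPlane EisensteinSeries Matrix Filter Function Complex Manifold ModularForm
open scoped MatrixGroups Topology

/-! ### Weighted lattice sums -/

/-- The weighted Eisenstein series `∑ w(v) (v₀ z + v₁)^(-k)`. -/
def wEis (k : ℤ) (w : (Fin 2 → ℤ) → ℂ) (z : ℍ) : ℂ := ∑' v : Fin 2 → ℤ, w v * eisSummand k v z

variable {k : ℤ} {w : (Fin 2 → ℤ) → ℂ}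

theorem norm_mul_eisSummand_le (hw : ∀ v, ‖w v‖ ≤ 1) (v : Fin 2 → ℤ) (z : ℍ) :
    ‖w v * eisSummand k v z‖ ≤ ‖eisSummand k v z‖ := by
  rw [norm_mul]
  exact mul_le_of_le_one_left (norm_nonneg _) (hw v)

theorem summable_norm (hk : 3 ≤ k) (hw : ∀ v, ‖w v‖ ≤ 1) (z : ℍ) :
    Summable fun v : Fin 2 → ℤ => ‖w v * eisSummand k v z‖ :=
  (summable_norm_eisSummand hk z).of_nonneg_of_le (fun _ => norm_nonneg _)
    fun v => norm_mul_eisSummand_le hw v z

theorem summable (hk : 3 ≤ k) (hw : ∀ v, ‖w v‖ ≤ 1) (z : ℍ) :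
    Summable fun v : Fin 2 → ℤ => w v * eisSummand k v z :=
  (summable_norm hk hw z).of_norm

/-- The permutation of `ℤ²` given by right multiplication by an element of `SL(2, ℤ)`. -/
def vecMulEquiv (g : SL(2, ℤ)) : (Fin 2 → ℤ) ≃ (Fin 2 → ℤ) where
  toFun v := v ᵥ* (g : Matrix (Fin 2) (Fin 2) ℤ)
  invFun v := v ᵥ* ((g⁻¹ : SL(2, ℤ)) : Matrix (Fin 2) (Fin 2) ℤ)
  left_inv v := by
    have h : g.1 * (g⁻¹).1 = 1 := congrArg Subtype.val (mul_inv_cancel g)
    show (v ᵥ* g.1) ᵥ* (g⁻¹).1 = v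
    rw [vecMul_vecMul, h, vecMul_one]
  right_inv v := by
    have h : (g⁻¹).1 * g.1 = 1 := congrArg Subtype.val (inv_mul_cancel g)
    show (v ᵥ* (g⁻¹).1) ᵥ* g.1 = v
    rw [vecMul_vecMul, h, vecMul_one]

@[simp] theorem vecMulEquiv_apply (g : SL(2, ℤ)) (v : Fin 2 → ℤ) :
    vecMulEquiv g v = v ᵥ* (g : Matrix (Fin 2) (Fin 2) ℤ) := rfl

@[simp] theorem vecMulEquiv_symm_apply (g : SL(2, ℤ)) (v : Fin 2 → ℤ) :
    (vecMulEquiv g).symm v = v ᵥ* ((g⁻¹ : SL(2, ℤ)) : Matrix (Fin 2) (Fin 2) ℤ) := rfl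

/-- Slash action on weighted Eisenstein series. -/
theorem wEis_slash (k : ℤ) (w : (Fin 2 → ℤ) → ℂ) (g : SL(2, ℤ)) :
    wEis k w ∣[k] g = wEis k fun v => w ((vecMulEquiv g).symm v) := by
  ext z
  rw [SL_slash_apply, _root_.zpow_neg,
    mul_inv_eq_iff_eq_mul₀ (zpow_ne_zero _ <| denom_ne_zero _ z), wEis, wEis, mul_comm,
    ← tsum_mul_left, ← (vecMulEquiv g).tsum_eq
      (fun v => denom g z ^ k * (w ((vecMulEquiv g).symm v) * eisSummand k v z))]
  refine tsum_congr fun v => ?_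
  rw [eisSummand_SL2_apply, Equiv.symm_apply_apply, vecMulEquiv_apply]
  ring

theorem tendstoLocallyUniformly (hk : 3 ≤ k) (hw : ∀ v, ‖w v‖ ≤ 1) :
    TendstoLocallyUniformly (fun (s : Finset (Fin 2 → ℤ)) (z : ℍ) =>
      ∑ v ∈ s, w v * eisSummand k v z) (wEis k w) Filter.atTop := by
  have hk' : (2 : ℝ) < k := by norm_cast
  have p_sum : Summable fun x : Fin 2 → ℤ => ‖x‖ ^ (-k) :=
    mod_cast summable_one_div_norm_rpow hk'
  simp only [tendstoLocallyUniformly_iff_forall_isCompact]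
  intro K hK
  obtain ⟨A, B, hB, HABK⟩ := subset_verticalStrip_of_isCompact hK
  refine (tendstoUniformlyOn_tsum (hu := p_sum.mul_left <| r ⟨⟨A, B⟩, hB⟩ ^ (-k : ℝ))
    (fun p z hz ↦ ?_)).mono HABK
  refine (norm_mul_eisSummand_le hw p z).trans ?_
  simpa only [eisSummand, one_div, ← _root_.zpow_neg, norm_zpow, ← Real.rpow_intCast,
    Int.cast_neg] using summand_bound_of_mem_verticalStrip (by positivity) p hB hz

theorem mdifferentiable (hk : 3 ≤ k) (hw : ∀ v, ‖w v‖ ≤ 1) : MDiff (wEis k w) := by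
  intro τ
  suffices DifferentiableAt ℂ (↑ₕ(wEis k w)) τ.1 by
    convert!
      MDifferentiableAt.comp τ (DifferentiableAt.mdifferentiableAt this) τ.mdifferentiable_coe
    exact funext fun z ↦ (comp_ofComplex (wEis k w) z).symm
  refine DifferentiableOn.differentiableAt ?_ (isOpen_upperHalfPlaneSet.mem_nhds τ.2)
  have hlim : TendstoLocallyUniformlyOn (fun (s : Finset (Fin 2 → ℤ)) ↦
      ↑ₕ(fun (z : ℍ) ↦ ∑ x ∈ s, w x * eisSummand k x z)) (↑ₕ(wEis k w))
          Filter.atTop {z : ℂ | 0 < z.im} := by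
    rw [← upperHalfPlaneSet, ← range_coe, ← Set.image_univ]
    apply TendstoLocallyUniformlyOn.comp (s := ⊤) _ _ _
      (OpenPartialHomeomorph.continuousOn_symm _)
    · simp only [Set.top_eq_univ, tendstoLocallyUniformlyOn_univ]
      exact tendstoLocallyUniformly hk hw
    · simp only [Topology.IsOpenEmbedding.toOpenPartialHomeomorph_target, Set.top_eq_univ,
        Set.mapsTo_range_iff, Set.mem_univ, forall_const]
  exact hlim.differentiableOn
    (Eventually.of_forall fun s ↦ DifferentiableOn.fun_sum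
    fun _ _ ↦ (eisSummand_extension_differentiableOn _ _).const_mul _) isOpen_upperHalfPlaneSet

/-! ### Behaviour at `i∞` -/

/-- The sum of the absolute values; it is invariant under `SL(2, ℤ)` up to the automorphy
factor. -/
def absEis (k : ℤ) (z : ℍ) : ℝ := ∑' v : Fin 2 → ℤ, ‖eisSummand k v z‖

theorem norm_wEis_le (hk : 3 ≤ k) (hw : ∀ v, ‖w v‖ ≤ 1) (z : ℍ) : ‖wEis k w z‖ ≤ absEis k z :=
  (norm_tsum_le_tsum_norm (summable_norm hk hw z)).trans
    ((summable_norm hk hw z).tsum_le_tsum (fun v => norm_mul_eisSummand_le hw v z)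
      (summable_norm_eisSummand hk z))

theorem denom_T_zpow (n : ℤ) (z : ℍ) : denom (ModularGroup.T ^ n : SL(2, ℤ)) z = 1 := by
  rw [ModularGroup.denom_apply, ModularGroup.coe_T_zpow]
  simp

theorem absEis_T_zpow_smul (k : ℤ) (n : ℤ) (z : ℍ) :
    absEis k ((ModularGroup.T ^ n : SL(2, ℤ)) • z) = absEis k z := by
  rw [absEis, absEis, ← (vecMulEquiv (ModularGroup.T ^ n)).tsum_eq (fun v => ‖eisSummand k v z‖)]
  refine tsum_congr fun v => ?_
  rw [eisSummand_SL2_apply, denom_T_zpow, _root_.one_zpow, one_mul, vecMulEquiv_apply]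

theorem isBoundedAtImInfty (hk : 3 ≤ k) (hw : ∀ v, ‖w v‖ ≤ 1) :
    IsBoundedAtImInfty (wEis k w) := by
  rw [UpperHalfPlane.isBoundedAtImInfty_iff]
  refine ⟨∑'(x : Fin 2 → ℤ), r ⟨⟨1, 2⟩, Nat.ofNat_pos⟩ ^ (-k) * ‖x‖ ^ (-k), 2, ?_⟩
  intro z hz
  obtain ⟨n, hn⟩ := (ModularGroup_T_zpow_mem_verticalStrip z (N := 1) one_pos)
  refine (norm_wEis_le hk hw z).trans ?_
  rw [← absEis_T_zpow_smul k (((1 : ℕ) : ℤ) * n)]
  have hk' : (2 : ℝ) < k := by norm_cast
  apply (summable_norm_eisSummand hk _).tsum_le_tsum _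
  · exact_mod_cast (summable_one_div_norm_rpow hk').mul_left <| r ⟨⟨1, 2⟩, Nat.ofNat_pos⟩ ^ (-k)
  · intro x
    simp_rw [eisSummand, norm_zpow]
    exact_mod_cast
      summand_bound_of_mem_verticalStrip (lt_trans two_pos hk').le x two_pos
      (by exact_mod_cast verticalStrip_anti_right ((1 : ℕ) : ℝ) hz hn)

/-- All `SL(2, ℤ)`-translates of a weighted Eisenstein series are bounded at `i∞`. -/
theorem isBoundedAtImInfty_slash (hk : 3 ≤ k) (hw : ∀ v, ‖w v‖ ≤ 1) (g : SL(2, ℤ)) :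
    IsBoundedAtImInfty (wEis k w ∣[k] g) := by
  rw [wEis_slash]
  exact isBoundedAtImInfty hk fun v => hw _

open Classical in
/-- The part of the absolute Eisenstein series with `v₀ ≠ 0`. -/
def absEis' (k : ℤ) (z : ℍ) : ℝ := ∑' v : Fin 2 → ℤ, if v 0 = 0 then 0 else ‖eisSummand k v z‖

theorem vecMulEquiv_T_zpow_zero (n : ℤ) (v : Fin 2 → ℤ) :
    (vecMulEquiv (ModularGroup.T ^ n)) v 0 = v 0 := by
  rw [vecMulEquiv_apply, ModularGroup.coe_T_zpow]
  simp [vecMul]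
  rfl

theorem absEis'_T_zpow_smul (k : ℤ) (n : ℤ) (z : ℍ) :
    absEis' k ((ModularGroup.T ^ n : SL(2, ℤ)) • z) = absEis' k z := by
  rw [absEis', absEis', ← (vecMulEquiv (ModularGroup.T ^ n)).tsum_eq
    (fun v => if v 0 = 0 then 0 else ‖eisSummand k v z‖)]
  refine tsum_congr fun v => ?_
  rw [eisSummand_SL2_apply, denom_T_zpow, _root_.one_zpow, one_mul, vecMulEquiv_T_zpow_zero,
    vecMulEquiv_apply]

theorem tendsto_eisSummand (hk : 3 ≤ k) {v : Fin 2 → ℤ} (hv : v 0 ≠ 0) :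
    Tendsto (fun z : ℍ => ‖eisSummand k v z‖) atImInfty (𝓝 0) := by
  have hlim : Tendsto (fun z : ℍ => (z.im) ^ (-k)) atImInfty (𝓝 0) := by
    have h1 : Tendsto (fun x : ℝ => x ^ (-k)) atTop (𝓝 0) :=
      tendsto_zpow_atTop_zero (by omega)
    exact h1.comp tendsto_comap
  refine squeeze_zero (fun _ => norm_nonneg _) (fun z => ?_) hlim
  rw [eisSummand, norm_zpow]
  have h1 : z.im ≤ ‖(v 0 : ℂ) * z + v 1‖ := by
    have h2 : |((v 0 : ℂ) * z + v 1).im| ≤ ‖(v 0 : ℂ) * z + v 1‖ := Complex.abs_im_le_norm _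
    have h3 : ((v 0 : ℂ) * z + v 1).im = v 0 * z.im := by simp
    rw [h3, abs_mul, abs_of_pos z.im_pos] at h2
    refine le_trans ?_ h2
    have h4 : (1 : ℝ) ≤ |(v 0 : ℝ)| := by exact_mod_cast Int.one_le_abs hv
    nlinarith [z.im_pos]
  rw [_root_.zpow_neg, _root_.zpow_neg]
  exact inv_anti₀ (zpow_pos z.im_pos k) (zpow_le_zpow_left₀ (by omega) z.im_pos.le h1)

theorem tendsto_absEis' (hk : 3 ≤ k) : Tendsto (absEis' k) atImInfty (𝓝 0) := by
  classical
  have hk' : (2 : ℝ) < k := by norm_cast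
  -- on a vertical strip, by dominated convergence
  have hstrip : Tendsto (absEis' k) (atImInfty ⊓ 𝓟 (verticalStrip 1 2)) (𝓝 0) := by
    have h0 : (0 : ℝ) = ∑' v : Fin 2 → ℤ, (0 : ℝ) := by simp
    rw [h0]
    refine tendsto_tsum_of_dominated_convergence
      (bound := fun x : Fin 2 → ℤ => r ⟨⟨1, 2⟩, Nat.ofNat_pos⟩ ^ (-k) * ‖x‖ ^ (-k)) ?_ ?_ ?_
    · exact_mod_cast (summable_one_div_norm_rpow hk').mul_left <| r ⟨⟨1, 2⟩, Nat.ofNat_pos⟩ ^ (-k)
    · intro v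
      by_cases hv : v 0 = 0
      · simp only [hv, if_true]
        exact tendsto_const_nhds
      · simp only [hv, if_false]
        exact (tendsto_eisSummand hk hv).mono_left inf_le_left
    · refine eventually_inf_principal.mpr (Eventually.of_forall fun z hz v => ?_)
      have h1 : ‖eisSummand k v z‖ ≤ r ⟨⟨1, 2⟩, Nat.ofNat_pos⟩ ^ (-k) * ‖v‖ ^ (-k) := by
        simp_rw [eisSummand, norm_zpow]
        exact_mod_cast
          summand_bound_of_mem_verticalStrip (lt_trans two_pos hk').le v two_pos hz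
      split_ifs
      · rw [norm_zero]; exact (norm_nonneg _).trans h1
      · rwa [norm_norm]
  rw [Metric.tendsto_nhds] at hstrip ⊢
  intro ε hε
  have h1 := hstrip ε hε
  rw [eventually_inf_principal, atImInfty, eventually_comap] at h1
  rw [atImInfty, eventually_comap]
  filter_upwards [h1, eventually_ge_atTop 2] with y hy hy2 z hz
  obtain ⟨n, hn⟩ := (ModularGroup_T_zpow_mem_verticalStrip z (N := 1) one_pos)
  have him : ((ModularGroup.T ^ (((1 : ℕ) : ℤ) * n) : SL(2, ℤ)) • z).im = y := by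
    rw [modular_T_zpow_smul, vadd_im, hz]
  have h2 := hy _ him (by
    have := verticalStrip_anti_right ((1 : ℕ) : ℝ) (show (2 : ℝ) ≤ z.im by rw [hz]; exact hy2) hn
    exact_mod_cast this)
  rwa [absEis'_T_zpow_smul] at h2

theorem tendsto_wEis (hk : 3 ≤ k) (hw : ∀ v, ‖w v‖ ≤ 1) :
    Tendsto (wEis k w) atImInfty
      (𝓝 (∑' v : Fin 2 → ℤ, if v 0 = 0 then w v * (v 1 : ℂ) ^ (-k) else 0)) := by
  classical
  have hterm : ∀ (v : Fin 2 → ℤ) (z : ℍ), (if v 0 = 0 then w v * (v 1 : ℂ) ^ (-k) else 0) =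
      if v 0 = 0 then w v * eisSummand k v z else 0 := by
    intro v z
    by_cases hv : v 0 = 0
    · simp [hv, eisSummand]
    · simp [hv]
  rw [tendsto_iff_norm_sub_tendsto_zero]
  refine squeeze_zero (fun _ => norm_nonneg _) (fun z => ?_) (tendsto_absEis' hk)
  have hs1 := summable hk hw z
  have hs2 : Summable fun v : Fin 2 → ℤ => if v 0 = 0 then w v * eisSummand k v z else 0 := by
    have : (fun v : Fin 2 → ℤ => if v 0 = 0 then w v * eisSummand k v z else 0) =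
        Set.indicator {v : Fin 2 → ℤ | v 0 = 0} (fun v => w v * eisSummand k v z) := by
      ext v; simp [Set.indicator_apply]
    rw [this]
    exact hs1.indicator _
  have hs3 : Summable fun v : Fin 2 → ℤ => if v 0 = 0 then 0 else ‖eisSummand k v z‖ := by
    refine (summable_norm_eisSummand hk z).of_nonneg_of_le (fun v => ?_) (fun v => ?_)
    · split_ifs
      · exact le_rfl
      · exact norm_nonneg _
    · split_ifs
      · exact norm_nonneg _
      · exact le_rfl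
  rw [wEis, tsum_congr fun v => hterm v z, ← hs1.tsum_sub hs2, absEis']
  have hterm2 : ∀ v : Fin 2 → ℤ, ‖w v * eisSummand k v z -
      (if v 0 = 0 then w v * eisSummand k v z else 0)‖ ≤
        if v 0 = 0 then 0 else ‖eisSummand k v z‖ := by
    intro v
    split_ifs
    · simp
    · rw [sub_zero]; exact norm_mul_eisSummand_le hw v z
  have hs4 := hs3.of_nonneg_of_le (fun _ => norm_nonneg _) hterm2
  exact (norm_tsum_le_tsum_norm hs4).trans (hs4.tsum_le_tsum hterm2 hs3)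

/-! ### Eisenstein series attached to a character -/

/-- The weight function of a character: `w(c, d) = χ(γ)⁻¹` if `γ ∈ Γ` has bottom row `(c, d)`, and
`0` if there is no such `γ`. -/
def charWeight {Γ : Subgroup SL(2, ℤ)} (χ : Γ →* ℂˣ) (v : Fin 2 → ℤ) : ℂ :=
  open Classical in
  if h : ∃ γ : Γ, (γ : SL(2, ℤ)).1 1 = v then ((χ h.choose)⁻¹ : ℂˣ) else 0

section char

variable {Γ : Subgroup SL(2, ℤ)} {χ : Γ →* ℂˣ}

theorem eq_of_row_eq (hχ : ∀ γ : Γ, (γ : SL(2, ℤ)).1 1 0 = 0 → χ γ = 1) {γ δ : Γ}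
    (h : (γ : SL(2, ℤ)).1 1 = (δ : SL(2, ℤ)).1 1) : χ γ = χ δ := by
  have h1 : χ (γ * δ⁻¹) = 1 := by
    apply hχ
    have h10 : (γ : SL(2, ℤ)).1 1 0 = (δ : SL(2, ℤ)).1 1 0 := congrFun h 0
    have h11 : (γ : SL(2, ℤ)).1 1 1 = (δ : SL(2, ℤ)).1 1 1 := congrFun h 1
    have e : ((γ * δ⁻¹ : Γ) : SL(2, ℤ)).1 =
        (γ : SL(2, ℤ)).1 * ((δ : SL(2, ℤ))⁻¹).1 := rfl
    rw [e, SpecialLinearGroup.SL2_inv_expl, Matrix.mul_apply, Fin.sum_univ_two]
    simp only [Matrix.cons_val_zero, Matrix.cons_val_one]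
    show (γ : SL(2, ℤ)).1 1 0 * (δ : SL(2, ℤ)).1 1 1 +
      (γ : SL(2, ℤ)).1 1 1 * -(δ : SL(2, ℤ)).1 1 0 = 0
    rw [h10, h11]; ring
  rw [map_mul, map_inv, mul_inv_eq_one] at h1
  exact h1

theorem charWeight_row (hχ : ∀ γ : Γ, (γ : SL(2, ℤ)).1 1 0 = 0 → χ γ = 1) (γ : Γ) :
    charWeight χ ((γ : SL(2, ℤ)).1 1) = ((χ γ)⁻¹ : ℂˣ) := by
  have h : ∃ δ : Γ, (δ : SL(2, ℤ)).1 1 = (γ : SL(2, ℤ)).1 1 := ⟨γ, rfl⟩
  rw [charWeight, dif_pos h, eq_of_row_eq hχ h.choose_spec]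

theorem charWeight_of_not {v : Fin 2 → ℤ} (h : ¬ ∃ γ : Γ, (γ : SL(2, ℤ)).1 1 = v) :
    charWeight χ v = 0 := by
  rw [charWeight, dif_neg h]

theorem norm_charWeight_le (hu : ∀ γ : Γ, ‖(χ γ : ℂ)‖ = 1) (v : Fin 2 → ℤ) :
    ‖charWeight χ v‖ ≤ 1 := by
  rw [charWeight]
  split_ifs with h
  · rw [Units.val_inv_eq_inv_val, norm_inv, hu, inv_one]
  · simp

theorem row_mul (γ : SL(2, ℤ)) (g : SL(2, ℤ)) : (γ * g).1 1 = vecMulEquiv g (γ.1 1) := by
  rw [vecMulEquiv_apply]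
  ext j
  show (γ.1 * g.1) 1 j = _
  rw [Matrix.mul_apply, vecMul, dotProduct]

theorem charWeight_vecMul_symm (hχ : ∀ γ : Γ, (γ : SL(2, ℤ)).1 1 0 = 0 → χ γ = 1) (γ : Γ)
    (v : Fin 2 → ℤ) :
    charWeight χ ((vecMulEquiv (γ : SL(2, ℤ))).symm v) = χ γ * charWeight χ v := by
  by_cases h : ∃ δ : Γ, (δ : SL(2, ℤ)).1 1 = v
  · obtain ⟨δ, rfl⟩ := h
    have h1 : (vecMulEquiv (γ : SL(2, ℤ))).symm ((δ : SL(2, ℤ)).1 1) =
        ((δ * γ⁻¹ : Γ) : SL(2, ℤ)).1 1 := by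
      rw [Equiv.symm_apply_eq]
      have := row_mul ((δ * γ⁻¹ : Γ) : SL(2, ℤ)) (γ : SL(2, ℤ))
      rw [← this]
      simp
    rw [h1, charWeight_row hχ, charWeight_row hχ, map_mul, map_inv]
    simp
  · rw [charWeight_of_not h, mul_zero, charWeight_of_not]
    rintro ⟨δ, hδ⟩
    refine h ⟨δ * γ, ?_⟩
    have := row_mul (δ : SL(2, ℤ)) (γ : SL(2, ℤ))
    rw [hδ, Equiv.apply_symm_apply] at this
    exact this

variable (k χ) in
/-- The Eisenstein series of weight `k` attached to a character `χ` of `Γ`. -/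
def eisChar : ℍ → ℂ := wEis k (charWeight χ)

theorem eisChar_slash (k : ℤ) (hχ : ∀ γ : Γ, (γ : SL(2, ℤ)).1 1 0 = 0 → χ γ = 1) (γ : Γ) :
    eisChar k χ ∣[k] (γ : SL(2, ℤ)) = (χ γ : ℂ) • eisChar k χ := by
  rw [eisChar, wEis_slash]
  ext z
  rw [wEis, Pi.smul_apply, wEis, smul_eq_mul, ← tsum_mul_left]
  refine tsum_congr fun v => ?_
  rw [charWeight_vecMul_symm hχ]
  ring

theorem mdifferentiable_eisChar (hk : 3 ≤ k) (hu : ∀ γ : Γ, ‖(χ γ : ℂ)‖ = 1) :
    MDiff (eisChar k χ) :=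
  mdifferentiable hk (norm_charWeight_le hu)

theorem isBoundedAtImInfty_eisChar_slash (hk : 3 ≤ k) (hu : ∀ γ : Γ, ‖(χ γ : ℂ)‖ = 1)
    (g : SL(2, ℤ)) : IsBoundedAtImInfty (eisChar k χ ∣[k] g) :=
  isBoundedAtImInfty_slash hk (norm_charWeight_le hu) g

theorem tendsto_eisChar (hk : 3 ≤ k) (heven : Even k) (hu : ∀ γ : Γ, ‖(χ γ : ℂ)‖ = 1)
    (hχ : ∀ γ : Γ, (γ : SL(2, ℤ)).1 1 0 = 0 → χ γ = 1) (hΓ : -1 ∈ Γ) :
    Tendsto (eisChar k χ) atImInfty (𝓝 2) := by
  have h := tendsto_wEis (w := charWeight χ) hk (norm_charWeight_le hu)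
  suffices key : (∑' v : Fin 2 → ℤ, if v 0 = 0 then charWeight χ v * (v 1 : ℂ) ^ (-k) else 0) = 2
    by rwa [key] at h
  have hrow1 : (((1 : Γ) : SL(2, ℤ)).1 1) = ![0, 1] := by
    ext j; fin_cases j <;> simp
  have hrow2 : (((⟨-1, hΓ⟩ : Γ) : SL(2, ℤ)).1 1) = ![0, -1] := by
    ext j; fin_cases j <;> simp
  have hw1 : charWeight χ ![0, 1] = 1 := by
    rw [← hrow1, charWeight_row hχ]; simp
  have hw2 : charWeight χ ![0, -1] = 1 := by
    rw [← hrow2, charWeight_row hχ, hχ]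
    · simp
    · rw [hrow2]; simp
  rw [tsum_eq_sum (s := {![0, 1], ![0, -1]})]
  · rw [Finset.sum_pair (by decide)]
    simp [hw1, hw2, heven.neg.neg_one_zpow]
    norm_num
  · intro v hv
    by_cases h0 : v 0 = 0
    · rw [if_pos h0, charWeight_of_not, zero_mul]
      rintro ⟨γ, hγ⟩
      have hdet := (γ : SL(2, ℤ)).det_coe
      have h10 : (γ : SL(2, ℤ)).1 1 0 = 0 := by rw [hγ]; exact h0
      have h11 : (γ : SL(2, ℤ)).1 1 1 = v 1 := by rw [hγ]
      rw [Matrix.det_fin_two] at hdet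
      have h3 : (γ : SL(2, ℤ)).1 0 0 * v 1 = 1 := by
        rw [← h11]
        have : (γ : SL(2, ℤ)).1 0 1 * (γ : SL(2, ℤ)).1 1 0 = 0 := by rw [h10, mul_zero]
        linarith
      rcases Int.isUnit_iff.mp (IsUnit.of_mul_eq_one_right _ h3) with h4 | h4
      · apply hv
        simp only [Finset.mem_insert, Finset.mem_singleton]
        left
        ext j; fin_cases j
        · exact h0
        · exact h4
      · apply hv
        simp only [Finset.mem_insert, Finset.mem_singleton]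
        right
        ext j; fin_cases j
        · exact h0
        · exact h4
    · rw [if_neg h0]

theorem eisChar_ne_zero (hk : 3 ≤ k) (heven : Even k) (hu : ∀ γ : Γ, ‖(χ γ : ℂ)‖ = 1)
    (hχ : ∀ γ : Γ, (γ : SL(2, ℤ)).1 1 0 = 0 → χ γ = 1) (hΓ : -1 ∈ Γ) : eisChar k χ ≠ 0 := by
  intro h
  have h1 := tendsto_eisChar hk heven hu hχ hΓ
  rw [h] at h1
  have h2 : Tendsto (0 : ℍ → ℂ) atImInfty (𝓝 0) := tendsto_const_nhds
  exact two_ne_zero (tendsto_nhds_unique h1 h2)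

end char

end Fermat.Agent.JAN.EisChar
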