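import Fermat.Agent.JAN.KummerLocal
import Fermat.Agent.JAN.HolRoot

/-!
# The character of an `n`-th root

If `A`, `B` are forms of weight `k` and trivial character whose local orders are congruent mod `n`
(`LocalDvd`), then `A * B ^ (n - 1)` has a holomorphic `n`-th root `E` on `ℍ`, a form of weight `k`
and character `χ`, `χ ^ n = 1`, `χ = 1` on elements with `trace ^ 2 ≤ 4`.
-/

set_option autoImplicit false

noncomputable section

open UpperHalfPlane CongruenceSubgroup ModularCurve FermatJ Filter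
open scoped MatrixGroups ModularForm Manifold Topology

namespace Fermat.Agent.JAN

/-! ### conjugacy classes of trace `± 2` -/

theorem exists_conj_upper' (γ : SL(2, ℤ))
    (h : ((γ : Matrix (Fin 2) (Fin 2) ℤ)).trace ^ 2 = 4) :
    ∃ δ : SL(2, ℤ), (δ⁻¹ * γ * δ) 1 0 = 0 := by
  rw [Matrix.trace_fin_two] at h
  have hdet := γ.det_coe
  rw [Matrix.det_fin_two] at hdet
  obtain ⟨e, he, he2⟩ : ∃ e : ℤ, γ 0 0 + γ 1 1 = 2 * e ∧ e ^ 2 = 1 := by
    have h1 : (γ 0 0 + γ 1 1 - 2) * (γ 0 0 + γ 1 1 + 2) = 0 := by linear_combination h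
    rcases mul_eq_zero.mp h1 with h2 | h2
    · exact ⟨1, by linear_combination h2, by norm_num⟩
    · exact ⟨-1, by linear_combination h2, by norm_num⟩
  by_cases hc : γ 1 0 = 0
  · exact ⟨1, by simpa using hc⟩
  · have hg : Int.gcd (γ 0 0 - e) (γ 1 0) ≠ 0 := by
      rw [Ne, Int.gcd_eq_zero_iff]; tauto
    obtain ⟨g, p, q, hgpos, hcop, hp, hq⟩ := Int.exists_gcd_one' (Nat.pos_of_ne_zero hg)
    have hcop' : IsCoprime p q := Int.isCoprime_iff_gcd_eq_one.mpr hcop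
    obtain ⟨δ, hδ0, hδ1⟩ := hcop'.exists_SL2_col 0
    refine ⟨δ, ?_⟩
    have hg0 : (g : ℤ) ≠ 0 := by exact_mod_cast hgpos.ne'
    have hentry : (δ⁻¹ * γ * δ) 1 0 =
        -δ 1 0 * (γ 0 0 * δ 0 0 + γ 0 1 * δ 1 0) + δ 0 0 * (γ 1 0 * δ 0 0 + γ 1 1 * δ 1 0) := by
      simp only [Matrix.SpecialLinearGroup.coe_mul, Matrix.SpecialLinearGroup.coe_inv,
        Matrix.adjugate_fin_two, Matrix.mul_apply, Fin.sum_univ_two]
      simp
      ring
    rw [hentry, hδ0, hδ1]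
    have h2 : (g : ℤ) * g * (-q * (γ 0 0 * p + γ 0 1 * q) + p * (γ 1 0 * p + γ 1 1 * q)) = 0 := by
      have : (g : ℤ) * g * (-q * (γ 0 0 * p + γ 0 1 * q) + p * (γ 1 0 * p + γ 1 1 * q)) =
        -(q * g) * (γ 0 0 * (p * g) + γ 0 1 * (q * g)) +
          (p * g) * (γ 1 0 * (p * g) + γ 1 1 * (q * g)) := by ring
      rw [this, ← hp, ← hq]
      have h11 : γ 1 1 = 2 * e - γ 0 0 := by linear_combination he
      rw [h11] at hdet ⊢
      linear_combination (γ 1 0) * hdet - (γ 1 0) * he2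
    rcases mul_eq_zero.mp h2 with h3 | h3
    · exact absurd h3 (mul_ne_zero hg0 hg0)
    · exact h3

theorem eq_T_zpow_or {M : SL(2, ℤ)} (h : M 1 0 = 0) :
    ∃ m : ℤ, M = ModularGroup.T ^ m ∨ M = -(ModularGroup.T ^ m) := by
  have hdet := M.det_coe
  rw [Matrix.det_fin_two, h, mul_zero, sub_zero] at hdet
  rcases Int.mul_eq_one_iff_eq_one_or_neg_one.mp hdet with ⟨h0, h1⟩ | ⟨h0, h1⟩
  · refine ⟨M 0 1, Or.inl ?_⟩
    apply Matrix.SpecialLinearGroup.ext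
    intro i j
    rw [ModularGroup.coe_T_zpow]
    fin_cases i <;> fin_cases j <;> simp [h, h0, h1]
  · refine ⟨-(M 0 1), Or.inr ?_⟩
    apply Matrix.SpecialLinearGroup.ext
    intro i j
    rw [Matrix.SpecialLinearGroup.coe_neg, ModularGroup.coe_T_zpow]
    fin_cases i <;> fin_cases j <;> simp [h, h0, h1]

theorem exists_T_form (γ : SL(2, ℤ)) (h : ((γ : Matrix (Fin 2) (Fin 2) ℤ)).trace ^ 2 = 4) :
    ∃ (g : SL(2, ℤ)) (m : ℤ), γ = g * ModularGroup.T ^ m * g⁻¹ ∨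
      γ = -1 * (g * ModularGroup.T ^ m * g⁻¹) := by
  obtain ⟨g, hg⟩ := exists_conj_upper' γ h
  obtain ⟨m, hm | hm⟩ := eq_T_zpow_or hg
  · refine ⟨g, m, Or.inl ?_⟩
    rw [← hm]
    group
  · refine ⟨g, m, Or.inr ?_⟩
    have : g * ModularGroup.T ^ m * g⁻¹ = -(g * (-(ModularGroup.T ^ m)) * g⁻¹) := by
      rw [mul_neg, neg_mul, neg_neg]
    rw [this, ← hm, neg_mul, one_mul, neg_neg]
    group

theorem neg_one_mem_Gamma0 (N : ℕ) : (-1 : SL(2, ℤ)) ∈ Gamma0 N := by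
  rw [Gamma0_mem]
  simp

/-! ### setting -/

section Root

variable {N n : ℕ} {k : ℤ} {χ : Gamma0 N →* ℂˣ} {A B E : ℍ → ℂ}

theorem slash_conj (hE : IsCharForm N k χ E) {g t : SL(2, ℤ)} (hmem : g * t * g⁻¹ ∈ Gamma0 N) :
    (E ∣[k] g) ∣[k] t = (χ ⟨_, hmem⟩ : ℂ) • (E ∣[k] g) := by
  have h1 : (E ∣[k] g) ∣[k] t = (E ∣[k] (g * t * g⁻¹)) ∣[k] g := by
    rw [← SlashAction.slash_mul, ← SlashAction.slash_mul]
    congr 1
    group
  have h2 := hE.slash ⟨_, hmem⟩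
  rw [h1, h2, ModularForm.SL_smul_slash]

theorem root_ne_zero (hn : n ≠ 0) (hA : IsCharForm N k 1 A) (hB : IsCharForm N k 1 B)
    (hA0 : A ≠ 0) (hB0 : B ≠ 0) (hpow : E ^ n = A * B ^ (n - 1)) : E ≠ 0 := by
  rintro rfl
  rw [zero_pow hn] at hpow
  have h1 : B ^ (n - 1) ≠ 0 := by
    have h2 := mdiff_pow hB.holo (n - 1)
    intro h3
    obtain ⟨τ, hτ⟩ := ne_zero_iff_exists.mp hB0
    -- some power vanishes at a nonzero point
    exact hτ (eq_zero_of_pow_eq_zero (congrFun h3 τ))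
  exact mdiff_mul_ne_zero hA.holo (mdiff_pow hB.holo _) hA0 h1 hpow.symm

theorem slash_root (hn : n ≠ 0) (hpow : E ^ n = A * B ^ (n - 1)) (g : SL(2, ℤ)) :
    (E ∣[k] g) ^ n = (A ∣[k] g) * (B ∣[k] g) ^ (n - 1) := by
  rw [← pow_slash, ← pow_slash, ← ModularForm.mul_slash_SL2, hpow]
  congr 1
  obtain ⟨m, rfl⟩ := Nat.exists_eq_succ_of_ne_zero hn
  rw [Nat.succ_sub_one]
  push_cast
  ring

/-- The character of the root is trivial on `g T ^ h g⁻¹`. -/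
theorem char_parabolic (hn : n ≠ 0) (hA : IsCharForm N k 1 A) (hB : IsCharForm N k 1 B)
    (hE : IsCharForm N k χ E) (hA0 : A ≠ 0) (hB0 : B ≠ 0) (hpow : E ^ n = A * B ^ (n - 1))
    (hχ : χ ^ n = 1) (hloc : LocalDvd N n k A B) (g : SL(2, ℤ)) (h : ℕ) [NeZero h]
    (hmem : g * ModularGroup.T ^ (h : ℤ) * g⁻¹ ∈ Gamma0 N) : χ ⟨_, hmem⟩ = 1 := by
  have hE0 := root_ne_zero hn hA hB hA0 hB0 hpow
  set ζ : ℂ := (χ ⟨_, hmem⟩ : ℂ) with hζ
  have hζn : ζ ^ n = 1 := by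
    rw [hζ, ← Units.val_pow_eq_pow_val, ← MonoidHom.pow_apply, hχ]
    simp
  have ha : (A ∣[k] g) ∣[k] (ModularGroup.T ^ (h : ℤ) : SL(2, ℤ)) = A ∣[k] g := by
    rw [slash_conj hA hmem]; simp
  have hb : (B ∣[k] g) ∣[k] (ModularGroup.T ^ (h : ℤ) : SL(2, ℤ)) = B ∣[k] g := by
    rw [slash_conj hB hmem]; simp
  have hu : ∀ τ : ℍ, (E ∣[k] g) ((h : ℝ) +ᵥ τ) = ζ * (E ∣[k] g) τ := by
    intro τ
    have h1 := congrFun (slash_conj hE hmem) τ
    rw [slash_T_zpow, Int.cast_natCast] at h1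
    exact h1
  have haP := hasPS_of_slash_T ha (mdiff_slash hA.holo g) (hA.bdd g)
  have hbP := hasPS_of_slash_T hb (mdiff_slash hB.holo g) (hB.bdd g)
  set P := qExpansion h (A ∣[k] g)
  set Q := qExpansion h (B ∣[k] g)
  have hP0 : P ≠ 0 := by
    rw [Ne, hasPS_qc_eq_zero_iff haP]; exact slash_ne_zero hA0 g
  have hQ0 : Q ≠ 0 := by
    rw [Ne, hasPS_qc_eq_zero_iff hbP]; exact slash_ne_zero hB0 g
  have hdvd := hloc.cusp g h (by exact_mod_cast hmem) P Q haP hbP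
  obtain ⟨m, hm⟩ := hdvd
  -- the root is periodic of period `h * n`
  have hun : ∀ (i : ℕ) (τ : ℍ), (E ∣[k] g) (((h * i : ℕ) : ℝ) +ᵥ τ) = ζ ^ i * (E ∣[k] g) τ := by
    intro i
    induction i with
    | zero => intro τ; simp
    | succ i ih =>
      intro τ
      have h1 : (((h * (i + 1) : ℕ) : ℝ) +ᵥ τ) = ((h : ℝ) +ᵥ ((((h * i : ℕ) : ℝ)) +ᵥ τ) : ℍ) := by
        rw [vadd_vadd]
        congr 1
        push_cast
        ring
      rw [h1, hu, ih, pow_succ]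
      ring
  have : NeZero (h * n) := ⟨Nat.mul_ne_zero (NeZero.ne h) hn⟩
  have huP : HasPS (qc (h * n)) (E ∣[k] g) (qExpansion ((h * n : ℕ) : ℝ) (E ∣[k] g)) := by
    refine hasPS_of_bounded (fun τ => ?_) (mdiff_slash hE.holo g) (hE.bdd g)
    rw [hun n τ, hζn, one_mul]
  have hR0 : qExpansion ((h * n : ℕ) : ℝ) (E ∣[k] g) ≠ 0 := by
    rw [Ne, hasPS_qc_eq_zero_iff huP]; exact slash_ne_zero hE0 g
  have ou := ordInf_of_hasPS huP hR0
  set r : ℝ := ((qExpansion ((h * n : ℕ) : ℝ) (E ∣[k] g)).order.toNat : ℝ) / ((h * n : ℕ) : ℝ) with hr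
  have oa := ordInf_of_hasPS haP hP0
  have ob := ordInf_of_hasPS hbP hQ0
  have o1 := ou.pow n
  have o2 := oa.mul (ob.pow (n - 1))
  rw [← slash_root hn hpow g] at o2
  have h2 := o1.unique o2
  have hh0 : (h : ℝ) ≠ 0 := by exact_mod_cast NeZero.ne h
  have hn0 : (n : ℝ) ≠ 0 := by exact_mod_cast hn
  have hcast : ((n - 1 : ℕ) : ℝ) = (n : ℝ) - 1 := by
    rw [Nat.cast_sub (Nat.one_le_iff_ne_zero.mpr hn)]
    simp
  have hmR : (P.order.toNat : ℝ) - Q.order.toNat = n * m := by exact_mod_cast hm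
  have h3 : r * h = ((m + Q.order.toNat : ℤ) : ℝ) := by
    apply mul_left_cancel₀ hn0
    rw [hcast] at h2
    have h4 : (n : ℝ) * r * h = P.order.toNat + (n - 1) * Q.order.toNat := by
      rw [h2]
      field_simp
    push_cast
    rw [← mul_assoc, h4]
    linear_combination hmR
  have h5 := ou.translate hu
  rw [h3] at h5
  have h6 : ζ = 1 := by
    rw [h5, Complex.exp_eq_one_iff]
    exact ⟨m + Q.order.toNat, by push_cast; ring⟩
  exact Units.ext h6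

/-- The character of the root is trivial on all elements with `trace ^ 2 ≤ 4`. -/
theorem char_eq_one (hn : n ≠ 0) (hA : IsCharForm N k 1 A) (hB : IsCharForm N k 1 B)
    (hE : IsCharForm N k χ E) (hA0 : A ≠ 0) (hB0 : B ≠ 0) (hpow : E ^ n = A * B ^ (n - 1))
    (hχ : χ ^ n = 1) (hloc : LocalDvd N n k A B) (γ : Gamma0 N)
    (hγ : ((γ : SL(2, ℤ)) : Matrix (Fin 2) (Fin 2) ℤ).trace ^ 2 ≤ 4) : χ γ = 1 := by
  have hE0 := root_ne_zero hn hA hB hA0 hB0 hpow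
  rcases hγ.lt_or_eq with hlt | heq
  · -- elliptic
    obtain ⟨τ, hτ⟩ := exists_fixed hlt
    have h1 := mult_compare hE.holo hE0 hB.holo hB0 (hE.slash γ) (hB.slash γ) hτ
    obtain ⟨m, hm, hden⟩ := hloc.ell τ γ hτ
    have h2 : n * ordH E τ = ordH A τ + (n - 1) * ordH B τ := by
      rw [← ordH_pow hE.holo, hpow, ordH_mul hA.holo (mdiff_pow hB.holo _) hA0 ?_ τ,
        ordH_pow hB.holo]
      intro h3
      obtain ⟨τ', hτ'⟩ := ne_zero_iff_exists.mp hB0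
      exact hτ' (eq_zero_of_pow_eq_zero (congrFun h3 τ'))
    have h3 : (n : ℤ) * ((ordH E τ : ℤ) - ordH B τ) = n * m := by
      rw [← hm]
      have h4 : ((n - 1 : ℕ) : ℤ) = (n : ℤ) - 1 := by
        rw [Nat.cast_sub (Nat.one_le_iff_ne_zero.mpr hn)]
        simp
      have h5 : (n : ℤ) * ordH E τ = ordH A τ + ((n - 1 : ℕ) : ℤ) * ordH B τ := by
        exact_mod_cast h2
      rw [h4] at h5
      linear_combination h5
    have h4 : (ordH E τ : ℤ) - ordH B τ = m := mul_left_cancel₀ (by exact_mod_cast hn) h3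
    rw [h4, hden, mul_one] at h1
    exact Units.ext (by simpa using h1)
  · obtain ⟨g, m, hm⟩ := exists_T_form _ heq
    have hmem : g * ModularGroup.T ^ m * g⁻¹ ∈ Gamma0 N := by
      rcases hm with h1 | h1
      · rw [← h1]; exact γ.2
      · have h2 : g * ModularGroup.T ^ m * g⁻¹ = (-1)⁻¹ * (γ : SL(2, ℤ)) := by
          rw [h1]; group
        rw [h2]
        exact mul_mem (inv_mem (neg_one_mem_Gamma0 N)) γ.2
    have hT : χ ⟨_, hmem⟩ = 1 := by
      rcases lt_trichotomy m 0 with hm0 | hm0 | hm0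
      · obtain ⟨h, rfl⟩ : ∃ h : ℕ, m = -(h : ℤ) := ⟨m.natAbs, by omega⟩
        have hh : NeZero h := ⟨by rintro rfl; simp at hm0⟩
        have hinv : (g * ModularGroup.T ^ (-(h : ℤ)) * g⁻¹)⁻¹ = g * ModularGroup.T ^ (h : ℤ) * g⁻¹ := by
          group
        have hmem' : g * ModularGroup.T ^ (h : ℤ) * g⁻¹ ∈ Gamma0 N := by
          rw [← hinv]; exact inv_mem hmem
        have h1 := char_parabolic hn hA hB hE hA0 hB0 hpow hχ hloc g h hmem'
        have h2 : (⟨_, hmem⟩ : Gamma0 N) = (⟨_, hmem'⟩ : Gamma0 N)⁻¹ := by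
          apply Subtype.ext
          show _ = (g * ModularGroup.T ^ (h : ℤ) * g⁻¹)⁻¹
          rw [← hinv, inv_inv]
        rw [h2, map_inv, h1, inv_one]
      · subst hm0
        have : (⟨_, hmem⟩ : Gamma0 N) = 1 := by
          apply Subtype.ext
          show g * ModularGroup.T ^ (0 : ℤ) * g⁻¹ = 1
          simp
        rw [this, map_one]
      · obtain ⟨h, rfl⟩ : ∃ h : ℕ, m = (h : ℤ) := ⟨m.natAbs, by omega⟩
        have hh : NeZero h := ⟨by rintro rfl; simp at hm0⟩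
        exact char_parabolic hn hA hB hE hA0 hB0 hpow hχ hloc g h hmem
    rcases hm with h1 | h1
    · rw [← hT]
      congr 1
      exact Subtype.ext h1
    · have h2 : γ = ⟨-1, neg_one_mem_Gamma0 N⟩ * ⟨_, hmem⟩ := Subtype.ext h1
      rw [h2, map_mul, hT, mul_one]
      have h3 := hE.char_neg_one hE0 (γ := ⟨-1, neg_one_mem_Gamma0 N⟩) rfl
      have h4 := hB.char_neg_one hB0 (γ := ⟨-1, neg_one_mem_Gamma0 N⟩) rfl
      rw [← h4] at h3
      exact Units.ext h3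

/-- the `n`-th root of a function on `ℍ` -/
theorem exists_root' (hn : n ≠ 0) {G : ℍ → ℂ} (hG : MDiff G) (hG0 : G ≠ 0)
    (hord : ∀ τ : ℍ, n ∣ ordH G τ) : ∃ E : ℍ → ℂ, MDiff E ∧ E ^ n = G := by
  have hG' := hG
  rw [UpperHalfPlane.mdifferentiable_iff] at hG'
  obtain ⟨E, hE, hEG⟩ := HolRoot.exists_root hn (g := G ∘ ofComplex) hG' (by
    intro z hz
    obtain ⟨m, hm⟩ := hord ⟨z, hz⟩
    refine ⟨m, ?_⟩
    rw [← hm, ordH_cast hG hG0 ⟨z, hz⟩])
  refine ⟨fun τ => E τ, ?_, ?_⟩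
  · rw [UpperHalfPlane.mdifferentiable_iff]
    refine hE.congr fun z hz => ?_
    simp [ofComplex_apply_of_im_pos hz]
  · funext τ
    rw [Pi.pow_apply, hEG τ τ.im_pos]
    simp

/-- an `n`-th root of a form of weight `n k` and trivial character is a form of weight `k` with
character -/
theorem exists_char (hn : n ≠ 0) {G : ℍ → ℂ} (hG : IsCharForm N (n * k) 1 G)
    (hE : MDiff E) (hE0 : E ≠ 0) (hpow : E ^ n = G) :
    ∃ χ : Gamma0 N →* ℂˣ, IsCharForm N k χ E ∧ χ ^ n = 1 := by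
  have key : ∀ γ : Gamma0 N, ∃ ζ : ℂ, ζ ^ n = 1 ∧ E ∣[k] (γ : SL(2, ℤ)) = ζ • E := by
    intro γ
    refine eq_const_mul_of_pow_eq hn (mdiff_slash hE _) hE ?_
    rw [← pow_slash, hpow, hG.slash]
    simp
  choose ζ hζ1 hζ2 using key
  have hζ0 : ∀ γ, ζ γ ≠ 0 := by
    intro γ h0
    have := hζ1 γ
    rw [h0, zero_pow hn] at this
    exact zero_ne_one this
  have hinj : ∀ a b : ℂ, a • E = b • E → a = b := by
    intro a b hab
    obtain ⟨τ, hτ⟩ := ne_zero_iff_exists.mp hE0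
    have := congrFun hab τ
    simpa [hτ] using this
  let χ : Gamma0 N →* ℂˣ :=
    { toFun := fun γ => Units.mk0 (ζ γ) (hζ0 γ)
      map_one' := by
        apply Units.ext
        apply hinj
        show ζ 1 • E = (1 : ℂ) • E
        rw [← hζ2 1]
        simp
      map_mul' := by
        intro γ δ
        apply Units.ext
        apply hinj
        show ζ (γ * δ) • E = (ζ γ * ζ δ) • E
        rw [← hζ2 (γ * δ), Subgroup.coe_mul, SlashAction.slash_mul, hζ2 γ,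
          ModularForm.SL_smul_slash, hζ2 δ, smul_smul] }
  refine ⟨χ, ⟨hE, fun γ => hζ2 γ, fun g => ?_⟩, ?_⟩
  · apply bdd_of_pow_bdd hn
    rw [← pow_slash, hpow]
    exact hG.bdd g
  · ext γ
    show ζ γ ^ n = 1
    exact hζ1 γ

/-- **The root form**: the Kummer character of `A / B`. -/
theorem exists_root_form (hn : n ≠ 0) (hA : IsCharForm N k 1 A) (hB : IsCharForm N k 1 B)
    (hA0 : A ≠ 0) (hB0 : B ≠ 0) (hloc : LocalDvd N n k A B) :
    ∃ (χ : Gamma0 N →* ℂˣ) (E : ℍ → ℂ), IsCharForm N k χ E ∧ E ≠ 0 ∧ E ^ n = A * B ^ (n - 1) ∧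
      χ ^ n = 1 ∧ ∀ γ : Gamma0 N,
        ((γ : SL(2, ℤ)) : Matrix (Fin 2) (Fin 2) ℤ).trace ^ 2 ≤ 4 → χ γ = 1 := by
  have hB1 : B ^ (n - 1) ≠ 0 := by
    intro h3
    obtain ⟨τ', hτ'⟩ := ne_zero_iff_exists.mp hB0
    exact hτ' (eq_zero_of_pow_eq_zero (congrFun h3 τ'))
  have hB2 := mdiff_pow hB.holo (n - 1)
  have hG0 : A * B ^ (n - 1) ≠ 0 := mdiff_mul_ne_zero hA.holo hB2 hA0 hB1
  obtain ⟨E, hE, hpow⟩ := exists_root' hn (hA.holo.mul hB2) hG0 (by
    intro τ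
    rw [ordH_mul hA.holo hB2 hA0 hB1, ordH_pow hB.holo]
    obtain ⟨m, hm, -⟩ := hloc.ell τ 1 (by simp)
    have h4 : ((n - 1 : ℕ) : ℤ) = (n : ℤ) - 1 := by
      rw [Nat.cast_sub (Nat.one_le_iff_ne_zero.mpr hn)]
      simp
    have h5 : (n : ℤ) ∣ ((ordH A τ + (n - 1) * ordH B τ : ℕ) : ℤ) := by
      refine ⟨m + ordH B τ, ?_⟩
      rw [Nat.cast_add, Nat.cast_mul, h4]
      linear_combination hm
    exact_mod_cast h5)
  have hE0 := root_ne_zero hn hA hB hA0 hB0 hpow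
  have hG : IsCharForm N (n * k) 1 (A * B ^ (n - 1)) := by
    have h1 : (1 : Gamma0 N →* ℂˣ) * 1 ^ (n - 1) = 1 := by
      ext γ
      simp
    refine ((hA.mul (hB.pow (n - 1))).cast ?_).congr_char h1
    obtain ⟨m, rfl⟩ := Nat.exists_eq_succ_of_ne_zero hn
    rw [Nat.succ_sub_one]
    push_cast
    ring
  obtain ⟨χ, hχ, hχn⟩ := exists_char hn hG hE hE0 hpow
  exact ⟨χ, E, hχ, hE0, hpow, hχn, fun γ hγ =>
    char_eq_one hn hA hB hχ hA0 hB0 hpow hχn hloc γ hγ⟩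

end Root

end Fermat.Agent.JAN
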