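import Fermat.Agent.JAN.RelBasic
import Fermat.Agent.MFF.CharDict
import Fermat.Agent.FunField.Quot

/-!
# The Kummer map for `X₀(N)`

* `exists_rel_of_localDvd` (a): functions with divisor divisible by `n` have a Kummer character.
* `Rel.exists_root` (b): functions with the same Kummer character differ by `n`-th powers.
* `dvd_of_rel` (d): functions in relation with a character killing elements of `trace ^ 2 ≤ 4` have
  divisor divisible by `n`.
-/

set_option autoImplicit false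

noncomputable section

open UpperHalfPlane CongruenceSubgroup ModularCurve FermatJ Filter AlgebraicCurve
open scoped MatrixGroups ModularForm Manifold Topology

namespace Fermat.Agent.JAN

section

variable {N n : ℕ} {L : Type*} [Field L] [Algebra L ℂ] {χ ψ : Gamma0 N →* ℂˣ}
  {f g : LaurentSeries L}

/-! ### quotients -/

/-- Elements of the function field are quotients of forms. -/
theorem exists_isQuot [NeZero N] (hf : f ∈ modularFunctionFieldFullC L N) :
    ∃ (k : ℤ) (A B : ℍ → ℂ), IsQuot N f k A B := by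
  obtain ⟨m, A, B, β, hA, hB, hB0, hβ, hα⟩ := MFF.exists_charForm_ratio hf
  exact ⟨_, A, B, hA, hB, ne_zero_iff_exists.mpr hB0, β, hβ, hα⟩

theorem exists_isQuot' [Algebra ℚ L] [NeZero N]
    (hf : f ∈ laurentBaseChange L (modularFunctionFieldFull N)) :
    ∃ (k : ℤ) (A B : ℍ → ℂ), IsQuot N f k A B := by
  rw [MFF.laurentBaseChange_full] at hf
  exact exists_isQuot hf

theorem IsQuot.num_ne_zero {k : ℤ} {A B : ℍ → ℂ} (h : IsQuot N f k A B) (hf : f ≠ 0) : A ≠ 0 := by
  obtain ⟨β, hβ, hα⟩ := h.exp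
  rw [Ne, ← hasExp_qc_eq_zero_iff hα, mul_eq_zero, hasExp_qc_eq_zero_iff hβ]
  exact fun h' => h'.elim (toC_ne_zero hf) h.den_ne

/-- The converse: a Laurent series which is a quotient of forms is in the function field. -/
theorem IsQuot.mem [NeZero N] {k : ℤ} {A B : ℍ → ℂ} (h : IsQuot N f k A B) :
    f ∈ modularFunctionFieldFullC L N := by
  obtain ⟨β, hβ, hα⟩ := h.exp
  have hA := MFF.isMN_of_isCharForm h.num
  have hB := MFF.isMN_of_isCharForm h.den
  have hβ' := h.den.exp_eq hβ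
  have hα' := h.num.exp_eq hα
  have hβ0 : MFF.LQ B ≠ 0 := by
    rw [Ne, MFF.LQ_eq_zero_iff hB]
    exact h.den_ne
  refine Fermat.Agent.FunField.mem_full_of_ratio hA hB h.den_ne ?_
  rw [eq_div_iff hβ0, ← hα', ← hβ']

/-! ### relation with quotients -/

/-- `E ^ n * B' = A * B ^ n`. -/
theorem Rel.mul_eq {k' : ℤ} {B E A B' : ℍ → ℂ} {β : LaurentSeries ℂ}
    (hβ : HasExp (qc 1) B β) (hf : HasExp (qc 1) (E ^ n) (toC f * β ^ n))
    (hq : IsQuot N f k' A B') : E ^ n * B' = A * B ^ n := by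
  obtain ⟨β', hβ', hα⟩ := hq.exp
  have h1 := hf.mul hβ'
  have h2 := hα.mul (hβ.pow n)
  rw [show toC f * β' * β ^ n = toC f * β ^ n * β' by ring] at h2
  exact eq_of_hasExp h1 h2

/-- The character in the relation has order dividing `n` for `f` in the function field. -/
theorem Rel.char_pow (hf : Rel N n χ f) {k' : ℤ} {A B' : ℍ → ℂ} (hq : IsQuot N f k' A B') :
    χ ^ n = 1 := by
  have hf0 := hf.ne_zero
  obtain ⟨k, B, E, β, hB, hE, hB0, hE0, hβ, hf⟩ := rel_iff.mp hf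
  have h1 : E ^ n * B' = A * B ^ n := Rel.mul_eq hβ hf hq
  have h2 : IsCharForm N (n * k + k') (χ ^ n) (E ^ n * B') :=
    ((hE.pow n).mul hq.den).congr_char (chi_mul_one _)
  have h3 : IsCharForm N (n * k + k') 1 (E ^ n * B') := by
    rw [h1]
    refine ((hq.num.mul (hB.pow n)).cast (add_comm _ _)).congr_char ?_
    rw [chi_one_mul, chi_one_pow]
  obtain ⟨τ, hτ⟩ := ne_zero_iff_exists.mp
    (mdiff_mul_ne_zero (hE.pow n).holo hq.den.holo (pow_ne_zero' hE0 n) hq.den_ne)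
  ext γ
  have h8 := (h2.slash γ).symm.trans (h3.slash γ)
  have h9 := congrFun h8 τ
  simp only [Pi.smul_apply, smul_eq_mul] at h9
  exact mul_right_cancel₀ hτ h9

/-- (a) **The Kummer character** of a function whose divisor is divisible by `n`. -/
theorem exists_rel_of_localDvd (hn : n ≠ 0) (hf : f ≠ 0) {k : ℤ} {A B : ℍ → ℂ}
    (hq : IsQuot N f k A B) (hloc : LocalDvd N n k A B) :
    ∃ χ : Gamma0 N →* ℂˣ, χ ^ n = 1 ∧ (∀ γ : Gamma0 N,
      ((γ : SL(2, ℤ)) : Matrix (Fin 2) (Fin 2) ℤ).trace ^ 2 ≤ 4 → χ γ = 1) ∧ Rel N n χ f := by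
  obtain ⟨χ, E, hE, hE0, hpow, hχn, hχ⟩ := exists_root_form hn hq.num hq.den
    (hq.num_ne_zero hf) hq.den_ne hloc
  refine ⟨χ, hχn, hχ, ?_⟩
  obtain ⟨β, hβ, hα⟩ := hq.exp
  refine rel_iff.mpr ⟨k, B, E, β, hq.den, hE, hq.den_ne, hE0, hβ, ?_⟩
  rw [hpow]
  have h1 := hα.mul (hβ.pow (n - 1))
  rw [mul_assoc, ← pow_succ', Nat.sub_add_cancel (Nat.one_le_iff_ne_zero.mpr hn)] at h1
  exact h1

/-- `n`-th powers of nonzero functions are related to the trivial character. -/
theorem Rel.pow_self {k : ℤ} {A B : ℍ → ℂ} (hf : f ≠ 0) (hq : IsQuot N f k A B) (n : ℕ) :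
    Rel N n 1 (f ^ n) := by
  obtain ⟨β, hβ, hα⟩ := hq.exp
  refine rel_iff.mpr ⟨k, B, A, β, hq.den, hq.num, hq.den_ne, hq.num_ne_zero hf, hβ, ?_⟩
  rw [toC_pow, ← _root_.mul_pow]
  exact hα.pow n

/-- (b) Functions related to the trivial character are `n`-th powers. -/
theorem Rel.exists_root_one [NeZero N] [IsAlgClosed L] (hn : n ≠ 0) (hf : Rel N n 1 f) :
    ∃ h ∈ modularFunctionFieldFullC L N, f = h ^ n := by
  obtain ⟨k, B, E, β, hB, hE, hB0, hE0, hβ, hf⟩ := rel_iff.mp hf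
  have hβ0 : β ≠ 0 := by rwa [Ne, hasExp_qc_eq_zero_iff hβ]
  have hε := hE.hasExp
  set ε := MFF.LQ E
  have h1 : ε ^ n = toC f * β ^ n :=
    (hε.pow n).unique (eventually_mem_range_qc 1) hf
  have h2 : (ε / β) ^ n = toC f := by
    rw [div_pow, h1, mul_div_cancel_right₀ _ (pow_ne_zero n hβ0)]
  obtain ⟨y, hy⟩ := exists_coeffs_of_pow hn h2
  have hq : IsQuot N y k E B := ⟨hE, hB, hB0, β, hβ, by
    rw [hy, div_mul_cancel₀ _ hβ0]
    exact hε⟩
  refine ⟨y, hq.mem, toC_injective ?_⟩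
  rw [toC_pow, hy, h2]

/-- (b) Functions with the same Kummer character differ by an `n`-th power. -/
theorem Rel.exists_root [NeZero N] [IsAlgClosed L] (hn : n ≠ 0) (hf : Rel N n χ f)
    (hg : Rel N n χ g) {m : ℕ} (hm : m ≠ 0) (hχ : χ ^ m = 1) :
    ∃ h ∈ modularFunctionFieldFullC L N, f = g * h ^ n := by
  have h1 := hf.div hg hm hχ
  have h2 : χ * χ⁻¹ = 1 := by
    ext γ
    rw [MonoidHom.mul_apply, MonoidHom.inv_apply, mul_inv_cancel, MonoidHom.one_apply]
  rw [h2] at h1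
  obtain ⟨h, hh, he⟩ := h1.exists_root_one hn
  refine ⟨h, hh, ?_⟩
  rw [← he, mul_div_cancel₀ _ hg.ne_zero]

end

end Fermat.Agent.JAN
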