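import Fermat.Agent.DR.S36.AuxLevel
import Fermat.Agent.JRED.AtkinLehnerInput

/-!
# Cartesian squares of modular function fields

For primes `p ≠ r`, `e ∈ {1, p}`, `f ∈ {1, r}` the square
`F_N → F_{Np}` (`x(t) ↦ x(t^e)`), `F_N → F_{Nr}` (`x(t) ↦ x(t^f)`), `F_{Npr}` is cartesian:
the norms along the vertical maps are compatible.
-/

set_option autoImplicit false
set_option linter.unusedSectionVars false
set_option linter.style.haveILetI false

noncomputable section

open AlgebraicCurve ModularCurve SemilinearAut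

namespace Fermat.Agent.JAN.Square

open Fermat.Agent.Jan.HeckeInputs Fermat.Agent.Jan.HeckeCommute Fermat.Agent.Jan.PushPull
  Fermat.Agent.Jan.DegreeWiring Fermat.Agent.Jan.RelFundamental Fermat.Agent.S28
  Fermat.Agent.DR.S36

variable (L : Type) [Field L] [Algebra ℚ L] [IsAlgClosed L]

/-- the degree of `F_N → F_{Np}`, `x(t) ↦ x(t^e)`, `e ∈ {1, p}`. -/
theorem finrankAlong_degen_prime {N M p e : ℕ} [NeZero N] [NeZero M] [NeZero e] (hp : p.Prime)
    (hM : N * p = M) (he : e = 1 ∨ e = p) (h : N * e ∣ M) :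
    finrankAlong L (degen L N M e h) = if p ∣ N then p else p + 1 := by
  have : NeZero p := ⟨hp.ne_zero⟩
  subst hM
  rcases he with rfl | rfl
  · rw [← heckeAlphaBar_eq_degen, JAN.Degree.alphaDegree L N p hp]
  · have h1 : degen L N (N * e) e h = heckeBetaBar L N e := (heckeBetaBar_eq_degen L N e).symm
    rw [h1]
    exact JRED.AL.finrankAlong_beta L N e hp

/-- `F_{M₁ p^{k+1}} = F_{M₁ p^k}(j(t^{p^{k+1}}))`, `p ∤ M₁`. -/
theorem tower_adjoin {M₁ p k : ℕ} [hp : Fact p.Prime] (hM₁ : M₁ ≠ 0) (hpM₁ : ¬ p ∣ M₁) :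
    modularFunctionFieldFullC L (M₁ * p ^ (k + 1)) =
      (IntermediateField.adjoin (modularFunctionFieldFullC L (M₁ * p ^ k))
        {jt (1 : Lˣ) (p ^ (k + 1))}).restrictScalars L := by
  have : CharZero L := charZero_of_injective_algebraMap (algebraMap ℚ L).injective
  have hchar : ((M₁ * p : ℕ) : L) ≠ 0 := by
    exact_mod_cast Nat.mul_ne_zero hM₁ hp.out.ne_zero
  have hcharp : (p : L) ≠ 0 := by exact_mod_cast hp.out.ne_zero
  have hcharMk : ((M₁ * p ^ k : ℕ) : L) ≠ 0 := by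
    exact_mod_cast Nat.mul_ne_zero hM₁ (pow_ne_zero _ hp.out.ne_zero)
  obtain ⟨ζ, hζ⟩ := exists_unit_primitiveRoot (K := L) (n := p) hcharp
  obtain ⟨Φp, hΦp⟩ := exists_modPolySpec p
  obtain ⟨⟨ι, hι⟩, -⟩ := tower (K := L) Fermat.Agent.S28.modPolyAll
    Fermat.Agent.S28.jpNotMem (M₁ * p ^ k) hcharMk
  refine (tower_step Fermat.Agent.S28.modPolyAll hM₁ hpM₁ hchar hι ?_).2
  cases k with
  | zero =>
    have hnot : jt (1 : Lˣ) (p ^ 1) ∉ modularFunctionFieldFullC L (M₁ * p ^ 0) := by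
      rw [pow_zero, mul_one]
      exact jt_p_notMem Fermat.Agent.S28.modPolyAll Fermat.Agent.S28.jpNotMem hpM₁ hchar
    exact Polynomial.eval_eq_zero_of_dvd_of_eval_eq_zero (caseB hΦp hζ hM₁ hpM₁ hι hnot).1 lowProd_eval_one
  | succ k =>
    rw [caseA hΦp hζ hM₁ hpM₁ hι]
    exact lowProd_eval_one

theorem coe_degen_jt {N M d : ℕ} [NeZero N] [NeZero M] [NeZero d] (h : N * d ∣ M) {c : ℕ}
    (hc : jt (1 : Lˣ) c ∈ laurentBaseChange L (modularFunctionFieldFull N)) :
    (degen L N M d h ⟨jt 1 c, hc⟩ : LaurentSeries L) = jt 1 (d * c) := by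
  rw [coe_degen]
  exact qExpand_jt d 1 c

/-- `F_{Npr}` is generated by `F_{Nr}` and `F_{Np}`. -/
theorem closure_aa {N N₁ N₂ M p r : ℕ} [NeZero N] [NeZero N₁] [NeZero N₂] [NeZero M]
    (hp : p.Prime) (hr : r.Prime) (hpr : p ≠ r) (h1 : N * p = N₁) (h2 : N * r = N₂)
    (hM : N * p * r = M) (hd1 : N₂ * 1 ∣ M) (hd2 : N₁ * 1 ∣ M)
    (x : laurentBaseChange L (modularFunctionFieldFull M)) :
    x ∈ Subfield.closure (Set.range (degen L N₂ M 1 hd1) ∪ Set.range (degen L N₁ M 1 hd2)) := by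
  have : Fact p.Prime := ⟨hp⟩
  have hN0 : N ≠ 0 := NeZero.ne N
  obtain ⟨k, M₀, hpM₀, hNe⟩ := Nat.exists_eq_pow_mul_and_not_dvd hN0 p hp.ne_one
  have hM₀ : M₀ ≠ 0 := by rintro rfl; exact hN0 (by rw [hNe, mul_zero])
  have hpM₁ : ¬ p ∣ M₀ * r := by
    intro h
    rcases hp.dvd_mul.mp h with h | h
    · exact hpM₀ h
    · exact hpr ((Nat.prime_dvd_prime_iff_eq hp hr).mp h)
  have hM₁ : M₀ * r ≠ 0 := Nat.mul_ne_zero hM₀ hr.ne_zero
  have e2 : N₂ = M₀ * r * p ^ k := by rw [← h2, hNe]; ring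
  have eM : M = M₀ * r * p ^ (k + 1) := by rw [← hM, hNe]; ring
  have hpk1 : p ^ (k + 1) ∣ N₁ := by
    rw [← h1, hNe, pow_succ]
    exact Nat.mul_dvd_mul (dvd_mul_right _ _) dvd_rfl
  have hjt : jt (1 : Lˣ) (p ^ (k + 1)) ∈ laurentBaseChange L (modularFunctionFieldFull N₁) := by
    rw [Fermat.Agent.MFF.laurentBaseChange_full]
    exact jt_mem_full L (NeZero.ne N₁) hpk1
  refine mem_of_adjoin (modularFunctionFieldFullC L (M₀ * r * p ^ k)) _ _
    (jt (1 : Lˣ) (p ^ (k + 1))) ?_ ⟨degen L N₁ M 1 hd2 ⟨_, hjt⟩,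
      Subfield.subset_closure (Or.inr ⟨_, rfl⟩), ?_⟩ ?_ x
  · intro y hy
    have hy' : y ∈ laurentBaseChange L (modularFunctionFieldFull N₂) := by
      rwa [Fermat.Agent.MFF.laurentBaseChange_full, e2]
    refine ⟨degen L N₂ M 1 hd1 ⟨y, hy'⟩, Subfield.subset_closure (Or.inl ⟨_, rfl⟩), ?_⟩
    rw [coe_degen, qExpand_one_apply]
  · rw [coe_degen_jt, one_mul]
  · intro y hy
    rw [Fermat.Agent.MFF.laurentBaseChange_full, eM, tower_adjoin L hM₁ hpM₁] at hy
    exact hy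

/-- `F_{Npr}` is generated by `F_{Nr}` and `F_{Np}(t^r)`. -/
theorem closure_ab {N₁ N₂ M r : ℕ} [NeZero N₁] [NeZero N₂] [NeZero M] [NeZero r]
    (hM : N₁ * r = M) (hd1 : N₂ * 1 ∣ M) (hd2 : N₁ * r ∣ M)
    (x : laurentBaseChange L (modularFunctionFieldFull M)) :
    x ∈ Subfield.closure (Set.range (degen L N₂ M 1 hd1) ∪ Set.range (degen L N₁ M r hd2)) := by
  have hj : jt (1 : Lˣ) 1 ∈ laurentBaseChange L (modularFunctionFieldFull N₂) := by
    rw [Fermat.Agent.MFF.laurentBaseChange_full]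
    exact jt_mem_full L (NeZero.ne N₂) (one_dvd _)
  have hj' : jt (1 : Lˣ) N₁ ∈ laurentBaseChange L (modularFunctionFieldFull N₁) := by
    rw [Fermat.Agent.MFF.laurentBaseChange_full]
    exact jt_mem_full L (NeZero.ne N₁) dvd_rfl
  refine mem_of_adjoin_pair _ _ (jqModC L) (jqNModC L M) (fun c => ?_)
    ⟨degen L N₂ M 1 hd1 ⟨_, hj⟩, Subfield.subset_closure (Or.inl ⟨_, rfl⟩), ?_⟩
    ⟨degen L N₁ M r hd2 ⟨_, hj'⟩, Subfield.subset_closure (Or.inr ⟨_, rfl⟩), ?_⟩ ?_ x
  · rw [← (degen L N₂ M 1 hd1).commutes c]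
    exact Subfield.subset_closure (Or.inl ⟨_, rfl⟩)
  · rw [coe_degen_jt, mul_one, jt_one_one]
  · rw [coe_degen_jt, mul_comm, hM, jt_one_eq]
    rfl
  · intro y h2
    have : CharZero L := charZero_of_injective_algebraMap (algebraMap ℚ L).injective
    rw [Fermat.Agent.MFF.laurentBaseChange_full,
      Fermat.Agent.FunField.modularFunctionFieldFullC_eq] at h2
    exact h2

theorem closure_map_equiv {K E E' : Type*} [Field K] [Field E] [Field E'] [Algebra K E]
    [Algebra K E'] (w : E ≃ₐ[K] E') (S : Set E) {T : Set E'} (hT : w '' S = T)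
    (h : ∀ x, x ∈ Subfield.closure S) (y : E') : y ∈ Subfield.closure T := by
  subst hT
  have h1 := RingHom.map_field_closure (w : E →+* E') S
  have h2 : (w : E →+* E') '' S = w '' S := rfl
  rw [h2] at h1
  rw [← h1]
  exact ⟨w.symm y, h _, w.apply_symm_apply y⟩

/-- `F_{Npr}` is generated by `F_{Nr}(t^p)` and `F_{Np}(t^r)`. -/
theorem closure_bb {N N₁ N₂ M p r : ℕ} [NeZero N] [NeZero N₁] [NeZero N₂] [NeZero M] [NeZero p]
    [NeZero r] (hp : p.Prime) (hr : r.Prime) (hpr : p ≠ r) (h1 : N * p = N₁) (h2 : N * r = N₂)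
    (hM : N * p * r = M) (hd1 : N₂ * p ∣ M) (hd2 : N₁ * r ∣ M)
    (x : laurentBaseChange L (modularFunctionFieldFull M)) :
    x ∈ Subfield.closure (Set.range (degen L N₂ M p hd1) ∪ Set.range (degen L N₁ M r hd2)) := by
  obtain ⟨W, -, -, hW⟩ := JRED.AL.exists_frickeBar L
  have hM2 : N₂ * p = M := by rw [← h2, ← hM]; ring
  have hM1 : N₁ * r = M := by rw [← h1, ← hM]
  have hd1' : N₂ * 1 ∣ M := by rw [mul_one]; exact (dvd_mul_right _ _).trans hd1
  have hd2' : N₁ * 1 ∣ M := by rw [mul_one]; exact (dvd_mul_right _ _).trans hd2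
  have key : ∀ (K d : ℕ) [NeZero K] [NeZero d] (hK : K * d = M) (h : K * d ∣ M) (h' : K * 1 ∣ M),
      W M '' Set.range (degen L K M 1 h') = Set.range (degen L K M d h) := by
    intro K d _ _ hK h h'
    subst hK
    have h3 : ∀ x, W (K * d) (degen L K (K * d) 1 h' (W K x)) = degen L K (K * d) d h x := by
      intro x
      rw [← heckeAlphaBar_eq_degen]
      exact hW K d x
    ext y
    constructor
    · rintro ⟨_, ⟨z, rfl⟩, rfl⟩
      refine ⟨(W K).symm z, ?_⟩
      rw [← h3, AlgEquiv.apply_symm_apply]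
    · rintro ⟨z, rfl⟩
      exact ⟨_, ⟨W K z, rfl⟩, h3 z⟩
  have k2 := key N₂ p hM2 hd1 hd1'
  have k1 := key N₁ r hM1 hd2 hd2'
  have hT : W M '' (Set.range (degen L N₂ M 1 hd1') ∪ Set.range (degen L N₁ M 1 hd2')) =
      Set.range (degen L N₂ M p hd1) ∪ Set.range (degen L N₁ M r hd2) := by
    rw [Set.image_union, k1, k2]
  exact closure_map_equiv (W M) _ hT
    (fun z => closure_aa L hp hr hpr h1 h2 hM hd1' hd2' z) x

/-- the four cases together -/
theorem closure_square {N N₁ N₂ M p r e f : ℕ} [NeZero N] [NeZero N₁] [NeZero N₂] [NeZero M]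
    [NeZero e] [NeZero f] (hp : p.Prime) (hr : r.Prime) (hpr : p ≠ r) (h1 : N * p = N₁)
    (h2 : N * r = N₂) (hM : N * p * r = M) (he : e = 1 ∨ e = p) (hf : f = 1 ∨ f = r)
    (hd1 : N₂ * e ∣ M) (hd2 : N₁ * f ∣ M)
    (x : laurentBaseChange L (modularFunctionFieldFull M)) :
    x ∈ Subfield.closure (Set.range (degen L N₂ M e hd1) ∪ Set.range (degen L N₁ M f hd2)) := by
  have : NeZero p := ⟨hp.ne_zero⟩
  have : NeZero r := ⟨hr.ne_zero⟩
  have hM2 : N₂ * p = M := by rw [← h2, ← hM]; ring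
  have hM1 : N₁ * r = M := by rw [← h1, ← hM]
  rcases he with rfl | rfl <;> rcases hf with rfl | rfl
  · exact closure_aa L hp hr hpr h1 h2 hM hd1 hd2 x
  · exact closure_ab L hM1 hd1 hd2 x
  · rw [Set.union_comm]
    exact closure_ab L hM2 hd2 hd1 x
  · exact closure_bb L hp hr hpr h1 h2 hM hd1 hd2 x

/-- **The norm square.** -/
theorem norm_square {N N₁ N₂ M p r e f : ℕ} [NeZero N] [NeZero N₁] [NeZero N₂] [NeZero M]
    [NeZero e] [NeZero f] (hp : p.Prime) (hr : r.Prime) (hpr : p ≠ r) (h1 : N * p = N₁)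
    (h2 : N * r = N₂) (hM : N * p * r = M) (he : e = 1 ∨ e = p) (hf : f = 1 ∨ f = r)
    (hd1 : N₂ * e ∣ M) (hd2 : N₁ * f ∣ M) (hd3 : N * e ∣ N₁) (hd4 : N * f ∣ N₂)
    (x : laurentBaseChange L (modularFunctionFieldFull N₁)) :
    normAlong (degen L N₂ M e hd1) (degen L N₁ M f hd2 x) =
      degen L N N₂ f hd4 (normAlong (degen L N N₁ e hd3) x) := by
  have := isFF1_modular' L N
  have := isFF1_modular' L N₁
  have := isFF1_modular' L N₂
  have := isFF1_modular' L M
  have hcomm : ∀ x, degen L N₂ M e hd1 (degen L N N₂ f hd4 x) =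
      degen L N₁ M f hd2 (degen L N N₁ e hd3 x) := by
    intro x
    refine Subtype.ext ?_
    rw [coe_degen, coe_degen, coe_degen, coe_degen, qExpand_qExpand, qExpand_qExpand]
    exact qExpand_congr (mul_comm _ _) _
  have hM2 : N₂ * p = M := by rw [← h2, ← hM]; ring
  have hiff : p ∣ N₂ ↔ p ∣ N := by
    rw [← h2, hp.dvd_mul]
    refine ⟨?_, Or.inl⟩
    rintro (h | h)
    · exact h
    · exact absurd ((Nat.prime_dvd_prime_iff_eq hp hr).mp h) hpr
  refine normAlong_baseChange _ _ _ _ hcomm (finiteAlong _) (finiteAlong _) ?_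
    (closure_square L hp hr hpr h1 h2 hM he hf hd1 hd2) x
  rw [finrankAlong_degen_prime L hp hM2 he, finrankAlong_degen_prime L hp h1 he]
  simp only [hiff]

/-- **Base change of divisors** in the modular square. -/
theorem divisor_square {N N₁ N₂ M p r e f : ℕ} [NeZero N] [NeZero N₁] [NeZero N₂] [NeZero M]
    [NeZero e] [NeZero f] (hp : p.Prime) (hr : r.Prime) (hpr : p ≠ r) (h1 : N * p = N₁)
    (h2 : N * r = N₂) (hM : N * p * r = M) (he : e = 1 ∨ e = p) (hf : f = 1 ∨ f = r)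
    (hd1 : N₂ * e ∣ M) (hd2 : N₁ * f ∣ M) (hd3 : N * e ∣ N₁) (hd4 : N * f ∣ N₂)
    (D : Divisor L (laurentBaseChange L (modularFunctionFieldFull N₁))) :
    haveI := hasPrincipalDivisors_modular' L N₂
    haveI := hasPrincipalDivisors_modular' L M
    Divisor.pullbackAlong (degen L N N₂ f hd4) (isIntegral_modular L _)
        (Divisor.pushforwardAlong (degen L N N₁ e hd3) (isIntegral_modular L _) D) =
      Divisor.pushforwardAlong (degen L N₂ M e hd1) (isIntegral_modular L _)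
        (Divisor.pullbackAlong (degen L N₁ M f hd2) (isIntegral_modular L _) D) := by
  haveI := isFF1_modular' L N
  haveI := isFF1_modular' L N₁
  haveI := isFF1_modular' L N₂
  haveI := isFF1_modular' L M
  haveI := hasPrincipalDivisors_modular' L N₁
  haveI := hasPrincipalDivisors_modular' L N₂
  haveI := hasPrincipalDivisors_modular' L M
  have hcomm : ∀ x, degen L N₂ M e hd1 (degen L N N₂ f hd4 x) =
      degen L N₁ M f hd2 (degen L N N₁ e hd3 x) := by
    intro x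
    refine Subtype.ext ?_
    rw [coe_degen, coe_degen, coe_degen, coe_degen, qExpand_qExpand, qExpand_qExpand]
    exact qExpand_congr (mul_comm _ _) _
  exact pullback_pushforward _ _ _ _ _ _ _ _ hcomm (finiteAlong_modular L _)
    (finiteAlong_modular L _) (normFormula_modular L _) (normFormula_modular L _)
    (norm_square L hp hr hpr h1 h2 hM he hf hd1 hd2 hd3 hd4) D

end Fermat.Agent.JAN.Square
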